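import Mathlib

/-!
# S55 local arithmetic core, A1: finite extensions of complete discrete valuation rings
-/

set_option linter.style.haveILetI false
set_option linter.unusedSectionVars false

namespace Fermat.Agent.S55.Local

open IsLocalRing

section Idempotents

/-- A nontrivial commutative Artinian ring whose only idempotents are `0` and `1` is local. -/
theorem isLocalRing_of_isArtinianRing_of_idempotents (A : Type*) [CommRing A] [Nontrivial A]
    [IsArtinianRing A] (h : ∀ e : A, IsIdempotentElem e → e = 0 ∨ e = 1) : IsLocalRing A := by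
  classical
  obtain ⟨P, hP⟩ := Ideal.exists_maximal A
  refine IsLocalRing.of_unique_max_ideal ⟨P, hP, fun Q hQ => ?_⟩
  by_contra hne
  -- the reduced quotient
  let A' := A ⧸ nilradical A
  have : IsReduced A' := (Ideal.isRadical_iff_quotient_reduced _).1 (Ideal.radical_isRadical ⊥)
  let π : A →+* A' := Ideal.Quotient.mk _
  have hπ : Function.Surjective π := Ideal.Quotient.mk_surjective
  have hPle : nilradical A ≤ P := nilradical_le_prime P
  have hQle : nilradical A ≤ Q := nilradical_le_prime Q
  have hker : RingHom.ker π = nilradical A := Ideal.mk_ker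
  have hP' : (P.map π).IsMaximal :=
    (Ideal.map_eq_top_or_isMaximal_of_surjective π hπ hP).resolve_left (fun htop => by
      have := congrArg (Ideal.comap π) htop
      rw [Ideal.comap_map_of_surjective π hπ, Ideal.comap_top, ← RingHom.ker_eq_comap_bot, hker,
        sup_eq_left.2 hPle] at this
      exact hP.ne_top this)
  have hQ' : (Q.map π).IsMaximal :=
    (Ideal.map_eq_top_or_isMaximal_of_surjective π hπ hQ).resolve_left (fun htop => by
      have := congrArg (Ideal.comap π) htop
      rw [Ideal.comap_map_of_surjective π hπ, Ideal.comap_top, ← RingHom.ker_eq_comap_bot, hker,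
        sup_eq_left.2 hQle] at this
      exact hQ.ne_top this)
  have hPQ' : P.map π ≠ Q.map π := by
    intro heq
    have := congrArg (Ideal.comap π) heq
    rw [Ideal.comap_map_of_surjective π hπ, Ideal.comap_map_of_surjective π hπ,
      ← RingHom.ker_eq_comap_bot, hker, sup_eq_left.2 hPle, sup_eq_left.2 hQle] at this
    exact hne this.symm
  let I₁ : MaximalSpectrum A' := ⟨P.map π, hP'⟩
  let I₂ : MaximalSpectrum A' := ⟨Q.map π, hQ'⟩
  have hI : I₁ ≠ I₂ := fun h => hPQ' (congrArg MaximalSpectrum.asIdeal h)
  let φ := IsArtinianRing.equivPi A'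
  let e₀ : (I : MaximalSpectrum A') → A' ⧸ I.asIdeal := Pi.single I₁ 1
  have he₀ : IsIdempotentElem e₀ := by
    unfold IsIdempotentElem
    funext I
    by_cases hI₁ : I = I₁
    · subst hI₁; simp [e₀]
    · simp [e₀, hI₁]
  have he₀0 : e₀ ≠ 0 := by
    intro h0
    have hnt : Nontrivial (A' ⧸ I₁.asIdeal) := Ideal.Quotient.nontrivial_iff.2 hP'.ne_top
    have := congrFun h0 I₁
    simp only [e₀, Pi.single_eq_same, Pi.zero_apply] at this
    exact one_ne_zero this
  have he₀1 : e₀ ≠ 1 := by
    intro h1
    have hnt : Nontrivial (A' ⧸ I₂.asIdeal) := Ideal.Quotient.nontrivial_iff.2 hQ'.ne_top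
    have := congrFun h1 I₂
    simp only [e₀, Pi.single_eq_of_ne hI.symm, Pi.one_apply] at this
    exact zero_ne_one this
  let e₁ : A' := φ.symm e₀
  have he₁ : IsIdempotentElem e₁ := by
    unfold IsIdempotentElem
    rw [← map_mul, he₀.eq]
  obtain ⟨a, ha, hae⟩ := exists_isIdempotentElem_eq_of_ker_isNilpotent π
    (fun x hx => by rw [hker] at hx; exact mem_nilradical.1 hx) e₁ (hπ e₁ |>.imp fun _ h => h) he₁
  rcases h a ha with rfl | rfl
  · rw [map_zero] at hae
    exact he₀0 (by
      have : φ e₁ = e₀ := φ.apply_symm_apply e₀
      rw [← this, ← hae, map_zero])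
  · rw [map_one] at hae
    exact he₀1 (by
      have : φ e₁ = e₀ := φ.apply_symm_apply e₀
      rw [← this, ← hae, map_one])

/-- In a ring complete with respect to an ideal `I`, idempotents of `R ⧸ I` lift. Hence if `R`
has only trivial idempotents, so does `R ⧸ I`. -/
theorem idempotent_quotient_trivial {R : Type*} [CommRing R] (I : Ideal R) [IsAdicComplete I R]
    (h : ∀ e : R, IsIdempotentElem e → e = 0 ∨ e = 1) (e : R ⧸ I) (he : IsIdempotentElem e) :
    e = 0 ∨ e = 1 := by
  obtain ⟨a₀, rfl⟩ := Ideal.Quotient.mk_surjective e
  have hmem : a₀ ^ 2 - a₀ ∈ I := by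
    rw [← Ideal.Quotient.eq_zero_iff_mem, map_sub, map_pow, sq, he.eq, sub_self]
  let f : Polynomial R := Polynomial.X ^ 2 - Polynomial.X
  have hf : f.Monic := by
    apply Polynomial.monic_X_pow_sub
    exact lt_of_le_of_lt Polynomial.degree_X_le (by norm_num)
  have hev : Polynomial.eval a₀ f ∈ I := by simpa [f] using hmem
  have hder : IsUnit ((Ideal.Quotient.mk I) (Polynomial.eval a₀ (Polynomial.derivative f))) := by
    have : (Ideal.Quotient.mk I) (Polynomial.eval a₀ (Polynomial.derivative f)) =
        2 * Ideal.Quotient.mk I a₀ - 1 := by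
      simp [f]
      ring
    rw [this]
    refine IsUnit.of_mul_eq_one (2 * Ideal.Quotient.mk I a₀ - 1) ?_
    have h2 : Ideal.Quotient.mk I a₀ * Ideal.Quotient.mk I a₀ = Ideal.Quotient.mk I a₀ := he.eq
    linear_combination 4 * h2
  obtain ⟨a, haroot, hsub⟩ := HenselianRing.is_henselian (I := I) f hf a₀ hev hder
  have haid : IsIdempotentElem a := by
    have : a ^ 2 - a = 0 := by simpa [f, Polynomial.IsRoot] using haroot
    unfold IsIdempotentElem
    linear_combination this
  have hmk : Ideal.Quotient.mk I a = Ideal.Quotient.mk I a₀ := by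
    rw [Ideal.Quotient.eq]; exact hsub
  rcases h a haid with rfl | rfl
  · left; rw [← hmk, map_zero]
  · right; rw [← hmk, map_one]

end Idempotents


section Complete

variable {R : Type*} [CommRing R] (I : Ideal R)

/-- A finite free module over an `I`-adically complete ring is `I`-adically complete. -/
theorem isAdicComplete_of_finite_free [IsAdicComplete I R] (M : Type*) [AddCommGroup M]
    [Module R M] [Module.Finite R M] [Module.Free R M] : IsAdicComplete I M := by
  classical
  let b := Module.Free.chooseBasis R M
  letI : Fintype (Module.Free.ChooseBasisIndex R M) := Module.Free.ChooseBasisIndex.fintype R M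
  have hcoord : ∀ (n : ℕ) (i) (x : M), x ∈ (I ^ n • ⊤ : Submodule R M) → b.coord i x ∈ I ^ n := by
    intro n i x hx
    have h1 : b.coord i x ∈ Submodule.map (b.coord i) (I ^ n • ⊤ : Submodule R M) :=
      Submodule.mem_map_of_mem hx
    rw [Submodule.map_smul''] at h1
    have h2 : (I ^ n • Submodule.map (b.coord i) ⊤ : Submodule R R) ≤ I ^ n := by
      refine le_trans (Submodule.smul_mono le_rfl le_top) ?_
      simp
    exact h2 h1
  refine { toIsHausdorff := ⟨fun x hx => ?_⟩, toIsPrecomplete := ⟨fun f hf => ?_⟩ }
  · have h0 : ∀ i, b.coord i x = 0 := by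
      intro i
      refine IsHausdorff.haus (inferInstance : IsHausdorff I R) _ (fun n => ?_)
      rw [SModEq.sub_mem, sub_zero]
      have := hcoord n i x (by simpa [SModEq.sub_mem] using hx n)
      simpa using this
    apply b.ext_elem
    intro i
    simpa using h0 i
  · have hex : ∀ i, ∃ L : R, ∀ n, b.coord i (f n) ≡ L [SMOD (I ^ n • ⊤ : Submodule R R)] := by
      intro i
      refine IsPrecomplete.prec (inferInstance : IsPrecomplete I R) (fun {m n} hmn => ?_)
      rw [SModEq.sub_mem, ← map_sub]
      have := hcoord m i (f m - f n) (by simpa [SModEq.sub_mem] using hf hmn)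
      simpa using this
    choose L hL using hex
    refine ⟨∑ i, L i • b i, fun n => ?_⟩
    rw [SModEq.sub_mem]
    have hfn : f n = ∑ i, b.coord i (f n) • b i := by
      simp [b.sum_repr (f n)]
    rw [hfn, ← Finset.sum_sub_distrib]
    refine Submodule.sum_mem _ (fun i _ => ?_)
    rw [← sub_smul]
    refine Submodule.smul_mem_smul ?_ Submodule.mem_top
    have := hL i n
    rw [SModEq.sub_mem] at this
    simpa using this

/-- Cofinal ideals define the same completeness. -/
theorem isAdicComplete_of_cofinal {I J : Ideal R} [IsAdicComplete I R] (hIJ : I ≤ J) {e : ℕ}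
    (he : e ≠ 0) (hJI : J ^ e ≤ I) : IsAdicComplete J R := by
  have hpow : ∀ n, J ^ (e * n) ≤ I ^ n := fun n => by
    rw [pow_mul]; exact Ideal.pow_right_mono hJI n
  refine { toIsHausdorff := ⟨fun x hx => ?_⟩, toIsPrecomplete := ⟨fun f hf => ?_⟩ }
  · refine IsHausdorff.haus (inferInstance : IsHausdorff I R) x (fun n => ?_)
    have := hx (e * n)
    rw [SModEq.sub_mem, sub_zero] at this ⊢
    simp only [smul_eq_mul, Ideal.mul_top] at this ⊢
    exact hpow n this
  · obtain ⟨L, hL⟩ := IsPrecomplete.prec (inferInstance : IsPrecomplete I R)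
      (f := fun k => f (e * k)) (fun {m n} hmn => by
        have := hf (Nat.mul_le_mul_left e hmn)
        rw [SModEq.sub_mem] at this ⊢
        simp only [smul_eq_mul, Ideal.mul_top] at this ⊢
        exact hpow m this)
    refine ⟨L, fun n => ?_⟩
    have h1 := hf (show n ≤ e * n from Nat.le_mul_of_pos_left n (Nat.pos_of_ne_zero he))
    have h2 := hL n
    rw [SModEq.sub_mem] at h1 h2 ⊢
    simp only [smul_eq_mul, Ideal.mul_top] at h1 h2 ⊢
    have h3 : f (e * n) - L ∈ J ^ n := Ideal.pow_right_mono hIJ n h2
    have : f n - L = (f n - f (e * n)) + (f (e * n) - L) := by ring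
    rw [this]
    exact Ideal.add_mem _ h1 h3

end Complete


section Extension

variable (O : Type*) [CommRing O] [IsDomain O] [IsDiscreteValuationRing O]
  (F : Type*) [Field F] [Algebra O F] [IsFractionRing O F]
  (E : Type*) [Field E] [Algebra F E] [Algebra O E] [IsScalarTower O F E]
  [FiniteDimensional F E] [Algebra.IsSeparable F E]
  (B : Type*) [CommRing B] [Algebra O B] [Algebra B E] [IsScalarTower O B E]
  [IsIntegralClosure B O E]

include O F E in
theorem isDomain_of_isIntegralClosure : IsDomain B :=
  (IsIntegralClosure.algebraMap_injective B O E).isDomain _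

include O F E in
theorem finite_of_isIntegralClosure : Module.Finite O B :=
  IsIntegralClosure.finite O F E B

include O F E in
theorem free_of_isIntegralClosure : Module.Free O B := by
  haveI : IsDomain B := isDomain_of_isIntegralClosure O F E B
  haveI : Module.IsTorsionFree O E := by
    have : Function.Injective (algebraMap O E) := by
      rw [IsScalarTower.algebraMap_eq O F E]
      exact (algebraMap F E).injective.comp (IsFractionRing.injective O F)
    exact (Module.isTorsionFree_iff_algebraMap_injective).2 this
  exact IsIntegralClosure.module_free O F E B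

include O F E in
theorem finrank_of_isIntegralClosure : Module.finrank O B = Module.finrank F E := by
  haveI : Module.IsTorsionFree O E := by
    have : Function.Injective (algebraMap O E) := by
      rw [IsScalarTower.algebraMap_eq O F E]
      exact (algebraMap F E).injective.comp (IsFractionRing.injective O F)
    exact (Module.isTorsionFree_iff_algebraMap_injective).2 this
  exact IsIntegralClosure.rank O F E B

include O F E in
theorem isDedekindDomain_of_isIntegralClosure : IsDedekindDomain B := by
  haveI : IsDomain B := isDomain_of_isIntegralClosure O F E B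
  exact IsIntegralClosure.isDedekindDomain O F E B

include O F E in
theorem isFractionRing_of_isIntegralClosure : IsFractionRing B E := by
  haveI : IsDomain B := isDomain_of_isIntegralClosure O F E B
  exact IsIntegralClosure.isFractionRing_of_finite_extension O F E B

end Extension

theorem isLocalRing_of_quotient {R : Type*} [CommRing R] (I : Ideal R)
    (hI : ∀ P : Ideal R, P.IsMaximal → I ≤ P) [IsLocalRing (R ⧸ I)] : IsLocalRing R := by
  have hne : I ≠ ⊤ := by
    intro h
    have : Subsingleton (R ⧸ I) := by rw [h]; exact Ideal.Quotient.subsingleton_iff.2 rfl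
    exact not_subsingleton (R ⧸ I) this
  haveI : Nontrivial R := ⟨⟨0, 1, fun h => hne ((Ideal.eq_top_iff_one I).2 (by rw [← h]; exact I.zero_mem))⟩⟩
  let π : R →+* R ⧸ I := Ideal.Quotient.mk I
  have hπ : Function.Surjective π := Ideal.Quotient.mk_surjective
  have key : ∀ P : Ideal R, P.IsMaximal → P = (maximalIdeal (R ⧸ I)).comap π := by
    intro P hP
    have hle := hI P hP
    have hmax : (P.map π).IsMaximal :=
      (Ideal.map_eq_top_or_isMaximal_of_surjective π hπ hP).resolve_left (fun htop => by
        have := congrArg (Ideal.comap π) htop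
        rw [Ideal.comap_map_of_surjective π hπ, Ideal.comap_top, ← RingHom.ker_eq_comap_bot,
          Ideal.mk_ker, sup_eq_left.2 hle] at this
        exact hP.ne_top this)
    have := IsLocalRing.eq_maximalIdeal hmax
    rw [← this, Ideal.comap_map_of_surjective π hπ, ← RingHom.ker_eq_comap_bot, Ideal.mk_ker,
      sup_eq_left.2 hle]
  obtain ⟨P, hP⟩ := Ideal.exists_maximal R
  exact IsLocalRing.of_unique_max_ideal ⟨P, hP, fun Q hQ => by rw [key Q hQ, ← key P hP]⟩

section CompleteExtension

variable (O : Type*) [CommRing O] [IsDomain O] [IsDiscreteValuationRing O]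
  [IsAdicComplete (maximalIdeal O) O]
  (F : Type*) [Field F] [Algebra O F] [IsFractionRing O F]
  (E : Type*) [Field E] [Algebra F E] [Algebra O E] [IsScalarTower O F E]
  [FiniteDimensional F E] [Algebra.IsSeparable F E]
  (B : Type*) [CommRing B] [Algebra O B] [Algebra B E] [IsScalarTower O B E]
  [IsIntegralClosure B O E]

include O F E in
theorem isAdicComplete_map_maximalIdeal :
    IsAdicComplete ((maximalIdeal O).map (algebraMap O B)) B := by
  haveI := finite_of_isIntegralClosure O F E B
  haveI := free_of_isIntegralClosure O F E B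
  rw [IsAdicComplete.map_algebraMap_iff]
  exact isAdicComplete_of_finite_free _ B

include O F E in
theorem map_maximalIdeal_le_of_isMaximal (P : Ideal B) (hP : P.IsMaximal) :
    (maximalIdeal O).map (algebraMap O B) ≤ P := by
  haveI : Algebra.IsIntegral O B := IsIntegralClosure.isIntegral_algebra O E
  have hmax : (P.comap (algebraMap O B)).IsMaximal :=
    Ideal.isMaximal_comap_of_isIntegral_of_isMaximal P
  rw [Ideal.map_le_iff_le_comap, IsLocalRing.eq_maximalIdeal hmax]

include O F E in
theorem isLocalRing_of_isIntegralClosure : IsLocalRing B := by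
  haveI : IsDomain B := isDomain_of_isIntegralClosure O F E B
  haveI := finite_of_isIntegralClosure O F E B
  haveI := isAdicComplete_map_maximalIdeal O F E B
  let mR := (maximalIdeal O).map (algebraMap O B)
  obtain ⟨P₀, hP₀⟩ := Ideal.exists_maximal B
  have hne : mR ≠ ⊤ := fun h =>
    hP₀.ne_top (top_le_iff.1 (h ▸ map_maximalIdeal_le_of_isMaximal O F E B P₀ hP₀))
  haveI : Nontrivial (B ⧸ mR) := Ideal.Quotient.nontrivial_iff.2 hne
  letI : Field (O ⧸ maximalIdeal O) := Ideal.Quotient.field (maximalIdeal O)
  haveI : Module.Finite (O ⧸ maximalIdeal O) (B ⧸ mR) :=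
    Module.Finite.of_restrictScalars_finite O _ _
  haveI : IsArtinianRing (B ⧸ mR) := isArtinian_of_tower (O ⧸ maximalIdeal O) inferInstance
  have hid : ∀ e : B, IsIdempotentElem e → e = 0 ∨ e = 1 := fun e he => by
    have : e * (e - 1) = 0 := by rw [mul_sub, he.eq, mul_one, sub_self]
    rcases mul_eq_zero.1 this with h | h
    · exact Or.inl h
    · exact Or.inr (sub_eq_zero.1 h)
  haveI : IsLocalRing (B ⧸ mR) :=
    isLocalRing_of_isArtinianRing_of_idempotents _ (idempotent_quotient_trivial mR hid)
  exact isLocalRing_of_quotient mR (map_maximalIdeal_le_of_isMaximal O F E B)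

include O F E in
theorem map_maximalIdeal_ne_bot : (maximalIdeal O).map (algebraMap O B) ≠ ⊥ := by
  haveI : IsDomain B := isDomain_of_isIntegralClosure O F E B
  have hinj : Function.Injective (algebraMap O B) := by
    have h : Function.Injective (algebraMap O E) := by
      rw [IsScalarTower.algebraMap_eq O F E]
      exact (algebraMap F E).injective.comp (IsFractionRing.injective O F)
    rw [IsScalarTower.algebraMap_eq O B E] at h
    exact Function.Injective.of_comp h
  intro h
  rw [Ideal.map_eq_bot_iff_of_injective hinj] at h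
  exact IsDiscreteValuationRing.not_a_field O h

include O F E in
theorem isDiscreteValuationRing_of_isIntegralClosure [IsDomain B] : IsDiscreteValuationRing B := by
  haveI : IsLocalRing B := isLocalRing_of_isIntegralClosure O F E B
  haveI : IsDedekindDomain B := isDedekindDomain_of_isIntegralClosure O F E B
  have hnf : ¬ IsField B := by
    intro hB
    have hle := map_maximalIdeal_le_of_isMaximal O F E B (maximalIdeal B) inferInstance
    have : maximalIdeal B = ⊥ := isField_iff_maximalIdeal_eq.1 hB
    rw [this, le_bot_iff] at hle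
    exact map_maximalIdeal_ne_bot O F E B hle
  exact ((IsDiscreteValuationRing.TFAE B hnf).out 0 2).2 (inferInstance : IsDedekindDomain B)

include O F E in
/-- `𝔪_O B = 𝔪_B ^ e` with `e ≠ 0`. -/
theorem exists_map_maximalIdeal_eq_pow [IsLocalRing B] :
    ∃ e : ℕ, e ≠ 0 ∧ (maximalIdeal O).map (algebraMap O B) = maximalIdeal B ^ e := by
  haveI : IsDomain B := isDomain_of_isIntegralClosure O F E B
  haveI : IsDiscreteValuationRing B := isDiscreteValuationRing_of_isIntegralClosure O F E B
  have hnf : ¬ IsField B := IsDiscreteValuationRing.not_isField B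
  have h6 := ((IsDiscreteValuationRing.TFAE B hnf).out 0 6).1 (inferInstance : IsDiscreteValuationRing B)
  obtain ⟨e, he⟩ := h6 _ (map_maximalIdeal_ne_bot O F E B)
  refine ⟨e, ?_, he⟩
  rintro rfl
  rw [pow_zero, Ideal.one_eq_top] at he
  have hle := map_maximalIdeal_le_of_isMaximal O F E B (maximalIdeal B) inferInstance
  rw [he, top_le_iff] at hle
  exact (maximalIdeal.isMaximal B).ne_top hle

include O F E in
theorem isAdicComplete_maximalIdeal_of_isIntegralClosure [IsLocalRing B] :
    IsAdicComplete (maximalIdeal B) B := by
  haveI := isAdicComplete_map_maximalIdeal O F E B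
  obtain ⟨e, he0, he⟩ := exists_map_maximalIdeal_eq_pow O F E B
  exact isAdicComplete_of_cofinal
    (map_maximalIdeal_le_of_isMaximal O F E B (maximalIdeal B) inferInstance) he0 he.ge

omit [IsAdicComplete (maximalIdeal O) O] in
include O F E in
theorem finite_quotient_map_maximalIdeal [Finite (ResidueField O)] :
    Finite (B ⧸ (maximalIdeal O).map (algebraMap O B)) := by
  haveI := finite_of_isIntegralClosure O F E B
  letI : Field (O ⧸ maximalIdeal O) := Ideal.Quotient.field (maximalIdeal O)
  haveI : Finite (O ⧸ maximalIdeal O) := inferInstanceAs (Finite (ResidueField O))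
  haveI : Module.Finite (O ⧸ maximalIdeal O) (B ⧸ (maximalIdeal O).map (algebraMap O B)) :=
    Module.Finite.of_restrictScalars_finite O _ _
  exact Module.finite_of_finite (O ⧸ maximalIdeal O)

include O F E in
theorem finite_residueField_of_isIntegralClosure [Finite (ResidueField O)] [IsLocalRing B] :
    Finite (ResidueField B) := by
  haveI := finite_quotient_map_maximalIdeal O F E B
  have hle := map_maximalIdeal_le_of_isMaximal O F E B (maximalIdeal B) inferInstance
  exact Finite.of_surjective (Ideal.Quotient.factor hle) (Ideal.Quotient.factor_surjective hle)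

end CompleteExtension

end Fermat.Agent.S55.Local
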