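/-
S55 package LO2 (unramified local extensions), part 1: the Hensel universal property.

Setting: `O` a local ring, `B` a finite local `O`-algebra with `𝔪_O B = 𝔪_B` and separable residue
field extension (`IsUnram O B`).  Main results:

* `existsUnique_root`: simple roots in the residue field of a Henselian local algebra lift uniquely;
* `IsUnram.adjoin_eq_top`, `IsUnram.powerBasis`: `B = O[θ]` for every lift `θ` of a generator of the
  residue field extension, and `(minpoly O θ) mod 𝔪 = minpoly k θ̄` (`IsUnram.minpoly_map_residue`);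
* `IsUnram.finrank_residueField`: `[k_B : k] = rank_O B`;
* `IsUnram.resHom_bijective`: for every Henselian local `O`-algebra `B'`, reduction
  `(B →ₐ[O] B') → (k_B →ₐ[k] k_B')` is bijective.
-/
import Mathlib

namespace Fermat.Agent.S55.Local.Unram

open IsLocalRing Polynomial Module IntermediateField

/-- A local ring which is complete for its maximal ideal is a Henselian local ring. -/
theorem henselianLocalRing_of_isAdicComplete (R : Type*) [CommRing R] [IsLocalRing R]
    [IsAdicComplete (maximalIdeal R) R] : HenselianLocalRing R where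
  is_henselian f hf a₀ h₁ h₂ :=
    HenselianRing.is_henselian (I := maximalIdeal R) f hf a₀ h₁
      (h₂.map (Ideal.Quotient.mk (maximalIdeal R)))

section Roots

variable {O : Type*} [CommRing O]
variable {B : Type*} [CommRing B] [Algebra O B]

theorem aeval_residue [IsLocalRing B] (g : O[X]) (b : B) :
    aeval (residue B b) g = residue B (aeval b g) := by
  rw [← ResidueField.algebraMap_eq, aeval_algebraMap_apply]

/-- Hensel: for a monic polynomial `g` over `O` and a Henselian local `O`-algebra `B`, every simple
root of `g` in the residue field of `B` lifts uniquely to a root in `B`. -/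
theorem existsUnique_root [HenselianLocalRing B] (g : O[X]) (hg : g.Monic)
    (β : ResidueField B) (hβ : aeval β g = 0) (hβ' : aeval β (derivative g) ≠ 0) :
    ∃! b : B, aeval b g = 0 ∧ residue B b = β := by
  have H := ((HenselianLocalRing.TFAE B).out 0 1).mp ‹HenselianLocalRing B›
  obtain ⟨b, hb, hbβ⟩ := H (g.map (algebraMap O B)) (hg.map _) β
    (by rwa [aeval_map_algebraMap]) (by rwa [derivative_map, aeval_map_algebraMap])
  refine ⟨b, ⟨by rwa [IsRoot.def, eval_map_algebraMap] at hb, hbβ⟩, ?_⟩
  rintro c ⟨hc, hcβ⟩
  have hb0 : (g.map (algebraMap O B)).eval b = 0 := hb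
  have hc0 : (g.map (algebraMap O B)).eval c = 0 := by rwa [eval_map_algebraMap]
  refine IsLocalRing.eq_of_eval_eq_zero_of_not_isUnit_sub hc0 hb0 ?_ ?_
  · rw [← mem_nonunits_iff, ← mem_maximalIdeal, ← residue_eq_zero_iff, map_sub, hbβ, hcβ, sub_self]
  · rw [← residue_ne_zero_iff_isUnit, derivative_map, eval_map_algebraMap, ← aeval_residue, hcβ]
    exact hβ'

end Roots

section Unram

variable (O : Type*) [CommRing O] [IsLocalRing O]
variable (B : Type*) [CommRing B] [IsLocalRing B] [Algebra O B] [IsLocalHom (algebraMap O B)]

/-- `B` is an unramified local `O`-algebra: the maximal ideal of `O` generates the one of `B`, and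
the residue field extension is separable. -/
structure IsUnram : Prop where
  map_eq : (maximalIdeal O).map (algebraMap O B) = maximalIdeal B
  sep : Algebra.IsSeparable (ResidueField O) (ResidueField B)

variable {O B}

theorem aeval_residue' (g : O[X]) (b : B) :
    aeval (residue B b) (g.map (residue O)) = residue B (aeval b g) := by
  rw [← ResidueField.algebraMap_eq O, aeval_map_algebraMap, ← ResidueField.algebraMap_eq B,
    aeval_algebraMap_apply]

theorem aeval_map_residue (g : O[X]) (β : ResidueField B) :
    aeval β (g.map (residue O)) = aeval β g := by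
  rw [← ResidueField.algebraMap_eq O, aeval_map_algebraMap]

/-- Nakayama: a lift of a generator of the residue field extension generates `B` over `O`. -/
theorem IsUnram.adjoin_eq_top [Module.Finite O B] (h : IsUnram O B) (θ : B)
    (hθ : Algebra.adjoin (ResidueField O) {residue B θ} = ⊤) : Algebra.adjoin O {θ} = ⊤ := by
  rw [← Algebra.toSubmodule_eq_top, ← top_le_iff]
  apply Submodule.le_of_le_smul_of_le_jacobson_bot (I := maximalIdeal O)
  · exact Module.finite_def.mp ‹_›
  · exact (jacobson_eq_maximalIdeal ⊥ bot_ne_top).ge
  · rw [Ideal.smul_top_eq_map, h.map_eq]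
    rintro b -
    have hb : residue B b ∈ Algebra.adjoin (ResidueField O) {residue B θ} := by
      rw [hθ]; exact Algebra.mem_top
    rw [Algebra.adjoin_singleton_eq_range_aeval] at hb
    obtain ⟨q, hq⟩ := hb
    obtain ⟨p, rfl⟩ := Polynomial.map_surjective (residue O) residue_surjective q
    have h1 : residue B (aeval θ p) = residue B b := by
      rw [← aeval_residue']; exact hq
    have h2 : b - aeval θ p ∈ maximalIdeal B := by
      rw [← residue_eq_zero_iff, map_sub, h1, sub_self]
    have h3 : b = aeval θ p + (b - aeval θ p) := by ring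
    rw [h3]
    refine Submodule.add_mem_sup ?_ ?_
    · rw [Subalgebra.mem_toSubmodule, Algebra.adjoin_singleton_eq_range_aeval]
      exact ⟨p, rfl⟩
    · exact h2

/-- For a finite free unramified local algebra, the residue degree is the rank. -/
theorem IsUnram.finrank_residueField [Module.Finite O B] [Module.Free O B] (h : IsUnram O B) :
    finrank (ResidueField O) (ResidueField B) = finrank O B := by
  have e : (B ⧸ (maximalIdeal O).map (algebraMap O B)) ≃ₐ[O] (B ⧸ maximalIdeal B) :=
    Ideal.quotientEquivAlgOfEq O h.map_eq
  have e' : (B ⧸ (maximalIdeal O).map (algebraMap O B)) ≃ₐ[O ⧸ maximalIdeal O]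
      (B ⧸ maximalIdeal B) :=
    e.extendScalarsOfSurjective Ideal.Quotient.mk_surjective
  rw [← IsLocalRing.finrank_quotient_map (R := O) (S := B)]
  exact e'.toLinearEquiv.finrank_eq.symm

/-- There is an element of `B` whose residue generates the residue field extension. -/
theorem IsUnram.exists_gen [Module.Finite O B] (h : IsUnram O B) :
    ∃ θ : B, (ResidueField O)⟮residue B θ⟯ = ⊤ := by
  have := h.sep
  obtain ⟨α, hα⟩ := Field.exists_primitive_element (ResidueField O) (ResidueField B)
  obtain ⟨θ, rfl⟩ := residue_surjective α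
  exact ⟨θ, hα⟩

section Hom

variable {B' : Type*} [CommRing B'] [IsLocalRing B'] [Algebra O B'] [IsLocalHom (algebraMap O B')]

/-- Every `O`-algebra map out of an unramified local algebra into a local `O`-algebra is local. -/
theorem IsUnram.isLocalHom (h : IsUnram O B) (φ : B →ₐ[O] B') : IsLocalHom φ := by
  have : IsLocalHom (φ : B →+* B') := by
    refine ((local_hom_TFAE (φ : B →+* B')).out 2 0).mp ?_
    rw [← h.map_eq, Ideal.map_map, AlgHom.comp_algebraMap]
    exact map_maximalIdeal_le _
  exact ⟨fun a ha => this.map_nonunit a ha⟩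

/-- The reduction of an `O`-algebra map to the residue fields. -/
noncomputable def IsUnram.resHom (h : IsUnram O B) (φ : B →ₐ[O] B') :
    ResidueField B →ₐ[ResidueField O] ResidueField B' :=
  haveI := h.isLocalHom φ
  ResidueField.mapAlgHom' φ

@[simp]
theorem IsUnram.resHom_residue (h : IsUnram O B) (φ : B →ₐ[O] B') (b : B) :
    h.resHom φ (residue B b) = residue B' (φ b) := rfl

end Hom

section Domain

variable [Module.Finite O B]

omit [IsLocalHom (algebraMap O B)] in
theorem algebra_adjoin_eq_top_of_adjoin_eq_top {k : Type*} {l : Type*} [Field k] [Field l]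
    [Algebra k l] [Algebra.IsAlgebraic k l] (α : l) (hα : k⟮α⟯ = ⊤) :
    Algebra.adjoin k {α} = ⊤ := by
  have halg : IsAlgebraic k α := Algebra.IsAlgebraic.isAlgebraic _
  rw [← adjoin_simple_toSubalgebra_of_isAlgebraic halg, hα, top_toSubalgebra]

theorem algebra_adjoin_residue_eq_top (θ : B) (hθ : (ResidueField O)⟮residue B θ⟯ = ⊤) :
    Algebra.adjoin (ResidueField O) {residue B θ} = ⊤ :=
  algebra_adjoin_eq_top_of_adjoin_eq_top _ hθ

variable [IsDomain O] [IsIntegrallyClosed O] [IsDomain B] [IsTorsionFree O B]

/-- The power basis of `B` over `O` given by a lift of a generator of the residue extension. -/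
noncomputable def IsUnram.powerBasis (h : IsUnram O B) (θ : B)
    (hθ : (ResidueField O)⟮residue B θ⟯ = ⊤) : PowerBasis O B :=
  PowerBasis.ofAdjoinEqTop' (Algebra.IsIntegral.isIntegral θ)
    (h.adjoin_eq_top θ (algebra_adjoin_residue_eq_top θ hθ))

@[simp]
theorem IsUnram.powerBasis_gen (h : IsUnram O B) (θ : B)
    (hθ : (ResidueField O)⟮residue B θ⟯ = ⊤) : (h.powerBasis θ hθ).gen = θ :=
  PowerBasis.ofAdjoinEqTop'_gen _ _

theorem IsUnram.powerBasis_dim (h : IsUnram O B) (θ : B)
    (hθ : (ResidueField O)⟮residue B θ⟯ = ⊤) :
    (h.powerBasis θ hθ).dim = (minpoly O θ).natDegree := rfl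

theorem IsUnram.free (h : IsUnram O B) : Module.Free O B := by
  obtain ⟨θ, hθ⟩ := h.exists_gen
  exact Module.Free.of_basis (h.powerBasis θ hθ).basis

/-- The minimal polynomial over `O` of a lift of a generator of the residue extension reduces to
the minimal polynomial of that generator. -/
theorem IsUnram.minpoly_map_residue (h : IsUnram O B) (θ : B)
    (hθ : (ResidueField O)⟮residue B θ⟯ = ⊤) :
    (minpoly O θ).map (residue O) = minpoly (ResidueField O) (residue B θ) := by
  have hint : IsIntegral O θ := Algebra.IsIntegral.isIntegral θ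
  have := h.free
  have h1 : finrank O B = (minpoly O θ).natDegree := (h.powerBasis θ hθ).finrank
  have h2 : finrank (ResidueField O) (ResidueField B) =
      (minpoly (ResidueField O) (residue B θ)).natDegree := by
    rw [← finrank_top', ← hθ]
    exact adjoin.finrank (Algebra.IsIntegral.isIntegral _)
  have h3 := h.finrank_residueField
  refine eq_of_monic_of_dvd_of_natDegree_le (minpoly.monic (Algebra.IsIntegral.isIntegral _))
    ((minpoly.monic hint).map _) (minpoly.dvd _ _ ?_) ?_
  · rw [aeval_residue', minpoly.aeval, map_zero]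
  · rw [(minpoly.monic hint).natDegree_map, ← h1, ← h3, h2]

theorem IsUnram.irreducible_minpoly_map (h : IsUnram O B) (θ : B)
    (hθ : (ResidueField O)⟮residue B θ⟯ = ⊤) :
    Irreducible ((minpoly O θ).map (residue O)) := by
  rw [h.minpoly_map_residue θ hθ]
  exact minpoly.irreducible (Algebra.IsIntegral.isIntegral _)

theorem IsUnram.separable_minpoly_map (h : IsUnram O B) (θ : B)
    (hθ : (ResidueField O)⟮residue B θ⟯ = ⊤) :
    ((minpoly O θ).map (residue O)).Separable := by
  rw [h.minpoly_map_residue θ hθ]
  have := h.sep
  exact Algebra.IsSeparable.isSeparable _ _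

section Lift

variable {B' : Type*} [CommRing B'] [HenselianLocalRing B'] [Algebra O B']
  [IsLocalHom (algebraMap O B')]

/-- **Universal property of unramified extensions** (Hensel): `O`-algebra maps from the finite
unramified local algebra `B` to a Henselian local `O`-algebra `B'` correspond bijectively to maps
of residue fields. -/
theorem IsUnram.resHom_bijective (h : IsUnram O B) :
    Function.Bijective (h.resHom : (B →ₐ[O] B') → _) := by
  obtain ⟨θ, hθ⟩ := h.exists_gen
  have hg : (minpoly O θ).Monic := minpoly.monic (Algebra.IsIntegral.isIntegral θ)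
  have hsep := h.separable_minpoly_map θ hθ
  have hroot : ∀ β : ResidueField B', aeval β (minpoly O θ) = 0 →
      aeval β (derivative (minpoly O θ)) ≠ 0 := by
    intro β hβ
    rw [← aeval_map_residue, ← derivative_map]
    refine hsep.aeval_derivative_ne_zero ?_
    rw [aeval_map_residue, hβ]
  constructor
  · intro φ₁ φ₂ h12
    refine (h.powerBasis θ hθ).algHom_ext ?_
    rw [h.powerBasis_gen]
    have h1 : aeval (φ₁ θ) (minpoly O θ) = 0 := by
      rw [aeval_algHom_apply, minpoly.aeval, map_zero]
    have h2 : aeval (φ₂ θ) (minpoly O θ) = 0 := by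
      rw [aeval_algHom_apply, minpoly.aeval, map_zero]
    have h3 : residue B' (φ₁ θ) = residue B' (φ₂ θ) := by
      rw [← h.resHom_residue, ← h.resHom_residue, h12]
    have hβ : aeval (residue B' (φ₂ θ)) (minpoly O θ) = 0 := by
      rw [aeval_residue, h2, map_zero]
    exact (existsUnique_root _ hg _ hβ (hroot _ hβ)).unique ⟨h1, h3⟩ ⟨h2, rfl⟩
  · intro ψ
    have hβ : aeval (ψ (residue B θ)) (minpoly O θ) = 0 := by
      rw [← aeval_map_residue, aeval_algHom_apply, aeval_residue', minpoly.aeval, map_zero,
        map_zero]
    obtain ⟨y, ⟨hy, hyβ⟩, -⟩ := existsUnique_root _ hg _ hβ (hroot _ hβ)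
    have hy' : aeval y (minpoly O (h.powerBasis θ hθ).gen) = 0 := by
      rw [h.powerBasis_gen]; exact hy
    refine ⟨(h.powerBasis θ hθ).lift y hy', ?_⟩
    refine AlgHom.ext_of_adjoin_eq_top (algebra_adjoin_residue_eq_top θ hθ) ?_
    rintro _ rfl
    rw [h.resHom_residue, ← hyβ]
    congr 1
    have := PowerBasis.lift_gen (h.powerBasis θ hθ) y hy'
    rwa [h.powerBasis_gen] at this

end Lift

end Domain

end Unram

end Fermat.Agent.S55.Local.Unram
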