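/-
S55 package LO2 (unramified local extensions), part 2: automorphisms and Frobenius.

For `B` a finite unramified Henselian local algebra over the integrally closed local domain `O`:
* `IsUnram.autEquiv : (B ≃ₐ[O] B) ≃* Gal(k_B/k)`;
* with finite residue field: the Frobenius `IsUnram.frob`, its characterisation
  (`frob_sub_pow_mem`, `eq_frob`), `orderOf_frob = rank`, every automorphism is a power of it,
  `card_aut = rank`;
* field level (`K = Frac O`, `E = Frac B`): `E/K` is Galois, `Gal(E/K) ≃* Gal(k_B/k)` is cyclic and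
  generated by the Frobenius.
-/
import Fermat.Agent.S55.Local.UnramHensel

set_option linter.unusedSectionVars false
set_option linter.overlappingInstances false

namespace Fermat.Agent.S55.Local.Unram

open IsLocalRing Polynomial Module IntermediateField

section Aut

variable (O : Type*) [CommRing O] [IsLocalRing O]
variable (B : Type*) [CommRing B] [IsLocalRing B] [Algebra O B] [IsLocalHom (algebraMap O B)]

/-- Reduction of `O`-algebra automorphisms of `B` to the residue field. -/
noncomputable def resAut : (B ≃ₐ[O] B) →* (ResidueField B ≃ₐ[ResidueField O] ResidueField B) where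
  toFun σ := ResidueField.mapAlgEquiv' σ
  map_one' := by
    ext x
    obtain ⟨b, rfl⟩ := residue_surjective x
    rfl
  map_mul' σ τ := by
    ext x
    obtain ⟨b, rfl⟩ := residue_surjective x
    rfl

variable {O B}

@[simp]
theorem resAut_residue (σ : B ≃ₐ[O] B) (b : B) :
    resAut O B σ (residue B b) = residue B (σ b) := rfl

theorem IsUnram.resHom_coe (h : IsUnram O B) (σ : B ≃ₐ[O] B) :
    h.resHom (σ : B →ₐ[O] B) = (resAut O B σ : ResidueField B →ₐ[ResidueField O] ResidueField B) := by
  ext x
  obtain ⟨b, rfl⟩ := residue_surjective x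
  rfl

theorem IsUnram.resHom_comp (h : IsUnram O B) {B' B'' : Type*} [CommRing B'] [IsLocalRing B']
    [Algebra O B'] [IsLocalHom (algebraMap O B')] [CommRing B''] [IsLocalRing B'']
    [Algebra O B''] [IsLocalHom (algebraMap O B'')] (h' : IsUnram O B')
    (φ : B →ₐ[O] B') (φ' : B' →ₐ[O] B'') :
    h.resHom (φ'.comp φ) = (h'.resHom φ').comp (h.resHom φ) := by
  ext x
  obtain ⟨b, rfl⟩ := residue_surjective x
  rfl

theorem IsUnram.resHom_id (h : IsUnram O B) :
    h.resHom (AlgHom.id O B) = AlgHom.id _ _ := by
  ext x
  obtain ⟨b, rfl⟩ := residue_surjective x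
  rfl

end Aut

section Galois

variable {O : Type*} [CommRing O] [IsLocalRing O] [IsDomain O] [IsIntegrallyClosed O]
variable {B : Type*} [CommRing B] [HenselianLocalRing B] [IsDomain B] [Algebra O B]
  [IsLocalHom (algebraMap O B)] [IsTorsionFree O B] [Module.Finite O B]

/-- Every `O`-algebra endomorphism of a finite unramified Henselian local algebra is an
automorphism, and reduction to the residue field is bijective on automorphisms. -/
theorem IsUnram.resAut_bijective (h : IsUnram O B) : Function.Bijective (resAut O B) := by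
  have hb := h.resHom_bijective (B' := B)
  constructor
  · intro σ τ hστ
    have : (σ : B →ₐ[O] B) = τ := by
      apply hb.1
      rw [h.resHom_coe, h.resHom_coe, hστ]
    ext b
    exact DFunLike.congr_fun this b
  · intro ψ
    obtain ⟨φ, hφ⟩ := hb.2 (ψ : ResidueField B →ₐ[ResidueField O] ResidueField B)
    obtain ⟨φ', hφ'⟩ := hb.2 (ψ.symm : ResidueField B →ₐ[ResidueField O] ResidueField B)
    have h1 : φ.comp φ' = AlgHom.id O B := by
      apply hb.1
      rw [h.resHom_comp h, hφ, hφ', h.resHom_id]
      ext x; simp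
    have h2 : φ'.comp φ = AlgHom.id O B := by
      apply hb.1
      rw [h.resHom_comp h, hφ, hφ', h.resHom_id]
      ext x; simp
    refine ⟨AlgEquiv.ofAlgHom φ φ' h1 h2, ?_⟩
    ext x
    obtain ⟨b, rfl⟩ := residue_surjective x
    have := DFunLike.congr_fun hφ (residue B b)
    simpa using this

/-- `Aut_O(B) ≃* Gal(k_B/k)` for a finite unramified Henselian local algebra. -/
noncomputable def IsUnram.autEquiv (h : IsUnram O B) :
    (B ≃ₐ[O] B) ≃* (ResidueField B ≃ₐ[ResidueField O] ResidueField B) :=
  MulEquiv.ofBijective (resAut O B) h.resAut_bijective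

@[simp]
theorem IsUnram.autEquiv_residue (h : IsUnram O B) (σ : B ≃ₐ[O] B) (b : B) :
    h.autEquiv σ (residue B b) = residue B (σ b) := rfl

section Frobenius

variable [Finite (ResidueField O)]

/-- The Frobenius automorphism of a finite unramified Henselian local algebra over a local ring
with finite residue field. -/
noncomputable def IsUnram.frob (h : IsUnram O B) : B ≃ₐ[O] B :=
  letI := Fintype.ofFinite (ResidueField O)
  h.autEquiv.symm (FiniteField.frobeniusAlgEquivOfAlgebraic (ResidueField O) (ResidueField B))

theorem IsUnram.residue_frob (h : IsUnram O B) (b : B) :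
    residue B (h.frob b) = residue B b ^ Nat.card (ResidueField O) := by
  let _ := Fintype.ofFinite (ResidueField O)
  rw [← h.autEquiv_residue, IsUnram.frob, MulEquiv.apply_symm_apply,
    FiniteField.coe_frobeniusAlgEquivOfAlgebraic, Nat.card_eq_fintype_card]

theorem IsUnram.frob_sub_pow_mem (h : IsUnram O B) (b : B) :
    h.frob b - b ^ Nat.card (ResidueField O) ∈ maximalIdeal B := by
  rw [← residue_eq_zero_iff, map_sub, h.residue_frob, map_pow, sub_self]

/-- The Frobenius is the unique automorphism inducing `x ↦ x ^ #k` on the residue field. -/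
theorem IsUnram.eq_frob (h : IsUnram O B) (σ : B ≃ₐ[O] B)
    (hσ : ∀ b, σ b - b ^ Nat.card (ResidueField O) ∈ maximalIdeal B) : σ = h.frob := by
  apply h.autEquiv.injective
  ext x
  obtain ⟨b, rfl⟩ := residue_surjective x
  rw [h.autEquiv_residue, h.autEquiv_residue, h.residue_frob, ← map_pow, ← sub_eq_zero, ← map_sub,
    residue_eq_zero_iff]
  exact hσ b

theorem IsUnram.orderOf_frob (h : IsUnram O B) : orderOf h.frob = finrank O B := by
  let _ := Fintype.ofFinite (ResidueField O)
  have := h.free
  have : Finite (ResidueField B) := ResidueField.finite_of_finite ‹_›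
  rw [← h.finrank_residueField,
    ← FiniteField.orderOf_frobeniusAlgEquivOfAlgebraic (ResidueField O) (ResidueField B),
    IsUnram.frob]
  exact MulEquiv.orderOf_eq _ _

theorem IsUnram.exists_pow_frob (h : IsUnram O B) (σ : B ≃ₐ[O] B) :
    ∃ n < finrank O B, σ = h.frob ^ n := by
  let _ := Fintype.ofFinite (ResidueField O)
  have := h.free
  have : Finite (ResidueField B) := ResidueField.finite_of_finite ‹_›
  obtain ⟨n, hn⟩ := (FiniteField.bijective_frobeniusAlgEquivOfAlgebraic_pow (ResidueField O)
    (ResidueField B)).2 (h.autEquiv σ)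
  refine ⟨n.1, by rw [← h.finrank_residueField]; exact n.2, ?_⟩
  apply h.autEquiv.injective
  rw [map_pow, ← hn, IsUnram.frob, MulEquiv.apply_symm_apply]

theorem IsUnram.mem_zpowers_frob (h : IsUnram O B) (σ : B ≃ₐ[O] B) :
    σ ∈ Subgroup.zpowers h.frob := by
  obtain ⟨n, -, rfl⟩ := h.exists_pow_frob σ
  exact Subgroup.npow_mem_zpowers _ _

theorem IsUnram.isCyclic_aut (h : IsUnram O B) : IsCyclic (B ≃ₐ[O] B) :=
  ⟨⟨h.frob, fun σ => h.mem_zpowers_frob σ⟩⟩

theorem IsUnram.card_aut (h : IsUnram O B) : Nat.card (B ≃ₐ[O] B) = finrank O B := by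
  rw [← h.orderOf_frob, ← Nat.card_zpowers]
  have : Subgroup.zpowers h.frob = ⊤ := by
    rw [Subgroup.eq_top_iff']; exact h.mem_zpowers_frob
  rw [this, Subgroup.card_top]

end Frobenius

end Galois

section Field

variable {O : Type*} [CommRing O] [IsLocalRing O] [IsDomain O] [IsIntegrallyClosed O]
variable {B : Type*} [CommRing B] [HenselianLocalRing B] [IsDomain B] [Algebra O B]
  [IsLocalHom (algebraMap O B)] [IsTorsionFree O B] [Module.Finite O B]
variable (K E : Type*) [Field K] [Algebra O K] [IsFractionRing O K]
  [Field E] [Algebra K E] [Algebra O E] [IsScalarTower O K E]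
  [Algebra B E] [IsScalarTower O B E] [IsFractionRing B E]

include K E in
theorem IsUnram.finrank_eq_finrank_residueField (h : IsUnram O B) :
    finrank K E = finrank (ResidueField O) (ResidueField B) := by
  have := h.free
  rw [h.finrank_residueField, IsFractionRing.finrank_eq O K B E]

variable [IsIntegralClosure B O E] [FiniteDimensional K E] [Finite (ResidueField O)]

/-- An unramified extension of Henselian local domains with finite residue fields is Galois. -/
theorem IsUnram.isGalois (h : IsUnram O B) : IsGalois K E := by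
  apply IsGalois.of_card_aut_eq_finrank
  rw [Nat.card_congr (galRestrict O K E B).toEquiv, h.card_aut, IsFractionRing.finrank_eq O K B E]

/-- `Gal(E/K) ≃* Gal(k_B/k)` for an unramified extension. -/
noncomputable def IsUnram.galEquiv (h : IsUnram O B) :
    Gal(E/K) ≃* (ResidueField B ≃ₐ[ResidueField O] ResidueField B) :=
  (galRestrict O K E B).trans h.autEquiv

theorem IsUnram.galEquiv_residue (h : IsUnram O B) (σ : Gal(E/K)) (b : B) :
    h.galEquiv K E σ (residue B b) = residue B (galRestrict O K E B σ b) := rfl

/-- The Frobenius element of the Galois group of an unramified extension. -/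
noncomputable def IsUnram.frobGal (h : IsUnram O B) : Gal(E/K) :=
  (galRestrict O K E B).symm h.frob

theorem IsUnram.frobGal_algebraMap (h : IsUnram O B) (b : B) :
    h.frobGal K E (algebraMap B E b) = algebraMap B E (h.frob b) :=
  galRestrict_symm_algebraMap_apply O K _ b

/-- Characterisation of the Frobenius: `σ b ≡ b ^ #k mod 𝔪_B` on integers. -/
theorem IsUnram.eq_frobGal (h : IsUnram O B) (σ : Gal(E/K))
    (hσ : ∀ b : B, ∃ c ∈ maximalIdeal B,
      σ (algebraMap B E b) = algebraMap B E (b ^ Nat.card (ResidueField O) + c)) :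
    σ = h.frobGal K E := by
  rw [IsUnram.frobGal, MulEquiv.eq_symm_apply]
  apply h.eq_frob
  intro b
  obtain ⟨c, hc, hbc⟩ := hσ b
  rw [← algebraMap_galRestrict_apply O] at hbc
  have := (IsFractionRing.injective B E) hbc
  rw [this, add_sub_cancel_left]
  exact hc

theorem IsUnram.orderOf_frobGal (h : IsUnram O B) : orderOf (h.frobGal K E) = finrank K E := by
  rw [IsUnram.frobGal, MulEquiv.orderOf_eq, h.orderOf_frob, IsFractionRing.finrank_eq O K B E]

theorem IsUnram.exists_pow_frobGal (h : IsUnram O B) (σ : Gal(E/K)) :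
    ∃ n < finrank K E, σ = h.frobGal K E ^ n := by
  obtain ⟨n, hn, hσ⟩ := h.exists_pow_frob (galRestrict O K E B σ)
  refine ⟨n, by rwa [IsFractionRing.finrank_eq O K B E], ?_⟩
  rw [IsUnram.frobGal, ← map_pow, ← hσ, MulEquiv.symm_apply_apply]

theorem IsUnram.mem_zpowers_frobGal (h : IsUnram O B) (σ : Gal(E/K)) :
    σ ∈ Subgroup.zpowers (h.frobGal K E) := by
  obtain ⟨n, -, rfl⟩ := h.exists_pow_frobGal K E σ
  exact Subgroup.npow_mem_zpowers _ _

theorem IsUnram.isCyclic_gal (h : IsUnram O B) : IsCyclic Gal(E/K) :=
  ⟨⟨h.frobGal K E, fun σ => h.mem_zpowers_frobGal K E σ⟩⟩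

end Field

end Fermat.Agent.S55.Local.Unram
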