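/-
S55 package LO2 (unramified local extensions), part 3: existence.

* `exists_monic_irreducible_natDegree`: irreducible polynomials of every degree over a finite field;
* for `O` local and `g : O[X]` monic with irreducible reduction, `AdjoinRoot g` is a finite free
  local `O`-algebra, unramified over `O` (`isUnram_adjoinRoot`), of residue degree `deg g`;
  for `O` a DVR it is a DVR (`isDiscreteValuationRing_adjoinRoot`);
* for a root `θ` of `g` in a field `Ω ⊇ K = Frac O`: `K(θ)` has degree `deg g` and its ring of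
  integers is `≃ AdjoinRoot g`; in particular `𝔪_O` generates a maximal ideal there
  (`isMaximal_map_integralClosure_adjoin_root`).
-/
import Fermat.Agent.S55.Local.UnramGalois

set_option linter.unusedSectionVars false
set_option linter.overlappingInstances false

namespace Fermat.Agent.S55.Local.Unram

open IsLocalRing Polynomial Module IntermediateField nonZeroDivisors

/-- Over a finite field there are monic irreducible polynomials of every positive degree. -/
theorem exists_monic_irreducible_natDegree (k : Type*) [Field k] [Finite k] {n : ℕ} (hn : 0 < n) :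
    ∃ f : k[X], f.Monic ∧ Irreducible f ∧ f.natDegree = n := by
  obtain ⟨p, hp⟩ := CharP.exists k
  have : Fact p.Prime := ⟨CharP.char_is_prime k p⟩
  have : NeZero n := ⟨hn.ne'⟩
  obtain ⟨α, hα⟩ := Field.exists_primitive_element k (FiniteField.Extension k p n)
  have hint : IsIntegral k α := Algebra.IsIntegral.isIntegral α
  refine ⟨minpoly k α, minpoly.monic hint, minpoly.irreducible hint, ?_⟩
  rw [← adjoin.finrank hint, hα, finrank_top', FiniteField.finrank_extension]

section AdjoinRoot

variable {O : Type*} [CommRing O] [IsLocalRing O] (g : O[X])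

theorem isMaximal_map_maximalIdeal_adjoinRoot (hirr : Irreducible (g.map (residue O))) :
    ((maximalIdeal O).map (AdjoinRoot.of g)).IsMaximal := by
  have e := AdjoinRoot.quotAdjoinRootEquivQuotPolynomialQuot (maximalIdeal O) g
  have hmax : (Ideal.span {g.map (residue O)} : Ideal (ResidueField O)[X]).IsMaximal :=
    PrincipalIdealRing.isMaximal_of_irreducible hirr
  have hfield : IsField ((ResidueField O)[X] ⧸
      (Ideal.span {g.map (residue O)} : Ideal (ResidueField O)[X])) :=
    (Ideal.Quotient.maximal_ideal_iff_isField_quotient _).mp hmax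
  exact (Ideal.Quotient.maximal_ideal_iff_isField_quotient _).mpr
    (e.toMulEquiv.isField hfield)

variable {g}

theorem finite_adjoinRoot (hg : g.Monic) : Module.Finite O (AdjoinRoot g) :=
  (AdjoinRoot.powerBasis' hg).finite

theorem free_adjoinRoot (hg : g.Monic) : Module.Free O (AdjoinRoot g) :=
  Module.Free.of_basis (AdjoinRoot.powerBasis' hg).basis

theorem finrank_adjoinRoot (hg : g.Monic) : finrank O (AdjoinRoot g) = g.natDegree :=
  (AdjoinRoot.powerBasis' hg).finrank

/-- `O[X]/(g)` is a local ring when `g` is monic with irreducible reduction. -/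
theorem isLocalRing_adjoinRoot (hg : g.Monic) (hirr : Irreducible (g.map (residue O))) :
    IsLocalRing (AdjoinRoot g) := by
  have := finite_adjoinRoot hg
  have hP := isMaximal_map_maximalIdeal_adjoinRoot g hirr
  refine IsLocalRing.of_unique_max_ideal ⟨_, hP, fun M hM => ?_⟩
  have hM' : (M.comap (algebraMap O (AdjoinRoot g))).IsMaximal :=
    Ideal.isMaximal_comap_of_isIntegral_of_isMaximal M
  have hle : (maximalIdeal O).map (AdjoinRoot.of g) ≤ M := by
    rw [Ideal.map_le_iff_le_comap, ← eq_maximalIdeal hM']
    rfl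
  exact (hP.eq_of_le hM.ne_top hle).symm

theorem map_maximalIdeal_adjoinRoot [IsLocalRing (AdjoinRoot g)]
    (hirr : Irreducible (g.map (residue O))) :
    (maximalIdeal O).map (algebraMap O (AdjoinRoot g)) = maximalIdeal (AdjoinRoot g) :=
  eq_maximalIdeal (isMaximal_map_maximalIdeal_adjoinRoot g hirr)

theorem isLocalHom_adjoinRoot [IsLocalRing (AdjoinRoot g)]
    (hirr : Irreducible (g.map (residue O))) : IsLocalHom (algebraMap O (AdjoinRoot g)) := by
  refine ((local_hom_TFAE (algebraMap O (AdjoinRoot g))).out 2 0).mp ?_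
  rw [map_maximalIdeal_adjoinRoot hirr]

/-- `O[X]/(g)` is unramified over `O` (finite residue field). -/
theorem isUnram_adjoinRoot [Finite (ResidueField O)] [IsLocalRing (AdjoinRoot g)]
    [IsLocalHom (algebraMap O (AdjoinRoot g))] (hg : g.Monic)
    (hirr : Irreducible (g.map (residue O))) : IsUnram O (AdjoinRoot g) := by
  have := finite_adjoinRoot hg
  exact ⟨map_maximalIdeal_adjoinRoot hirr, inferInstance⟩

theorem finrank_residueField_adjoinRoot [Finite (ResidueField O)] [IsLocalRing (AdjoinRoot g)]
    [IsLocalHom (algebraMap O (AdjoinRoot g))] (hg : g.Monic)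
    (hirr : Irreducible (g.map (residue O))) :
    finrank (ResidueField O) (ResidueField (AdjoinRoot g)) = g.natDegree := by
  have := finite_adjoinRoot hg
  have := free_adjoinRoot hg
  rw [(isUnram_adjoinRoot hg hirr).finrank_residueField, finrank_adjoinRoot hg]

section DVR

variable [IsDomain O] [IsDiscreteValuationRing O]

theorem isDomain_adjoinRoot (hg : g.Monic) (hirr : Irreducible (g.map (residue O))) :
    IsDomain (AdjoinRoot g) := by
  have h1 : Irreducible g := hg.irreducible_of_irreducible_map (residue O) g hirr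
  exact AdjoinRoot.isDomain_of_prime (UniqueFactorizationMonoid.irreducible_iff_prime.mp h1)

theorem natDegree_pos_of_irreducible_map (hg : g.Monic) (hirr : Irreducible (g.map (residue O))) :
    0 < g.natDegree := by
  rw [← hg.natDegree_map (residue O)]
  exact hirr.natDegree_pos

theorem algebraMap_adjoinRoot_injective (hg : g.Monic) (hirr : Irreducible (g.map (residue O))) :
    Function.Injective (algebraMap O (AdjoinRoot g)) := by
  refine AdjoinRoot.of.injective_of_degree_ne_zero ?_
  rw [degree_eq_natDegree hg.ne_zero]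
  exact_mod_cast (natDegree_pos_of_irreducible_map hg hirr).ne'

theorem isDiscreteValuationRing_adjoinRoot [IsLocalRing (AdjoinRoot g)] [IsDomain (AdjoinRoot g)]
    (hg : g.Monic) (hirr : Irreducible (g.map (residue O))) :
    IsDiscreteValuationRing (AdjoinRoot g) := by
  have hinj := algebraMap_adjoinRoot_injective hg hirr
  obtain ⟨π, hπ⟩ := IsDiscreteValuationRing.exists_irreducible O
  have hmax : maximalIdeal O = Ideal.span {π} := hπ.maximalIdeal_eq
  have hB : maximalIdeal (AdjoinRoot g) = Ideal.span {algebraMap O (AdjoinRoot g) π} := by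
    rw [← map_maximalIdeal_adjoinRoot hirr, hmax, Ideal.map_span, Set.image_singleton]
  have hπ0 : algebraMap O (AdjoinRoot g) π ≠ 0 := by
    rw [Ne, map_eq_zero_iff _ hinj]; exact hπ.ne_zero
  have hnf : ¬ IsField (AdjoinRoot g) := by
    rw [IsLocalRing.isField_iff_maximalIdeal_eq, hB, Ideal.span_singleton_eq_bot]
    exact hπ0
  refine ((IsDiscreteValuationRing.TFAE (AdjoinRoot g) hnf).out 0 4).mpr ?_
  rw [hB]
  exact ⟨⟨_, rfl⟩⟩

end DVR

end AdjoinRoot

/-- If `E = K[θ]` with `θ` coming from the `O`-algebra `B ⊆ E`, then `E` is the fraction field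
of `B`. -/
theorem isFractionRing_of_adjoin_eq_top {O K E B : Type*} [CommRing O] [IsDomain O]
    [Field K] [Algebra O K] [IsFractionRing O K] [Field E] [Algebra K E] [Algebra O E]
    [IsScalarTower O K E] [CommRing B] [Algebra O B] [Algebra B E] [IsScalarTower O B E]
    (hinj : Function.Injective (algebraMap B E)) (θ : B)
    (hθ : Algebra.adjoin K {algebraMap B E θ} = ⊤) : IsFractionRing B E := by
  have hdom : IsDomain B := hinj.isDomain (algebraMap B E)
  refine ⟨fun y => ?_, fun z => ?_, fun {x y} h => ⟨1, by rw [hinj h]⟩⟩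
  · exact IsUnit.mk0 _ (by
      rw [Ne, map_eq_zero_iff _ hinj]; exact nonZeroDivisors.ne_zero y.2)
  · have hz : z ∈ Algebra.adjoin K {algebraMap B E θ} := by rw [hθ]; exact Algebra.mem_top
    rw [Algebra.adjoin_singleton_eq_range_aeval] at hz
    obtain ⟨p, rfl⟩ := hz
    obtain ⟨b, hb, hbp⟩ := IsLocalization.integerNormalization_spec O⁰ p
    have hb0 : algebraMap O B b ≠ 0 := by
      intro h0
      have h1 : algebraMap O E b = 0 := by
        rw [IsScalarTower.algebraMap_apply O B E, h0, map_zero]
      rw [IsScalarTower.algebraMap_apply O K E, map_eq_zero, IsFractionRing.to_map_eq_zero_iff]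
        at h1
      exact nonZeroDivisors.ne_zero hb h1
    refine ⟨⟨aeval θ (IsLocalization.integerNormalization O⁰ p),
      ⟨algebraMap O B b, mem_nonZeroDivisors_of_ne_zero hb0⟩⟩, ?_⟩
    simp only
    rw [← algebraMap_smul K b p] at hbp
    rw [← aeval_algebraMap_apply, ← aeval_map_algebraMap K, hbp, map_smul, Algebra.smul_def,
      ← IsScalarTower.algebraMap_apply, IsScalarTower.algebraMap_apply O K E, mul_comm]
    rfl

section Embed

variable {O : Type*} [CommRing O] [IsDomain O] [IsDiscreteValuationRing O]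
variable (K : Type*) [Field K] [Algebra O K] [IsFractionRing O K]
variable {Ω : Type*} [Field Ω] [Algebra K Ω] [Algebra O Ω] [IsScalarTower O K Ω]
variable {g : O[X]}

include K in
theorem minpoly_eq_map_of_irreducible_map (hg : g.Monic) (hirr : Irreducible (g.map (residue O)))
    {θ : Ω} (hθ : aeval θ g = 0) : minpoly K θ = g.map (algebraMap O K) := by
  have h1 : Irreducible g := hg.irreducible_of_irreducible_map (residue O) g hirr
  have h2 : Irreducible (g.map (algebraMap O K)) :=
    (hg.irreducible_iff_irreducible_map_fraction_map).mp h1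
  refine (minpoly.eq_of_irreducible_of_monic h2 ?_ (hg.map _)).symm
  rw [aeval_map_algebraMap, hθ]

theorem isIntegral_of_aeval_eq_zero (hg : g.Monic) {θ : Ω} (hθ : aeval θ g = 0) :
    IsIntegral K θ :=
  ⟨g.map (algebraMap O K), hg.map _, by rw [← aeval_def, aeval_map_algebraMap, hθ]⟩

theorem finrank_adjoin_root (hg : g.Monic) (hirr : Irreducible (g.map (residue O)))
    {θ : Ω} (hθ : aeval θ g = 0) : finrank K K⟮θ⟯ = g.natDegree := by
  rw [adjoin.finrank (isIntegral_of_aeval_eq_zero K hg hθ),
    minpoly_eq_map_of_irreducible_map K hg hirr hθ, hg.natDegree_map]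

instance isScalarTower_intermediateField_top (E : IntermediateField K Ω) : IsScalarTower O E Ω :=
  IsScalarTower.of_algebraMap_eq fun _ => rfl

theorem aeval_gen_eq_zero {θ : Ω} (hθ : aeval θ g = 0) :
    aeval (AdjoinSimple.gen K θ) g = 0 := by
  apply (algebraMap K⟮θ⟯ Ω).injective
  rw [← aeval_algebraMap_apply, AdjoinSimple.algebraMap_gen, hθ, map_zero]

/-- The embedding of `O[X]/(g)` into `K(θ)` for a root `θ` of `g`. -/
noncomputable def adjoinRootToAdjoin {θ : Ω} (hθ : aeval θ g = 0) : AdjoinRoot g →ₐ[O] K⟮θ⟯ :=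
  AdjoinRoot.liftAlgHom g (Algebra.ofId O K⟮θ⟯) (AdjoinSimple.gen K θ)
    (by rw [← aeval_gen_eq_zero K hθ]; rfl)

@[simp]
theorem adjoinRootToAdjoin_root {θ : Ω} (hθ : aeval θ g = 0) :
    adjoinRootToAdjoin K hθ (AdjoinRoot.root g) = AdjoinSimple.gen K θ :=
  AdjoinRoot.liftAlgHom_root _ _ _ _

theorem adjoinRootToAdjoin_injective (hg : g.Monic) (hirr : Irreducible (g.map (residue O)))
    {θ : Ω} (hθ : aeval θ g = 0) : Function.Injective (adjoinRootToAdjoin K hθ) := by
  have := isDomain_adjoinRoot hg hirr
  have : Module.Finite O (AdjoinRoot g) := (AdjoinRoot.powerBasis' hg).finite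
  have hinj : Function.Injective (algebraMap O K⟮θ⟯) := by
    rw [IsScalarTower.algebraMap_eq O K K⟮θ⟯]
    exact (algebraMap K K⟮θ⟯).injective.comp (IsFractionRing.injective O K)
  rw [← RingHom.coe_coe, RingHom.injective_iff_ker_eq_bot]
  apply Ideal.eq_bot_of_comap_eq_bot (R := O)
  rw [RingHom.comap_ker, AlgHom.comp_algebraMap]
  exact (RingHom.injective_iff_ker_eq_bot _).mp hinj


/-- For a root `θ` of `g` (monic, irreducible mod `𝔪`), the ring of integers of `K(θ)` is
isomorphic to `O[X]/(g)`. -/
theorem exists_algEquiv_integralClosure_adjoin_root (hg : g.Monic)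
    (hirr : Irreducible (g.map (residue O))) {θ : Ω} (hθ : aeval θ g = 0) :
    Nonempty (AdjoinRoot g ≃ₐ[O] integralClosure O K⟮θ⟯) := by
  have := isDomain_adjoinRoot hg hirr
  have := isLocalRing_adjoinRoot hg hirr
  have := isDiscreteValuationRing_adjoinRoot hg hirr
  have : Module.Finite O (AdjoinRoot g) := finite_adjoinRoot hg
  let _ : Algebra (AdjoinRoot g) K⟮θ⟯ := (adjoinRootToAdjoin K hθ).toRingHom.toAlgebra
  have hmap : ∀ x, algebraMap (AdjoinRoot g) K⟮θ⟯ x = adjoinRootToAdjoin K hθ x := fun _ => rfl
  have : IsScalarTower O (AdjoinRoot g) K⟮θ⟯ :=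
    IsScalarTower.of_algebraMap_eq fun x => ((adjoinRootToAdjoin K hθ).commutes x).symm
  have hfr : IsFractionRing (AdjoinRoot g) K⟮θ⟯ := by
    refine isFractionRing_of_adjoin_eq_top (O := O) (K := K)
      (adjoinRootToAdjoin_injective K hg hirr hθ) (AdjoinRoot.root g) ?_
    rw [hmap, adjoinRootToAdjoin_root,
      ← adjoin.powerBasis_gen (isIntegral_of_aeval_eq_zero K hg hθ)]
    exact PowerBasis.adjoin_gen_eq_top _
  have hic : IsIntegralClosure (AdjoinRoot g) O K⟮θ⟯ :=
    IsIntegralClosure.of_isIntegrallyClosed (AdjoinRoot g) O K⟮θ⟯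
  exact ⟨IsIntegralClosure.equiv O (AdjoinRoot g) K⟮θ⟯ (integralClosure O K⟮θ⟯)⟩

/-- For a root `θ` of `g` (monic, irreducible mod `𝔪`), the maximal ideal of `O` generates a
maximal ideal in the ring of integers of `K(θ)`: `K(θ)/K` is unramified. -/
theorem isMaximal_map_integralClosure_adjoin_root (hg : g.Monic)
    (hirr : Irreducible (g.map (residue O))) {θ : Ω} (hθ : aeval θ g = 0) :
    ((maximalIdeal O).map (algebraMap O (integralClosure O K⟮θ⟯))).IsMaximal := by
  obtain ⟨e⟩ := exists_algEquiv_integralClosure_adjoin_root K hg hirr hθ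
  have h1 : (maximalIdeal O).map (algebraMap O (integralClosure O K⟮θ⟯)) =
      ((maximalIdeal O).map (algebraMap O (AdjoinRoot g))).map
        (e.toRingEquiv : AdjoinRoot g →+* integralClosure O K⟮θ⟯) := by
    rw [Ideal.map_map]
    congr 1
    exact RingHom.ext fun x => (e.commutes x).symm
  rw [h1]
  have : (Ideal.map (algebraMap O (AdjoinRoot g)) (maximalIdeal O)).IsMaximal :=
    isMaximal_map_maximalIdeal_adjoinRoot g hirr
  exact Ideal.map_isMaximal_of_equiv e.toRingEquiv

end Embed

end Fermat.Agent.S55.Local.Unram
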