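/-
S55 package LO2 (unramified local extensions), part 4: unramified subextensions of a fixed `Ω/K`.

Setting: `O` a DVR with finite residue field, `K = Frac O` perfect, `Ω ⊇ K` a field; standing
hypothesis `HenselianTower O K Ω`: the ring of integers `integralClosure O E` of every finite
subextension `E` is a Henselian local ring.

* `IsUnramifiedIn O E`: `E/K` finite and `𝔪_O` generates a maximal ideal of the integers of `E`;
* unramified ⇒ Galois, cyclic, Frobenius (`IsUnramifiedIn.frob`, `frob_apply`, `eq_frob`);
* `IsUnramifiedIn.le_iff`: `E ≤ E' ↔ f(E) ∣ f(E')`; uniqueness per degree (`eq_of_finrank_eq`);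
* maximal unramified subextension (`exists_isUnramifiedIn_le`, `IsUnramifiedIn.le_of_le`);
* composita and subextensions of unramified extensions are unramified (`sup`, `of_le`).
-/
import Fermat.Agent.S55.Local.UnramExist

set_option linter.unusedSectionVars false
set_option linter.overlappingInstances false

namespace Fermat.Agent.S55.Local.Unram

open IsLocalRing Polynomial Module IntermediateField nonZeroDivisors

theorem isLocalRing_of_isMaximal_map {O C : Type*} [CommRing O] [IsLocalRing O] [CommRing C]
    [Algebra O C] [Algebra.IsIntegral O C]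
    (h : ((maximalIdeal O).map (algebraMap O C)).IsMaximal) : IsLocalRing C := by
  refine IsLocalRing.of_unique_max_ideal ⟨_, h, fun M hM => ?_⟩
  have hM' : (M.comap (algebraMap O C)).IsMaximal :=
    Ideal.isMaximal_comap_of_isIntegral_of_isMaximal M
  have hle : (maximalIdeal O).map (algebraMap O C) ≤ M := by
    rw [Ideal.map_le_iff_le_comap, ← eq_maximalIdeal hM']
  exact (h.eq_of_le hM.ne_top hle).symm

section Field

variable (O : Type*) [CommRing O] [IsDomain O] [IsDiscreteValuationRing O]
variable (K : Type*) [Field K] [Algebra O K] [IsFractionRing O K]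
variable (Ω : Type*) [Field Ω] [Algebra K Ω] [Algebra O Ω] [IsScalarTower O K Ω]

class HenselianTower : Prop where
  henselian (E : IntermediateField K Ω) [FiniteDimensional K E] :
    HenselianLocalRing (integralClosure O E)

variable {K Ω}

instance instHenselianIntegralClosure [HenselianTower O K Ω] (E : IntermediateField K Ω)
    [FiniteDimensional K E] : HenselianLocalRing (integralClosure O E) :=
  HenselianTower.henselian E

instance instIsFractionRingIntegralClosure (E : IntermediateField K Ω) [FiniteDimensional K E] :
    IsFractionRing (integralClosure O E) E :=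
  integralClosure.isFractionRing_of_finite_extension K E

instance instFiniteIntegralClosure [PerfectField K] (E : IntermediateField K Ω)
    [FiniteDimensional K E] : Module.Finite O (integralClosure O E) :=
  IsIntegralClosure.finite O K E _

theorem algebraMap_intermediateField_injective (E : IntermediateField K Ω) :
    Function.Injective (algebraMap O E) := by
  rw [IsScalarTower.algebraMap_eq O K E]
  exact (algebraMap K E).injective.comp (IsFractionRing.injective O K)

instance instIsTorsionFreeIntermediateField (E : IntermediateField K Ω) : IsTorsionFree O E := by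
  have : FaithfulSMul O E := (faithfulSMul_iff_algebraMap_injective O E).mpr
    (algebraMap_intermediateField_injective O E)
  infer_instance

/-- The finite subextension `E` of `Ω/K` is unramified over `K`: the maximal ideal of `O` generates
a maximal ideal of the ring of integers of `E`. -/
def IsUnramifiedIn (E : IntermediateField K Ω) : Prop :=
  FiniteDimensional K E ∧
    ((maximalIdeal O).map (algebraMap O (integralClosure O E))).IsMaximal

variable {O}
variable [PerfectField K] [Finite (ResidueField O)] [HenselianTower O K Ω]

theorem IsUnramifiedIn.finiteDimensional {E : IntermediateField K Ω} (h : IsUnramifiedIn O E) :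
    FiniteDimensional K E := h.1

theorem IsUnramifiedIn.isUnram {E : IntermediateField K Ω} [FiniteDimensional K E]
    (h : IsUnramifiedIn O E) : IsUnram O (integralClosure O E) :=
  ⟨(eq_maximalIdeal h.2), inferInstance⟩

theorem isUnramifiedIn_iff_isUnram {E : IntermediateField K Ω} [FiniteDimensional K E] :
    IsUnramifiedIn O E ↔ IsUnram O (integralClosure O E) :=
  ⟨fun h => h.isUnram, fun h => ⟨inferInstance, by rw [h.map_eq]; infer_instance⟩⟩

theorem IsUnramifiedIn.finrank_eq {E : IntermediateField K Ω} [FiniteDimensional K E]
    (h : IsUnramifiedIn O E) :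
    finrank K E = finrank (ResidueField O) (ResidueField (integralClosure O E)) :=
  h.isUnram.finrank_eq_finrank_residueField K E

theorem IsUnramifiedIn.isGalois {E : IntermediateField K Ω} (h : IsUnramifiedIn O E) :
    IsGalois K E := by
  have := h.1
  exact h.isUnram.isGalois K E

theorem IsUnramifiedIn.isCyclic {E : IntermediateField K Ω} (h : IsUnramifiedIn O E) :
    IsCyclic Gal(E/K) := by
  have := h.1
  exact h.isUnram.isCyclic_gal K E

/-- The Frobenius of the unramified extension `E/K`. -/
noncomputable def IsUnramifiedIn.frob {E : IntermediateField K Ω} (h : IsUnramifiedIn O E) :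
    Gal(E/K) :=
  haveI := h.1
  h.isUnram.frobGal K E

theorem IsUnramifiedIn.orderOf_frob {E : IntermediateField K Ω} (h : IsUnramifiedIn O E) :
    orderOf h.frob = finrank K E := by
  have := h.1
  exact h.isUnram.orderOf_frobGal K E

theorem IsUnramifiedIn.mem_zpowers_frob {E : IntermediateField K Ω} (h : IsUnramifiedIn O E)
    (σ : Gal(E/K)) : σ ∈ Subgroup.zpowers h.frob := by
  have := h.1
  exact h.isUnram.mem_zpowers_frobGal K E σ

/-- The Frobenius acts as `x ↦ x ^ #k` modulo the maximal ideal on integers. -/
theorem IsUnramifiedIn.frob_apply {E : IntermediateField K Ω} [FiniteDimensional K E]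
    (h : IsUnramifiedIn O E) (b : integralClosure O E) :
    ∃ c ∈ maximalIdeal (integralClosure O E),
      h.frob (b : E) = ((b ^ Nat.card (ResidueField O) + c : integralClosure O E) : E) := by
  refine ⟨h.isUnram.frob b - b ^ Nat.card (ResidueField O), h.isUnram.frob_sub_pow_mem b, ?_⟩
  rw [add_sub_cancel]
  exact h.isUnram.frobGal_algebraMap K E b

theorem IsUnramifiedIn.eq_frob {E : IntermediateField K Ω} [FiniteDimensional K E]
    (h : IsUnramifiedIn O E) (σ : Gal(E/K))
    (hσ : ∀ b : integralClosure O E, ∃ c ∈ maximalIdeal (integralClosure O E),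
      σ (b : E) = ((b ^ Nat.card (ResidueField O) + c : integralClosure O E) : E)) :
    σ = h.frob :=
  h.isUnram.eq_frobGal K E σ hσ


section Incl

/-- The inclusion of rings of integers induced by `E ≤ E'`. -/
noncomputable def intIncl (O : Type*) [CommRing O] [IsDomain O] [IsDiscreteValuationRing O]
    [Algebra O K] [IsFractionRing O K] [Algebra O Ω] [IsScalarTower O K Ω]
    {E E' : IntermediateField K Ω} (hEE' : E ≤ E') :
    integralClosure O E →ₐ[O] integralClosure O E' :=
  galRestrict' O (integralClosure O E) (integralClosure O E') (IntermediateField.inclusion hEE')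

omit [PerfectField K] [Finite (ResidueField O)] [HenselianTower O K Ω] in
theorem coe_intIncl {E E' : IntermediateField K Ω} (hEE' : E ≤ E') (b : integralClosure O E) :
    ((intIncl O hEE' b : E') : Ω) = ((b : E) : Ω) := by
  have := algebraMap_galRestrict'_apply O (integralClosure O E) (integralClosure O E')
    (IntermediateField.inclusion hEE') b
  exact congrArg (Subtype.val) this

omit [PerfectField K] [Finite (ResidueField O)] [HenselianTower O K Ω] in
/-- An integer of `E'` lying in `E ≤ E'` is an integer of `E`. -/
theorem exists_intIncl_eq {E E' : IntermediateField K Ω} (hEE' : E ≤ E')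
    (z : integralClosure O E') (hz : ((z : E') : Ω) ∈ E) :
    ∃ w : integralClosure O E, intIncl O hEE' w = z := by
  have hint : IsIntegral O (⟨((z : E') : Ω), hz⟩ : E) := by
    have h1 : IsIntegral O (z : E') := z.2
    have h2 : (IntermediateField.inclusion hEE').restrictScalars O ⟨((z : E') : Ω), hz⟩ =
        (z : E') := rfl
    rw [← h2] at h1
    exact (isIntegral_algHom_iff ((IntermediateField.inclusion hEE').restrictScalars O)
      (IntermediateField.inclusion hEE').injective).mp h1
  refine ⟨⟨_, hint⟩, ?_⟩
  apply Subtype.ext
  apply Subtype.ext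
  rw [coe_intIncl]

omit [PerfectField K] [Finite (ResidueField O)] [HenselianTower O K Ω] in
theorem intIncl_injective {E E' : IntermediateField K Ω} (hEE' : E ≤ E') :
    Function.Injective (intIncl O hEE') := by
  intro a b hab
  apply Subtype.ext
  apply Subtype.ext
  rw [← coe_intIncl hEE' a, ← coe_intIncl hEE' b, hab]

end Incl

section Compare

variable {E E' : IntermediateField K Ω} [FiniteDimensional K E] [FiniteDimensional K E']

/-- If `E ≤ E'` with `E/K` unramified, the residue degree of `E` divides that of `E'`. -/
theorem IsUnramifiedIn.finrank_residueField_dvd (h : IsUnramifiedIn O E) (hEE' : E ≤ E') :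
    finrank (ResidueField O) (ResidueField (integralClosure O E)) ∣
      finrank (ResidueField O) (ResidueField (integralClosure O E')) := by
  have : Finite (ResidueField (integralClosure O E')) := ResidueField.finite_of_finite ‹_›
  exact FiniteField.nonempty_algHom_iff_finrank_dvd.mp ⟨h.isUnram.resHom (intIncl O hEE')⟩

/-- An unramified `E` is contained in the finite `E'` as soon as the residue degree of `E` divides
that of `E'`. -/
theorem IsUnramifiedIn.le_of_finrank_residueField_dvd (h : IsUnramifiedIn O E)
    (hdvd : finrank (ResidueField O) (ResidueField (integralClosure O E)) ∣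
      finrank (ResidueField O) (ResidueField (integralClosure O E'))) : E ≤ E' := by
  have : Finite (ResidueField (integralClosure O E')) := ResidueField.finite_of_finite ‹_›
  obtain ⟨ψ⟩ := FiniteField.nonempty_algHom_iff_finrank_dvd.mpr hdvd
  obtain ⟨φ, -⟩ := h.isUnram.resHom_bijective.2 ψ
  have := h.isGalois
  let f : E →ₐ[K] Ω := E'.val.comp (galLift K E E' φ)
  have hf : f.fieldRange = E := AlgHom.fieldRange_of_normal f
  rw [← hf]
  rintro x ⟨y, rfl⟩
  exact (galLift K E E' φ y).2

theorem IsUnramifiedIn.le_iff (h : IsUnramifiedIn O E) :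
    E ≤ E' ↔ finrank (ResidueField O) (ResidueField (integralClosure O E)) ∣
      finrank (ResidueField O) (ResidueField (integralClosure O E')) :=
  ⟨h.finrank_residueField_dvd, h.le_of_finrank_residueField_dvd⟩

/-- For unramified `E, E'`: `E ≤ E' ↔ [E:K] ∣ [E':K]`. -/
theorem IsUnramifiedIn.le_iff_finrank_dvd (h : IsUnramifiedIn O E) (h' : IsUnramifiedIn O E') :
    E ≤ E' ↔ finrank K E ∣ finrank K E' := by
  rw [h.le_iff, h.finrank_eq, h'.finrank_eq]

/-- Uniqueness: two unramified subextensions of the same degree coincide. -/
theorem IsUnramifiedIn.eq_of_finrank_eq (h : IsUnramifiedIn O E) (h' : IsUnramifiedIn O E')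
    (hdeg : finrank K E = finrank K E') : E = E' :=
  le_antisymm ((h.le_iff_finrank_dvd h').mpr (hdeg ▸ dvd_rfl))
    ((h'.le_iff_finrank_dvd h).mpr (hdeg ▸ dvd_rfl))

end Compare


section MaxUnram

/-- For every element `α` of the residue field of the finite subextension `E'`, there is an
unramified subextension of `E'` of degree `deg (minpoly k α)` (generated by a Hensel lift). -/
theorem exists_isUnramifiedIn_le_of_residue (E' : IntermediateField K Ω) [FiniteDimensional K E']
    (α : ResidueField (integralClosure O E')) :
    ∃ E₀ : IntermediateField K Ω, E₀ ≤ E' ∧ IsUnramifiedIn O E₀ ∧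
      finrank K E₀ = (minpoly (ResidueField O) α).natDegree := by
  have hint : IsIntegral (ResidueField O) α := Algebra.IsIntegral.isIntegral α
  have hlift : minpoly (ResidueField O) α ∈ Polynomial.lifts (residue O) :=
    (Polynomial.mem_lifts _).mpr (Polynomial.map_surjective _ residue_surjective _)
  obtain ⟨g, hgmap, hgdeg, hg⟩ :=
    Polynomial.lifts_and_natDegree_eq_and_monic hlift (minpoly.monic hint)
  have hirr : Irreducible (g.map (residue O)) := hgmap ▸ minpoly.irreducible hint
  have hsep : (g.map (residue O)).Separable := by
    rw [hgmap]; exact Algebra.IsSeparable.isSeparable _ α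
  have hα : aeval α g = 0 := by
    rw [← aeval_map_residue, hgmap, minpoly.aeval]
  have hα' : aeval α (derivative g) ≠ 0 := by
    rw [← aeval_map_residue, ← derivative_map]
    exact hsep.aeval_derivative_ne_zero (by rw [aeval_map_residue, hα])
  obtain ⟨θ, ⟨hθ, -⟩, -⟩ := existsUnique_root g hg α hα hα'
  let ι : integralClosure O E' →ₐ[O] Ω :=
    (IsScalarTower.toAlgHom O E' Ω).comp (integralClosure O E').val
  have hθΩ : aeval (ι θ) g = 0 := by rw [aeval_algHom_apply, hθ, map_zero]
  refine ⟨K⟮ι θ⟯, adjoin_simple_le_iff.mpr (θ : E').2, ⟨?_, ?_⟩, ?_⟩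
  · exact adjoin.finiteDimensional (isIntegral_of_aeval_eq_zero K hg hθΩ)
  · exact isMaximal_map_integralClosure_adjoin_root K hg hirr hθΩ
  · rw [finrank_adjoin_root K hg hirr hθΩ, hgdeg]

/-- The maximal unramified subextension of a finite subextension `E'`: it has degree the residue
degree of `E'`. -/
theorem exists_isUnramifiedIn_le (E' : IntermediateField K Ω) [FiniteDimensional K E'] :
    ∃ E₀ : IntermediateField K Ω, E₀ ≤ E' ∧ IsUnramifiedIn O E₀ ∧
      finrank K E₀ = finrank (ResidueField O) (ResidueField (integralClosure O E')) := by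
  obtain ⟨α, hα⟩ := Field.exists_primitive_element (ResidueField O)
    (ResidueField (integralClosure O E'))
  obtain ⟨E₀, h1, h2, h3⟩ := exists_isUnramifiedIn_le_of_residue (O := O) E' α
  refine ⟨E₀, h1, h2, ?_⟩
  rw [h3, ← adjoin.finrank (Algebra.IsIntegral.isIntegral α), hα, finrank_top']

/-- Every unramified subextension of `E'` is contained in any unramified subextension whose
degree is the residue degree of `E'`. -/
theorem IsUnramifiedIn.le_of_le {E E₀ E' : IntermediateField K Ω} [FiniteDimensional K E']
    (h : IsUnramifiedIn O E) (hEE' : E ≤ E') (h₀ : IsUnramifiedIn O E₀)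
    (hdeg : finrank K E₀ = finrank (ResidueField O) (ResidueField (integralClosure O E'))) :
    E ≤ E₀ := by
  have := h.1
  have := h₀.1
  rw [h.le_iff, ← h₀.finrank_eq, hdeg]
  exact h.finrank_residueField_dvd hEE'

/-- The compositum of two unramified extensions is unramified. -/
theorem IsUnramifiedIn.sup {E₁ E₂ : IntermediateField K Ω} (h₁ : IsUnramifiedIn O E₁)
    (h₂ : IsUnramifiedIn O E₂) : IsUnramifiedIn O (E₁ ⊔ E₂) := by
  have := h₁.1
  have := h₂.1
  obtain ⟨E₀, h01, h02, h03⟩ := exists_isUnramifiedIn_le (O := O) (E₁ ⊔ E₂)
  have : E₁ ⊔ E₂ = E₀ :=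
    le_antisymm (sup_le (h₁.le_of_le le_sup_left h02 h03) (h₂.le_of_le le_sup_right h02 h03)) h01
  rw [this]
  exact h02

end MaxUnram


section Sub

/-- A subextension of an unramified extension is unramified. -/
theorem IsUnramifiedIn.of_le {E E' : IntermediateField K Ω} (h' : IsUnramifiedIn O E')
    (hEE' : E ≤ E') : IsUnramifiedIn O E := by
  have := h'.1
  have hfin : FiniteDimensional K E :=
    Module.Finite.of_injective (IntermediateField.inclusion hEE').toLinearMap
      (IntermediateField.inclusion hEE').injective
  refine ⟨hfin, ?_⟩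
  suffices hsuff : (maximalIdeal O).map (algebraMap O (integralClosure O E)) =
      maximalIdeal (integralClosure O E) by rw [hsuff]; infer_instance
  refine le_antisymm (map_maximalIdeal_le _) ?_
  intro x hx
  obtain ⟨π, hπ⟩ := IsDiscreteValuationRing.exists_irreducible O
  have hmax : maximalIdeal O = Ideal.span {π} := hπ.maximalIdeal_eq
  -- the image of `x` in `𝒪_{E'}` is a non-unit
  have hx' : intIncl O hEE' x ∈ maximalIdeal (integralClosure O E') := by
    rw [mem_maximalIdeal, mem_nonunits_iff]
    intro hu
    obtain ⟨y, hy⟩ := hu.exists_right_inv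
    have hyΩ : (((intIncl O hEE' x : integralClosure O E') : E') : Ω) * ((y : E') : Ω) = 1 := by
      have := congrArg (fun t : integralClosure O E' => ((t : E') : Ω)) hy
      simpa using this
    rw [coe_intIncl] at hyΩ
    have hyE : ((y : E') : Ω) ∈ E := by
      have : ((y : E') : Ω) = (((x : E) : Ω))⁻¹ := eq_inv_of_mul_eq_one_right hyΩ
      rw [this]
      exact E.inv_mem (x : E).2
    obtain ⟨w, hw⟩ := exists_intIncl_eq hEE' y hyE
    have hxw : x * w = 1 := by
      apply intIncl_injective (O := O) hEE'
      rw [map_mul, hw, hy, map_one]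
    exact (mem_maximalIdeal x).mp hx (IsUnit.of_mul_eq_one _ hxw)
  rw [← h'.isUnram.map_eq, hmax, Ideal.map_span, Set.image_singleton,
    Ideal.mem_span_singleton'] at hx'
  obtain ⟨y, hy⟩ := hx'
  have hπ0 : (algebraMap O Ω π) ≠ 0 := by
    rw [IsScalarTower.algebraMap_apply O K Ω, Ne, map_eq_zero, IsFractionRing.to_map_eq_zero_iff]
    exact hπ.ne_zero
  have hyΩ : ((y : E') : Ω) * algebraMap O Ω π = ((x : E) : Ω) := by
    have := congrArg (fun t : integralClosure O E' => ((t : E') : Ω)) hy
    rw [← coe_intIncl hEE' x, ← this]
    rfl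
  have hyE : ((y : E') : Ω) ∈ E := by
    have : ((y : E') : Ω) = ((x : E) : Ω) * (algebraMap O Ω π)⁻¹ := by
      rw [← hyΩ, mul_assoc, mul_inv_cancel₀ hπ0, mul_one]
    rw [this]
    refine E.mul_mem (x : E).2 (E.inv_mem ?_)
    rw [IsScalarTower.algebraMap_apply O K Ω]
    exact E.algebraMap_mem _
  obtain ⟨w, hw⟩ := exists_intIncl_eq hEE' y hyE
  have hxw : x = w * algebraMap O (integralClosure O E) π := by
    apply intIncl_injective (O := O) hEE'
    rw [map_mul, hw, AlgHom.commutes, hy]
  rw [hmax, Ideal.map_span, Set.image_singleton, Ideal.mem_span_singleton']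
  exact ⟨w, hxw.symm⟩

end Sub

end Field

end Fermat.Agent.S55.Local.Unram
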