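/-
S55 / local glue (G1): the level structure `localLevel (localGaloisToGlobal q)` used by the
bridge / cone side (`Assembly.localData`) IS the Krull level structure of
`Gal(PadicAlgCl q / ℚ_q)` used by the local class field theory side (`GaloisLevel.krullLevel`).
(helper27)
-/
import Fermat.Agent.S55.GaloisLevel
import Fermat.Agent.S55.LevelGalois
import Fermat.Agent.S55.LocalKrasner

set_option autoImplicit false

open ExtCitation

namespace Fermat.Agent.S55.Local.KrullLocal

open Fermat.Agent.S55.Level Fermat.Agent.S55.GaloisLevel Fermat.Agent.S55.LocalDict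

/-- Two level structures with the same members are equal. -/
theorem levelStructure_ext {G : Type} [Group G] {𝒰 𝒱 : LevelStructure G}
    (h : 𝒰.sets = 𝒱.sets) : 𝒰 = 𝒱 := by
  cases 𝒰; cases 𝒱; cases h; rfl

section Padic

variable (q : ℕ) [Fact q.Prime]

/-- The members of `localLevel (localGaloisToGlobal q)` are the open normal subgroups of
`Gal(PadicAlgCl q/ℚ_q)` (Krasner cofinality). -/
theorem mem_localLevel_iff (V : Subgroup (PadicAlgCl q ≃ₐ[ℚ_[q]] PadicAlgCl q)) :
    V ∈ (localLevel (localGaloisToGlobal q)).sets ↔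
      V ∈ (krullLevel ℚ_[q] (PadicAlgCl q)).sets := by
  constructor
  · rintro ⟨hVn, F, hF, hFV⟩
    have := hF
    refine ⟨hVn, localField q F, inferInstance, ?_⟩
    rw [← comap_fixingSubgroup]
    exact hFV
  · rintro ⟨hVn, E, hE, hEV⟩
    have := hE
    obtain ⟨F, hF1, _, hF3⟩ := exists_comap_fixingSubgroup_le q E
    exact ⟨hVn, F, hF1, hF3.trans hEV⟩

/-- **(G1)** `localLevel (localGaloisToGlobal q) = krullLevel ℚ_q (PadicAlgCl q)`. -/
theorem localLevel_eq_krullLevel :
    localLevel (localGaloisToGlobal q) = krullLevel ℚ_[q] (PadicAlgCl q) :=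
  levelStructure_ext (Set.ext (mem_localLevel_iff q))

/-- The level subgroup `r⁻¹ Gal(ℚ̄/F)` is Krull-open. -/
theorem isKrullOpen_comap_fixingSubgroup (F : IntermediateField ℚ (AlgebraicClosure ℚ))
    [FiniteDimensional ℚ F] :
    IsKrullOpen ℚ_[q] (PadicAlgCl q) (F.fixingSubgroup.comap (localGaloisToGlobal q)) :=
  ⟨localField q F, inferInstance, (comap_fixingSubgroup q F).ge⟩

/-- Every Krull-open subgroup contains a level subgroup `r⁻¹ Gal(ℚ̄/F)`, `F/ℚ` finite normal. -/
theorem exists_comap_le_of_isKrullOpen {U : Subgroup (PadicAlgCl q ≃ₐ[ℚ_[q]] PadicAlgCl q)}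
    (hU : IsKrullOpen ℚ_[q] (PadicAlgCl q) U) :
    ∃ F : IntermediateField ℚ (AlgebraicClosure ℚ), FiniteDimensional ℚ F ∧ Normal ℚ F ∧
      F.fixingSubgroup.comap (localGaloisToGlobal q) ≤ U := by
  obtain ⟨E, hE, hEU⟩ := hU
  have := hE
  obtain ⟨F, hF1, hF2, hF3⟩ := exists_comap_fixingSubgroup_le q E
  exact ⟨F, hF1, hF2, hF3.trans hEU⟩

end Padic

section Primes

variable (q : Nat.Primes)

local instance factPrime_KL : Fact (q : ℕ).Prime := ⟨q.2⟩

/-- **(G1)** in the frozen types of `Assembly.localData`. -/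
theorem localLevel_primeLocalToGlobal_eq :
    localLevel (primeLocalToGlobal q) =
      (krullLevel ℚ_[(q : ℕ)] (PadicAlgCl (q : ℕ)) : LevelStructure (primeLocalGaloisGroup q)) :=
  localLevel_eq_krullLevel (q : ℕ)

theorem mem_localLevel_primeLocalToGlobal_iff (V : Subgroup (primeLocalGaloisGroup q)) :
    V ∈ (localLevel (primeLocalToGlobal q)).sets ↔
      V ∈ (krullLevel ℚ_[(q : ℕ)] (PadicAlgCl (q : ℕ))).sets :=
  mem_localLevel_iff (q : ℕ) V

end Primes

end Fermat.Agent.S55.Local.KrullLocal
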