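/-
S55 package LO2 (unramified local extensions), part 5: the tower of unramified extensions.

* `henselianTower_of_isAdicComplete`: the standing hypothesis `HenselianTower O K Ω` holds for a
  complete DVR `O` (helper8's `CompleteDVR`);
* `exists_isUnramifiedIn_finrank_eq`, `unramExt O Ω n`: in an algebraically closed `Ω` the
  unramified extension of degree `n`; `unramExt_le_iff : unramExt n ≤ unramExt m ↔ n ∣ m`,
  `IsUnramifiedIn.eq_unramExt`;
* `IsUnram.eq_frob_pow`, `IsUnram.eq_frobGal_pow`, `IsUnramifiedIn.eq_frob_pow`: characterisation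
  of the powers of the Frobenius;
* `isUnramifiedIn_adjoin_root_of_separable`: a root of a monic polynomial with separable
  reduction generates an unramified extension;
* `IsSmallInt O c` (cast-free "`c` lies in the maximal ideal of the integers of `Ω`"),
  `IsUnramifiedIn.eq_frob_pow_of_isSmallInt`, `isSmallInt_frob_pow`, and
  `IsUnramifiedIn.frob_restrict` (`Frob_{E'}` restricts to `Frob_E` for unramified `E ≤ E'`).
-/
import Fermat.Agent.S55.Local.UnramField
import Fermat.Agent.S55.Local.CompleteDVR

set_option linter.unusedSectionVars false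
set_option linter.overlappingInstances false

namespace Fermat.Agent.S55.Local.Unram

open IsLocalRing Polynomial Module IntermediateField nonZeroDivisors

section FrobPow

variable {O : Type*} [CommRing O] [IsLocalRing O] [IsDomain O] [IsIntegrallyClosed O]
variable {B : Type*} [CommRing B] [HenselianLocalRing B] [IsDomain B] [Algebra O B]
  [IsLocalHom (algebraMap O B)] [IsTorsionFree O B] [Module.Finite O B]
  [Finite (ResidueField O)]

theorem IsUnram.residue_frob_pow (h : IsUnram O B) (j : ℕ) (b : B) :
    residue B ((h.frob ^ j) b) = residue B b ^ (Nat.card (ResidueField O) ^ j) := by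
  induction j generalizing b with
  | zero => simp
  | succ j ih =>
    rw [pow_succ', AlgEquiv.mul_apply, h.residue_frob, ih, ← pow_mul, pow_succ]

/-- The `j`-th power of the Frobenius is the unique automorphism inducing `x ↦ x ^ (#k ^ j)`
on the residue field. -/
theorem IsUnram.eq_frob_pow (h : IsUnram O B) (σ : B ≃ₐ[O] B) (j : ℕ)
    (hσ : ∀ b, σ b - b ^ (Nat.card (ResidueField O) ^ j) ∈ maximalIdeal B) : σ = h.frob ^ j := by
  apply h.autEquiv.injective
  ext x
  obtain ⟨b, rfl⟩ := residue_surjective x
  rw [h.autEquiv_residue, h.autEquiv_residue, h.residue_frob_pow, ← map_pow, ← sub_eq_zero,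
    ← map_sub, residue_eq_zero_iff]
  exact hσ b

variable (K E : Type*) [Field K] [Algebra O K] [IsFractionRing O K]
  [Field E] [Algebra K E] [Algebra O E] [IsScalarTower O K E]
  [Algebra B E] [IsScalarTower O B E] [IsFractionRing B E]
  [IsIntegralClosure B O E] [FiniteDimensional K E]

theorem IsUnram.eq_frobGal_pow (h : IsUnram O B) (σ : Gal(E/K)) (j : ℕ)
    (hσ : ∀ b : B, ∃ c ∈ maximalIdeal B,
      σ (algebraMap B E b) = algebraMap B E (b ^ (Nat.card (ResidueField O) ^ j) + c)) :
    σ = h.frobGal K E ^ j := by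
  rw [IsUnram.frobGal, ← map_pow, MulEquiv.eq_symm_apply]
  apply h.eq_frob_pow
  intro b
  obtain ⟨c, hc, hbc⟩ := hσ b
  rw [← algebraMap_galRestrict_apply O] at hbc
  have := (IsFractionRing.injective B E) hbc
  rw [this, add_sub_cancel_left]
  exact hc

end FrobPow

section Tower

variable (O : Type*) [CommRing O] [IsDomain O] [IsDiscreteValuationRing O]
variable {K : Type*} [Field K] [Algebra O K] [IsFractionRing O K]
variable (Ω : Type*) [Field Ω] [Algebra K Ω] [Algebra O Ω] [IsScalarTower O K Ω]

/-- For a complete DVR `O` (with perfect fraction field) the standing hypothesis holds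
(helper8's `CompleteDVR`). -/
instance henselianTower_of_isAdicComplete [IsAdicComplete (maximalIdeal O) O] [PerfectField K] :
    HenselianTower O K Ω where
  henselian E _ := by
    have := Fermat.Agent.S55.Local.isLocalRing_of_isIntegralClosure O K E (integralClosure O E)
    have := Fermat.Agent.S55.Local.isAdicComplete_maximalIdeal_of_isIntegralClosure O K E
      (integralClosure O E)
    exact henselianLocalRing_of_isAdicComplete _

variable [Finite (ResidueField O)]

/-- In an algebraically closed `Ω` there are unramified extensions of every degree. -/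
theorem exists_isUnramifiedIn_finrank_eq [IsAlgClosed Ω] {n : ℕ} (hn : 0 < n) :
    ∃ E : IntermediateField K Ω, IsUnramifiedIn O E ∧ finrank K E = n := by
  obtain ⟨f, hfm, hfi, hfd⟩ := exists_monic_irreducible_natDegree (ResidueField O) hn
  have hlift : f ∈ Polynomial.lifts (residue O) :=
    (Polynomial.mem_lifts _).mpr (Polynomial.map_surjective _ residue_surjective _)
  obtain ⟨g, hgmap, hgdeg, hg⟩ := Polynomial.lifts_and_natDegree_eq_and_monic hlift hfm
  have hirr : Irreducible (g.map (residue O)) := hgmap ▸ hfi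
  have hdeg : (g.map (algebraMap O K)).degree ≠ 0 := by
    rw [hg.degree_map, degree_eq_natDegree hg.ne_zero, hgdeg, hfd]
    exact_mod_cast hn.ne'
  obtain ⟨θ, hθ⟩ := IsAlgClosed.exists_aeval_eq_zero Ω (g.map (algebraMap O K)) hdeg
  rw [aeval_map_algebraMap] at hθ
  refine ⟨K⟮θ⟯, ⟨?_, ?_⟩, ?_⟩
  · exact adjoin.finiteDimensional (isIntegral_of_aeval_eq_zero K hg hθ)
  · exact isMaximal_map_integralClosure_adjoin_root K hg hirr hθ
  · rw [finrank_adjoin_root K hg hirr hθ, hgdeg, hfd]


section Canonical

variable [IsAlgClosed Ω]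

/-- The unramified extension of degree `n` of `K` inside the algebraically closed `Ω`
(`⊥` for `n = 0`). -/
noncomputable def unramExt (n : ℕ) : IntermediateField K Ω :=
  if hn : 0 < n then Classical.choose (exists_isUnramifiedIn_finrank_eq O Ω hn) else ⊥

theorem isUnramifiedIn_unramExt {n : ℕ} (hn : 0 < n) : IsUnramifiedIn O (unramExt O Ω n (K := K)) := by
  rw [unramExt, dif_pos hn]
  exact (Classical.choose_spec (exists_isUnramifiedIn_finrank_eq O Ω hn)).1

theorem finrank_unramExt {n : ℕ} (hn : 0 < n) : finrank K (unramExt O Ω n (K := K)) = n := by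
  rw [unramExt, dif_pos hn]
  exact (Classical.choose_spec (exists_isUnramifiedIn_finrank_eq O Ω hn)).2

variable [PerfectField K] [HenselianTower O K Ω]

/-- Every unramified subextension is the canonical one of its degree. -/
theorem IsUnramifiedIn.eq_unramExt {E : IntermediateField K Ω} (h : IsUnramifiedIn O E) :
    E = unramExt O Ω (finrank K E) := by
  have := h.1
  have hpos : 0 < finrank K E := finrank_pos
  have := (isUnramifiedIn_unramExt O Ω (K := K) hpos).1
  exact h.eq_of_finrank_eq (isUnramifiedIn_unramExt O Ω hpos) (finrank_unramExt O Ω hpos).symm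

theorem unramExt_le_iff {n m : ℕ} (hn : 0 < n) (hm : 0 < m) :
    unramExt O Ω n (K := K) ≤ unramExt O Ω m ↔ n ∣ m := by
  have := (isUnramifiedIn_unramExt O Ω (K := K) hn).1
  have := (isUnramifiedIn_unramExt O Ω (K := K) hm).1
  rw [(isUnramifiedIn_unramExt O Ω hn).le_iff_finrank_dvd (isUnramifiedIn_unramExt O Ω hm),
    finrank_unramExt O Ω hn, finrank_unramExt O Ω hm]

end Canonical


section SepRoot

variable {O Ω}
variable [PerfectField K] [HenselianTower O K Ω]

theorem IsUnramifiedIn.eq_frob_pow {E : IntermediateField K Ω} [FiniteDimensional K E]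
    (h : IsUnramifiedIn O E) (σ : Gal(E/K)) (j : ℕ)
    (hσ : ∀ b : integralClosure O E, ∃ c ∈ maximalIdeal (integralClosure O E),
      σ (b : E) = ((b ^ (Nat.card (ResidueField O) ^ j) + c : integralClosure O E) : E)) :
    σ = h.frob ^ j :=
  h.isUnram.eq_frobGal_pow K E σ j hσ

/-- **Roots of polynomials with separable reduction generate unramified extensions**: if `θ ∈ Ω`
is a root of a monic `g : O[X]` whose reduction is separable, then `K(θ)/K` is unramified. -/
theorem isUnramifiedIn_adjoin_root_of_separable {g : O[X]} (hg : g.Monic)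
    (hsep : (g.map (residue O)).Separable) {θ : Ω} (hθ : aeval θ g = 0) :
    IsUnramifiedIn O K⟮θ⟯ := by
  have hθint : IsIntegral K θ := isIntegral_of_aeval_eq_zero K hg hθ
  have : FiniteDimensional K K⟮θ⟯ := adjoin.finiteDimensional hθint
  obtain ⟨E₀, h01, h02, h03⟩ := exists_isUnramifiedIn_le (O := O) K⟮θ⟯
  have := h02.1
  -- `θ` as an integer of `K(θ)`
  have hθO : IsIntegral O (AdjoinSimple.gen K θ) :=
    ⟨g, hg, by rw [← aeval_def]; exact aeval_gen_eq_zero K hθ⟩
  let θ' : integralClosure O K⟮θ⟯ := ⟨AdjoinSimple.gen K θ, hθO⟩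
  have hθ' : aeval θ' g = 0 := by
    apply Subtype.ext
    rw [← Subalgebra.coe_val, ← aeval_algHom_apply]
    exact aeval_gen_eq_zero K hθ
  -- the residue map `k_{E₀} → k_{K(θ)}` is bijective
  let ψ := h02.isUnram.resHom (intIncl O h01)
  have hψ : Function.Bijective ψ := by
    have hinj : Function.Injective ψ := ψ.toRingHom.injective
    refine ⟨hinj, ?_⟩
    have hfr : finrank (ResidueField O) (ResidueField (integralClosure O E₀)) =
        finrank (ResidueField O) (ResidueField (integralClosure O K⟮θ⟯)) := by
      rw [← h02.finrank_eq, h03]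
    exact (LinearMap.injective_iff_surjective_of_finrank_eq_finrank
      (f := ψ.toLinearMap) hfr).mp hinj
  obtain ⟨β, hβ⟩ := hψ.2 (residue _ θ')
  have hβ0 : aeval β g = 0 := by
    apply hψ.1
    rw [map_zero, ← aeval_map_residue g β, ← aeval_algHom_apply, hβ, aeval_map_residue,
      aeval_residue, hθ', map_zero]
  have hβ' : aeval β (derivative g) ≠ 0 := by
    rw [← aeval_map_residue, ← derivative_map]
    exact hsep.aeval_derivative_ne_zero (by rw [aeval_map_residue, hβ0])
  obtain ⟨θ₀, ⟨hθ₀, hθ₀β⟩, -⟩ := existsUnique_root g hg β hβ0 hβ'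
  -- uniqueness of the lift in the integers of `K(θ)`
  have hres : aeval (residue _ θ') g = 0 := by rw [aeval_residue, hθ', map_zero]
  have hres' : aeval (residue _ θ') (derivative g) ≠ 0 := by
    rw [← aeval_map_residue, ← derivative_map]
    exact hsep.aeval_derivative_ne_zero (by rw [aeval_map_residue, hres])
  have huniq := (existsUnique_root g hg (residue _ θ') hres hres').unique
    (y₁ := intIncl O h01 θ₀) (y₂ := θ')
    ⟨by rw [aeval_algHom_apply, hθ₀, map_zero], by
      rw [← h02.isUnram.resHom_residue, hθ₀β, hβ]⟩ ⟨hθ', rfl⟩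
  have hmem : θ ∈ E₀ := by
    have h1 : (((intIncl O h01 θ₀ : integralClosure O K⟮θ⟯) : K⟮θ⟯) : Ω) = θ := by
      rw [huniq]; rfl
    rw [coe_intIncl] at h1
    rw [← h1]
    exact (θ₀ : E₀).2
  have heq : K⟮θ⟯ = E₀ := le_antisymm (adjoin_simple_le_iff.mpr hmem) h01
  rw [heq]
  exact h02

end SepRoot


section Small

variable {Ω}

/-- `c : Ω` is integral over `O` and not a unit of the integral closure of `O` in `Ω`
(a cast-free way of saying "`c` lies in the maximal ideal of the integers"). -/
def IsSmallInt (c : Ω) : Prop :=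
  IsIntegral O c ∧ ¬ ∃ y : Ω, IsIntegral O y ∧ c * y = 1

variable {O}

theorem isIntegral_coe_iff {E : IntermediateField K Ω} (x : E) :
    IsIntegral O (x : Ω) ↔ IsIntegral O x :=
  isIntegral_algHom_iff (E.val.restrictScalars O) E.val.injective

variable [PerfectField K] [HenselianTower O K Ω]

theorem mem_maximalIdeal_iff_isSmallInt {E : IntermediateField K Ω} [FiniteDimensional K E]
    (c : integralClosure O E) :
    c ∈ maximalIdeal (integralClosure O E) ↔ IsSmallInt O ((c : E) : Ω) := by
  constructor
  · intro hc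
    refine ⟨(isIntegral_coe_iff (c : E)).mpr c.2, ?_⟩
    rintro ⟨y, hy, hcy⟩
    have hyE : y ∈ E := by
      have : y = (((c : E) : Ω))⁻¹ := eq_inv_of_mul_eq_one_right hcy
      rw [this]
      exact E.inv_mem (c : E).2
    have hy' : IsIntegral O (⟨y, hyE⟩ : E) := (isIntegral_coe_iff (⟨y, hyE⟩ : E)).mp hy
    have : c * ⟨⟨y, hyE⟩, hy'⟩ = 1 := by
      apply Subtype.ext
      apply Subtype.ext
      exact hcy
    exact (mem_maximalIdeal c).mp hc (IsUnit.of_mul_eq_one _ this)
  · rintro ⟨-, hc⟩
    rw [mem_maximalIdeal, mem_nonunits_iff]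
    intro hu
    obtain ⟨d, hd⟩ := hu.exists_right_inv
    refine hc ⟨((d : E) : Ω), (isIntegral_coe_iff (d : E)).mpr d.2, ?_⟩
    have := congrArg (fun t : integralClosure O E => ((t : E) : Ω)) hd
    simpa using this

/-- An embedding of a normal finite subextension into `Ω`, as an automorphism. -/
noncomputable def autOfEmb (E : IntermediateField K Ω) [Normal K E] (f : E →ₐ[K] Ω) :
    Gal(E/K) :=
  AlgEquiv.ofBijective
    (f.codRestrict E.toSubalgebra (fun x => by
      have h := AlgHom.fieldRange_of_normal f
      have : f x ∈ f.fieldRange := ⟨x, rfl⟩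
      rw [h] at this
      exact this))
    (Algebra.IsAlgebraic.algHom_bijective _)

omit [PerfectField K] [HenselianTower O K Ω] in
theorem coe_autOfEmb (E : IntermediateField K Ω) [Normal K E] (f : E →ₐ[K] Ω) (x : E) :
    ((autOfEmb E f x : E) : Ω) = f x := rfl

variable [Finite (ResidueField O)]

/-- The `j`-th power of the Frobenius is characterised, among all `K`-embeddings of `E` into `Ω`,
by `f b ≡ b ^ (#k ^ j)` modulo small integers on the integers of `E`. -/
theorem IsUnramifiedIn.eq_frob_pow_of_isSmallInt {E : IntermediateField K Ω}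
    (h : IsUnramifiedIn O E) (f : E →ₐ[K] Ω) (j : ℕ)
    (hf : ∀ b : integralClosure O E,
      IsSmallInt O (f (b : E) - (((b : E) : Ω)) ^ (Nat.card (ResidueField O) ^ j))) (x : E) :
    f x = (((h.frob ^ j) x : E) : Ω) := by
  have := h.1
  have := h.isGalois
  suffices hs : autOfEmb E f = h.frob ^ j by rw [← hs]; rfl
  refine h.eq_frob_pow _ j fun b => ?_
  -- `σ b` is an integer
  have hint : IsIntegral O (autOfEmb E f (b : E)) :=
    IsIntegral.map ((autOfEmb E f : E →ₐ[K] E).restrictScalars O) b.2
  let c : integralClosure O E :=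
    ⟨autOfEmb E f (b : E), hint⟩ - b ^ (Nat.card (ResidueField O) ^ j)
  refine ⟨c, ?_, ?_⟩
  · rw [mem_maximalIdeal_iff_isSmallInt]
    exact hf b
  · simp [c]

theorem IsUnramifiedIn.isSmallInt_frob_pow {E : IntermediateField K Ω}
    (h : IsUnramifiedIn O E) (j : ℕ) (b : integralClosure O E) :
    IsSmallInt O ((((h.frob ^ j) (b : E) : E) : Ω) -
      (((b : E) : Ω)) ^ (Nat.card (ResidueField O) ^ j)) := by
  have := h.1
  have hb := h.isUnram.residue_frob_pow j b
  have hmem : (h.isUnram.frob ^ j) b - b ^ (Nat.card (ResidueField O) ^ j) ∈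
      maximalIdeal (integralClosure O E) := by
    rw [← residue_eq_zero_iff, map_sub, hb, map_pow, sub_self]
  rw [mem_maximalIdeal_iff_isSmallInt] at hmem
  have hcoe : (((h.isUnram.frob ^ j) b : integralClosure O E) : E) = (h.frob ^ j) (b : E) := by
    rw [IsUnramifiedIn.frob, IsUnram.frobGal, ← map_pow]
    exact (galRestrict_symm_algebraMap_apply O K _ b).symm
  rw [← hcoe]
  simpa using hmem


/-- Restriction of the Frobenius: for unramified `E ≤ E'`, `Frob_{E'}` restricts to `Frob_E`. -/
theorem IsUnramifiedIn.frob_restrict {E E' : IntermediateField K Ω} (h : IsUnramifiedIn O E)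
    (h' : IsUnramifiedIn O E') (hEE' : E ≤ E') (x : E) :
    ((h'.frob (IntermediateField.inclusion hEE' x) : E') : Ω) = ((h.frob x : E) : Ω) := by
  have := h.1
  have := h'.1
  let f : E →ₐ[K] Ω :=
    E'.val.comp ((h'.frob : E' →ₐ[K] E').comp (IntermediateField.inclusion hEE'))
  have key := h.eq_frob_pow_of_isSmallInt f 1 (fun b => ?_) x
  · rw [pow_one] at key
    exact key
  · have hb := h'.isSmallInt_frob_pow 1 (intIncl O hEE' b)
    simp only [pow_one] at hb
    rw [coe_intIncl] at hb
    have hincl : IntermediateField.inclusion hEE' (b : E) = (intIncl O hEE' b : E') := by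
      apply Subtype.ext
      rw [coe_intIncl]
      rfl
    have hf : f (b : E) = ((h'.frob (IntermediateField.inclusion hEE' (b : E)) : E') : Ω) := rfl
    rw [hf, hincl, pow_one]
    exact hb

end Small

end Tower

end Fermat.Agent.S55.Local.Unram
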