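import Mathlib

/-!
# S55 local arithmetic core: the normalised valuation `Fˣ → ℤ` of a discrete valuation ring

`valZ O F : Fˣ →* Multiplicative ℤ` for `F = Frac O`, `O` a DVR: surjective, with kernel the image
of `Oˣ`; value `ofAdd (-1)` on uniformisers (Mathlib's convention for `HeightOneSpectrum.valuation`).
-/

set_option linter.style.haveILetI false
set_option linter.unusedSectionVars false

namespace Fermat.Agent.S55.Local

open IsLocalRing IsDedekindDomain

variable (O : Type*) [CommRing O] [IsDomain O] [IsDiscreteValuationRing O]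
  (F : Type*) [Field F] [Algebra O F] [IsFractionRing O F]

/-- The valuation of `F` attached to the DVR `O`. -/
noncomputable abbrev dvrValuation : Valuation F (WithZero (Multiplicative ℤ)) :=
  (IsDiscreteValuationRing.maximalIdeal O).valuation F

/-- The normalised valuation on units, as a group homomorphism to `Multiplicative ℤ`. -/
noncomputable def valZ : Fˣ →* Multiplicative ℤ :=
  (WithZero.unitsWithZeroEquiv (α := Multiplicative ℤ)).toMonoidHom.comp
    (Units.map (dvrValuation O F).toMonoidWithZeroHom.toMonoidHom)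

variable {O F}

theorem coe_valZ (x : Fˣ) : ((valZ O F x : Multiplicative ℤ) : WithZero (Multiplicative ℤ)) =
    dvrValuation O F (x : F) := by
  simp [valZ, WithZero.unitsWithZeroEquiv]

theorem valZ_eq_one_iff_valuation {x : Fˣ} : valZ O F x = 1 ↔ dvrValuation O F (x : F) = 1 := by
  rw [← coe_valZ]
  exact ⟨fun h => by rw [h]; rfl, fun h => WithZero.coe_injective (by rw [h]; rfl)⟩

theorem dvrValuation_algebraMap_unit (u : Oˣ) : dvrValuation O F (algebraMap O F u) = 1 := by
  rw [HeightOneSpectrum.valuation_of_algebraMap, HeightOneSpectrum.intValuation_eq_one_iff]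
  exact fun h => (mem_maximalIdeal _).1 h u.isUnit

theorem valZ_map_unit (u : Oˣ) : valZ O F (Units.map (algebraMap O F).toMonoidHom u) = 1 := by
  rw [valZ_eq_one_iff_valuation]
  exact dvrValuation_algebraMap_unit u

theorem dvrValuation_uniformizer {ϖ : O} (hϖ : Irreducible ϖ) :
    dvrValuation O F (algebraMap O F ϖ) = WithZero.exp (-1) := by
  rw [HeightOneSpectrum.valuation_of_algebraMap]
  exact HeightOneSpectrum.intValuation_singleton _ hϖ.ne_zero hϖ.maximalIdeal_eq

/-- Every unit of `F` is a unit of `O` times a power of the uniformiser. -/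
theorem exists_eq_unit_mul_zpow {ϖ : O} (hϖ : Irreducible ϖ) (x : Fˣ) :
    ∃ (n : ℤ) (u : Oˣ), (x : F) = algebraMap O F u * algebraMap O F ϖ ^ n := by
  obtain ⟨n, u, h⟩ := IsDiscreteValuationRing.exists_units_eq_smul_zpow_of_irreducible
    (K := F) hϖ x.ne_zero
  exact ⟨n, u, by rw [h, Units.smul_def, Algebra.smul_def]⟩

theorem dvrValuation_unit_mul_zpow {ϖ : O} (hϖ : Irreducible ϖ) (u : Oˣ) (n : ℤ) :
    dvrValuation O F (algebraMap O F u * algebraMap O F ϖ ^ n) = WithZero.exp (-n) := by
  rw [map_mul, map_zpow₀, dvrValuation_algebraMap_unit, dvrValuation_uniformizer hϖ, one_mul,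
    ← WithZero.exp_zsmul]
  simp

theorem valZ_eq_one_iff {x : Fˣ} :
    valZ O F x = 1 ↔ ∃ u : Oˣ, Units.map (algebraMap O F).toMonoidHom u = x := by
  constructor
  · intro h
    obtain ⟨ϖ, hϖ⟩ := IsDiscreteValuationRing.exists_irreducible O
    obtain ⟨n, u, hx⟩ := exists_eq_unit_mul_zpow (F := F) hϖ x
    rw [valZ_eq_one_iff_valuation, hx, dvrValuation_unit_mul_zpow hϖ] at h
    have hn : n = 0 := by
      have : WithZero.exp (-n) = WithZero.exp 0 := by rw [h]; rfl
      have := WithZero.exp_injective this
      omega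
    refine ⟨u, Units.ext ?_⟩
    rw [hx, hn, zpow_zero, mul_one]
    rfl
  · rintro ⟨u, rfl⟩
    exact valZ_map_unit u

theorem valZ_surjective : Function.Surjective (valZ O F) := by
  obtain ⟨ϖ, hϖ⟩ := IsDiscreteValuationRing.exists_irreducible O
  have hne : algebraMap O F ϖ ≠ 0 := by
    simpa using hϖ.ne_zero
  intro m
  refine ⟨(Units.mk0 _ hne) ^ (-(Multiplicative.toAdd m)), ?_⟩
  apply WithZero.coe_injective
  rw [coe_valZ]
  simp only [Units.val_zpow_eq_zpow_val, Units.val_mk0, map_zpow₀, dvrValuation_uniformizer hϖ]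
  rw [← WithZero.exp_zsmul]
  simp
  rfl

/-- The kernel of `valZ` is the image of `Oˣ`. -/
theorem ker_valZ : (valZ O F).ker = (Units.map (algebraMap O F).toMonoidHom).range := by
  ext x
  rw [MonoidHom.mem_ker, valZ_eq_one_iff, MonoidHom.mem_range]

theorem units_map_injective : Function.Injective (Units.map (algebraMap O F).toMonoidHom) :=
  Units.map_injective (IsFractionRing.injective O F)

end Fermat.Agent.S55.Local
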