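import Mathlib

/-!
# S55 local arithmetic core: successive approximation in complete filtered abelian groups

A decreasing filtration `Fil : ℕ → AddSubgroup M` is *complete* if every series `∑ a i` with
`a i ∈ Fil i` converges, and *separated* if `⋂ Fil i = 0`.  We prove the two standard
"successive approximation" statements (Serre, *Local Fields*, V §1 Lemma 2 and XII §3 Lemma 3):
surjectivity on graded pieces implies surjectivity, and exactness on graded pieces implies
exactness.
-/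

namespace Fermat.Agent.S55.Local

open Finset

variable {M M' : Type*} [AddCommGroup M] [AddCommGroup M']

/-- Every series `∑ a i` with `a i ∈ Fil i` converges. -/
def FilComplete (Fil : ℕ → AddSubgroup M) : Prop :=
  ∀ a : ℕ → M, (∀ i, a i ∈ Fil i) → ∃ s : M, ∀ j, s - ∑ i ∈ range j, a i ∈ Fil j

/-- The filtration is separated. -/
def FilSeparated (Fil : ℕ → AddSubgroup M) : Prop :=
  ∀ x : M, (∀ i, x ∈ Fil i) → x = 0

theorem FilComplete.shift {Fil : ℕ → AddSubgroup M} (hc : FilComplete Fil) (k : ℕ) :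
    FilComplete (fun i => Fil (k + i)) := by
  intro a ha
  let a' : ℕ → M := fun j => if k ≤ j then a (j - k) else 0
  have ha' : ∀ j, a' j ∈ Fil j := by
    intro j
    by_cases h : k ≤ j
    · simp only [a', if_pos h]
      have : a (j - k) ∈ Fil (k + (j - k)) := ha (j - k)
      rwa [Nat.add_sub_cancel' h] at this
    · simp only [a', if_neg h]; exact (Fil j).zero_mem
  obtain ⟨s, hs⟩ := hc a' ha'
  refine ⟨s, fun j => ?_⟩
  have := hs (k + j)
  rw [Finset.sum_range_add] at this
  have h0 : ∑ i ∈ range k, a' i = 0 :=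
    Finset.sum_eq_zero (fun i hi => by
      simp only [a', if_neg (not_le.2 (Finset.mem_range.1 hi))])
  have h1 : ∑ i ∈ range j, a' (k + i) = ∑ i ∈ range j, a i :=
    Finset.sum_congr rfl (fun i _ => by
      simp only [a', if_pos (Nat.le_add_right k i), Nat.add_sub_cancel_left])
  rwa [h0, zero_add, h1] at this

theorem FilSeparated.shift {Fil : ℕ → AddSubgroup M} (hanti : Antitone Fil)
    (hs : FilSeparated Fil) (k : ℕ) : FilSeparated (fun i => Fil (k + i)) :=
  fun x hx => hs x (fun i => hanti (Nat.le_add_left i k) (hx i))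

/-- **Successive approximation, surjectivity form (level `0`).** -/
theorem exists_preimage_of_graded_zero {Fil : ℕ → AddSubgroup M} {Fil' : ℕ → AddSubgroup M'}
    (hc : FilComplete Fil) (hs : FilSeparated Fil') (φ : M →+ M')
    (hφ : ∀ i x, x ∈ Fil i → φ x ∈ Fil' i) (T : AddSubgroup M') (hT : ∀ x, φ x ∈ T)
    (hgr : ∀ i y, y ∈ T → y ∈ Fil' i → ∃ x ∈ Fil i, y - φ x ∈ Fil' (i + 1))
    (y : M') (hyT : y ∈ T) (hy : y ∈ Fil' 0) : ∃ x ∈ Fil 0, φ x = y := by
  classical
  have hstep : ∀ i (z : {z : M' // z ∈ T ∧ z ∈ Fil' i}),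
      ∃ x : M, x ∈ Fil i ∧ (z.1 - φ x ∈ T ∧ z.1 - φ x ∈ Fil' (i + 1)) := by
    intro i z
    obtain ⟨x, hx, hx'⟩ := hgr i z.1 z.2.1 z.2.2
    exact ⟨x, hx, T.sub_mem z.2.1 (hT x), hx'⟩
  choose nx hnx1 hnx2 using hstep
  let rem : (i : ℕ) → {z : M' // z ∈ T ∧ z ∈ Fil' i} := fun i =>
    Nat.rec (motive := fun i => {z : M' // z ∈ T ∧ z ∈ Fil' i}) ⟨y, hyT, hy⟩
      (fun i z => ⟨z.1 - φ (nx i z), hnx2 i z⟩) i
  have hrem0 : (rem 0).1 = y := rfl
  have hremS : ∀ i, (rem (i + 1)).1 = (rem i).1 - φ (nx i (rem i)) := fun i => rfl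
  let a : ℕ → M := fun i => nx i (rem i)
  have ha : ∀ i, a i ∈ Fil i := fun i => hnx1 i (rem i)
  obtain ⟨s, hs'⟩ := hc a ha
  have hs0 : s ∈ Fil 0 := by simpa using hs' 0
  have hpartial : ∀ j, y - φ (∑ i ∈ range j, a i) = (rem j).1 := by
    intro j
    induction j with
    | zero => simp [hrem0]
    | succ j ih =>
      rw [Finset.sum_range_succ, map_add, hremS, ← ih]; abel
  refine ⟨s, hs0, ?_⟩
  have hzero : y - φ s = 0 := by
    refine hs _ (fun j => ?_)
    have h1 : y - φ s = (rem j).1 - φ (s - ∑ i ∈ range j, a i) := by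
      rw [← hpartial j, map_sub]; abel
    rw [h1]
    exact (Fil' j).sub_mem (rem j).2.2 (hφ j _ (hs' j))
  exact (sub_eq_zero.1 hzero).symm

/-- **Successive approximation, surjectivity form.**  Let `φ : M → M'` respect the filtrations,
`M` complete, `M'` separated, `T ≤ M'` a subgroup containing the image of `φ`.  If every
`y ∈ T ∩ Fil' i` is congruent modulo `Fil' (i+1)` to some `φ x` with `x ∈ Fil i`, then every
`y ∈ T ∩ Fil' k` is of the form `φ x` with `x ∈ Fil k`. -/
theorem exists_preimage_of_graded {Fil : ℕ → AddSubgroup M} {Fil' : ℕ → AddSubgroup M'}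
    (hanti' : Antitone Fil') (hc : FilComplete Fil) (hs : FilSeparated Fil') (φ : M →+ M')
    (hφ : ∀ i x, x ∈ Fil i → φ x ∈ Fil' i) (T : AddSubgroup M') (hT : ∀ x, φ x ∈ T)
    (hgr : ∀ i y, y ∈ T → y ∈ Fil' i → ∃ x ∈ Fil i, y - φ x ∈ Fil' (i + 1))
    (k : ℕ) (y : M') (hyT : y ∈ T) (hy : y ∈ Fil' k) : ∃ x ∈ Fil k, φ x = y := by
  have := exists_preimage_of_graded_zero (Fil := fun i => Fil (k + i))
    (Fil' := fun i => Fil' (k + i)) (hc.shift k) (hs.shift hanti' k) φ
    (fun i x hx => hφ (k + i) x hx) T hT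
    (fun i y hyT hy => by
      obtain ⟨x, hx, hx'⟩ := hgr (k + i) y hyT hy
      exact ⟨x, hx, by simpa [add_assoc] using hx'⟩) y hyT (by simpa using hy)
  simpa using this

/-- **Successive approximation, exactness form.**  Let `f g : M → M` with `f ∘ g = 0`, both
respecting a complete separated filtration.  If `ker f ⊆ im g` holds on graded pieces, i.e. every
`x ∈ Fil i` with `f x = 0` is congruent mod `Fil (i+1)` to `g y` with `y ∈ Fil i`, then
every `x ∈ Fil k` with `f x = 0` is `g y` with `y ∈ Fil k`. -/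
theorem exists_eq_of_graded_exact {Fil : ℕ → AddSubgroup M} (hanti : Antitone Fil)
    (hc : FilComplete Fil) (hs : FilSeparated Fil) (f g : M →+ M) (hfg : ∀ x, f (g x) = 0)
    (hg : ∀ i x, x ∈ Fil i → g x ∈ Fil i)
    (hgr : ∀ i x, x ∈ Fil i → f x = 0 → ∃ y ∈ Fil i, x - g y ∈ Fil (i + 1))
    (k : ℕ) (x : M) (hx : x ∈ Fil k) (hfx : f x = 0) : ∃ y ∈ Fil k, g y = x :=
  exists_preimage_of_graded hanti hc hs g hg f.ker (fun x => hfg x)
    (fun i y hyT hy => hgr i y hy hyT) k x hfx hx

end Fermat.Agent.S55.Local
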