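import Mathlib
import Fermat.Agent.S55.Local.Approx
import Fermat.Agent.S14.Herbrand
import Fermat.Agent.S14.HerbrandCyclic

/-!
# S55 local arithmetic core: cohomologically trivial unit lattices

Abstract form of the classical argument that `h(U_E) = 1` for a cyclic extension of local fields
(Serre, *Local Fields*, XII §3 / Neukirch V.1): let `R` be a `π`-adically complete ring, `M ⊆ R` an
additive subgroup with `πM ⊆ M`, `M·M ⊆ πM`, `π^K R ⊆ M` (`IsUnitLattice`).  Then `1 + π^i M` are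
subgroups of `Rˣ` forming a complete separated filtration.  If `σ` is a ring automorphism with
`σ^n = 1`, `σ π = π`, `σ M ⊆ M` and `M` is a cohomologically trivial `⟨σ⟩`-module
(`IsLatticeAut`), then so is `1 + M`; hence if `1 + M` has finite index in `Rˣ`, the two Herbrand
indices of `Rˣ` agree (`hIdx_unitsEnd_eq`), in the calculus of `Fermat.Agent.S14.Herbrand`.
-/

set_option linter.style.haveILetI false
set_option linter.unusedSectionVars false

namespace Fermat.Agent.S55.Local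

open Finset

section LatticeUnits

variable {R : Type*} [CommRing R]

/-- The additive subgroup `π^i M` of `R`. -/
def latFil (π : R) (M : AddSubgroup R) (i : ℕ) : AddSubgroup R :=
  M.map (AddMonoidHom.mulLeft (π ^ i))

theorem mem_latFil {π : R} {M : AddSubgroup R} {i : ℕ} {y : R} :
    y ∈ latFil π M i ↔ ∃ m ∈ M, π ^ i * m = y := Iff.rfl

/-- `M ⊆ R` is a *unit lattice*: stable under `π`, `M·M ⊆ πM`, `π^K R ⊆ M`, and `π` is a
non-zero-divisor. Then `1 + π^i M` are subgroups of `Rˣ` (for `R` `π`-adically complete). -/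
structure IsUnitLattice (π : R) (M : AddSubgroup R) (K : ℕ) : Prop where
  smul_mem : ∀ m ∈ M, π * m ∈ M
  mul_mem : ∀ x ∈ M, ∀ y ∈ M, ∃ z ∈ M, x * y = π * z
  pow_mul_mem : ∀ r : R, π ^ K * r ∈ M
  regular : ∀ r : R, π * r = 0 → r = 0

variable {π : R} {M : AddSubgroup R} {K : ℕ}

theorem latFil_zero : latFil π M 0 = M := by
  ext y
  rw [mem_latFil]
  simp

namespace IsUnitLattice

variable (h : IsUnitLattice π M K)
include h

theorem latFil_succ_le (i : ℕ) : latFil π M (i + 1) ≤ latFil π M i := by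
  rintro _ ⟨m, hm, rfl⟩
  exact ⟨π * m, h.smul_mem m hm, by simp only [AddMonoidHom.coe_mulLeft]; ring⟩

theorem latFil_antitone : Antitone (latFil π M) :=
  antitone_nat_of_succ_le h.latFil_succ_le

theorem latFil_le (i : ℕ) : latFil π M i ≤ M := by
  have := h.latFil_antitone (Nat.zero_le i)
  rwa [latFil_zero] at this

theorem mul_mem_latFil {i : ℕ} {x y : R} (hx : x ∈ M) (hy : y ∈ latFil π M i) :
    x * y ∈ latFil π M (i + 1) := by
  obtain ⟨m, hm, rfl⟩ := hy
  obtain ⟨z, hz, hxz⟩ := h.mul_mem x hx m hm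
  refine ⟨z, hz, ?_⟩
  simp only [AddMonoidHom.coe_mulLeft]
  rw [mul_left_comm, hxz]; ring

theorem mul_mem_latFil' {i : ℕ} {x y : R} (hx : x ∈ M) (hy : y ∈ latFil π M i) :
    x * y ∈ latFil π M i :=
  h.latFil_succ_le i (h.mul_mem_latFil hx hy)

theorem one_add_mul_mem_latFil {i : ℕ} {x y : R} (hx : x ∈ M) (hy : y ∈ latFil π M i) :
    (1 + x) * y ∈ latFil π M i := by
  rw [add_mul, one_mul]
  exact add_mem hy (h.mul_mem_latFil' hx hy)

theorem pow_mul_mem_latFil (i : ℕ) (r : R) : π ^ (i + K) * r ∈ latFil π M i :=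
  ⟨π ^ K * r, h.pow_mul_mem r, by simp only [AddMonoidHom.coe_mulLeft]; ring⟩

theorem pow_succ_mem_latFil {i : ℕ} {x : R} (hx : x ∈ latFil π M i) (j : ℕ) :
    x ^ (j + 1) ∈ latFil π M (i + j) := by
  induction j with
  | zero => simpa using hx
  | succ j ih =>
    rw [pow_succ', ← add_assoc]
    exact h.mul_mem_latFil (h.latFil_le i hx) ih

theorem latFil_le_span (i : ℕ) {x : R} (hx : x ∈ latFil π M i) :
    x ∈ (Ideal.span {π}) ^ i := by
  obtain ⟨m, -, rfl⟩ := hx
  rw [Ideal.span_singleton_pow]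
  exact Ideal.mul_mem_right _ _ (Ideal.mem_span_singleton_self _)

theorem mem_latFil_of_mem_span (i : ℕ) {x : R} (hx : x ∈ (Ideal.span {π}) ^ (i + K)) :
    x ∈ latFil π M i := by
  rw [Ideal.span_singleton_pow, Ideal.mem_span_singleton'] at hx
  obtain ⟨r, rfl⟩ := hx
  rw [mul_comm]
  exact h.pow_mul_mem_latFil i r

/-- Inverses: if `x ∈ π^i M` and `(1 + x) w = 1` then `w - 1 ∈ π^i M`. -/
theorem inv_sub_one_mem {i : ℕ} {x w : R} (hx : x ∈ latFil π M i) (hw : (1 + x) * w = 1) :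
    w - 1 ∈ latFil π M i := by
  have hgeo : (∑ j ∈ range (K + 1), (-x) ^ j) * (1 + x) = 1 - (-x) ^ (K + 1) := by
    have := geom_sum_mul_neg (-x) (K + 1)
    rwa [sub_neg_eq_add] at this
  have hw' : w = (∑ j ∈ range (K + 1), (-x) ^ j) + (-x) ^ (K + 1) * w := by
    calc w = ((∑ j ∈ range (K + 1), (-x) ^ j) * (1 + x) + (-x) ^ (K + 1)) * w := by
          rw [hgeo]; ring
      _ = (∑ j ∈ range (K + 1), (-x) ^ j) * ((1 + x) * w) + (-x) ^ (K + 1) * w := by ring
      _ = (∑ j ∈ range (K + 1), (-x) ^ j) + (-x) ^ (K + 1) * w := by rw [hw, mul_one]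
  have hnx : -x ∈ latFil π M i := neg_mem hx
  have h1 : (∑ j ∈ range (K + 1), (-x) ^ j) - 1 ∈ latFil π M i := by
    rw [Finset.sum_range_succ', pow_zero, add_sub_cancel_right]
    refine sum_mem (fun j _ => ?_)
    exact h.latFil_antitone (Nat.le_add_right i j) (h.pow_succ_mem_latFil hnx j)
  have h2 : (-x) ^ (K + 1) * w ∈ latFil π M i := by
    have := h.pow_succ_mem_latFil hnx K
    obtain ⟨m, -, hm⟩ := this
    simp only [AddMonoidHom.coe_mulLeft] at hm
    rw [← hm, mul_assoc]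
    exact h.pow_mul_mem_latFil i (m * w)
  have : w - 1 = ((∑ j ∈ range (K + 1), (-x) ^ j) - 1) + (-x) ^ (K + 1) * w := by
    conv_lhs => rw [hw']
    ring
  rw [this]
  exact add_mem h1 h2

/-- The subgroup `1 + π^i M` of `Rˣ`. -/
def units (i : ℕ) : Subgroup Rˣ where
  carrier := {u | (u : R) - 1 ∈ latFil π M i}
  one_mem' := by simp
  mul_mem' := fun {u v} hu hv => by
    have hu' : (u : R) - 1 ∈ latFil π M i := hu
    have hv' : (v : R) - 1 ∈ latFil π M i := hv
    have : ((u * v : Rˣ) : R) - 1 = ((u : R) - 1) + (1 + ((u : R) - 1)) * ((v : R) - 1) := by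
      rw [Units.val_mul]; ring
    show ((u * v : Rˣ) : R) - 1 ∈ latFil π M i
    rw [this]
    exact add_mem hu' (h.one_add_mul_mem_latFil (h.latFil_le i hu') hv')
  inv_mem' := fun {u} hu => by
    have hu' : (u : R) - 1 ∈ latFil π M i := hu
    show ((u⁻¹ : Rˣ) : R) - 1 ∈ latFil π M i
    refine h.inv_sub_one_mem hu' ?_
    rw [add_sub_cancel, Units.mul_inv]

theorem mem_units {i : ℕ} {u : Rˣ} : u ∈ h.units i ↔ (u : R) - 1 ∈ latFil π M i := Iff.rfl

theorem units_antitone : Antitone h.units :=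
  fun _ _ hij _ hu => h.latFil_antitone hij hu

/-- Congruent units (one of them in `1 + M`) differ by an element of `1 + π^j M`. -/
theorem div_mem_units {j : ℕ} {u v : Rˣ} (hv : v ∈ h.units 0)
    (huv : (u : R) - v ∈ latFil π M j) : u / v ∈ h.units j := by
  rw [mem_units]
  have hv' : ((v⁻¹ : Rˣ) : R) - 1 ∈ M := by
    have := (h.units 0).inv_mem hv
    rwa [mem_units, latFil_zero] at this
  have : ((u / v : Rˣ) : R) - 1 = (1 + (((v⁻¹ : Rˣ) : R) - 1)) * ((u : R) - v) := by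
    rw [div_eq_mul_inv, Units.val_mul, add_sub_cancel, mul_sub, Units.inv_mul, mul_comm]
  rw [this]
  exact h.one_add_mul_mem_latFil hv' huv

theorem sub_mem_of_div_mem_units {j : ℕ} {u v : Rˣ} (hv : v ∈ h.units 0)
    (huv : u / v ∈ h.units j) : (u : R) - v ∈ latFil π M j := by
  rw [mem_units] at huv
  have hv' : (v : R) - 1 ∈ M := by rwa [mem_units, latFil_zero] at hv
  have : (u : R) - v = (1 + ((v : R) - 1)) * (((u / v : Rˣ) : R) - 1) := by
    rw [div_eq_mul_inv, Units.val_mul, add_sub_cancel, mul_sub, mul_one, mul_comm (u : R),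
      ← mul_assoc, Units.mul_inv, one_mul]
  rw [this]
  exact h.one_add_mul_mem_latFil hv' huv

/-- `1 + M ⊆ Rˣ` when `R` is `π`-adically complete. -/
theorem isUnit_one_add_of_mem [IsAdicComplete (Ideal.span {π}) R] {x : R} (hx : x ∈ M) :
    IsUnit (1 + x) := by
  obtain ⟨z, -, hz⟩ := h.mul_mem x hx x hx
  have hjac : π * z ∈ (⊥ : Ideal R).jacobson :=
    IsAdicComplete.le_jacobson_bot (Ideal.span {π})
      (Ideal.mul_mem_right _ _ (Ideal.mem_span_singleton_self π))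
  have h1 : IsUnit (1 - x * x) := by
    have := (Ideal.mem_jacobson_bot.1 hjac) (-1)
    rw [hz]
    convert this using 1
    ring
  have h2 : (1 + x) * (1 - x) = 1 - x * x := by ring
  rw [← h2] at h1
  exact isUnit_of_mul_isUnit_left h1

/-- The filtration `1 + π^i M` is separated. -/
theorem units_separated [IsHausdorff (Ideal.span {π}) R] (u : Rˣ)
    (hu : ∀ i, u ∈ h.units i) : u = 1 := by
  have : (u : R) - 1 = 0 := by
    refine IsHausdorff.haus (inferInstance : IsHausdorff (Ideal.span {π}) R) _ (fun n => ?_)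
    rw [SModEq.sub_mem, sub_zero]
    have := h.latFil_le_span n (hu n)
    simpa using this
  exact Units.ext (sub_eq_zero.1 this)

/-- Convergence of infinite products `∏ a i` with `a i ∈ 1 + π^i M`. -/
theorem units_complete [IsAdicComplete (Ideal.span {π}) R] (a : ℕ → Rˣ)
    (ha : ∀ i, a i ∈ h.units i) :
    ∃ s : Rˣ, ∀ j, s / ∏ i ∈ range j, a i ∈ h.units j := by
  let P : ℕ → Rˣ := fun j => ∏ i ∈ range j, a i
  have hP0 : ∀ j, P j ∈ h.units 0 := fun j =>
    Subgroup.prod_mem _ (fun i _ => h.units_antitone (Nat.zero_le i) (ha i))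
  have hP0' : ∀ j, ((P j : Rˣ) : R) - 1 ∈ M := fun j => by
    have := hP0 j
    rwa [mem_units, latFil_zero] at this
  have hstep : ∀ j, ((P (j + 1) : Rˣ) : R) - P j ∈ latFil π M j := by
    intro j
    have : ((P (j + 1) : Rˣ) : R) - P j = (1 + ((P j : R) - 1)) * ((a j : R) - 1) := by
      simp only [P, Finset.prod_range_succ, Units.val_mul]; ring
    rw [this]
    exact h.one_add_mul_mem_latFil (hP0' j) (ha j)
  have hcauchy : ∀ {m n : ℕ}, m ≤ n → ((P m : Rˣ) : R) - P n ∈ latFil π M m := by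
    intro m n hmn
    induction n, hmn using Nat.le_induction with
    | base => simp
    | succ n hmn ih =>
      have h1 := h.latFil_antitone hmn (hstep n)
      have : ((P m : Rˣ) : R) - P (n + 1) = ((P m : R) - P n) - ((P (n + 1) : R) - P n) := by ring
      rw [this]
      exact sub_mem ih h1
  obtain ⟨L, hL⟩ := IsPrecomplete.prec (inferInstance : IsPrecomplete (Ideal.span {π}) R)
    (f := fun j => ((P j : Rˣ) : R)) (fun {m n} hmn => by
      rw [SModEq.sub_mem]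
      have := h.latFil_le_span m (hcauchy hmn)
      simpa using this)
  have hL' : ∀ n, ((P n : Rˣ) : R) - L ∈ (Ideal.span {π}) ^ n := fun n => by
    have := hL n; rw [SModEq.sub_mem] at this; simpa using this
  have hL'' : ∀ j, ((P j : Rˣ) : R) - L ∈ latFil π M j := by
    intro j
    have h1 := hcauchy (Nat.le_add_right j K)
    have h2 := h.mem_latFil_of_mem_span j (hL' (j + K))
    have : ((P j : Rˣ) : R) - L = ((P j : R) - P (j + K)) + ((P (j + K) : R) - L) := by ring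
    rw [this]
    exact add_mem h1 h2
  have hLM : L - 1 ∈ M := by
    have h1 := hL'' 0
    rw [latFil_zero] at h1
    have : L - 1 = ((P 0 : Rˣ) : R) - 1 - (((P 0 : Rˣ) : R) - L) := by ring
    rw [this]
    exact sub_mem (hP0' 0) h1
  have hLunit : IsUnit L := by
    have := h.isUnit_one_add_of_mem hLM
    rwa [add_sub_cancel] at this
  refine ⟨hLunit.unit, fun j => h.div_mem_units (hP0 j) ?_⟩
  have h3 : (hLunit.unit : R) - (∏ i ∈ range j, a i : Rˣ) = -(((P j : Rˣ) : R) - L) := by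
    simp only [IsUnit.unit_spec, P]; ring
  rw [h3]
  exact neg_mem (hL'' j)

/-- The filtration `1 + π^i M` as additive subgroups of `Additive Rˣ`. -/
def unitsAdd (i : ℕ) : AddSubgroup (Additive Rˣ) := Subgroup.toAddSubgroup (h.units i)

theorem mem_unitsAdd {i : ℕ} {x : Additive Rˣ} :
    x ∈ h.unitsAdd i ↔ Additive.toMul x ∈ h.units i := Iff.rfl

theorem unitsAdd_antitone : Antitone h.unitsAdd :=
  fun _ _ hij _ hx => h.units_antitone hij hx

theorem filSeparated_unitsAdd [IsHausdorff (Ideal.span {π}) R] : FilSeparated h.unitsAdd :=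
  fun x hx => by
    have := h.units_separated (Additive.toMul x) hx
    exact congrArg Additive.ofMul this

theorem filComplete_unitsAdd [IsAdicComplete (Ideal.span {π}) R] : FilComplete h.unitsAdd := by
  intro a ha
  obtain ⟨s, hs⟩ := h.units_complete (fun i => Additive.toMul (a i)) ha
  refine ⟨Additive.ofMul s, fun j => ?_⟩
  rw [mem_unitsAdd, toMul_sub, toMul_ofMul, toMul_sum]
  exact hs j

end IsUnitLattice

end LatticeUnits

section UnitsEnd

open Fermat.Agent.S14.Herbrand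

variable {R : Type*} [CommRing R]

/-- The endomorphism of `Additive Rˣ` induced by a ring automorphism. -/
def unitsEnd (σ : R ≃+* R) : AddMonoid.End (Additive Rˣ) :=
  MonoidHom.toAdditive (Units.map (σ.toRingHom : R →* R))

theorem val_unitsEnd (σ : R ≃+* R) (a : Additive Rˣ) :
    ((Additive.toMul (unitsEnd σ a) : Rˣ) : R) = σ ((Additive.toMul a : Rˣ) : R) := rfl

theorem val_unitsEnd_pow (σ : R ≃+* R) (k : ℕ) (a : Additive Rˣ) :
    ((Additive.toMul ((unitsEnd σ ^ k) a) : Rˣ) : R) = (σ^[k]) ((Additive.toMul a : Rˣ) : R) := by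
  induction k with
  | zero => simp
  | succ k ih =>
    rw [pow_succ', end_mul_apply, val_unitsEnd, ih, Function.iterate_succ_apply']

theorem unitsEnd_pow_eq_one {σ : R ≃+* R} {n : ℕ} (hσ : ∀ r : R, (σ^[n]) r = r) :
    unitsEnd σ ^ n = 1 := by
  have key : ∀ a : Additive Rˣ, (unitsEnd σ ^ n) a = (1 : AddMonoid.End (Additive Rˣ)) a := by
    intro a
    apply Additive.toMul.injective
    apply Units.ext
    rw [val_unitsEnd_pow, hσ]
    rfl
  exact DFunLike.ext _ _ key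

theorem val_dlt_unitsEnd (σ : R ≃+* R) (a : Additive Rˣ) :
    ((Additive.toMul (dlt (unitsEnd σ) a) : Rˣ) : R) =
      σ ((Additive.toMul a : Rˣ) : R) * (((Additive.toMul a)⁻¹ : Rˣ) : R) := by
  rw [dlt_apply, toMul_sub, div_eq_mul_inv, Units.val_mul, val_unitsEnd]

theorem val_nrm_unitsEnd (σ : R ≃+* R) (n : ℕ) (a : Additive Rˣ) :
    ((Additive.toMul (nrm (unitsEnd σ) n a) : Rˣ) : R) =
      ∏ k ∈ range n, (σ^[k]) ((Additive.toMul a : Rˣ) : R) := by
  rw [nrm_apply, toMul_sum, Units.coe_prod]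
  exact Finset.prod_congr rfl (fun k _ => val_unitsEnd_pow σ k a)

end UnitsEnd

section Aut

open Fermat.Agent.S14.Herbrand

variable {R : Type*} [CommRing R]

/-- A ring automorphism `σ` with `σ^n = 1` fixing `π`, preserving the lattice `M`, such that `M` is
a cohomologically trivial `⟨σ⟩`-module. -/
structure IsLatticeAut (π : R) (M : AddSubgroup R) (σ : R ≃+* R) (n : ℕ) : Prop where
  map_pi : σ π = π
  map_mem : ∀ m ∈ M, σ m ∈ M
  iterate_eq : ∀ r : R, (σ^[n]) r = r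
  exists_sum_eq : ∀ m ∈ M, σ m = m → ∃ m' ∈ M, ∑ k ∈ range n, (σ^[k]) m' = m
  exists_sub_eq : ∀ m ∈ M, ∑ k ∈ range n, (σ^[k]) m = 0 → ∃ m' ∈ M, σ m' - m' = m

theorem ringEquiv_iterate_eq (σ : R ≃+* R) (k : ℕ) : (⇑σ)^[k] = ⇑(σ.toRingHom ^ k) := by
  induction k with
  | zero => rfl
  | succ k ih =>
    rw [Function.iterate_succ', ih, pow_succ']
    rfl

variable {π : R} {M : AddSubgroup R} {K : ℕ} {σ : R ≃+* R} {n : ℕ}

namespace IsLatticeAut

variable (hσ : IsLatticeAut π M σ n)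
include hσ

theorem iterate_pi (k : ℕ) : (σ^[k]) π = π := Function.iterate_fixed hσ.map_pi k

theorem iterate_pow_mul (k i : ℕ) (m : R) : (σ^[k]) (π ^ i * m) = π ^ i * (σ^[k]) m := by
  rw [ringEquiv_iterate_eq, map_mul, map_pow, ← ringEquiv_iterate_eq, hσ.iterate_pi]

theorem iterate_mem (k : ℕ) {m : R} (hm : m ∈ M) : (σ^[k]) m ∈ M := by
  induction k with
  | zero => exact hm
  | succ k ih => rw [Function.iterate_succ_apply']; exact hσ.map_mem _ ih

theorem iterate_mem_latFil (k : ℕ) {i : ℕ} {y : R} (hy : y ∈ latFil π M i) :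
    (σ^[k]) y ∈ latFil π M i := by
  obtain ⟨m, hm, rfl⟩ := hy
  exact ⟨(σ^[k]) m, hσ.iterate_mem k hm, (hσ.iterate_pow_mul k i m).symm⟩

theorem map_mem_latFil {i : ℕ} {y : R} (hy : y ∈ latFil π M i) : σ y ∈ latFil π M i :=
  hσ.iterate_mem_latFil 1 hy

theorem map_sum_iterate (m : R) :
    σ (∑ k ∈ range n, (σ^[k]) m) = ∑ k ∈ range n, (σ^[k]) m := by
  rw [map_sum]
  have h1 : ∑ k ∈ range n, σ ((σ^[k]) m) = ∑ k ∈ range n, (σ^[k + 1]) m :=
    Finset.sum_congr rfl (fun k _ => (Function.iterate_succ_apply' _ _ _).symm)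
  rw [h1]
  have h2 := Finset.sum_range_succ (fun k => (σ^[k]) m) n
  have h3 := Finset.sum_range_succ' (fun k => (σ^[k]) m) n
  rw [h2] at h3
  simp only [Function.iterate_zero, id_eq] at h3
  rw [hσ.iterate_eq] at h3
  exact (add_right_cancel h3).symm

theorem sum_iterate_pow_mul (i : ℕ) (m : R) :
    ∑ k ∈ range n, (σ^[k]) (π ^ i * m) = π ^ i * ∑ k ∈ range n, (σ^[k]) m := by
  rw [Finset.mul_sum]
  exact Finset.sum_congr rfl (fun k _ => hσ.iterate_pow_mul k i m)

end IsLatticeAut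

section Congruences

variable (h : IsUnitLattice π M K) (hσ : IsLatticeAut π M σ n)

include h in
theorem IsUnitLattice.pow_regular (i : ℕ) (r : R) (hr : π ^ i * r = 0) : r = 0 := by
  induction i with
  | zero => simpa using hr
  | succ i ih =>
    apply ih
    apply h.regular
    rw [← mul_assoc, ← pow_succ']
    exact hr

include h in
/-- `∏ (1 + x_k) ≡ 1 + ∑ x_k` modulo `π^(i+1) M` for `x_k ∈ π^i M`. -/
theorem IsUnitLattice.prod_one_add_sub {i : ℕ} (x : ℕ → R) (N : ℕ)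
    (hx : ∀ k, x k ∈ latFil π M i) :
    (∏ k ∈ range N, (1 + x k)) - 1 ∈ latFil π M i ∧
      (∏ k ∈ range N, (1 + x k)) - 1 - ∑ k ∈ range N, x k ∈ latFil π M (i + 1) := by
  induction N with
  | zero => simp
  | succ N ih =>
    obtain ⟨ih1, ih2⟩ := ih
    rw [Finset.prod_range_succ, Finset.sum_range_succ]
    set P := ∏ k ∈ range N, (1 + x k)
    set S := ∑ k ∈ range N, x k
    have hxM : x N ∈ M := h.latFil_le i (hx N)
    constructor
    · have : P * (1 + x N) - 1 = (P - 1) + (x N + x N * (P - 1)) := by ring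
      rw [this]
      exact add_mem ih1 (add_mem (hx N) (h.mul_mem_latFil' hxM ih1))
    · have : P * (1 + x N) - 1 - (S + x N) = (P - 1 - S) + x N * (P - 1) := by ring
      rw [this]
      exact add_mem ih2 (h.mul_mem_latFil hxM ih1)

include h hσ in
/-- `N(u) ≡ 1 + Tr(u - 1)` modulo `π^(i+1) M` for `u ∈ 1 + π^i M`. -/
theorem val_nrm_sub {i : ℕ} {a : Additive Rˣ} (ha : a ∈ h.unitsAdd i) :
    ((Additive.toMul (nrm (unitsEnd σ) n a) : Rˣ) : R) - 1 ∈ latFil π M i ∧
    ((Additive.toMul (nrm (unitsEnd σ) n a) : Rˣ) : R) - 1 -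
      ∑ k ∈ range n, (σ^[k]) (((Additive.toMul a : Rˣ) : R) - 1) ∈ latFil π M (i + 1) := by
  have ha' : ((Additive.toMul a : Rˣ) : R) - 1 ∈ latFil π M i := ha
  set u : R := ((Additive.toMul a : Rˣ) : R)
  have hprod : ((Additive.toMul (nrm (unitsEnd σ) n a) : Rˣ) : R) =
      ∏ k ∈ range n, (1 + (σ^[k]) (u - 1)) := by
    rw [val_nrm_unitsEnd]
    refine Finset.prod_congr rfl (fun k _ => ?_)
    rw [ringEquiv_iterate_eq, map_sub, map_one, add_sub_cancel]
  rw [hprod]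
  exact h.prod_one_add_sub (fun k => (σ^[k]) (u - 1)) n
    (fun k => hσ.iterate_mem_latFil k ha')

include h hσ in
/-- `σ(u)/u ≡ 1 + σ(u - 1) - (u - 1)` modulo `π^(i+1) M` for `u ∈ 1 + π^i M`. -/
theorem val_dlt_sub {i : ℕ} {a : Additive Rˣ} (ha : a ∈ h.unitsAdd i) :
    ((Additive.toMul (dlt (unitsEnd σ) a) : Rˣ) : R) - 1 ∈ latFil π M i ∧
    ((Additive.toMul (dlt (unitsEnd σ) a) : Rˣ) : R) - 1 -
      (σ (((Additive.toMul a : Rˣ) : R) - 1) - (((Additive.toMul a : Rˣ) : R) - 1)) ∈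
        latFil π M (i + 1) := by
  have ha' : ((Additive.toMul a : Rˣ) : R) - 1 ∈ latFil π M i := ha
  have hinv : (((Additive.toMul a)⁻¹ : Rˣ) : R) - 1 ∈ latFil π M i :=
    (h.units i).inv_mem ha
  rw [val_dlt_unitsEnd]
  set u : R := ((Additive.toMul a : Rˣ) : R)
  set w : R := (((Additive.toMul a)⁻¹ : Rˣ) : R)
  have huw : u * w = 1 := Units.mul_inv _
  have hd : σ (u - 1) - (u - 1) ∈ latFil π M i := sub_mem (hσ.map_mem_latFil ha') ha'
  have hσu : σ u = 1 + σ (u - 1) := by rw [map_sub, map_one, add_sub_cancel]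
  have key : σ u * w - 1 - (σ (u - 1) - (u - 1)) = (w - 1) * (σ (u - 1) - (u - 1)) := by
    have : σ u * w - 1 = (σ u - u) * w := by rw [sub_mul, huw]
    rw [this, hσu]; ring
  constructor
  · have : σ u * w - 1 = (σ (u - 1) - (u - 1)) + (w - 1) * (σ (u - 1) - (u - 1)) := by
      rw [← key]; ring
    rw [this]
    exact add_mem hd (h.mul_mem_latFil' (h.latFil_le i hinv) hd)
  · rw [key]
    exact h.mul_mem_latFil (h.latFil_le i hinv) hd

end Congruences

section Main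

variable [IsAdicComplete (Ideal.span {π}) R]
variable (h : IsUnitLattice π M K) (hσ : IsLatticeAut π M σ n)

include h in
/-- The unit `1 + x` for `x ∈ π^i M`, as an element of `Additive Rˣ`. -/
theorem IsUnitLattice.exists_unit {i : ℕ} {x : R} (hx : x ∈ latFil π M i) :
    ∃ b : Additive Rˣ, b ∈ h.unitsAdd i ∧ ((Additive.toMul b : Rˣ) : R) = 1 + x := by
  have hu := h.isUnit_one_add_of_mem (h.latFil_le i hx)
  refine ⟨Additive.ofMul hu.unit, ?_, rfl⟩
  rw [IsUnitLattice.mem_unitsAdd, IsUnitLattice.mem_units]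
  simpa using hx

include h hσ in
theorem nrm_mem_unitsAdd {i : ℕ} {a : Additive Rˣ} (ha : a ∈ h.unitsAdd i) :
    nrm (unitsEnd σ) n a ∈ h.unitsAdd i :=
  (val_nrm_sub h hσ ha).1

include h hσ in
theorem dlt_mem_unitsAdd {i : ℕ} {a : Additive Rˣ} (ha : a ∈ h.unitsAdd i) :
    dlt (unitsEnd σ) a ∈ h.unitsAdd i :=
  (val_dlt_sub h hσ ha).1

include h in
/-- Two elements of `1 + M` which are congruent modulo `π^j M` differ by `1 + π^j M`. -/
theorem IsUnitLattice.sub_mem_unitsAdd {j : ℕ} {a b : Additive Rˣ} (hb : b ∈ h.unitsAdd 0)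
    (hab : ((Additive.toMul a : Rˣ) : R) - ((Additive.toMul b : Rˣ) : R) ∈ latFil π M j) :
    a - b ∈ h.unitsAdd j := by
  rw [IsUnitLattice.mem_unitsAdd, toMul_sub]
  exact h.div_mem_units hb hab

include h hσ in
/-- Graded step for `ker (σ - 1) ⊆ im N`. -/
theorem graded_step_dlt {i : ℕ} {a : Additive Rˣ} (ha : a ∈ h.unitsAdd i)
    (hda : dlt (unitsEnd σ) a = 0) :
    ∃ b ∈ h.unitsAdd i, a - nrm (unitsEnd σ) n b ∈ h.unitsAdd (i + 1) := by
  have ha' : ((Additive.toMul a : Rˣ) : R) - 1 ∈ latFil π M i := ha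
  -- `σ u = u`
  have hfix : σ ((Additive.toMul a : Rˣ) : R) = ((Additive.toMul a : Rˣ) : R) := by
    rw [dlt_apply, sub_eq_zero] at hda
    rw [← val_unitsEnd, hda]
  set u : R := ((Additive.toMul a : Rˣ) : R) with hu
  obtain ⟨m, hm, hmx⟩ := ha'
  simp only [AddMonoidHom.coe_mulLeft] at hmx
  have hσm : σ m = m := by
    have h1 : π ^ i * (σ m - m) = 0 := by
      have : σ (u - 1) = u - 1 := by rw [map_sub, map_one, hfix]
      rw [← hmx, map_mul, map_pow, hσ.map_pi] at this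
      rw [mul_sub, this, sub_self]
    exact sub_eq_zero.1 (h.pow_regular i _ h1)
  obtain ⟨m', hm', hsum⟩ := hσ.exists_sum_eq m hm hσm
  have hx' : π ^ i * m' ∈ latFil π M i := ⟨m', hm', rfl⟩
  obtain ⟨b, hb, hbval⟩ := h.exists_unit hx'
  refine ⟨b, hb, ?_⟩
  have hNb := val_nrm_sub h hσ hb
  refine h.sub_mem_unitsAdd (h.unitsAdd_antitone (Nat.zero_le i) hNb.1) ?_
  have h2 := hNb.2
  rw [hbval, add_sub_cancel_left, hσ.sum_iterate_pow_mul, hsum, hmx] at h2
  have : u - ((Additive.toMul (nrm (unitsEnd σ) n b) : Rˣ) : R) =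
      -(((Additive.toMul (nrm (unitsEnd σ) n b) : Rˣ) : R) - 1 - (u - 1)) := by ring
  rw [this]
  exact neg_mem h2

include h hσ in
/-- Graded step for `ker N ⊆ im (σ - 1)`. -/
theorem graded_step_nrm {i : ℕ} {a : Additive Rˣ} (ha : a ∈ h.unitsAdd i)
    (hNa : nrm (unitsEnd σ) n a = 0) :
    ∃ b ∈ h.unitsAdd i, a - dlt (unitsEnd σ) b ∈ h.unitsAdd (i + 1) := by
  have ha' : ((Additive.toMul a : Rˣ) : R) - 1 ∈ latFil π M i := ha
  have hN := (val_nrm_sub h hσ ha).2
  rw [hNa] at hN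
  set u : R := ((Additive.toMul a : Rˣ) : R) with hu
  obtain ⟨m, hm, hmx⟩ := ha'
  simp only [AddMonoidHom.coe_mulLeft] at hmx
  -- `Tr m = π m''`
  have hTr : ∑ k ∈ range n, (σ^[k]) (u - 1) ∈ latFil π M (i + 1) := by
    have : ((Additive.toMul (0 : Additive Rˣ) : Rˣ) : R) = 1 := rfl
    rw [this, sub_self, zero_sub] at hN
    exact (neg_mem_iff).1 hN
  rw [← hmx, hσ.sum_iterate_pow_mul] at hTr
  obtain ⟨m'', hm'', hm''eq⟩ := hTr
  simp only [AddMonoidHom.coe_mulLeft] at hm''eq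
  set T := ∑ k ∈ range n, (σ^[k]) m with hT
  have hTeq : T = π * m'' := by
    have : π ^ i * (T - π * m'') = 0 := by
      rw [mul_sub, ← hm''eq]; ring
    exact sub_eq_zero.1 (h.pow_regular i _ this)
  have hσm'' : σ m'' = m'' := by
    have h1 : σ T = T := hσ.map_sum_iterate m
    rw [hTeq, map_mul, hσ.map_pi] at h1
    have : π * (σ m'' - m'') = 0 := by rw [mul_sub, h1, sub_self]
    exact sub_eq_zero.1 (h.regular _ this)
  obtain ⟨m3, hm3, hm3sum⟩ := hσ.exists_sum_eq m'' hm'' hσm''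
  have hker : ∑ k ∈ range n, (σ^[k]) (m - π * m3) = 0 := by
    have h1 : ∀ k, (σ^[k]) (m - π * m3) = (σ^[k]) m - π * (σ^[k]) m3 := by
      intro k
      have := hσ.iterate_pow_mul k 1 m3
      rw [pow_one] at this
      rw [ringEquiv_iterate_eq, map_sub, ← ringEquiv_iterate_eq, this]
    rw [Finset.sum_congr rfl (fun k _ => h1 k), Finset.sum_sub_distrib, ← Finset.mul_sum,
      hm3sum, ← hT, hTeq, sub_self]
  obtain ⟨m4, hm4, hm4eq⟩ := hσ.exists_sub_eq (m - π * m3)
    (sub_mem hm (h.smul_mem m3 hm3)) hker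
  have hy : π ^ i * m4 ∈ latFil π M i := ⟨m4, hm4, rfl⟩
  obtain ⟨b, hb, hbval⟩ := h.exists_unit hy
  refine ⟨b, hb, ?_⟩
  have hDb := val_dlt_sub h hσ hb
  refine h.sub_mem_unitsAdd (h.unitsAdd_antitone (Nat.zero_le i) hDb.1) ?_
  have h2 := hDb.2
  rw [hbval, add_sub_cancel_left, map_mul, map_pow, hσ.map_pi, ← mul_sub, hm4eq] at h2
  have h3 : π ^ (i + 1) * m3 ∈ latFil π M (i + 1) := ⟨m3, hm3, rfl⟩
  have : u - ((Additive.toMul (dlt (unitsEnd σ) b) : Rˣ) : R) =
      -(((Additive.toMul (dlt (unitsEnd σ) b) : Rˣ) : R) - 1 - π ^ i * (m - π * m3)) +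
        π ^ (i + 1) * m3 := by
    have hu1 : u = 1 + π ^ i * m := by rw [hmx]; ring
    rw [hu1]; ring
  rw [this]
  exact add_mem (neg_mem h2) h3

include h hσ in
/-- **`Ĥ⁰(⟨σ⟩, 1 + M) = 0`**: a `σ`-invariant element of `1 + M` is a norm from `1 + M`. -/
theorem exists_nrm_eq_of_dlt_eq_zero {a : Additive Rˣ} (ha : a ∈ h.unitsAdd 0)
    (hda : dlt (unitsEnd σ) a = 0) : ∃ b ∈ h.unitsAdd 0, nrm (unitsEnd σ) n b = a :=
  exists_eq_of_graded_exact h.unitsAdd_antitone h.filComplete_unitsAdd h.filSeparated_unitsAdd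
    (dlt (unitsEnd σ)) (nrm (unitsEnd σ) n)
    (fun x => dlt_nrm (unitsEnd_pow_eq_one hσ.iterate_eq) x)
    (fun _ _ hx => nrm_mem_unitsAdd h hσ hx)
    (fun _ _ hx hfx => graded_step_dlt h hσ hx hfx) 0 a ha hda

include h hσ in
/-- **`Ĥ⁻¹(⟨σ⟩, 1 + M) = 0`**: an element of `1 + M` of norm `1` is `σ(b)/b` with `b ∈ 1 + M`. -/
theorem exists_dlt_eq_of_nrm_eq_zero {a : Additive Rˣ} (ha : a ∈ h.unitsAdd 0)
    (hNa : nrm (unitsEnd σ) n a = 0) : ∃ b ∈ h.unitsAdd 0, dlt (unitsEnd σ) b = a :=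
  exists_eq_of_graded_exact h.unitsAdd_antitone h.filComplete_unitsAdd h.filSeparated_unitsAdd
    (nrm (unitsEnd σ) n) (dlt (unitsEnd σ))
    (fun x => nrm_dlt (unitsEnd_pow_eq_one hσ.iterate_eq) x)
    (fun _ _ hx => dlt_mem_unitsAdd h hσ hx)
    (fun _ _ hx hfx => graded_step_nrm h hσ hx hfx) 0 a ha hNa

include h hσ in
theorem hSub_dlt_nrm_unitsAdd :
    hSub (dlt (unitsEnd σ)) (nrm (unitsEnd σ) n) (h.unitsAdd 0) = 1 := by
  rw [hSub, AddSubgroup.relIndex_eq_one]
  rintro a ⟨ha, hda⟩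
  obtain ⟨b, hb, hab⟩ := exists_nrm_eq_of_dlt_eq_zero h hσ ha hda
  exact ⟨b, hb, hab⟩

include h hσ in
theorem hSub_nrm_dlt_unitsAdd :
    hSub (nrm (unitsEnd σ) n) (dlt (unitsEnd σ)) (h.unitsAdd 0) = 1 := by
  rw [hSub, AddSubgroup.relIndex_eq_one]
  rintro a ⟨ha, hNa⟩
  obtain ⟨b, hb, hab⟩ := exists_dlt_eq_of_nrm_eq_zero h hσ ha hNa
  exact ⟨b, hb, hab⟩

include h hσ in
/-- **Herbrand quotient `1`**: if `1 + M` has finite index in `Rˣ`, then
`|Ĥ⁰(⟨σ⟩, Rˣ)| = |Ĥ⁻¹(⟨σ⟩, Rˣ)|`, and both are finite. -/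
theorem hIdx_unitsEnd_eq (hfin : (h.unitsAdd 0).index ≠ 0) :
    hIdx (dlt (unitsEnd σ)) (nrm (unitsEnd σ) n) = hIdx (nrm (unitsEnd σ) n) (dlt (unitsEnd σ)) ∧
      hIdx (dlt (unitsEnd σ)) (nrm (unitsEnd σ) n) ≠ 0 := by
  have hτ := unitsEnd_pow_eq_one hσ.iterate_eq
  have hfg : ∀ x, dlt (unitsEnd σ) (nrm (unitsEnd σ) n x) = 0 := fun x => dlt_nrm hτ x
  have hgf : ∀ x, nrm (unitsEnd σ) n (dlt (unitsEnd σ) x) = 0 := fun x => nrm_dlt hτ x
  have hAf : (h.unitsAdd 0).map (dlt (unitsEnd σ)) ≤ h.unitsAdd 0 := by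
    rintro _ ⟨a, ha, rfl⟩
    exact dlt_mem_unitsAdd h hσ ha
  have hAg : (h.unitsAdd 0).map (nrm (unitsEnd σ) n) ≤ h.unitsAdd 0 := by
    rintro _ ⟨a, ha, rfl⟩
    exact nrm_mem_unitsAdd h hσ ha
  have key := hIdx_mul_hSub_of_finiteIndex hfg hgf hAf hAg hfin
  rw [hSub_nrm_dlt_unitsAdd h hσ, hSub_dlt_nrm_unitsAdd h hσ, mul_one, mul_one] at key
  refine ⟨key, ?_⟩
  have := (hSub_ne_zero_iff_of_finiteIndex hfg hgf hAf hAg hfin).1
    ⟨by rw [hSub_dlt_nrm_unitsAdd h hσ]; exact one_ne_zero,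
      by rw [hSub_nrm_dlt_unitsAdd h hσ]; exact one_ne_zero⟩
  exact this.1

end Main

end Aut

end Fermat.Agent.S55.Local
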