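import Mathlib
import Fermat.Agent.S14.Herbrand
import Fermat.Agent.S14.HerbrandCyclic

/-!
# S55 local arithmetic core: the lattice spanned by the conjugates of an element

For an `O`-algebra automorphism `σ` of `B` with `σ^n = 1` and `θ ∈ B` whose conjugates
`θ, σθ, …, σ^(n-1)θ` are `O`-linearly independent, the lattice `L = ∑ O σ^k θ` (`conjLattice`)
is `σ`-stable and a cohomologically trivial `⟨σ⟩`-module: `σ`-invariant elements are traces
(`conjLattice_exists_sum_eq`) and trace-zero elements are of the form `σ l - l`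
(`conjLattice_exists_sub_eq`).  Proved by transport from the induced module `ℤ/n → O` of
`Fermat.Agent.S14.Herbrand.shift_hIdx`.
-/

set_option linter.style.haveILetI false
set_option linter.unusedSectionVars false

namespace Fermat.Agent.S55.Local

open Finset Fermat.Agent.S14.Herbrand

section NormalLattice

variable {O : Type*} [CommRing O] {B : Type*} [CommRing B] [Algebra O B]
variable (σ : B ≃ₐ[O] B) (n : ℕ) [NeZero n] (θ : B)

/-- The conjugates `σ^k θ`, `k ∈ ℤ/n`. -/
def conjFamily : ZMod n → B := fun k => (σ^[k.val]) θ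

/-- The `O`-linear map `(ℤ/n → O) → B`, `c ↦ ∑ c_k σ^k θ`. -/
noncomputable def conjMap : (ZMod n → O) →ₗ[O] B := Fintype.linearCombination O (conjFamily σ n θ)

/-- The lattice `∑ O σ^k θ`. -/
noncomputable def conjLattice : Submodule O B := LinearMap.range (conjMap σ n θ)

variable {σ n θ}

theorem conjMap_apply (c : ZMod n → O) :
    conjMap σ n θ c = ∑ k : ZMod n, c k • conjFamily σ n θ k := by
  rw [conjMap, Fintype.linearCombination_apply]

theorem iterate_mod_of_iterate_eq (hσ : ∀ b : B, (σ^[n]) b = b) (j : ℕ) (b : B) :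
    (σ^[j % n]) b = (σ^[j]) b := by
  conv_rhs => rw [← Nat.div_add_mod j n, add_comm, Function.iterate_add_apply,
    Function.iterate_mul]
  congr 1
  exact (Function.iterate_fixed (hσ b) (j / n)).symm

theorem map_conjFamily (hσ : ∀ b : B, (σ^[n]) b = b) (k : ZMod n) :
    σ (conjFamily σ n θ k) = conjFamily σ n θ (k + 1) := by
  rw [conjFamily, conjFamily, ← Function.iterate_succ_apply' (⇑σ), ZMod.val_add,
    ZMod.val_one_eq_one_mod, Nat.add_mod_mod, iterate_mod_of_iterate_eq hσ]

theorem conjMap_shift (hσ : ∀ b : B, (σ^[n]) b = b) (c : ZMod n → O) :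
    conjMap σ n θ (shift n O c) = σ (conjMap σ n θ c) := by
  rw [conjMap_apply, conjMap_apply, map_sum]
  have h1 : ∀ k : ZMod n, σ (c k • conjFamily σ n θ k) = c k • conjFamily σ n θ (k + 1) := by
    intro k
    rw [map_smul, map_conjFamily hσ]
  rw [Finset.sum_congr rfl (fun k _ => h1 k)]
  refine (Fintype.sum_equiv (Equiv.addRight (1 : ZMod n)) _ _ (fun k => ?_)).symm
  simp only [Equiv.coe_addRight, shift_apply, add_sub_cancel_right]

theorem conjMap_shift_pow (hσ : ∀ b : B, (σ^[n]) b = b) (j : ℕ) (c : ZMod n → O) :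
    conjMap σ n θ ((shift n O ^ j) c) = (σ^[j]) (conjMap σ n θ c) := by
  induction j with
  | zero => simp
  | succ j ih =>
    rw [pow_succ', end_mul_apply, conjMap_shift hσ, ih, Function.iterate_succ_apply']

theorem map_mem_conjLattice (hσ : ∀ b : B, (σ^[n]) b = b) {l : B}
    (hl : l ∈ conjLattice σ n θ) : σ l ∈ conjLattice σ n θ := by
  obtain ⟨c, rfl⟩ := hl
  exact ⟨shift n O c, conjMap_shift hσ c⟩

theorem conjFamily_mem_conjLattice (k : ZMod n) : conjFamily σ n θ k ∈ conjLattice σ n θ := by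
  classical
  refine ⟨Pi.single k 1, ?_⟩
  rw [conjMap_apply, Finset.sum_eq_single k]
  · simp
  · intro j _ hj
    simp [Pi.single_eq_of_ne hj]
  · intro h; exact absurd (Finset.mem_univ k) h

theorem conjMap_injective (hli : LinearIndependent O (conjFamily σ n θ)) :
    Function.Injective (conjMap σ n θ) := by
  rw [← LinearMap.ker_eq_bot, LinearMap.ker_eq_bot']
  intro c hc
  rw [conjMap_apply] at hc
  funext k
  exact Fintype.linearIndependent_iff.1 hli c hc k

/-- `Ĥ⁰ = 0` for the normal lattice. -/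
theorem conjLattice_exists_sum_eq (hσ : ∀ b : B, (σ^[n]) b = b)
    (hli : LinearIndependent O (conjFamily σ n θ)) {l : B} (hl : l ∈ conjLattice σ n θ)
    (hfix : σ l = l) : ∃ l' ∈ conjLattice σ n θ, ∑ k ∈ range n, (σ^[k]) l' = l := by
  have hinj := conjMap_injective hli
  obtain ⟨c, rfl⟩ := hl
  have hc : shift n O c = c := hinj (by rw [conjMap_shift hσ, hfix])
  have hker : c ∈ (dlt (shift n O)).ker := by
    rw [AddMonoidHom.mem_ker, dlt_apply, hc, sub_self]
  have h1 := (shift_hIdx (n := n) (Y := O)).1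
  rw [hIdx, AddSubgroup.relIndex_eq_one] at h1
  obtain ⟨c', hc'⟩ := h1 hker
  refine ⟨conjMap σ n θ c', ⟨c', rfl⟩, ?_⟩
  rw [← hc', nrm_apply, map_sum]
  exact Finset.sum_congr rfl (fun k _ => (conjMap_shift_pow hσ k c').symm)

/-- `Ĥ⁻¹ = 0` for the normal lattice. -/
theorem conjLattice_exists_sub_eq (hσ : ∀ b : B, (σ^[n]) b = b)
    (hli : LinearIndependent O (conjFamily σ n θ)) {l : B} (hl : l ∈ conjLattice σ n θ)
    (hN : ∑ k ∈ range n, (σ^[k]) l = 0) : ∃ l' ∈ conjLattice σ n θ, σ l' - l' = l := by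
  have hinj := conjMap_injective hli
  obtain ⟨c, rfl⟩ := hl
  have hc : nrm (shift n O) n c = 0 := by
    apply hinj
    rw [nrm_apply, map_sum, map_zero, ← hN]
    exact Finset.sum_congr rfl (fun k _ => conjMap_shift_pow hσ k c)
  have h1 := (shift_hIdx (n := n) (Y := O)).2
  rw [hIdx, AddSubgroup.relIndex_eq_one] at h1
  obtain ⟨c', hc'⟩ := h1 (AddMonoidHom.mem_ker.2 hc)
  refine ⟨conjMap σ n θ c', ⟨c', rfl⟩, ?_⟩
  rw [← hc', dlt_apply, map_sub, conjMap_shift hσ]

end NormalLattice

end Fermat.Agent.S55.Local
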