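import Mathlib
import Fermat.Agent.S55.Local.Approx

/-!
# S55 local arithmetic core, A2: the filtration of the unit group of a complete local ring

`unitFil O n = {u ∈ Oˣ | u ≡ 1 mod 𝔪^n}`; it is separated and complete when `O` is
`𝔪`-adically complete, and of finite index when the residue field is finite and `𝔪` is finitely
generated.
-/

set_option linter.style.haveILetI false
set_option linter.unusedSectionVars false

namespace Fermat.Agent.S55.Local

open IsLocalRing Finset

section Defs

variable (O : Type*) [CommRing O] [IsLocalRing O]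

/-- The higher unit groups `U^(n) = ker (Oˣ → (O ⧸ 𝔪^n)ˣ)`. -/
def unitFil (n : ℕ) : Subgroup Oˣ :=
  (Units.map (Ideal.Quotient.mk (maximalIdeal O ^ n)).toMonoidHom).ker

variable {O}

theorem mem_unitFil {n : ℕ} {u : Oˣ} :
    u ∈ unitFil O n ↔ (u : O) - 1 ∈ maximalIdeal O ^ n := by
  rw [unitFil, MonoidHom.mem_ker, Units.ext_iff]
  simp only [Units.coe_map, RingHom.toMonoidHom_eq_coe, MonoidHom.coe_coe, Units.val_one]
  rw [← map_one (Ideal.Quotient.mk (maximalIdeal O ^ n)), Ideal.Quotient.eq]

theorem unitFil_antitone : Antitone (unitFil O) := by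
  intro m n hmn u hu
  rw [mem_unitFil] at hu ⊢
  exact Ideal.pow_le_pow_right hmn hu

theorem unitFil_zero : unitFil O 0 = ⊤ := by
  ext u
  simp [mem_unitFil]

/-- `1 + x` is a unit for `x ∈ 𝔪`. -/
theorem isUnit_one_add {x : O} (hx : x ∈ maximalIdeal O) : IsUnit (1 + x) := by
  by_contra h
  have h1 : 1 + x ∈ maximalIdeal O := (mem_maximalIdeal _).2 h
  have : (1 : O) ∈ maximalIdeal O := by
    have := (maximalIdeal O).sub_mem h1 hx
    simpa using this
  exact (maximalIdeal.isMaximal O).ne_top ((Ideal.eq_top_iff_one _).2 this)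

/-- The unit `1 + x` for `x ∈ 𝔪`. -/
noncomputable def oneAddUnit (x : O) (hx : x ∈ maximalIdeal O) : Oˣ := (isUnit_one_add hx).unit

@[simp] theorem coe_oneAddUnit (x : O) (hx : x ∈ maximalIdeal O) :
    ((oneAddUnit x hx : Oˣ) : O) = 1 + x := rfl

theorem oneAddUnit_mem_unitFil {n : ℕ} (x : O) (hx : x ∈ maximalIdeal O)
    (hxn : x ∈ maximalIdeal O ^ n) : oneAddUnit x hx ∈ unitFil O n := by
  rw [mem_unitFil, coe_oneAddUnit]; simpa using hxn

/-- Congruent units differ by a higher unit. -/
theorem div_mem_unitFil {n : ℕ} {u v : Oˣ} (h : (u : O) - v ∈ maximalIdeal O ^ n) :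
    u / v ∈ unitFil O n := by
  rw [mem_unitFil]
  have : ((u / v : Oˣ) : O) - 1 = ((v⁻¹ : Oˣ) : O) * ((u : O) - v) := by
    rw [div_eq_mul_inv, Units.val_mul, mul_sub, Units.inv_mul, mul_comm]
  rw [this]
  exact Ideal.mul_mem_left _ _ h

theorem sub_mem_of_div_mem_unitFil {n : ℕ} {u v : Oˣ} (h : u / v ∈ unitFil O n) :
    (u : O) - v ∈ maximalIdeal O ^ n := by
  rw [mem_unitFil] at h
  have : (u : O) - v = (v : O) * (((u / v : Oˣ) : O) - 1) := by
    rw [div_eq_mul_inv, Units.val_mul, mul_sub, mul_one, mul_comm (u : O), ← mul_assoc,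
      Units.mul_inv, one_mul]
  rw [this]
  exact Ideal.mul_mem_left _ _ h

end Defs

section Complete

variable {O : Type*} [CommRing O] [IsLocalRing O]

theorem unitFil_separated [IsHausdorff (maximalIdeal O) O] (u : Oˣ)
    (h : ∀ n, u ∈ unitFil O n) : u = 1 := by
  have : (u : O) - 1 = 0 := by
    refine IsHausdorff.haus (inferInstance : IsHausdorff (maximalIdeal O) O) _ (fun n => ?_)
    rw [SModEq.sub_mem, sub_zero]
    simpa using mem_unitFil.1 (h n)
  exact Units.ext (sub_eq_zero.1 this)

/-- Convergence of infinite products `∏ a i` with `a i ∈ U^(i)`. -/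
theorem unitFil_complete [IsPrecomplete (maximalIdeal O) O] (a : ℕ → Oˣ)
    (ha : ∀ i, a i ∈ unitFil O i) :
    ∃ s : Oˣ, ∀ j, s / ∏ i ∈ range j, a i ∈ unitFil O j := by
  let P : ℕ → Oˣ := fun j => ∏ i ∈ range j, a i
  have hstep : ∀ j, ((P (j + 1) : Oˣ) : O) - P j ∈ maximalIdeal O ^ j := by
    intro j
    have : ((P (j + 1) : Oˣ) : O) - P j = (P j : O) * ((a j : O) - 1) := by
      simp only [P, Finset.prod_range_succ, Units.val_mul]; ring
    rw [this]
    exact Ideal.mul_mem_left _ _ (mem_unitFil.1 (ha j))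
  have hcauchy : ∀ {m n : ℕ}, m ≤ n → ((P m : Oˣ) : O) - P n ∈ maximalIdeal O ^ m := by
    intro m n hmn
    induction n, hmn using Nat.le_induction with
    | base => simp
    | succ n hmn ih =>
      have h1 := Ideal.pow_le_pow_right hmn (hstep n)
      have : ((P m : Oˣ) : O) - P (n + 1) = ((P m : O) - P n) - ((P (n + 1) : O) - P n) := by ring
      rw [this]
      exact Ideal.sub_mem _ ih h1
  obtain ⟨L, hL⟩ := IsPrecomplete.prec (inferInstance : IsPrecomplete (maximalIdeal O) O)
    (f := fun j => ((P j : Oˣ) : O)) (fun {m n} hmn => by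
      rw [SModEq.sub_mem]; simpa using hcauchy hmn)
  have hL' : ∀ n, ((P n : Oˣ) : O) - L ∈ maximalIdeal O ^ n := fun n => by
    have := hL n; rw [SModEq.sub_mem] at this; simpa using this
  have hLunit : IsUnit L := by
    by_contra h
    have h1 : L ∈ maximalIdeal O := (mem_maximalIdeal _).2 h
    have h2 : ((P 1 : Oˣ) : O) ∈ maximalIdeal O := by
      have := hL' 1
      rw [pow_one] at this
      have := (maximalIdeal O).add_mem this h1
      simpa using this
    exact (mem_maximalIdeal _).1 h2 (P 1).isUnit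
  refine ⟨hLunit.unit, fun j => div_mem_unitFil ?_⟩
  have := hL' j
  have h3 : (hLunit.unit : O) - (∏ i ∈ range j, a i : Oˣ) = -(((P j : Oˣ) : O) - L) := by
    simp only [IsUnit.unit_spec, P]; ring
  rw [h3]
  exact (Ideal.neg_mem_iff _).2 this

/-- The additive form of the unit filtration. -/
def unitFilAdd (O : Type*) [CommRing O] [IsLocalRing O] (n : ℕ) : AddSubgroup (Additive Oˣ) :=
  Subgroup.toAddSubgroup (unitFil O n)

theorem mem_unitFilAdd {n : ℕ} {x : Additive Oˣ} :
    x ∈ unitFilAdd O n ↔ Additive.toMul x ∈ unitFil O n := Iff.rfl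

theorem unitFilAdd_antitone : Antitone (unitFilAdd O) :=
  fun _ _ hmn _ hx => unitFil_antitone hmn hx

theorem filSeparated_unitFilAdd [IsHausdorff (maximalIdeal O) O] :
    FilSeparated (unitFilAdd O) := fun x hx => by
  have := unitFil_separated (Additive.toMul x) hx
  exact this

theorem filComplete_unitFilAdd [IsPrecomplete (maximalIdeal O) O] :
    FilComplete (unitFilAdd O) := fun a ha => by
  obtain ⟨s, hs⟩ := unitFil_complete (fun i => Additive.toMul (a i)) ha
  refine ⟨Additive.ofMul s, fun j => ?_⟩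
  rw [mem_unitFilAdd, toMul_sub, toMul_ofMul, toMul_sum]
  exact hs j

theorem finiteIndex_unitFil [IsNoetherianRing O] [Finite (ResidueField O)] (n : ℕ) :
    (unitFil O n).FiniteIndex := by
  haveI : Finite (O ⧸ maximalIdeal O) := inferInstanceAs (Finite (ResidueField O))
  haveI : Finite (O ⧸ maximalIdeal O ^ n) :=
    Ideal.finite_quotient_pow (IsNoetherian.noetherian _) n
  exact Subgroup.finiteIndex_ker _

end Complete

end Fermat.Agent.S55.Local
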