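import Mathlib
import Fermat.Agent.S55.Local.CompleteDVR
import Fermat.Agent.S55.Local.UnitFiltration
import Fermat.Agent.S55.Local.ValZ
import Fermat.Agent.S55.Local.LatticeUnits
import Fermat.Agent.S55.Local.NormalLattice

/-!
# S55 local arithmetic core (LO3): Herbrand quotients and the norm index of a cyclic extension

Setting: `O` a complete DVR with finite residue field, `F = Frac O`, `E/F` a finite cyclic Galois
extension with generator `σ`, `B` the integral closure of `O` in `E`, `n = [E : F]`.  In the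
Herbrand calculus of `Fermat.Agent.S14.Herbrand` (`hIdx`, `dlt`, `nrm`), with `Gal(E/F)` acting on
`Additive Bˣ` and `Additive Eˣ` through `unitsEnd`:

* `hIdx_units_integralClosure`: `|Ĥ⁰(G, Bˣ)| = |Ĥ⁻¹(G, Bˣ)| ≠ 0` (Herbrand quotient of the units
  is `1`), via a normal basis lattice and `LatticeUnits`;
* `exists_mul_map_eq_of_prod_iterate_eq_one`, `hIdx_nrm_dlt_field_units`: Hilbert 90
  (universe polymorphic), `|Ĥ⁻¹(G, Eˣ)| = 1`;
* `hIdx_dlt_nrm_field_units`: `|Ĥ⁰(G, Eˣ)| = n`;
* `index_range_norm_of_forall_mem_zpowers`, `index_range_norm_of_isCyclic`: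
  **`[Fˣ : N_{E/F} Eˣ] = [E : F]`**.
-/

set_option linter.style.haveILetI false
set_option linter.unusedSectionVars false

namespace Fermat.Agent.S55.Local

open IsLocalRing Finset Fermat.Agent.S14.Herbrand

section GaloisBasics

variable {F E : Type*} [Field F] [Field E] [Algebra F E] [FiniteDimensional F E] [IsGalois F E]

theorem orderOf_eq_finrank_of_forall_mem_zpowers {σ : E ≃ₐ[F] E}
    (hσ : ∀ g : E ≃ₐ[F] E, g ∈ Subgroup.zpowers σ) : orderOf σ = Module.finrank F E := by
  rw [orderOf_eq_card_of_forall_mem_zpowers hσ, IsGalois.card_aut_eq_finrank]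

theorem pow_finrank_eq_one_of_forall_mem_zpowers {σ : E ≃ₐ[F] E}
    (hσ : ∀ g : E ≃ₐ[F] E, g ∈ Subgroup.zpowers σ) : σ ^ Module.finrank F E = 1 := by
  rw [← orderOf_eq_finrank_of_forall_mem_zpowers hσ, pow_orderOf_eq_one]

theorem algEquiv_pow_apply_eq_iterate {R A : Type*} [CommSemiring R] [Semiring A] [Algebra R A]
    (σ : A ≃ₐ[R] A) (k : ℕ) (x : A) : (σ ^ k) x = (σ^[k]) x := by
  induction k with
  | zero => rfl
  | succ k ih => rw [pow_succ', AlgEquiv.mul_apply, ih, Function.iterate_succ_apply']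

end GaloisBasics

section Setup

variable (O : Type*) [CommRing O] [IsDomain O] [IsDiscreteValuationRing O]
  [IsAdicComplete (maximalIdeal O) O]
  (F : Type*) [Field F] [Algebra O F] [IsFractionRing O F]
  (E : Type*) [Field E] [Algebra F E] [Algebra O E] [IsScalarTower O F E]
  [FiniteDimensional F E] [Algebra.IsSeparable F E]
  (B : Type*) [CommRing B] [Algebra O B] [Algebra B E] [IsScalarTower O B E]
  [IsIntegralClosure B O E]

include F in
/-- Every element of `E` has a nonzero `O`-multiple in `B`. -/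
theorem exists_smul_eq_algebraMap (x : E) :
    ∃ a : O, a ≠ 0 ∧ ∃ θ : B, algebraMap B E θ = a • x := by
  haveI : Algebra.IsAlgebraic O E := (IsFractionRing.comap_isAlgebraic_iff (K := F)).2 inferInstance
  obtain ⟨a, ha, hint⟩ := (Algebra.IsAlgebraic.isAlgebraic (R := O) x).exists_integral_multiple
  obtain ⟨θ, hθ⟩ := (IsIntegralClosure.isIntegral_iff (A := B)).1 hint
  exact ⟨a, ha, θ, hθ⟩

variable [IsGalois F E] (σ : E ≃ₐ[F] E)

theorem algebraMap_galRestrict_iterate (j : ℕ) (b : B) :
    algebraMap B E (((galRestrict O F E B σ : B ≃ₐ[O] B))^[j] b) = (σ^[j]) (algebraMap B E b) := by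
  induction j with
  | zero => rfl
  | succ j ih =>
    rw [Function.iterate_succ_apply', Function.iterate_succ_apply', algebraMap_galRestrict_apply, ih]

variable {σ} in
theorem galRestrict_iterate_finrank (hσ : ∀ g : E ≃ₐ[F] E, g ∈ Subgroup.zpowers σ) (b : B) :
    ((galRestrict O F E B σ : B ≃ₐ[O] B))^[Module.finrank F E] b = b := by
  apply IsIntegralClosure.algebraMap_injective B O E
  rw [algebraMap_galRestrict_iterate, ← algEquiv_pow_apply_eq_iterate,
    pow_finrank_eq_one_of_forall_mem_zpowers hσ]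
  rfl

variable {σ} in
/-- A normal basis generator can be chosen in `B`. -/
theorem exists_linearIndependent_conjFamily (hσ : ∀ g : E ≃ₐ[F] E, g ∈ Subgroup.zpowers σ)
    (n : ℕ) [NeZero n] (hn : Module.finrank F E = n) :
    ∃ θ : B, LinearIndependent F
        (fun k : ZMod n => algebraMap B E (conjFamily (galRestrict O F E B σ) n θ k)) ∧
      LinearIndependent O (conjFamily (galRestrict O F E B σ) n θ) := by
  classical
  set b := IsGalois.normalBasis F E with hb
  obtain ⟨a, ha, θ, hθ⟩ := exists_smul_eq_algebraMap O F E B (b 1)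
  have haF : algebraMap O F a ≠ 0 := by
    rwa [Ne, map_eq_zero_iff _ (IsFractionRing.injective O F)]
  have hw : ∀ k : ZMod n, algebraMap B E (conjFamily (galRestrict O F E B σ) n θ k) =
      algebraMap O F a • b (σ ^ k.val) := by
    intro k
    rw [conjFamily, algebraMap_galRestrict_iterate, hθ, ← algEquiv_pow_apply_eq_iterate,
      ← algebraMap_smul F a (b 1), map_smul, hb, IsGalois.normalBasis_apply (σ ^ k.val)]
  have hinj : Function.Injective (fun k : ZMod n => σ ^ k.val) := by
    intro k k' hkk'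
    have h1 : k.val < orderOf σ := by
      rw [orderOf_eq_finrank_of_forall_mem_zpowers hσ, hn]; exact ZMod.val_lt k
    have h2 : k'.val < orderOf σ := by
      rw [orderOf_eq_finrank_of_forall_mem_zpowers hσ, hn]; exact ZMod.val_lt k'
    exact ZMod.val_injective n (pow_injOn_Iio_orderOf h1 h2 hkk')
  have hli0 : LinearIndependent F (fun k : ZMod n => b (σ ^ k.val)) :=
    b.linearIndependent.comp _ hinj
  have hliF : LinearIndependent F
      (fun k : ZMod n => algebraMap B E (conjFamily (galRestrict O F E B σ) n θ k)) := by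
    rw [Fintype.linearIndependent_iff] at hli0 ⊢
    intro g hg k
    have h1 : ∑ i : ZMod n, (g i * algebraMap O F a) • b (σ ^ i.val) = 0 := by
      rw [← hg]
      refine Finset.sum_congr rfl (fun i _ => ?_)
      rw [hw, smul_smul]
    have h2 := hli0 (fun i => g i * algebraMap O F a) h1 k
    exact (mul_eq_zero.1 h2).resolve_right haF
  refine ⟨θ, hliF, ?_⟩
  rw [Fintype.linearIndependent_iff] at hliF ⊢
  intro c hc k
  have h1 : ∑ i : ZMod n, algebraMap O F (c i) •
      algebraMap B E (conjFamily (galRestrict O F E B σ) n θ i) = 0 := by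
    have := congrArg (algebraMap B E) hc
    rw [map_sum, map_zero] at this
    rw [← this]
    refine Finset.sum_congr rfl (fun i _ => ?_)
    rw [algebraMap_smul]
    exact (map_smul (IsScalarTower.toAlgHom O B E) (c i) _).symm
  have h2 := hliF (fun i => algebraMap O F (c i)) h1 k
  exact (map_eq_zero_iff _ (IsFractionRing.injective O F)).1 h2

include F in
/-- A sublattice of `B` spanned by an `F`-basis of `E` contains `ϖ^t B` for some `t`. -/
theorem exists_pow_smul_mem_of_basis {ι : Type*} [Fintype ι] (v : ι → B)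
    (b : Module.Basis ι F E) (hb : ∀ i, b i = algebraMap B E (v i))
    {ϖ : O} (hϖ : Irreducible ϖ) :
    ∃ t : ℕ, ∀ β : B, ϖ ^ t • β ∈ Submodule.span O (Set.range v) := by
  classical
  haveI : Module.Finite O B := finite_of_isIntegralClosure O F E B
  set L := Submodule.span O (Set.range v) with hL
  -- every element has a nonzero multiple in `L`
  have hsingle : ∀ β : B, ∃ d : nonZeroDivisors O, (d : O) • β ∈ L := by
    intro β
    obtain ⟨d, hd⟩ := IsLocalization.exist_integer_multiples_of_finite (nonZeroDivisors O)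
      (fun i => b.repr (algebraMap B E β) i)
    choose o ho using hd
    refine ⟨d, ?_⟩
    have h1 : algebraMap B E ((d : O) • β) = algebraMap B E (∑ i, o i • v i) := by
      have hβ : algebraMap B E β = ∑ i, b.repr (algebraMap B E β) i • b i :=
        (b.sum_repr _).symm
      rw [map_sum]
      have h2 : algebraMap B E ((d : O) • β) = (d : O) • algebraMap B E β :=
        map_smul (IsScalarTower.toAlgHom O B E) (d : O) β
      rw [h2, hβ, Finset.smul_sum]
      refine Finset.sum_congr rfl (fun i _ => ?_)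
      have h3 : algebraMap B E (o i • v i) = o i • algebraMap B E (v i) :=
        map_smul (IsScalarTower.toAlgHom O B E) (o i) (v i)
      rw [h3, ← hb, ← algebraMap_smul F (o i) (b i), ho i, ← algebraMap_smul F (d : O), smul_smul,
        Algebra.smul_def (d : O)]
    have h4 := IsIntegralClosure.algebraMap_injective B O E h1
    rw [h4]
    exact Submodule.sum_mem _ (fun i _ =>
      Submodule.smul_mem _ _ (Submodule.subset_span (Set.mem_range_self i)))
  -- a common denominator
  have htors : Module.IsTorsion O (B ⧸ L) := by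
    intro x
    obtain ⟨β, rfl⟩ := Submodule.Quotient.mk_surjective L x
    obtain ⟨d, hd⟩ := hsingle β
    refine ⟨d, ?_⟩
    rw [Submonoid.smul_def, ← Submodule.Quotient.mk_smul, Submodule.Quotient.mk_eq_zero]
    exact hd
  obtain ⟨d, hdann, hdnz⟩ := Submodule.annihilator_top_inter_nonZeroDivisors htors
  have hd0 : d ≠ 0 := nonZeroDivisors.ne_zero hdnz
  obtain ⟨t, ht⟩ := IsDiscreteValuationRing.associated_pow_irreducible hd0 hϖ
  obtain ⟨u, hu⟩ := ht
  refine ⟨t, fun β => ?_⟩
  have h5 : d • (Submodule.Quotient.mk β : B ⧸ L) = 0 :=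
    Submodule.mem_annihilator.1 hdann _ Submodule.mem_top
  rw [← Submodule.Quotient.mk_smul, Submodule.Quotient.mk_eq_zero] at h5
  rw [← hu, mul_comm, mul_smul]
  exact Submodule.smul_mem _ _ h5

end Setup

section LatticeFromSubmodule

variable {O : Type*} [CommRing O] {B : Type*} [CommRing B] [Algebra O B]

theorem algebraMap_pow_mul (ϖ : O) (i : ℕ) (x : B) : algebraMap O B ϖ ^ i * x = ϖ ^ i • x := by
  rw [← map_pow, ← Algebra.smul_def]

/-- If `ϖ^t B ⊆ L ⊆ B` for an `O`-submodule `L`, then `M = ϖ^(t+1) L` is a unit lattice. -/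
theorem isUnitLattice_of_submodule (ϖ : O) (L : Submodule O B) (t : ℕ)
    (ht : ∀ β : B, ϖ ^ t • β ∈ L) (hreg : ∀ r : B, algebraMap O B ϖ * r = 0 → r = 0) :
    IsUnitLattice (algebraMap O B ϖ) (latFil (algebraMap O B ϖ) L.toAddSubgroup (t + 1))
      (2 * t + 1) where
  smul_mem := by
    rintro _ ⟨l, hl, rfl⟩
    refine ⟨ϖ • l, L.smul_mem ϖ hl, ?_⟩
    simp only [AddMonoidHom.coe_mulLeft]
    rw [Algebra.smul_def]; ring
  mul_mem := by
    rintro _ ⟨l, hl, rfl⟩ _ ⟨l', hl', rfl⟩
    simp only [AddMonoidHom.coe_mulLeft]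
    refine ⟨algebraMap O B ϖ ^ (t + 1) * (ϖ ^ t • (l * l')), ⟨ϖ ^ t • (l * l'), ht _, rfl⟩, ?_⟩
    rw [← algebraMap_pow_mul ϖ t]; ring
  pow_mul_mem := by
    intro r
    refine ⟨ϖ ^ t • r, ht r, ?_⟩
    simp only [AddMonoidHom.coe_mulLeft]
    rw [← algebraMap_pow_mul ϖ t]; ring
  regular := hreg

theorem ringEquiv_iterate_pow_mul (σ : B ≃+* B) {π : B} (hπ : σ π = π) (k i : ℕ) (x : B) :
    (σ^[k]) (π ^ i * x) = π ^ i * (σ^[k]) x := by
  rw [ringEquiv_iterate_eq, map_mul, map_pow, ← ringEquiv_iterate_eq,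
    Function.iterate_fixed hπ k]

theorem pow_mul_eq_zero_of_regular {π : B} (hreg : ∀ r : B, π * r = 0 → r = 0) (i : ℕ) (r : B)
    (hr : π ^ i * r = 0) : r = 0 := by
  induction i with
  | zero => simpa using hr
  | succ i ih =>
    apply ih
    apply hreg
    rw [← mul_assoc, ← pow_succ']
    exact hr

/-- A `σ`-stable cohomologically trivial `O`-submodule `L` gives a lattice automorphism datum for
`M = ϖ^(t+1) L`. -/
theorem isLatticeAut_of_submodule (ϖ : O) (L : Submodule O B) (t : ℕ) (σ : B ≃ₐ[O] B) (n : ℕ)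
    (hreg : ∀ r : B, algebraMap O B ϖ * r = 0 → r = 0)
    (hiter : ∀ b : B, (σ^[n]) b = b) (hL : ∀ l ∈ L, σ l ∈ L)
    (h0 : ∀ l ∈ L, σ l = l → ∃ l' ∈ L, ∑ k ∈ range n, (σ^[k]) l' = l)
    (h1 : ∀ l ∈ L, ∑ k ∈ range n, (σ^[k]) l = 0 → ∃ l' ∈ L, σ l' - l' = l) :
    IsLatticeAut (algebraMap O B ϖ) (latFil (algebraMap O B ϖ) L.toAddSubgroup (t + 1))
      (σ : B ≃+* B) n where
  map_pi := σ.commutes ϖ
  map_mem := by
    rintro _ ⟨l, hl, rfl⟩
    refine ⟨σ l, hL l hl, ?_⟩
    simp only [AddMonoidHom.coe_mulLeft]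
    show algebraMap O B ϖ ^ (t + 1) * σ l = σ (algebraMap O B ϖ ^ (t + 1) * l)
    rw [map_mul, map_pow, σ.commutes]
  iterate_eq := hiter
  exists_sum_eq := by
    rintro _ ⟨l, hl, rfl⟩ hfix
    simp only [AddMonoidHom.coe_mulLeft] at hfix ⊢
    have hπ : (σ : B ≃+* B) (algebraMap O B ϖ) = algebraMap O B ϖ := σ.commutes ϖ
    have hσl : σ l = l := by
      have h2 : (σ : B ≃+* B) (algebraMap O B ϖ ^ (t + 1) * l) =
          algebraMap O B ϖ ^ (t + 1) * σ l := by
        rw [map_mul, map_pow, hπ]; rfl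
      rw [h2] at hfix
      have : algebraMap O B ϖ ^ (t + 1) * (σ l - l) = 0 := by rw [mul_sub, hfix, sub_self]
      exact sub_eq_zero.1 (pow_mul_eq_zero_of_regular hreg _ _ this)
    obtain ⟨l', hl', hsum⟩ := h0 l hl hσl
    refine ⟨algebraMap O B ϖ ^ (t + 1) * l', ⟨l', hl', rfl⟩, ?_⟩
    rw [← hsum, Finset.mul_sum]
    exact Finset.sum_congr rfl (fun k _ => ringEquiv_iterate_pow_mul (σ : B ≃+* B) hπ k _ l')
  exists_sub_eq := by
    rintro _ ⟨l, hl, rfl⟩ hN
    simp only [AddMonoidHom.coe_mulLeft] at hN ⊢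
    have hπ : (σ : B ≃+* B) (algebraMap O B ϖ) = algebraMap O B ϖ := σ.commutes ϖ
    have hNl : ∑ k ∈ range n, (σ^[k]) l = 0 := by
      have h2 : ∑ k ∈ range n, ((σ : B ≃+* B)^[k]) (algebraMap O B ϖ ^ (t + 1) * l) =
          algebraMap O B ϖ ^ (t + 1) * ∑ k ∈ range n, (σ^[k]) l := by
        rw [Finset.mul_sum]
        exact Finset.sum_congr rfl (fun k _ => ringEquiv_iterate_pow_mul (σ : B ≃+* B) hπ k _ l)
      rw [h2] at hN
      exact pow_mul_eq_zero_of_regular hreg _ _ hN
    obtain ⟨l', hl', hsub⟩ := h1 l hl hNl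
    refine ⟨algebraMap O B ϖ ^ (t + 1) * l', ⟨l', hl', rfl⟩, ?_⟩
    rw [← hsub, mul_sub]
    congr 1
    show (σ : B ≃+* B) (algebraMap O B ϖ ^ (t + 1) * l') = _
    rw [map_mul, map_pow, hπ]; rfl

end LatticeFromSubmodule

section UnitsHerbrand

variable (O : Type*) [CommRing O] [IsDomain O] [IsDiscreteValuationRing O]
  [IsAdicComplete (maximalIdeal O) O] [Finite (ResidueField O)]
  (F : Type*) [Field F] [Algebra O F] [IsFractionRing O F]
  (E : Type*) [Field E] [Algebra F E] [Algebra O E] [IsScalarTower O F E]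
  [FiniteDimensional F E] [Algebra.IsSeparable F E]
  (B : Type*) [CommRing B] [Algebra O B] [Algebra B E] [IsScalarTower O B E]
  [IsIntegralClosure B O E] [IsGalois F E]

include F E in
theorem algebraMap_injective_of_isIntegralClosure : Function.Injective (algebraMap O B) := by
  have h : Function.Injective (algebraMap O E) := by
    rw [IsScalarTower.algebraMap_eq O F E]
    exact (algebraMap F E).injective.comp (IsFractionRing.injective O F)
  rw [IsScalarTower.algebraMap_eq O B E] at h
  exact Function.Injective.of_comp h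

include F E in
theorem map_maximalIdeal_eq_span {ϖ : O} (hϖ : Irreducible ϖ) :
    (maximalIdeal O).map (algebraMap O B) = Ideal.span {algebraMap O B ϖ} := by
  rw [hϖ.maximalIdeal_eq, Ideal.map_span, Set.image_singleton]

/-- **The unit group of a cyclic extension of local fields has Herbrand quotient `1`**:
`|Ĥ⁰(G, Bˣ)| = |Ĥ⁻¹(G, Bˣ)| ≠ 0` for `G = ⟨σ⟩ = Gal(E/F)`. -/
theorem hIdx_units_integralClosure {σ : E ≃ₐ[F] E}
    (hσ : ∀ g : E ≃ₐ[F] E, g ∈ Subgroup.zpowers σ) :
    hIdx (dlt (unitsEnd ((galRestrict O F E B σ : B ≃ₐ[O] B) : B ≃+* B)))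
        (nrm (unitsEnd ((galRestrict O F E B σ : B ≃ₐ[O] B) : B ≃+* B)) (Module.finrank F E)) =
      hIdx (nrm (unitsEnd ((galRestrict O F E B σ : B ≃ₐ[O] B) : B ≃+* B)) (Module.finrank F E))
        (dlt (unitsEnd ((galRestrict O F E B σ : B ≃ₐ[O] B) : B ≃+* B))) ∧
    hIdx (dlt (unitsEnd ((galRestrict O F E B σ : B ≃ₐ[O] B) : B ≃+* B)))
        (nrm (unitsEnd ((galRestrict O F E B σ : B ≃ₐ[O] B) : B ≃+* B)) (Module.finrank F E)) ≠
      0 := by
  classical
  haveI : NeZero (Module.finrank F E) := ⟨Module.finrank_pos.ne'⟩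
  haveI : IsDomain B := isDomain_of_isIntegralClosure O F E B
  haveI : IsLocalRing B := isLocalRing_of_isIntegralClosure O F E B
  haveI : IsDiscreteValuationRing B := isDiscreteValuationRing_of_isIntegralClosure O F E B
  haveI : Finite (ResidueField B) := finite_residueField_of_isIntegralClosure O F E B
  obtain ⟨ϖ, hϖ⟩ := IsDiscreteValuationRing.exists_irreducible O
  set n := Module.finrank F E with hn
  set σB : B ≃ₐ[O] B := galRestrict O F E B σ with hσB
  obtain ⟨θ, hliF, hliO⟩ := exists_linearIndependent_conjFamily O F E B hσ n rfl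
  let b' : Module.Basis (ZMod n) F E :=
    basisOfLinearIndependentOfCardEqFinrank hliF (by rw [ZMod.card])
  obtain ⟨t, ht⟩ := exists_pow_smul_mem_of_basis O F E B (conjFamily σB n θ) b'
    (fun i => congrFun (coe_basisOfLinearIndependentOfCardEqFinrank hliF _) i) hϖ
  have hLspan : conjLattice σB n θ = Submodule.span O (Set.range (conjFamily σB n θ)) :=
    Fintype.range_linearCombination O _
  rw [← hLspan] at ht
  have hπ0 : algebraMap O B ϖ ≠ 0 := by
    rw [Ne, map_eq_zero_iff _ (algebraMap_injective_of_isIntegralClosure O F E B)]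
    exact hϖ.ne_zero
  have hreg : ∀ r : B, algebraMap O B ϖ * r = 0 → r = 0 := fun r hr =>
    (mul_eq_zero.1 hr).resolve_left hπ0
  have hiter : ∀ b : B, (σB^[n]) b = b := galRestrict_iterate_finrank O F E B hσ
  have hU := isUnitLattice_of_submodule ϖ (conjLattice σB n θ) t ht hreg
  have hA := isLatticeAut_of_submodule ϖ (conjLattice σB n θ) t σB n hreg hiter
    (fun l hl => map_mem_conjLattice hiter hl)
    (fun l hl hfix => conjLattice_exists_sum_eq hiter hliO hl hfix)
    (fun l hl hN => conjLattice_exists_sub_eq hiter hliO hl hN)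
  have hspan := map_maximalIdeal_eq_span O F E B hϖ
  haveI : IsAdicComplete (Ideal.span {algebraMap O B ϖ}) B := by
    rw [← hspan]
    exact isAdicComplete_map_maximalIdeal O F E B
  -- finite index
  have hfin : (hU.unitsAdd 0).index ≠ 0 := by
    obtain ⟨e, -, he⟩ := exists_map_maximalIdeal_eq_pow O F E B
    rw [hspan] at he
    have hle : unitFil B (e * (2 * t + 1)) ≤ hU.units 0 := by
      intro u hu
      rw [mem_unitFil, pow_mul, ← he, Ideal.span_singleton_pow, Ideal.mem_span_singleton'] at hu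
      obtain ⟨r, hr⟩ := hu
      rw [IsUnitLattice.mem_units, latFil_zero, ← hr, mul_comm]
      exact hU.pow_mul_mem r
    haveI := finiteIndex_unitFil (O := B) (e * (2 * t + 1))
    have : (hU.units 0).FiniteIndex := Subgroup.finiteIndex_of_le hle
    rw [IsUnitLattice.unitsAdd, Subgroup.index_toAddSubgroup]
    exact this.index_ne_zero
  exact hIdx_unitsEnd_eq hU hA hfin

end UnitsHerbrand

section Hilbert90

variable {F E : Type*} [Field F] [Field E] [Algebra F E] [FiniteDimensional F E] [IsGalois F E]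

theorem algEquiv_iterate_finrank {σ : E ≃ₐ[F] E}
    (hσ : ∀ g : E ≃ₐ[F] E, g ∈ Subgroup.zpowers σ) (x : E) :
    ((σ : E ≃+* E)^[Module.finrank F E]) x = x := by
  have := algEquiv_pow_apply_eq_iterate σ (Module.finrank F E) x
  rw [pow_finrank_eq_one_of_forall_mem_zpowers hσ] at this
  exact this.symm

/-- The norm `∑_{k<n} σ^k` on `Additive Eˣ` is the field norm. -/
theorem val_nrm_unitsEnd_eq_norm {σ : E ≃ₐ[F] E}
    (hσ : ∀ g : E ≃ₐ[F] E, g ∈ Subgroup.zpowers σ) (a : Additive Eˣ) :
    ((Additive.toMul (nrm (unitsEnd (σ : E ≃+* E)) (Module.finrank F E) a) : Eˣ) : E) =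
      algebraMap F E (Algebra.norm F ((Additive.toMul a : Eˣ) : E)) := by
  classical
  rw [val_nrm_unitsEnd, Algebra.norm_eq_prod_automorphisms]
  have himg := IsCyclic.image_range_card hσ
  rw [IsGalois.card_aut_eq_finrank] at himg
  rw [← himg, Finset.prod_image]
  · refine Finset.prod_congr rfl (fun k _ => ?_)
    exact (algEquiv_pow_apply_eq_iterate σ k _).symm
  · intro i hi j hj hij
    have hi' : i < orderOf σ := by
      rw [orderOf_eq_finrank_of_forall_mem_zpowers hσ]; exact Finset.mem_range.mp hi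
    have hj' : j < orderOf σ := by
      rw [orderOf_eq_finrank_of_forall_mem_zpowers hσ]; exact Finset.mem_range.mp hj
    exact pow_injOn_Iio_orderOf hi' hj' hij

/-- **Hilbert 90 for a cyclic group of field automorphisms** (universe polymorphic, via Dedekind's
independence of characters): if `σ^n = 1`, the `σ^i` (`i < n`) are pairwise distinct and
`∏_{k<n} σ^k x = 1`, then `x = y / σ y` for some `y ≠ 0`. -/
theorem exists_mul_map_eq_of_prod_iterate_eq_one {E : Type*} [Field E] (σ : E ≃+* E) {n : ℕ}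
    (hn : 0 < n) (hσn : ∀ z : E, (σ^[n]) z = z)
    (hinj : ∀ i < n, ∀ j < n, (∀ z : E, (σ^[i]) z = (σ^[j]) z) → i = j) {x : E}
    (hx : ∏ k ∈ range n, (σ^[k]) x = 1) : ∃ y : E, y ≠ 0 ∧ x * σ y = y := by
  classical
  set P : ℕ → E := fun k => ∏ j ∈ range k, (σ^[j]) x with hP
  have hP0 : P 0 = 1 := by simp [hP]
  have hPn : P n = 1 := hx
  have hPsucc : ∀ k, P (k + 1) = x * σ (P k) := by
    intro k
    simp only [hP]
    rw [Finset.prod_range_succ', map_prod, Function.iterate_zero, id_eq, mul_comm]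
    congr 1
    exact Finset.prod_congr rfl (fun j _ => Function.iterate_succ_apply' _ _ _)
  -- Dedekind
  let φ : Fin n → (E →* E) := fun k => ((σ.toRingHom ^ (k : ℕ) : E →+* E) : E →* E)
  have hφ : ∀ (k : Fin n) (z : E), φ k z = (σ^[(k : ℕ)]) z := by
    intro k z
    rw [ringEquiv_iterate_eq]; rfl
  have hφinj : Function.Injective φ := by
    intro i j hij
    apply Fin.ext
    refine hinj i i.2 j j.2 (fun z => ?_)
    rw [← hφ, ← hφ, hij]
  have hli : LinearIndependent E (fun k : Fin n => (⇑(φ k) : E → E)) :=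
    (linearIndependent_monoidHom E E).comp φ hφinj
  obtain ⟨z, hz⟩ : ∃ z : E, ∑ k ∈ range n, P k * (σ^[k]) z ≠ 0 := by
    by_contra hcon'
    have hcon : ∀ z : E, ∑ k ∈ range n, P k * (σ^[k]) z = 0 := fun z => by
      by_contra h
      exact hcon' ⟨z, h⟩
    have h0 : ∑ k : Fin n, P (k : ℕ) • (⇑(φ k) : E → E) = 0 := by
      funext z
      rw [Finset.sum_apply, Pi.zero_apply, ← hcon z,
        ← Fin.sum_univ_eq_sum_range (fun k => P k * (σ^[k]) z) n]
      refine Finset.sum_congr rfl (fun k _ => ?_)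
      rw [Pi.smul_apply, smul_eq_mul, hφ]
    have := Fintype.linearIndependent_iff.1 hli (fun k => P (k : ℕ)) h0 ⟨0, hn⟩
    rw [hP0] at this
    exact one_ne_zero this
  refine ⟨_, hz, ?_⟩
  rw [map_sum, Finset.mul_sum]
  have h1 : ∀ k ∈ range n, x * σ (P k * (σ^[k]) z) = P (k + 1) * (σ^[k + 1]) z := by
    intro k _
    rw [map_mul, hPsucc, Function.iterate_succ_apply', mul_assoc]
  rw [Finset.sum_congr rfl h1]
  have h2 := Finset.sum_range_succ' (fun k => P k * (σ^[k]) z) n
  have h3 := Finset.sum_range_succ (fun k => P k * (σ^[k]) z) n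
  rw [h3] at h2
  simp only [Function.iterate_zero, id_eq, hP0, one_mul] at h2
  rw [hPn, one_mul, hσn] at h2
  exact (add_right_cancel h2).symm


/-- **Hilbert 90** in the Herbrand calculus: `|Ĥ⁻¹(G, Eˣ)| = 1`. -/
theorem hIdx_nrm_dlt_field_units {σ : E ≃ₐ[F] E}
    (hσ : ∀ g : E ≃ₐ[F] E, g ∈ Subgroup.zpowers σ) :
    hIdx (nrm (unitsEnd (σ : E ≃+* E)) (Module.finrank F E)) (dlt (unitsEnd (σ : E ≃+* E))) =
      1 := by
  rw [hIdx, AddSubgroup.relIndex_eq_one]
  intro a ha
  rw [AddMonoidHom.mem_ker] at ha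
  have h1 := val_nrm_unitsEnd (σ : E ≃+* E) (Module.finrank F E) a
  rw [ha] at h1
  have h2 : ∏ k ∈ range (Module.finrank F E), ((σ : E ≃+* E)^[k]) ((Additive.toMul a : Eˣ) : E) =
      1 := by
    rw [← h1]; rfl
  have hinj : ∀ i < Module.finrank F E, ∀ j < Module.finrank F E,
      (∀ z : E, ((σ : E ≃+* E)^[i]) z = ((σ : E ≃+* E)^[j]) z) → i = j := by
    intro i hi j hj hij
    have hi' : i < orderOf σ := by rwa [orderOf_eq_finrank_of_forall_mem_zpowers hσ]
    have hj' : j < orderOf σ := by rwa [orderOf_eq_finrank_of_forall_mem_zpowers hσ]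
    refine pow_injOn_Iio_orderOf hi' hj' (AlgEquiv.ext (fun z => ?_))
    rw [algEquiv_pow_apply_eq_iterate, algEquiv_pow_apply_eq_iterate]
    exact hij z
  obtain ⟨y, hy0, hy⟩ := exists_mul_map_eq_of_prod_iterate_eq_one (σ : E ≃+* E)
    Module.finrank_pos (algEquiv_iterate_finrank hσ) hinj h2
  refine ⟨Additive.ofMul (Units.mk0 y hy0)⁻¹, ?_⟩
  apply Additive.toMul.injective
  apply Units.ext
  rw [val_dlt_unitsEnd]
  simp only [toMul_ofMul, inv_inv, Units.val_inv_eq_inv_val, Units.val_mk0]
  have hσy : (σ : E ≃+* E) y ≠ 0 := by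
    rw [Ne, map_eq_zero_iff _ (σ : E ≃+* E).injective]; exact hy0
  have : ((σ : E ≃+* E)) y⁻¹ = ((σ : E ≃+* E) y)⁻¹ := map_inv₀ (σ : E ≃+* E) y
  rw [this]
  calc ((σ : E ≃+* E) y)⁻¹ * y
      = ((σ : E ≃+* E) y)⁻¹ * (((Additive.toMul a : Eˣ) : E) * (σ : E ≃+* E) y) := by rw [hy]
    _ = ((Additive.toMul a : Eˣ) : E) := by
        rw [mul_comm ((Additive.toMul a : Eˣ) : E), ← mul_assoc, inv_mul_cancel₀ hσy, one_mul]

end Hilbert90

section FieldUnits

variable (O : Type*) [CommRing O] [IsDomain O] [IsDiscreteValuationRing O]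
  [IsAdicComplete (maximalIdeal O) O] [Finite (ResidueField O)]
  (F : Type*) [Field F] [Algebra O F] [IsFractionRing O F]
  (E : Type*) [Field E] [Algebra F E] [Algebra O E] [IsScalarTower O F E]
  [FiniteDimensional F E] [Algebra.IsSeparable F E]
  (B : Type*) [CommRing B] [Algebra O B] [Algebra B E] [IsScalarTower O B E]
  [IsIntegralClosure B O E] [IsGalois F E]

include O in
/-- The valuation of `E` is invariant under `Gal(E/F)`. -/
theorem valZ_map_algEquiv [IsDomain B] [IsDiscreteValuationRing B] [IsFractionRing B E]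
    (σ : E ≃ₐ[F] E) (x : Eˣ) :
    valZ B E (Units.map ((σ : E ≃+* E).toRingHom : E →* E) x) = valZ B E x := by
  obtain ⟨ϖ, hϖ⟩ := IsDiscreteValuationRing.exists_irreducible B
  obtain ⟨m, u, hx⟩ := exists_eq_unit_mul_zpow (O := B) (F := E) hϖ x
  set σB : B ≃ₐ[O] B := galRestrict O F E B σ with hσB
  have hϖ' : Irreducible (σB ϖ) := (MulEquiv.irreducible_iff σB).2 hϖ
  have hσx : ((Units.map ((σ : E ≃+* E).toRingHom : E →* E) x : Eˣ) : E) =
      algebraMap B E (Units.map (σB : B →* B) u : Bˣ) * algebraMap B E (σB ϖ) ^ m := by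
    have h1 : ((Units.map ((σ : E ≃+* E).toRingHom : E →* E) x : Eˣ) : E) = σ (x : E) := rfl
    rw [h1, hx, map_mul, map_zpow₀, hσB, algebraMap_galRestrict_apply]
    congr 1
    exact (algebraMap_galRestrict_apply O σ (u : B)).symm
  apply WithZero.coe_injective
  rw [coe_valZ, coe_valZ, hσx, hx, dvrValuation_unit_mul_zpow hϖ', dvrValuation_unit_mul_zpow hϖ]

include O B in
/-- **The multiplicative group of a cyclic extension of local fields**:
`|Ĥ⁰(G, Eˣ)| = [E : F]` (and `|Ĥ⁻¹(G, Eˣ)| = 1` by Hilbert 90), `G = ⟨σ⟩ = Gal(E/F)`. -/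
theorem hIdx_dlt_nrm_field_units {σ : E ≃ₐ[F] E}
    (hσ : ∀ g : E ≃ₐ[F] E, g ∈ Subgroup.zpowers σ) :
    hIdx (dlt (unitsEnd (σ : E ≃+* E))) (nrm (unitsEnd (σ : E ≃+* E)) (Module.finrank F E)) =
      Module.finrank F E := by
  haveI : IsDomain B := isDomain_of_isIntegralClosure O F E B
  haveI : IsLocalRing B := isLocalRing_of_isIntegralClosure O F E B
  haveI : IsDiscreteValuationRing B := isDiscreteValuationRing_of_isIntegralClosure O F E B
  haveI : IsFractionRing B E := isFractionRing_of_isIntegralClosure O F E B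
  set n := Module.finrank F E with hn
  have hn0 : n ≠ 0 := Module.finrank_pos.ne'
  set σB : B ≃ₐ[O] B := galRestrict O F E B σ with hσB
  set τE := unitsEnd (σ : E ≃+* E) with hτE
  set τB := unitsEnd (σB : B ≃+* B) with hτB
  let ι : Additive Bˣ →+ Additive Eˣ :=
    MonoidHom.toAdditive (Units.map (algebraMap B E).toMonoidHom)
  let π : Additive Eˣ →+ ℤ := MonoidHom.toAdditiveLeft (valZ B E)
  have hι : Function.Injective ι := fun x y h =>
    units_map_injective (O := B) (F := E) h
  have hπ : Function.Surjective π := fun z => by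
    obtain ⟨x, hx⟩ := valZ_surjective (O := B) (F := E) (Multiplicative.ofAdd z)
    exact ⟨Additive.ofMul x, congrArg Multiplicative.toAdd hx⟩
  have hex : ι.range = π.ker := by
    ext x
    have h := ker_valZ (O := B) (F := E)
    constructor
    · rintro ⟨u, rfl⟩
      have : Units.map (algebraMap B E).toMonoidHom (Additive.toMul u) ∈ (valZ B E).ker := by
        rw [h]; exact ⟨_, rfl⟩
      exact congrArg Multiplicative.toAdd (MonoidHom.mem_ker.1 this)
    · intro hx
      have hx' : Additive.toMul x ∈ (valZ B E).ker := by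
        rw [MonoidHom.mem_ker]
        exact congrArg Multiplicative.ofAdd (AddMonoidHom.mem_ker.1 hx)
      rw [h] at hx'
      obtain ⟨u, hu⟩ := hx'
      exact ⟨Additive.ofMul u, congrArg Additive.ofMul hu⟩
  have hτι : ∀ x, τE (ι x) = ι (τB x) := by
    intro x
    apply Additive.toMul.injective
    apply Units.ext
    exact (algebraMap_galRestrict_apply O σ ((Additive.toMul x : Bˣ) : B)).symm
  have hτι_pow : ∀ (k : ℕ) x, (τE ^ k) (ι x) = ι ((τB ^ k) x) := by
    intro k
    induction k with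
    | zero => intro x; rfl
    | succ k ih => intro x; rw [pow_succ', pow_succ', end_mul_apply, end_mul_apply, ih, hτι]
  have hπτ : ∀ x, π (τE x) = π x := by
    intro x
    exact congrArg Multiplicative.toAdd (valZ_map_algEquiv O F E B σ (Additive.toMul x))
  have hπτ_pow : ∀ (k : ℕ) x, π ((τE ^ k) x) = π x := by
    intro k
    induction k with
    | zero => intro x; rfl
    | succ k ih => intro x; rw [pow_succ', end_mul_apply, hπτ, ih]
  have hfι : ∀ x, dlt τE (ι x) = ι (dlt τB x) := by
    intro x; rw [dlt_apply, dlt_apply, map_sub, hτι]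
  have hgι : ∀ x, nrm τE n (ι x) = ι (nrm τB n x) := by
    intro x
    rw [nrm_apply, nrm_apply, map_sum]
    exact Finset.sum_congr rfl (fun k _ => hτι_pow k x)
  have hfπ : ∀ x, dlt (1 : AddMonoid.End ℤ) (π x) = π (dlt τE x) := by
    intro x
    rw [dlt_one, dlt_apply, map_sub, hπτ, sub_self]; rfl
  have hgπ : ∀ x, nrm (1 : AddMonoid.End ℤ) n (π x) = π (nrm τE n x) := by
    intro x
    rw [nrm_one_apply, nrm_apply, map_sum, Finset.sum_congr rfl (fun k _ => hπτ_pow k x),
      Finset.sum_const, Finset.card_range]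
  have hτ : τE ^ n = 1 := unitsEnd_pow_eq_one (algEquiv_iterate_finrank hσ)
  have key := herbrand_exact ι π hι hπ hex hfι hgι hfπ hgπ (fun x => dlt_nrm hτ x)
    (fun x => nrm_dlt hτ x)
  rw [int_trivial_zero, int_trivial_one hn0, hIdx_nrm_dlt_field_units hσ, mul_one, one_mul] at key
  obtain ⟨hB1, hB2⟩ := hIdx_units_integralClosure O F E B hσ
  rw [← hB1] at key
  rw [mul_comm (hIdx (dlt τB) (nrm τB n)) n] at key
  exact Nat.eq_of_mul_eq_mul_right (Nat.pos_of_ne_zero hB2) key

end FieldUnits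

section NormIndex

variable {F E : Type*} [Field F] [Field E] [Algebra F E] [FiniteDimensional F E] [IsGalois F E]

/-- `Additive Fˣ → Additive Eˣ`. -/
noncomputable def unitsIncl (F E : Type*) [Field F] [Field E] [Algebra F E] :
    Additive Fˣ →+ Additive Eˣ :=
  MonoidHom.toAdditive (Units.map (algebraMap F E).toMonoidHom)

theorem val_unitsIncl (a : Additive Fˣ) :
    ((Additive.toMul (unitsIncl F E a) : Eˣ) : E) = algebraMap F E ((Additive.toMul a : Fˣ) : F) :=
  rfl

theorem unitsIncl_injective : Function.Injective (unitsIncl F E) := by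
  intro a b h
  have h1 := congrArg (fun z : Additive Eˣ => ((Additive.toMul z : Eˣ) : E)) h
  simp only [val_unitsIncl] at h1
  exact Additive.toMul.injective (Units.ext ((algebraMap F E).injective h1))

/-- The `σ`-invariants of `Eˣ` are `Fˣ`. -/
theorem ker_dlt_unitsEnd {σ : E ≃ₐ[F] E} (hσ : ∀ g : E ≃ₐ[F] E, g ∈ Subgroup.zpowers σ) :
    (dlt (unitsEnd (σ : E ≃+* E))).ker = (unitsIncl F E).range := by
  ext a
  rw [AddMonoidHom.mem_ker, dlt_apply, sub_eq_zero]
  constructor
  · intro h
    have h1 : σ ((Additive.toMul a : Eˣ) : E) = ((Additive.toMul a : Eˣ) : E) := by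
      have := congrArg (fun z : Additive Eˣ => ((Additive.toMul z : Eˣ) : E)) h
      exact this
    have h2 : ∀ g : E ≃ₐ[F] E, g ((Additive.toMul a : Eˣ) : E) = ((Additive.toMul a : Eˣ) : E) := by
      intro g
      have hle : Subgroup.zpowers σ ≤
          MulAction.stabilizer (E ≃ₐ[F] E) ((Additive.toMul a : Eˣ) : E) := by
        rw [Subgroup.zpowers_le, MulAction.mem_stabilizer_iff]
        exact h1
      exact MulAction.mem_stabilizer_iff.1 (hle (hσ g))
    obtain ⟨y, hy⟩ := (IsGalois.mem_range_algebraMap_iff_fixed (F := F) _).2 h2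
    have hy0 : y ≠ 0 := by
      rintro rfl
      rw [map_zero] at hy
      exact (Additive.toMul a : Eˣ).ne_zero hy.symm
    refine ⟨Additive.ofMul (Units.mk0 y hy0), ?_⟩
    apply Additive.toMul.injective
    apply Units.ext
    exact hy
  · rintro ⟨b, rfl⟩
    apply Additive.toMul.injective
    apply Units.ext
    rw [val_unitsEnd, val_unitsIncl]
    exact σ.commutes _

/-- The image of the norm `∑ σ^k` on `Eˣ` is the image of the field norm group. -/
theorem range_nrm_unitsEnd {σ : E ≃ₐ[F] E} (hσ : ∀ g : E ≃ₐ[F] E, g ∈ Subgroup.zpowers σ) :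
    (nrm (unitsEnd (σ : E ≃+* E)) (Module.finrank F E)).range =
      (Subgroup.toAddSubgroup (Units.map (Algebra.norm F : E →* F)).range).map (unitsIncl F E) := by
  ext a
  constructor
  · rintro ⟨b, rfl⟩
    refine ⟨Additive.ofMul (Units.map (Algebra.norm F : E →* F) (Additive.toMul b)),
      ⟨Additive.toMul b, rfl⟩, ?_⟩
    apply Additive.toMul.injective
    apply Units.ext
    rw [val_nrm_unitsEnd_eq_norm hσ]
    rfl
  · rintro ⟨c, ⟨y, hy⟩, rfl⟩
    refine ⟨Additive.ofMul y, ?_⟩
    apply Additive.toMul.injective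
    apply Units.ext
    rw [val_nrm_unitsEnd_eq_norm hσ, val_unitsIncl]
    have : Additive.toMul c = Units.map (Algebra.norm F : E →* F) y := hy.symm
    rw [this]
    rfl

/-- `[Fˣ : N Eˣ] = |Ĥ⁰(G, Eˣ)|` for a cyclic extension. -/
theorem index_range_norm_eq_hIdx {σ : E ≃ₐ[F] E} (hσ : ∀ g : E ≃ₐ[F] E, g ∈ Subgroup.zpowers σ) :
    (Units.map (Algebra.norm F : E →* F)).range.index =
      hIdx (dlt (unitsEnd (σ : E ≃+* E))) (nrm (unitsEnd (σ : E ≃+* E)) (Module.finrank F E)) := by
  rw [hIdx, ker_dlt_unitsEnd hσ, range_nrm_unitsEnd hσ, AddMonoidHom.range_eq_map,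
    AddSubgroup.relIndex_map_map_of_injective _ _ unitsIncl_injective,
    AddSubgroup.relIndex_top_right, Subgroup.index_toAddSubgroup]

end NormIndex

section LocalNormIndex

variable (O : Type*) [CommRing O] [IsDomain O] [IsDiscreteValuationRing O]
  [IsAdicComplete (maximalIdeal O) O] [Finite (ResidueField O)]
  (F : Type*) [Field F] [Algebra O F] [IsFractionRing O F]
  (E : Type*) [Field E] [Algebra F E] [Algebra O E] [IsScalarTower O F E]
  [FiniteDimensional F E] [Algebra.IsSeparable F E]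
  (B : Type*) [CommRing B] [Algebra O B] [Algebra B E] [IsScalarTower O B E]
  [IsIntegralClosure B O E] [IsGalois F E]

include O B in
/-- **The local norm index**: `[Fˣ : N_{E/F} Eˣ] = [E : F]` for a cyclic extension `E/F` of local
fields (complete discretely valued with finite residue field). -/
theorem index_range_norm_of_forall_mem_zpowers {σ : E ≃ₐ[F] E}
    (hσ : ∀ g : E ≃ₐ[F] E, g ∈ Subgroup.zpowers σ) :
    (Units.map (Algebra.norm F : E →* F)).range.index = Module.finrank F E := by
  rw [index_range_norm_eq_hIdx hσ, hIdx_dlt_nrm_field_units O F E B hσ]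

include O B in
theorem index_range_norm_of_isCyclic [IsCyclic (E ≃ₐ[F] E)] :
    (Units.map (Algebra.norm F : E →* F)).range.index = Module.finrank F E := by
  obtain ⟨σ, hσ⟩ := IsCyclic.exists_generator (α := E ≃ₐ[F] E)
  exact index_range_norm_of_forall_mem_zpowers O F E B hσ

end LocalNormIndex

end Fermat.Agent.S55.Local
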