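import Mathlib
import Fermat.Agent.S55.Local.NormIndex

/-!
# S55 local arithmetic core (LO3, unramified case): the norm group of an unramified extension

Setting of `NormIndex.lean` (`O` complete DVR with finite residue field, `E/F` cyclic with
generator `σ`, `B` the integral closure), with `E/F` unramified in the sense
`𝔪_O B = 𝔪_B` (`hunr`, = `Unram.IsUnram.map_eq` of LO2):

* `hIdx_nrm_dlt_units_of_unramified`, `hIdx_dlt_nrm_units_of_unramified`:
  `Ĥ⁻¹(G, Bˣ) = Ĥ⁰(G, Bˣ) = 0`;
* `exists_norm_eq_of_unramified`: `N(Bˣ) = Oˣ`; `exists_prod_eq_of_unramified` (element form);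
* `mem_range_norm_iff_of_unramified`: `x ∈ N(Eˣ) ↔ [E:F] ∣ v_F(x)`;
* `exists_not_mem_range_norm`: the norm of a nontrivial cyclic extension is not surjective.
-/

set_option linter.style.haveILetI false
set_option linter.unusedSectionVars false
set_option linter.overlappingInstances false

namespace Fermat.Agent.S55.Local

open IsLocalRing Finset Fermat.Agent.S14.Herbrand

section IntUnits

variable (O : Type*) [CommRing O] [IsDomain O] [IsDiscreteValuationRing O]
  [IsAdicComplete (maximalIdeal O) O] [Finite (ResidueField O)]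
  (F : Type*) [Field F] [Algebra O F] [IsFractionRing O F]
  (E : Type*) [Field E] [Algebra F E] [Algebra O E] [IsScalarTower O F E]
  [FiniteDimensional F E] [Algebra.IsSeparable F E]
  (B : Type*) [CommRing B] [Algebra O B] [Algebra B E] [IsScalarTower O B E]
  [IsIntegralClosure B O E] [IsGalois F E]

/-- `Additive Bˣ → Additive Eˣ`. -/
noncomputable def intUnitsIncl (B E : Type*) [CommRing B] [Field E] [Algebra B E] :
    Additive Bˣ →+ Additive Eˣ :=
  MonoidHom.toAdditive (Units.map (algebraMap B E).toMonoidHom)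

theorem val_intUnitsIncl (a : Additive Bˣ) :
    ((Additive.toMul (intUnitsIncl B E a) : Eˣ) : E) = algebraMap B E ((Additive.toMul a : Bˣ) : B) :=
  rfl

include O in
theorem intUnitsIncl_injective : Function.Injective (intUnitsIncl B E) := by
  intro a b h
  have h1 := congrArg (fun z : Additive Eˣ => ((Additive.toMul z : Eˣ) : E)) h
  simp only [val_intUnitsIncl] at h1
  exact Additive.toMul.injective
    (Units.ext (IsIntegralClosure.algebraMap_injective B O E h1))

theorem unitsEnd_intUnitsIncl (σ : E ≃ₐ[F] E) (x : Additive Bˣ) :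
    unitsEnd (σ : E ≃+* E) (intUnitsIncl B E x) =
      intUnitsIncl B E (unitsEnd ((galRestrict O F E B σ : B ≃ₐ[O] B) : B ≃+* B) x) := by
  apply Additive.toMul.injective
  apply Units.ext
  exact (algebraMap_galRestrict_apply O σ ((Additive.toMul x : Bˣ) : B)).symm

theorem unitsEnd_pow_intUnitsIncl (σ : E ≃ₐ[F] E) (k : ℕ) (x : Additive Bˣ) :
    (unitsEnd (σ : E ≃+* E) ^ k) (intUnitsIncl B E x) =
      intUnitsIncl B E ((unitsEnd ((galRestrict O F E B σ : B ≃ₐ[O] B) : B ≃+* B) ^ k) x) := by
  induction k generalizing x with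
  | zero => rfl
  | succ k ih =>
    rw [pow_succ', pow_succ', end_mul_apply, end_mul_apply, ih, unitsEnd_intUnitsIncl O F E B]

theorem dlt_intUnitsIncl (σ : E ≃ₐ[F] E) (x : Additive Bˣ) :
    dlt (unitsEnd (σ : E ≃+* E)) (intUnitsIncl B E x) =
      intUnitsIncl B E (dlt (unitsEnd ((galRestrict O F E B σ : B ≃ₐ[O] B) : B ≃+* B)) x) := by
  rw [dlt_apply, dlt_apply, map_sub, unitsEnd_intUnitsIncl O F E B]

theorem nrm_intUnitsIncl (σ : E ≃ₐ[F] E) (n : ℕ) (x : Additive Bˣ) :
    nrm (unitsEnd (σ : E ≃+* E)) n (intUnitsIncl B E x) =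
      intUnitsIncl B E (nrm (unitsEnd ((galRestrict O F E B σ : B ≃ₐ[O] B) : B ≃+* B)) n x) := by
  rw [nrm_apply, nrm_apply, map_sum]
  exact Finset.sum_congr rfl (fun k _ => unitsEnd_pow_intUnitsIncl O F E B σ k x)

end IntUnits

section Unramified

variable (O : Type*) [CommRing O] [IsDomain O] [IsDiscreteValuationRing O]
  [IsAdicComplete (maximalIdeal O) O] [Finite (ResidueField O)]
  (F : Type*) [Field F] [Algebra O F] [IsFractionRing O F]
  (E : Type*) [Field E] [Algebra F E] [Algebra O E] [IsScalarTower O F E]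
  [FiniteDimensional F E] [Algebra.IsSeparable F E]
  (B : Type*) [CommRing B] [Algebra O B] [Algebra B E] [IsScalarTower O B E]
  [IsIntegralClosure B O E] [IsGalois F E] [IsLocalRing B]

include F E in
/-- In the unramified case a uniformiser of `O` stays irreducible in `B`. -/
theorem irreducible_algebraMap_of_unramified
    (hunr : (maximalIdeal O).map (algebraMap O B) = maximalIdeal B) {ϖ : O} (hϖ : Irreducible ϖ) :
    Irreducible (algebraMap O B ϖ) := by
  haveI : IsDomain B := isDomain_of_isIntegralClosure O F E B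
  haveI : IsDiscreteValuationRing B := isDiscreteValuationRing_of_isIntegralClosure O F E B
  rw [IsDiscreteValuationRing.irreducible_iff_uniformizer, ← hunr,
    map_maximalIdeal_eq_span O F E B hϖ]

/-- **Unramified case: `H¹(G, Bˣ) = 0`** (in the form `|Ĥ⁻¹| = 1`). -/
theorem hIdx_nrm_dlt_units_of_unramified
    (hunr : (maximalIdeal O).map (algebraMap O B) = maximalIdeal B) {σ : E ≃ₐ[F] E}
    (hσ : ∀ g : E ≃ₐ[F] E, g ∈ Subgroup.zpowers σ) :
    hIdx (nrm (unitsEnd ((galRestrict O F E B σ : B ≃ₐ[O] B) : B ≃+* B)) (Module.finrank F E))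
      (dlt (unitsEnd ((galRestrict O F E B σ : B ≃ₐ[O] B) : B ≃+* B))) = 1 := by
  haveI : IsDomain B := isDomain_of_isIntegralClosure O F E B
  haveI : IsDiscreteValuationRing B := isDiscreteValuationRing_of_isIntegralClosure O F E B
  haveI : IsFractionRing B E := isFractionRing_of_isIntegralClosure O F E B
  obtain ⟨ϖ, hϖ⟩ := IsDiscreteValuationRing.exists_irreducible O
  have hπ := irreducible_algebraMap_of_unramified O F E B hunr hϖ
  set n := Module.finrank F E with hn
  set σB : B ≃ₐ[O] B := galRestrict O F E B σ with hσB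
  rw [hIdx, AddSubgroup.relIndex_eq_one]
  intro a ha
  rw [AddMonoidHom.mem_ker] at ha
  -- Hilbert 90 in `E`
  have h1 : nrm (unitsEnd (σ : E ≃+* E)) n (intUnitsIncl B E a) = 0 := by
    rw [nrm_intUnitsIncl O F E B σ n a, ha, map_zero]
  have h90 := hIdx_nrm_dlt_field_units hσ
  rw [hIdx, AddSubgroup.relIndex_eq_one] at h90
  obtain ⟨y, hy⟩ := h90 (AddMonoidHom.mem_ker.2 h1)
  -- decompose `y`
  obtain ⟨m, w, hyw⟩ := exists_eq_unit_mul_zpow (O := B) (F := E) hπ (Additive.toMul y)
  have hπE0 : algebraMap B E (algebraMap O B ϖ) ≠ 0 := by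
    rw [Ne, map_eq_zero_iff _ (IsIntegralClosure.algebraMap_injective B O E)]
    exact hπ.ne_zero
  let pE : Additive Eˣ := Additive.ofMul (Units.mk0 _ hπE0)
  have hy' : y = intUnitsIncl B E (Additive.ofMul w) + m • pE := by
    apply Additive.toMul.injective
    apply Units.ext
    rw [hyw, toMul_add, toMul_zsmul, Units.val_mul, Units.val_zpow_eq_zpow_val]
    rfl
  have hpE : dlt (unitsEnd (σ : E ≃+* E)) pE = 0 := by
    rw [dlt_apply, sub_eq_zero]
    apply Additive.toMul.injective
    apply Units.ext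
    rw [val_unitsEnd]
    show σ (algebraMap B E (algebraMap O B ϖ)) = algebraMap B E (algebraMap O B ϖ)
    rw [← IsScalarTower.algebraMap_apply O B E, IsScalarTower.algebraMap_apply O F E]
    exact σ.commutes _
  refine ⟨Additive.ofMul w, ?_⟩
  apply intUnitsIncl_injective O E B
  rw [← dlt_intUnitsIncl O F E B σ, ← hy, hy', map_add, map_zsmul, hpE, smul_zero, add_zero]

/-- **Unramified case: `Ĥ⁰(G, Bˣ) = 0`**, i.e. every unit of `O` is a norm of a unit of `B`
(Herbrand form). -/
theorem hIdx_dlt_nrm_units_of_unramified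
    (hunr : (maximalIdeal O).map (algebraMap O B) = maximalIdeal B) {σ : E ≃ₐ[F] E}
    (hσ : ∀ g : E ≃ₐ[F] E, g ∈ Subgroup.zpowers σ) :
    hIdx (dlt (unitsEnd ((galRestrict O F E B σ : B ≃ₐ[O] B) : B ≃+* B)))
      (nrm (unitsEnd ((galRestrict O F E B σ : B ≃ₐ[O] B) : B ≃+* B)) (Module.finrank F E)) =
      1 := by
  rw [(hIdx_units_integralClosure O F E B hσ).1]
  exact hIdx_nrm_dlt_units_of_unramified O F E B hunr hσ

/-- **Unramified case: `N(Bˣ) = Oˣ`.** -/
theorem exists_norm_eq_of_unramified
    (hunr : (maximalIdeal O).map (algebraMap O B) = maximalIdeal B) {σ : E ≃ₐ[F] E}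
    (hσ : ∀ g : E ≃ₐ[F] E, g ∈ Subgroup.zpowers σ) (u : Oˣ) :
    ∃ v : Bˣ, Algebra.norm F (algebraMap B E v) = algebraMap O F u := by
  set n := Module.finrank F E with hn
  set σB : B ≃ₐ[O] B := galRestrict O F E B σ with hσB
  have h0 := hIdx_dlt_nrm_units_of_unramified O F E B hunr hσ
  rw [hIdx, AddSubgroup.relIndex_eq_one] at h0
  let a : Additive Bˣ := Additive.ofMul (Units.map (algebraMap O B).toMonoidHom u)
  have ha : a ∈ (dlt (unitsEnd (σB : B ≃+* B))).ker := by
    rw [AddMonoidHom.mem_ker, dlt_apply, sub_eq_zero]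
    apply Additive.toMul.injective
    apply Units.ext
    rw [val_unitsEnd]
    exact σB.commutes _
  obtain ⟨b, hb⟩ := h0 ha
  refine ⟨Additive.toMul b, ?_⟩
  apply (algebraMap F E).injective
  have h1 := val_nrm_unitsEnd_eq_norm hσ (intUnitsIncl B E b)
  rw [nrm_intUnitsIncl O F E B σ, hb, val_intUnitsIncl, val_intUnitsIncl] at h1
  rw [← h1]
  show algebraMap B E (algebraMap O B u) = _
  rw [← IsScalarTower.algebraMap_apply O B E, IsScalarTower.algebraMap_apply O F E]

/-- Unramified case, element form for `Eˣ`: a `σ`-invariant element of valuation `0` is a norm. -/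
theorem exists_prod_eq_of_unramified [IsDomain B] [IsDiscreteValuationRing B] [IsFractionRing B E]
    (hunr : (maximalIdeal O).map (algebraMap O B) = maximalIdeal B) {σ : E ≃ₐ[F] E}
    (hσ : ∀ g : E ≃ₐ[F] E, g ∈ Subgroup.zpowers σ) (x : Eˣ) (hx : σ (x : E) = x)
    (hv : valZ B E x = 1) :
    ∃ b : Eˣ, ∏ k ∈ range (Module.finrank F E), (σ ^ k) (b : E) = x := by
  set n := Module.finrank F E with hn
  set σB : B ≃ₐ[O] B := galRestrict O F E B σ with hσB
  obtain ⟨w, hw0⟩ := valZ_eq_one_iff.1 hv
  have hw : (x : E) = algebraMap B E (w : B) := by rw [← hw0]; rfl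
  have h0 := hIdx_dlt_nrm_units_of_unramified O F E B hunr hσ
  rw [hIdx, AddSubgroup.relIndex_eq_one] at h0
  have ha : Additive.ofMul w ∈ (dlt (unitsEnd (σB : B ≃+* B))).ker := by
    rw [AddMonoidHom.mem_ker]
    apply intUnitsIncl_injective O E B
    rw [← dlt_intUnitsIncl O F E B σ, map_zero, dlt_apply, sub_eq_zero]
    apply Additive.toMul.injective
    apply Units.ext
    rw [val_unitsEnd, val_intUnitsIncl]
    show σ (algebraMap B E w) = algebraMap B E w
    rw [← hw, hx]
  obtain ⟨b, hb⟩ := h0 ha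
  refine ⟨Additive.toMul (intUnitsIncl B E b), ?_⟩
  have h1 := val_nrm_unitsEnd (σ : E ≃+* E) n (intUnitsIncl B E b)
  rw [nrm_intUnitsIncl O F E B σ, hb, val_intUnitsIncl] at h1
  rw [hw]
  show _ = algebraMap B E w
  rw [show algebraMap B E ((Additive.toMul (Additive.ofMul w) : Bˣ) : B) = algebraMap B E w from rfl]
    at h1
  rw [h1]
  exact Finset.prod_congr rfl (fun k _ => algEquiv_pow_apply_eq_iterate σ k _)

include O B in
/-- The norm of a unit of `B` is a unit of `O`. -/
theorem exists_unit_norm_eq (w : Bˣ) :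
    ∃ u : Oˣ, Algebra.norm F (algebraMap B E w) = algebraMap O F u :=
  ⟨Units.map (Algebra.intNormAux O F E B) w, (Algebra.map_intNormAux (A := O) (K := F) (L := E)
    (w : B)).symm⟩

/-- **Unramified case: the norm group.** `x ∈ Fˣ` is a norm from `Eˣ` iff `[E : F] ∣ v_F(x)`. -/
theorem mem_range_norm_iff_of_unramified
    (hunr : (maximalIdeal O).map (algebraMap O B) = maximalIdeal B) {σ : E ≃ₐ[F] E}
    (hσ : ∀ g : E ≃ₐ[F] E, g ∈ Subgroup.zpowers σ) (x : Fˣ) :
    x ∈ (Units.map (Algebra.norm F : E →* F)).range ↔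
      (Module.finrank F E : ℤ) ∣ Multiplicative.toAdd (valZ O F x) := by
  haveI : IsDomain B := isDomain_of_isIntegralClosure O F E B
  haveI : IsDiscreteValuationRing B := isDiscreteValuationRing_of_isIntegralClosure O F E B
  haveI : IsFractionRing B E := isFractionRing_of_isIntegralClosure O F E B
  obtain ⟨ϖ, hϖ⟩ := IsDiscreteValuationRing.exists_irreducible O
  have hπ := irreducible_algebraMap_of_unramified O F E B hunr hϖ
  set n := Module.finrank F E with hn
  have hval : ∀ (u : Oˣ) (m : ℤ), (x : F) = algebraMap O F u * algebraMap O F ϖ ^ m →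
      Multiplicative.toAdd (valZ O F x) = -m := by
    intro u m hx
    have h1 : ((valZ O F x : Multiplicative ℤ) : WithZero (Multiplicative ℤ)) =
        WithZero.exp (-m) := by
      rw [coe_valZ, hx, dvrValuation_unit_mul_zpow hϖ]
    have h2 : valZ O F x = Multiplicative.ofAdd (-m) := WithZero.coe_injective h1
    rw [h2]; rfl
  have hπE : algebraMap B E (algebraMap O B ϖ) = algebraMap F E (algebraMap O F ϖ) := by
    rw [← IsScalarTower.algebraMap_apply O B E, IsScalarTower.algebraMap_apply O F E]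
  have hϖF : algebraMap O F ϖ ≠ 0 := by
    rw [Ne, map_eq_zero_iff _ (IsFractionRing.injective O F)]
    exact hϖ.ne_zero
  have hϖE : algebraMap F E (algebraMap O F ϖ) ≠ 0 := by
    rwa [Ne, map_eq_zero_iff _ (algebraMap F E).injective]
  set pE : Eˣ := Units.mk0 _ hϖE with hpE
  set N : Eˣ →* Fˣ := Units.map (Algebra.norm F : E →* F) with hN
  have hNp : ((N pE : Fˣ) : F) = algebraMap O F ϖ ^ n := by
    show Algebra.norm F (algebraMap F E (algebraMap O F ϖ)) = _
    rw [Algebra.norm_algebraMap]
  have hNι : ∀ w : Bˣ, ((N (Units.map (algebraMap B E).toMonoidHom w) : Fˣ) : F) =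
      Algebra.norm F (algebraMap B E w) := fun w => rfl
  constructor
  · rintro ⟨y, rfl⟩
    obtain ⟨m, w, hy⟩ := exists_eq_unit_mul_zpow (O := B) (F := E) hπ y
    obtain ⟨u, hu⟩ := exists_unit_norm_eq O F E B w
    have hy' : y = Units.map (algebraMap B E).toMonoidHom w * pE ^ m := by
      apply Units.ext
      rw [hy, Units.val_mul, Units.val_zpow_eq_zpow_val, hπE]
      rfl
    have hx : ((N y : Fˣ) : F) = algebraMap O F u * algebraMap O F ϖ ^ ((n : ℤ) * m) := by
      rw [hy', map_mul, map_zpow, Units.val_mul, Units.val_zpow_eq_zpow_val, hNp, hNι, hu,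
        zpow_mul, zpow_natCast]
    rw [hval u _ hx]
    exact Dvd.intro (-m) (by ring)
  · rintro ⟨k, hk⟩
    obtain ⟨m, u, hx⟩ := exists_eq_unit_mul_zpow (O := O) (F := F) hϖ x
    have hm : m = (n : ℤ) * (-k) := by
      have := hval u m hx
      rw [hk] at this
      linarith
    obtain ⟨v, hv⟩ := exists_norm_eq_of_unramified O F E B hunr hσ u
    refine ⟨Units.map (algebraMap B E).toMonoidHom v * pE ^ (-k), Units.ext ?_⟩
    show ((N (Units.map (algebraMap B E).toMonoidHom v * pE ^ (-k)) : Fˣ) : F) = (x : F)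
    rw [map_mul, map_zpow, Units.val_mul, Units.val_zpow_eq_zpow_val, hNp, hNι, hv, hx, hm,
      zpow_mul, zpow_natCast]

end Unramified

section NotSurjective

variable (O : Type*) [CommRing O] [IsDomain O] [IsDiscreteValuationRing O]
  [IsAdicComplete (maximalIdeal O) O] [Finite (ResidueField O)]
  (F : Type*) [Field F] [Algebra O F] [IsFractionRing O F]
  (E : Type*) [Field E] [Algebra F E] [Algebra O E] [IsScalarTower O F E]
  [FiniteDimensional F E] [Algebra.IsSeparable F E]
  (B : Type*) [CommRing B] [Algebra O B] [Algebra B E] [IsScalarTower O B E]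
  [IsIntegralClosure B O E] [IsGalois F E]

include O B in
/-- For a nontrivial cyclic extension of local fields the norm `Eˣ → Fˣ` is not surjective. -/
theorem exists_not_mem_range_norm [IsCyclic (E ≃ₐ[F] E)] (hn : 1 < Module.finrank F E) :
    ∃ x : Fˣ, x ∉ (Units.map (Algebra.norm F : E →* F)).range := by
  by_contra hcon
  have htop : (Units.map (Algebra.norm F : E →* F)).range = ⊤ := by
    rw [eq_top_iff]
    intro x _
    by_contra hx
    exact hcon ⟨x, hx⟩
  have := index_range_norm_of_isCyclic O F E B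
  rw [htop, Subgroup.index_top] at this
  omega

end NotSurjective

end Fermat.Agent.S55.Local
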