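/-
S55 LOC5 (5-B): the invariant of an (abstract) UNRAMIFIED cyclic layer.

`IsUnramLayer φ n v`: `G = ⟨φ⟩` cyclic of order `n` acting on the commutative group `M`
(think `G = Gal(E/F)`, `E/F` unramified, `M = Eˣ`, `φ` the Frobenius, `v` the normalised
valuation of `E`), with a `G`-invariant valuation `v : M →* ℤ`, an invariant uniformiser,
and "invariant units are norms".

Exports: `invUnr h : H²(G, M) →+ ZMod n`, `c ↦ v (∑_{i<n} c (φ^i, φ)) mod n`, which is
injective and surjective, `invUnr [cyc φ a] = v a`, and the FUNCTORIALITY formula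
`inv' (map f ι x) = (e * r) • inv x` in `ℝ/ℤ` covering inflation (`e = r = 1`) and base change
(`e` = ramification index, `r` = residue degree).
-/
import Mathlib
import Fermat.Agent.S55.GC.CyclicH2

set_option autoImplicit false

open groupCohomology CategoryTheory Fermat.Agent.S55.GC.CyclicH2

namespace Fermat.Agent.S55.Local.UnramClass

/-- The `ℤ`-representation attached to a multiplicative action (abbreviation). -/
abbrev AM (G M : Type) [Group G] [CommGroup M] [MulDistribMulAction G M] : Rep ℤ G :=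
  Rep.ofMulDistribMulAction G M

variable {G : Type} [Group G] {M : Type} [CommGroup M] [MulDistribMulAction G M]

/-- An abstract unramified cyclic layer. -/
structure IsUnramLayer (φ : G) (n : ℕ) (v : M →* Multiplicative ℤ) : Prop where
  gen : ∀ g : G, g ∈ Subgroup.zpowers φ
  order : orderOf φ = n
  v_smul : ∀ (g : G) (x : M), v (g • x) = v x
  exists_unif : ∃ ϖ : M, (∀ g : G, g • ϖ = ϖ) ∧ v ϖ = Multiplicative.ofAdd 1
  unit_norm : ∀ u : M, (∀ g : G, g • u = u) → v u = 1 →
    ∃ b : M, ∏ i ∈ Finset.range n, (φ ^ i) • b = u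

/-- The underlying element of `M` of an element of the module `AM G M`. -/
def toM (G : Type) [Group G] [MulDistribMulAction G M] (x : AM G M) : M :=
  Additive.toMul (show Additive M from x)

theorem toM_zero : toM G (0 : AM G M) = (1 : M) := rfl

theorem toM_add (x y : AM G M) : toM G (x + y) = toM G x * toM G y := rfl

theorem toM_ρ (g : G) (x : AM G M) : toM G ((AM G M).ρ g x) = g • toM G x := rfl

theorem toM_ofMul (x : M) : toM G (show AM G M from Additive.ofMul x) = x := rfl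

/-- The valuation as an additive map on the underlying module of `AM G M`. -/
def vZ (G : Type) [Group G] [MulDistribMulAction G M] (v : M →* Multiplicative ℤ) :
    (AM G M) →+ ℤ where
  toFun x := (v (toM G x)).toAdd
  map_zero' := by
    rw [toM_zero, map_one, toAdd_one]
  map_add' x y := by
    rw [toM_add, map_mul, toAdd_mul]

theorem vZ_apply (v : M →* Multiplicative ℤ) (x : AM G M) :
    vZ G v x = (v (toM G x)).toAdd := rfl

theorem vZ_smul {φ : G} {n : ℕ} {v : M →* Multiplicative ℤ} (h : IsUnramLayer φ n v) (g : G)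
    (x : AM G M) : vZ G v ((AM G M).ρ g x) = vZ G v x := by
  rw [vZ_apply, vZ_apply, toM_ρ, h.v_smul]

theorem vZ_normσ {φ : G} {n : ℕ} {v : M →* Multiplicative ℤ} (h : IsUnramLayer φ n v)
    (b : AM G M) : vZ G v (normσ φ n b) = n * vZ G v b := by
  unfold normσ
  rw [map_sum]
  simp only [vZ_smul h]
  rw [Finset.sum_const, Finset.card_range, nsmul_eq_mul]

theorem neZero {φ : G} {n : ℕ} {v : M →* Multiplicative ℤ} (h : IsUnramLayer φ n v)
    [Finite G] : NeZero n := by
  refine ⟨?_⟩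
  rw [← h.order]
  exact (orderOf_pos φ).ne'

/-- The invariant on cocycles. -/
noncomputable def invCocycle (φ : G) (n : ℕ) (v : M →* Multiplicative ℤ) :
    cocycles₂ (AM G M) →ₗ[ℤ] ZMod n :=
  AddMonoidHom.toIntLinearMap
    { toFun := fun c => ((vZ G v (ev φ n (c : G × G → AM G M)) : ℤ) : ZMod n)
      map_zero' := by
        have : ((0 : cocycles₂ (AM G M)) : G × G → AM G M) = 0 := rfl
        rw [this, ev_zero, map_zero, Int.cast_zero]
      map_add' := fun c c' => by
        have : ((c + c' : cocycles₂ (AM G M)) : G × G → AM G M) =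
            (c : G × G → AM G M) + (c' : G × G → AM G M) := rfl
        rw [this, ev_add, map_add, Int.cast_add] }

theorem invCocycle_apply (φ : G) (n : ℕ) (v : M →* Multiplicative ℤ) (c : cocycles₂ (AM G M)) :
    invCocycle φ n v c = ((vZ G v (ev φ n (c : G × G → AM G M)) : ℤ) : ZMod n) := rfl

variable {φ : G} {n : ℕ} {v : M →* Multiplicative ℤ}

theorem invCocycle_eq_zero_of_mem_coboundaries₂ [NeZero n] (h : IsUnramLayer φ n v)
    (c : cocycles₂ (AM G M)) (hc : (c : G × G → AM G M) ∈ coboundaries₂ (AM G M)) :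
    invCocycle φ n v c = 0 := by
  obtain ⟨b, hb⟩ := (mem_coboundaries₂_iff_ev h.gen h.order _ c.2).1 hc
  rw [invCocycle_apply]
  have : ev φ n (c : G × G → AM G M) = normσ φ n b := hb.symm
  rw [this, vZ_normσ h]
  simp

/-- **The invariant of an unramified layer**, `H²(G, M) →+ ZMod n`. -/
noncomputable def invUnr [NeZero n] (h : IsUnramLayer φ n v) : H2 (AM G M) →+ ZMod n :=
  (H2lift (AM G M) (invCocycle φ n v)
    (invCocycle_eq_zero_of_mem_coboundaries₂ h)).toAddMonoidHom

theorem invUnr_H2π [NeZero n] (h : IsUnramLayer φ n v) (c : cocycles₂ (AM G M)) :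
    invUnr h (H2π (AM G M) c) =
      ((vZ G v (ev φ n (c : G × G → AM G M)) : ℤ) : ZMod n) :=
  H2lift_H2π (AM G M) (invCocycle φ n v) (invCocycle_eq_zero_of_mem_coboundaries₂ h) c

theorem toM_sum {ι : Type*} (s : Finset ι) (f : ι → AM G M) :
    toM G (∑ i ∈ s, f i) = ∏ i ∈ s, toM G (f i) :=
  toMul_sum s (fun i => (show Additive M from f i))

theorem toM_normσ (y : AM G M) :
    toM G (normσ φ n y) = ∏ i ∈ Finset.range n, (φ ^ i) • toM G y := by
  unfold normσ
  rw [toM_sum]
  rfl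

theorem toM_injective : Function.Injective (toM G : AM G M → M) := fun _ _ h => h

/-- A `G`-invariant element whose valuation is divisible by `n` is a norm. -/
theorem exists_normσ_eq (h : IsUnramLayer φ n v) (a : AM G M) (ha : ∀ g, (AM G M).ρ g a = a)
    (k : ℤ) (hk : vZ G v a = n * k) : ∃ b : AM G M, normσ φ n b = a := by
  obtain ⟨ϖ, hϖ, hvϖ⟩ := h.exists_unif
  have hu1 : ∀ g : G, g • (toM G a * (ϖ ^ (n * k : ℤ))⁻¹) = toM G a * (ϖ ^ (n * k : ℤ))⁻¹ := by
    intro g
    have h1 : g • toM G a = toM G a := by rw [← toM_ρ, ha]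
    rw [smul_mul', smul_inv', smul_zpow', h1, hϖ]
  have hu2 : v (toM G a * (ϖ ^ (n * k : ℤ))⁻¹) = 1 := by
    rw [map_mul, map_inv, map_zpow, hvϖ]
    have : v (toM G a) = Multiplicative.ofAdd ((n : ℤ) * k) := by
      rw [← hk, vZ_apply, ofAdd_toAdd]
    rw [this, ← ofAdd_zsmul, smul_eq_mul, mul_one, mul_inv_cancel]
  obtain ⟨b, hb⟩ := h.unit_norm _ hu1 hu2
  refine ⟨(show AM G M from Additive.ofMul (b * ϖ ^ k)), toM_injective ?_⟩
  rw [toM_normσ, toM_ofMul]
  have h2 : ∀ i : ℕ, (φ ^ i) • (b * ϖ ^ k) = (φ ^ i) • b * ϖ ^ k := by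
    intro i
    rw [smul_mul', smul_zpow', hϖ]
  simp only [h2]
  rw [Finset.prod_mul_distrib, hb, Finset.prod_const, Finset.card_range, ← zpow_natCast,
    ← zpow_mul, mul_comm k, inv_mul_cancel_right]

theorem invUnr_injective [NeZero n] (h : IsUnramLayer φ n v) :
    Function.Injective (invUnr h) := by
  rw [injective_iff_map_eq_zero]
  intro x hx
  obtain ⟨c, rfl⟩ := H2π_surjective (AM G M) x
  rw [invUnr_H2π, ZMod.intCast_zmod_eq_zero_iff_dvd] at hx
  obtain ⟨k, hk⟩ := hx
  have hσ : φ ^ n = 1 := h.order ▸ pow_orderOf_eq_one φ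
  obtain ⟨b, hb⟩ := exists_normσ_eq h _ (ev_mem_invariants hσ h.gen _ c.2) k hk
  exact (H2π_eq_zero_iff_ev h.gen h.order c).2 ⟨b, hb⟩

/-- The invariant of the standard cocycle `cyc φ a`. -/
theorem invUnr_cyc [NeZero n] (h : IsUnramLayer φ n v) (a : AM G M)
    (ha : ∀ g, (AM G M).ρ g a = a) :
    invUnr h (H2π (AM G M) ⟨cyc h.gen h.order a, cyc_mem_cocycles₂ h.gen h.order ha⟩) =
      ((vZ G v a : ℤ) : ZMod n) := by
  rw [invUnr_H2π]
  rcases Nat.lt_or_ge n 2 with h2 | h2
  · have h1 : n = 1 := by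
      have := Nat.pos_of_ne_zero (NeZero.ne n)
      omega
    subst h1
    exact Subsingleton.elim _ _
  · have : ev φ n ((⟨cyc h.gen h.order a, cyc_mem_cocycles₂ h.gen h.order ha⟩ :
        cocycles₂ (AM G M)) : G × G → AM G M) = a := ev_cyc h.gen h.order h2 a
    rw [this]

/-- The invariant of a character cocycle `δψ ∪ a`. -/
theorem invUnr_cupChar [NeZero n] (h : IsUnramLayer φ n v) {m : ℕ} [NeZero m]
    (ψ : G →* Multiplicative (ZMod m)) (a : AM G M) (ha : ∀ g, (AM G M).ρ g a = a) :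
    invUnr h (H2π (AM G M) ⟨cupChar (AM G M) ψ a, cupChar_mem_cocycles₂ ψ ha⟩) =
      (((n * (ψ φ).toAdd.val / m : ℕ) : ℤ) * vZ G v a : ℤ) := by
  rw [invUnr_H2π]
  have hσ : φ ^ n = 1 := h.order ▸ pow_orderOf_eq_one φ
  have : ev φ n ((⟨cupChar (AM G M) ψ a, cupChar_mem_cocycles₂ ψ ha⟩ :
      cocycles₂ (AM G M)) : G × G → AM G M) = (n * (ψ φ).toAdd.val / m) • a :=
    ev_cupChar hσ ψ a
  rw [this, map_nsmul, nsmul_eq_mul]

theorem invUnr_surjective [NeZero n] (h : IsUnramLayer φ n v) :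
    Function.Surjective (invUnr h) := by
  intro t
  obtain ⟨ϖ, hϖ, hvϖ⟩ := h.exists_unif
  have ha : ∀ g, (AM G M).ρ g (show AM G M from Additive.ofMul (ϖ ^ t.val)) =
      (show AM G M from Additive.ofMul (ϖ ^ t.val)) := by
    intro g
    apply toM_injective
    rw [toM_ρ, toM_ofMul, smul_pow', hϖ]
  refine ⟨_, (invUnr_cyc h _ ha).trans ?_⟩
  rw [vZ_apply, toM_ofMul, map_pow, hvϖ, ← ofAdd_nsmul, toAdd_ofAdd, nsmul_eq_mul, mul_one]
  simp

/-- The unramified invariant as an isomorphism `H²(G, M) ≃+ ZMod n`. -/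
noncomputable def invUnrEquiv [NeZero n] (h : IsUnramLayer φ n v) : H2 (AM G M) ≃+ ZMod n :=
  AddEquiv.ofBijective (invUnr h) ⟨invUnr_injective h, invUnr_surjective h⟩

theorem invUnrEquiv_apply [NeZero n] (h : IsUnramLayer φ n v) (x : H2 (AM G M)) :
    invUnrEquiv h x = invUnr h x := rfl

/-! ### Functoriality: inflation and base change -/

section Functoriality

variable {H : Type} [Group H] {MH : Type} [CommGroup MH] [MulDistribMulAction H MH]
  {φH : H} {nH : ℕ} {vH : MH →* Multiplicative ℤ}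

/-- An auxiliary computation in `ℝ/ℤ`. -/
theorem circle_aux' (nG nH S e q t : ℕ) (va : ℤ) (hG : nG ≠ 0) (hH : nH ≠ 0)
    (hS : nH * S = nG * t) :
    (((((S : ℤ) * ((e : ℤ) * va) : ℤ) : ℝ) / nG : ℝ) : UnitAddCircle) =
      (e * (nH * q + t)) • (((va : ℝ) / nH : ℝ) : UnitAddCircle) := by
  rw [← AddCircle.coe_nsmul, ← sub_eq_zero, ← AddCircle.coe_sub, AddCircle.coe_eq_zero_iff]
  refine ⟨-((e : ℤ) * va * (q : ℤ)), ?_⟩
  have hG' : (nG : ℝ) ≠ 0 := Nat.cast_ne_zero.mpr hG
  have hH' : (nH : ℝ) ≠ 0 := Nat.cast_ne_zero.mpr hH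
  have h1 : (nH : ℝ) * S = nG * (t : ℝ) := by exact_mod_cast hS
  have h3 : (S : ℝ) / nG = (t : ℝ) / nH := by
    rw [div_eq_div_iff hG' hH']
    linarith
  rw [zsmul_eq_mul, mul_one, nsmul_eq_mul]
  push_cast
  have h4 : (S : ℝ) * ((e : ℝ) * va) / nG = (S : ℝ) / nG * ((e : ℝ) * va) := by ring
  rw [h4, h3]
  field_simp
  ring

theorem circle_aux (nG nH S e r : ℕ) (va : ℤ) (hG : nG ≠ 0) (hH : nH ≠ 0)
    (hS : nH * S = nG * (r % nH)) :
    (((((S : ℤ) * ((e : ℤ) * va) : ℤ) : ℝ) / nG : ℝ) : UnitAddCircle) =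
      (e * r) • (((va : ℝ) / nH : ℝ) : UnitAddCircle) := by
  have := circle_aux' nG nH S e (r / nH) (r % nH) va hG hH hS
  rwa [Nat.div_add_mod] at this

/-- **Functoriality of the unramified invariant.** For `f : G →* H` and an equivariant
`ι : M_H → M_G` with `v_G ∘ ι = e · v_H` and `f φ_G = φ_H ^ r`, the invariant of the pulled-back
class is `e * r` times the invariant (in `ℝ/ℤ`).  Inflation: `e = r = 1`; base change along a
finite extension `F'/F`: `e` = ramification index, `r` = residue degree. -/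
theorem invUnr_map [NeZero n] [NeZero nH] (hG : IsUnramLayer φ n v)
    (hH : IsUnramLayer φH nH vH) (f : G →* H) (ι : Rep.res f (AM H MH) ⟶ AM G M) (e r : ℕ)
    (hv : ∀ x : AM H MH, vZ G v (ι.hom x) = e * vZ H vH x) (hr : f φ = φH ^ r)
    (x : H2 (AM H MH)) :
    ZMod.toAddCircle (invUnr hG (groupCohomology.map f ι 2 x)) =
      (e * r) • ZMod.toAddCircle (invUnr hH x) := by
  obtain ⟨a, ha, rfl⟩ := exists_H2π_cyc_eq hH.gen hH.order x
  have hιa : ∀ g : G, (AM G M).ρ g (ι.hom a) = ι.hom a := by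
    intro g
    rw [← Rep.hom_comm_apply]
    congr 1
    exact ha (f g)
  have hmap : mapCocycles₂ f ι ⟨cyc hH.gen hH.order a, cyc_mem_cocycles₂ hH.gen hH.order ha⟩ =
      ⟨cupChar (AM G M) ((dlogChar hH.gen hH.order).comp f) (ι.hom a),
        cupChar_mem_cocycles₂ _ hιa⟩ := by
    apply cocycles₂_ext
    intro g h
    change ι.hom (cupChar (AM H MH) (dlogChar hH.gen hH.order) a (f g, f h)) = _
    rw [cupChar_apply, map_nsmul]
    rfl
  rw [H2π_comp_map_apply, hmap, invUnr_cupChar hG _ _ hιa, invUnr_cyc hH a ha, hv,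
    ZMod.toAddCircle_intCast, ZMod.toAddCircle_intCast]
  have hval : ((dlogChar hH.gen hH.order).comp f φ).toAdd.val = r % nH := by
    rw [MonoidHom.comp_apply, hr, dlogChar_pow, toAdd_ofAdd, ZMod.val_natCast]
  rw [hval]
  have hσ : φ ^ n = 1 := hG.order ▸ pow_orderOf_eq_one φ
  have hS : nH * (n * (r % nH) / nH) = n * (r % nH) := by
    have h1 := mul_sum_carry (σ := φ) ((dlogChar hH.gen hH.order).comp f) n
    rw [hσ, map_one, toAdd_one, ZMod.val_zero, add_zero, hval] at h1
    exact Nat.mul_div_cancel' ⟨_, h1.symm⟩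
  exact circle_aux n nH _ e r _ (NeZero.ne n) (NeZero.ne nH) hS

/-- If `n_H ∣ e * r`, every pulled-back class vanishes (e.g. base change along an extension of
degree `e * r` divisible by `n_H` kills the unramified classes of degree `n_H`). -/
theorem map_eq_zero_of_dvd [NeZero n] [NeZero nH] (hG : IsUnramLayer φ n v)
    (hH : IsUnramLayer φH nH vH) (f : G →* H) (ι : Rep.res f (AM H MH) ⟶ AM G M) (e r : ℕ)
    (hv : ∀ x : AM H MH, vZ G v (ι.hom x) = e * vZ H vH x) (hr : f φ = φH ^ r)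
    (hdvd : nH ∣ e * r) (x : H2 (AM H MH)) : groupCohomology.map f ι 2 x = 0 := by
  apply invUnr_injective hG
  rw [map_zero, ← ZMod.toAddCircle_eq_zero (N := n), invUnr_map hG hH f ι e r hv hr x]
  obtain ⟨k, hk⟩ := hdvd
  rw [hk, mul_nsmul, ← map_nsmul]
  have : nH • invUnr hH x = 0 := by
    rw [nsmul_eq_mul, ZMod.natCast_self, zero_mul]
  rw [this, map_zero, nsmul_zero]

end Functoriality

end Fermat.Agent.S55.Local.UnramClass
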