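import Mathlib
import Fermat.Agent.S55.Local.NormUnram
import Fermat.Agent.S55.Local.UnramClass
import Fermat.Agent.S55.Local.UnramGalois
import Fermat.Agent.S55.Local.UnramTower

/-!
# S55 LOC5 (5-C): unramified extensions of local fields are unramified layers

`O` a complete DVR with finite residue field, `F = Frac O`, `E/F` finite Galois with
`Gal(E/F) = ⟨φ⟩`, `B` the integral closure of `O` in `E`, `E/F` UNRAMIFIED (`𝔪_O B = 𝔪_B`).
Then `(Gal(E/F), Eˣ, φ, [E:F], v)` is an `UnramClass.IsUnramLayer` (helper19), for `v` the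
normalised valuation of `E` — in both sign conventions:

* `isUnramLayer_ordZ` : `v = ordZ B E := (valZ B E)⁻¹` (`v(uniformiser) = ofAdd 1`, the STANDARD
  normalisation `ord`);
* `isUnramLayer_valZ` : `v = valZ B E` (Mathlib's convention `v(uniformiser) = ofAdd (-1)`).

`isUnramLayer_ordZ_frobGal`, `isUnramLayer_valZ_frobGal`: the same with `φ` helper1's Frobenius
`h.frobGal F E`, from `h : Unram.IsUnram O B`.
-/

set_option linter.style.haveILetI false
set_option linter.unusedSectionVars false
set_option linter.overlappingInstances false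

namespace Fermat.Agent.S55.Local

open IsLocalRing Finset Fermat.Agent.S55.Local.UnramClass

section Ord

variable (O : Type*) [CommRing O] [IsDomain O] [IsDiscreteValuationRing O]
  (F : Type*) [Field F] [Algebra O F] [IsFractionRing O F]

/-- The normalised valuation with the standard sign: `ordZ (uniformiser) = ofAdd 1`. -/
noncomputable def ordZ : Fˣ →* Multiplicative ℤ := (valZ O F)⁻¹

variable {O F}

theorem ordZ_apply (x : Fˣ) : ordZ O F x = (valZ O F x)⁻¹ := rfl

theorem toAdd_ordZ (x : Fˣ) :
    Multiplicative.toAdd (ordZ O F x) = - Multiplicative.toAdd (valZ O F x) := rfl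

theorem ordZ_eq_one_iff {x : Fˣ} : ordZ O F x = 1 ↔ valZ O F x = 1 := by
  rw [ordZ_apply, inv_eq_one]

/-- `ordZ` of a uniformiser is `1`. -/
theorem ordZ_uniformizer {ϖ : O} (hϖ : Irreducible ϖ) (x : Fˣ) (hx : (x : F) = algebraMap O F ϖ) :
    ordZ O F x = Multiplicative.ofAdd 1 := by
  have h : valZ O F x = Multiplicative.ofAdd (-1) := by
    apply WithZero.coe_injective
    rw [coe_valZ, hx, dvrValuation_uniformizer hϖ]
    rfl
  rw [ordZ_apply, h]
  rfl

end Ord

section Layer

variable (O : Type*) [CommRing O] [IsDomain O] [IsDiscreteValuationRing O]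
  [IsAdicComplete (maximalIdeal O) O] [Finite (ResidueField O)]
  (F : Type) [Field F] [Algebra O F] [IsFractionRing O F]
  (E : Type) [Field E] [Algebra F E] [Algebra O E] [IsScalarTower O F E]
  [FiniteDimensional F E] [Algebra.IsSeparable F E]
  (B : Type*) [CommRing B] [Algebra O B] [Algebra B E] [IsScalarTower O B E]
  [IsIntegralClosure B O E] [IsGalois F E] [IsLocalRing B]
  [IsDomain B] [IsDiscreteValuationRing B] [IsFractionRing B E]

theorem coe_smul_units (g : E ≃ₐ[F] E) (x : Eˣ) : ((g • x : Eˣ) : E) = g (x : E) := rfl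

theorem smul_units_eq_map (g : E ≃ₐ[F] E) (x : Eˣ) :
    g • x = Units.map ((g : E ≃+* E).toRingHom : E →* E) x :=
  Units.ext rfl

include O in
theorem valZ_smul (g : E ≃ₐ[F] E) (x : Eˣ) : valZ B E (g • x) = valZ B E x := by
  rw [smul_units_eq_map]
  exact valZ_map_algEquiv O F E B g x

include O in
/-- A uniformiser of `O` is a uniformiser of `B` when `E/F` is unramified; it is Galois
invariant. -/
theorem exists_invariant_uniformizer
    (hunr : (maximalIdeal O).map (algebraMap O B) = maximalIdeal B) :
    ∃ ϖ : Eˣ, (∀ g : E ≃ₐ[F] E, g • ϖ = ϖ) ∧ ordZ B E ϖ = Multiplicative.ofAdd 1 := by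
  obtain ⟨ϖ0, hϖ0⟩ := IsDiscreteValuationRing.exists_irreducible O
  have hirr : Irreducible (algebraMap O B ϖ0) :=
    irreducible_algebraMap_of_unramified O F E B hunr hϖ0
  have hne : algebraMap O E ϖ0 ≠ 0 := by
    rw [IsScalarTower.algebraMap_apply O B E]
    simpa using hirr.ne_zero
  refine ⟨Units.mk0 _ hne, fun g => ?_, ?_⟩
  · apply Units.ext
    rw [coe_smul_units, Units.val_mk0, IsScalarTower.algebraMap_apply O F E, AlgEquiv.commutes]
  · exact ordZ_uniformizer hirr _ (by rw [Units.val_mk0, IsScalarTower.algebraMap_apply O B E])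

include O B in
/-- **General form**: a group `G` acting on `Eˣ` through an isomorphism `ρ : G ≃* Gal(E/F)`
(e.g. `G = Gal(E/F)` itself, or a subgroup of a bigger Galois group identified with `Gal(E/F)`),
`E/F` unramified, `φ` a generator of `G`: an unramified layer, for any `v` which is `valZ B E` or
its inverse. -/
theorem isUnramLayer_of_mulEquiv {G : Type} [Group G] [MulDistribMulAction G Eˣ]
    (ρ : G ≃* (E ≃ₐ[F] E)) (hρ : ∀ (g : G) (x : Eˣ), g • x = ρ g • x)
    (hunr : (maximalIdeal O).map (algebraMap O B) = maximalIdeal B)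
    {φ : G} (hφ : ∀ g : G, g ∈ Subgroup.zpowers φ)
    (v : Eˣ →* Multiplicative ℤ) (hv : v = ordZ B E ∨ v = valZ B E) :
    IsUnramLayer (G := G) (M := Eˣ) φ (Module.finrank F E) v := by
  have hφ' : ∀ g : E ≃ₐ[F] E, g ∈ Subgroup.zpowers (ρ φ) := by
    intro g
    obtain ⟨k, hk⟩ := Subgroup.mem_zpowers_iff.1 (hφ (ρ.symm g))
    refine Subgroup.mem_zpowers_iff.2 ⟨k, ?_⟩
    rw [← map_zpow, hk, MulEquiv.apply_symm_apply]
  have hone : ∀ x : Eˣ, v x = 1 ↔ valZ B E x = 1 := by
    intro x
    rcases hv with rfl | rfl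
    · exact ordZ_eq_one_iff
    · exact Iff.rfl
  refine ⟨hφ, ?_, ?_, ?_, ?_⟩
  · rw [← orderOf_eq_finrank_of_forall_mem_zpowers hφ', MulEquiv.orderOf_eq]
  · intro g x
    rw [hρ]
    rcases hv with rfl | rfl
    · rw [ordZ_apply, ordZ_apply, valZ_smul O F E B]
    · exact valZ_smul O F E B _ x
  · obtain ⟨ϖ, hϖ, hvϖ⟩ := exists_invariant_uniformizer O F E B hunr
    rcases hv with rfl | rfl
    · exact ⟨ϖ, fun g => by rw [hρ, hϖ], hvϖ⟩
    · refine ⟨ϖ⁻¹, fun g => by rw [hρ, smul_inv', hϖ], ?_⟩
      rw [map_inv, ← ordZ_apply, hvϖ]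
  · intro u hu hvu
    obtain ⟨b, hb⟩ := exists_prod_eq_of_unramified O F E B hunr hφ' u
      (by rw [← coe_smul_units, ← hρ, hu φ]) ((hone u).1 hvu)
    refine ⟨b, Units.ext ?_⟩
    rw [Units.coe_prod, ← hb]
    refine Finset.prod_congr rfl fun i _ => ?_
    rw [hρ, map_pow, coe_smul_units]

include O B in
/-- **Unramified extensions are unramified layers** (standard sign `ord`). -/
theorem isUnramLayer_ordZ (hunr : (maximalIdeal O).map (algebraMap O B) = maximalIdeal B)
    {φ : E ≃ₐ[F] E} (hφ : ∀ g : E ≃ₐ[F] E, g ∈ Subgroup.zpowers φ) :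
    IsUnramLayer (G := E ≃ₐ[F] E) (M := Eˣ) φ (Module.finrank F E) (ordZ B E) where
  gen := hφ
  order := orderOf_eq_finrank_of_forall_mem_zpowers hφ
  v_smul g x := by rw [ordZ_apply, ordZ_apply, valZ_smul O F E B]
  exists_unif := exists_invariant_uniformizer O F E B hunr
  unit_norm u hu hv := by
    obtain ⟨b, hb⟩ := exists_prod_eq_of_unramified O F E B hunr hφ u
      (by rw [← coe_smul_units, hu φ]) (ordZ_eq_one_iff.1 hv)
    refine ⟨b, Units.ext ?_⟩
    rw [Units.coe_prod]
    exact hb

include O B in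
/-- **Unramified extensions are unramified layers** (Mathlib sign: `v(ϖ) = ofAdd (-1)`). -/
theorem isUnramLayer_valZ (hunr : (maximalIdeal O).map (algebraMap O B) = maximalIdeal B)
    {φ : E ≃ₐ[F] E} (hφ : ∀ g : E ≃ₐ[F] E, g ∈ Subgroup.zpowers φ) :
    IsUnramLayer (G := E ≃ₐ[F] E) (M := Eˣ) φ (Module.finrank F E) (valZ B E) where
  gen := hφ
  order := orderOf_eq_finrank_of_forall_mem_zpowers hφ
  v_smul g x := valZ_smul O F E B g x
  exists_unif := by
    obtain ⟨ϖ, hϖ, hv⟩ := exists_invariant_uniformizer O F E B hunr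
    refine ⟨ϖ⁻¹, fun g => by rw [smul_inv', hϖ g], ?_⟩
    rw [map_inv, ← ordZ_apply, hv]
  unit_norm u hu hv := by
    obtain ⟨b, hb⟩ := exists_prod_eq_of_unramified O F E B hunr hφ u
      (by rw [← coe_smul_units, hu φ]) hv
    refine ⟨b, Units.ext ?_⟩
    rw [Units.coe_prod]
    exact hb

include O B in
/-- The layer of an unramified extension with helper1's Frobenius as generator (`ord` sign). -/
theorem isUnramLayer_ordZ_frobGal [HenselianLocalRing B] [IsLocalHom (algebraMap O B)]
    [Module.IsTorsionFree O B] [Module.Finite O B] (h : Unram.IsUnram O B) :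
    IsUnramLayer (G := E ≃ₐ[F] E) (M := Eˣ) (h.frobGal F E) (Module.finrank F E) (ordZ B E) :=
  isUnramLayer_ordZ O F E B h.map_eq (h.mem_zpowers_frobGal F E)

include O B in
/-- The layer of an unramified extension with helper1's Frobenius as generator (`valZ` sign). -/
theorem isUnramLayer_valZ_frobGal [HenselianLocalRing B] [IsLocalHom (algebraMap O B)]
    [Module.IsTorsionFree O B] [Module.Finite O B] (h : Unram.IsUnram O B) :
    IsUnramLayer (G := E ≃ₐ[F] E) (M := Eˣ) (h.frobGal F E) (Module.finrank F E) (valZ B E) :=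
  isUnramLayer_valZ O F E B h.map_eq (h.mem_zpowers_frobGal F E)

end Layer

section Tower

variable (O : Type*) [CommRing O] [IsDomain O] [IsDiscreteValuationRing O]
  [IsAdicComplete (maximalIdeal O) O] [Finite (ResidueField O)]
  {K : Type} [Field K] [Algebra O K] [IsFractionRing O K] [PerfectField K]
  {Ω : Type} [Field Ω] [Algebra K Ω] [Algebra O Ω] [IsScalarTower O K Ω]

/-- The ring of integers of a finite subextension is a DVR (instances for `valZ`/`ordZ`). -/
theorem isDiscreteValuationRing_integralClosure (E : IntermediateField K Ω)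
    [FiniteDimensional K E] : IsDiscreteValuationRing (integralClosure O E) := by
  haveI : Algebra.IsSeparable K E := Algebra.IsAlgebraic.isSeparable_of_perfectField
  exact isDiscreteValuationRing_of_isIntegralClosure O K E (integralClosure O E)

/-- **helper1's unramified subextensions of `Ω/K` are unramified layers** (`ord` sign), with the
Frobenius `h.frob` as generator. The `IsDiscreteValuationRing` instance is passed explicitly
(use `isDiscreteValuationRing_integralClosure O E`). -/
theorem isUnramLayer_ordZ_of_isUnramifiedIn {E : IntermediateField K Ω} [FiniteDimensional K E]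
    (h : Unram.IsUnramifiedIn O E) [IsDiscreteValuationRing (integralClosure O E)] :
    IsUnramLayer (G := E ≃ₐ[K] E) (M := Eˣ) h.frob (Module.finrank K E)
      (ordZ (integralClosure O E) E) := by
  haveI : Algebra.IsSeparable K E := Algebra.IsAlgebraic.isSeparable_of_perfectField
  haveI := h.isGalois
  exact isUnramLayer_ordZ O K E (integralClosure O E) h.isUnram.map_eq h.mem_zpowers_frob

/-- The same with Mathlib's sign convention (`valZ`). -/
theorem isUnramLayer_valZ_of_isUnramifiedIn {E : IntermediateField K Ω} [FiniteDimensional K E]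
    (h : Unram.IsUnramifiedIn O E) [IsDiscreteValuationRing (integralClosure O E)] :
    IsUnramLayer (G := E ≃ₐ[K] E) (M := Eˣ) h.frob (Module.finrank K E)
      (valZ (integralClosure O E) E) := by
  haveI : Algebra.IsSeparable K E := Algebra.IsAlgebraic.isSeparable_of_perfectField
  haveI := h.isGalois
  exact isUnramLayer_valZ O K E (integralClosure O E) h.isUnram.map_eq h.mem_zpowers_frob

end Tower

end Fermat.Agent.S55.Local
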