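import Mathlib
import Fermat.Agent.S55.Local.ValZ
import Fermat.Agent.S55.Local.CompleteDVR
import Fermat.Agent.S55.Local.NormIndex
import Fermat.Agent.S55.GL.LocalDegreesLocal

/-!
# S55 local arithmetic: the normalised valuation in a finite extension

`O ⊆ B` discrete valuation rings with fraction fields `F ⊆ E`.

* `valZ_algebraMap_of_map_eq_pow` : if `𝔪_O B = 𝔪_B ^ e` then `v_E(x) = e · v_F(x)` for `x ∈ Fˣ`
  (`valZ B E (Units.map (algebraMap F E) x) = valZ O F x ^ e`), no completeness needed;
* `map_maximalIdeal_eq_pow_ramificationIdx`, `valZ_algebraMap` : the same with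
  `e = (maximalIdeal B).ramificationIdx O` for `B` the integral closure of a complete DVR `O` in a
  finite separable extension `E/F` (the `e` of helper20's
  `ramificationIdx_mul_inertiaDeg_eq_finrank`: `e * f = [E : F]`);
* `valZ_norm` : for `E/F` Galois, `v_F(N_{E/F} y) = f · v_E(y)`, `f = (maximalIdeal B).inertiaDeg O`;
* `valZ_algebraMap_eq_one_iff`;
* towers: for an `F`-embedding `j : E → E'` of two finite extensions,
  `valZ_algHom_of_valZ_eq_one` (units go to units) and
  `toAdd_valZ_algHom : e(E/F) · v_{E'}(j x) = e(E'/F) · v_E(x)`.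
-/

set_option linter.style.haveILetI false
set_option linter.unusedSectionVars false
set_option linter.overlappingInstances false

namespace Fermat.Agent.S55.Local

open IsLocalRing IsDedekindDomain

section General

variable {O : Type*} [CommRing O] [IsDomain O] [IsDiscreteValuationRing O]
  {F : Type*} [Field F] [Algebra O F] [IsFractionRing O F]
  {E : Type*} [Field E] [Algebra F E] [Algebra O E] [IsScalarTower O F E]
  {B : Type*} [CommRing B] [IsDomain B] [IsDiscreteValuationRing B]
  [Algebra O B] [Algebra B E] [IsScalarTower O B E] [IsFractionRing B E]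

/-- If `𝔪_O B = 𝔪_B ^ e`, a uniformiser of `O` is a unit times the `e`-th power of a uniformiser
of `B`. -/
theorem exists_algebraMap_eq_unit_mul_pow {e : ℕ}
    (he : (maximalIdeal O).map (algebraMap O B) = maximalIdeal B ^ e)
    {ϖ : O} (hϖ : Irreducible ϖ) {ϖB : B} (hϖB : Irreducible ϖB) :
    ∃ w : Bˣ, algebraMap O B ϖ = w * ϖB ^ e := by
  rw [hϖ.maximalIdeal_eq, hϖB.maximalIdeal_eq, Ideal.map_span, Set.image_singleton,
    Ideal.span_singleton_pow, Ideal.span_singleton_eq_span_singleton] at he
  obtain ⟨w, hw⟩ := he.symm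
  exact ⟨w, by rw [← hw, mul_comm]⟩

/-- **Valuation in an extension**: `v_E|_F = e · v_F` when `𝔪_O B = 𝔪_B ^ e`. -/
theorem valZ_algebraMap_of_map_eq_pow {e : ℕ}
    (he : (maximalIdeal O).map (algebraMap O B) = maximalIdeal B ^ e) (x : Fˣ) :
    valZ B E (Units.map (algebraMap F E : F →* E) x) = valZ O F x ^ e := by
  obtain ⟨ϖ, hϖ⟩ := IsDiscreteValuationRing.exists_irreducible O
  obtain ⟨ϖB, hϖB⟩ := IsDiscreteValuationRing.exists_irreducible B
  obtain ⟨w, hw⟩ := exists_algebraMap_eq_unit_mul_pow he hϖ hϖB
  obtain ⟨n, u, hx⟩ := exists_eq_unit_mul_zpow (F := F) hϖ x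
  have hϖB0 : algebraMap B E ϖB ≠ 0 := by
    simpa using hϖB.ne_zero
  have hx' : ((Units.map (algebraMap F E : F →* E) x : Eˣ) : E) =
      algebraMap B E ((Units.map (algebraMap O B : O →* B) u * w ^ n : Bˣ) : B) *
        algebraMap B E ϖB ^ ((e : ℤ) * n) := by
    have h1 : ((Units.map (algebraMap F E : F →* E) x : Eˣ) : E) = algebraMap F E (x : F) := rfl
    rw [h1, hx, map_mul, map_zpow₀, ← IsScalarTower.algebraMap_apply O F E,
      ← IsScalarTower.algebraMap_apply O F E, IsScalarTower.algebraMap_apply O B E (u : O),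
      IsScalarTower.algebraMap_apply O B E ϖ, hw, map_mul, map_pow, mul_zpow, zpow_mul,
      zpow_natCast]
    have h2 : ((Units.map (algebraMap O B : O →* B) u * w ^ n : Bˣ) : B) =
        algebraMap O B u * ((w ^ n : Bˣ) : B) := rfl
    rw [h2, map_mul]
    have h3 : algebraMap B E ((w ^ n : Bˣ) : B) = algebraMap B E (w : B) ^ n := by
      have h := congrArg (fun z : Eˣ => (z : E))
        (map_zpow (Units.map (algebraMap B E : B →* E)) w n)
      simp only [Units.coe_map, Units.val_zpow_eq_zpow_val, MonoidHom.coe_coe] at h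
      exact h
    rw [h3]
    ring
  apply WithZero.coe_injective
  rw [coe_valZ, hx', dvrValuation_unit_mul_zpow hϖB]
  have h4 : valZ O F x = Multiplicative.ofAdd (-n) := by
    apply WithZero.coe_injective
    rw [coe_valZ, hx, dvrValuation_unit_mul_zpow hϖ]
    rfl
  rw [h4, ← ofAdd_nsmul]
  simp only [nsmul_eq_mul, mul_neg]
  rfl

/-- An element of `Fˣ` is a unit of `B` iff it is a unit of `O` (for `e ≠ 0`). -/
theorem valZ_algebraMap_eq_one_iff {e : ℕ} (he0 : e ≠ 0)
    (he : (maximalIdeal O).map (algebraMap O B) = maximalIdeal B ^ e) (x : Fˣ) :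
    valZ B E (Units.map (algebraMap F E : F →* E) x) = 1 ↔ valZ O F x = 1 := by
  rw [valZ_algebraMap_of_map_eq_pow he]
  constructor
  · intro h
    have h1 : (e : ℤ) * Multiplicative.toAdd (valZ O F x) = 0 := by
      have := congrArg Multiplicative.toAdd h
      simpa using this
    have h2 : Multiplicative.toAdd (valZ O F x) = 0 := by
      rcases mul_eq_zero.1 h1 with h | h
      · exact absurd (by exact_mod_cast h) he0
      · exact h
    exact Multiplicative.toAdd.injective h2
  · intro h
    rw [h, one_pow]

end General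

section Complete

variable (O : Type*) [CommRing O] [IsDomain O] [IsDiscreteValuationRing O]
  [IsAdicComplete (maximalIdeal O) O]
  (F : Type*) [Field F] [Algebra O F] [IsFractionRing O F]
  (E : Type*) [Field E] [Algebra F E] [Algebra O E] [IsScalarTower O F E]
  [FiniteDimensional F E] [Algebra.IsSeparable F E]
  (B : Type*) [CommRing B] [Algebra O B] [Algebra B E] [IsScalarTower O B E]
  [IsIntegralClosure B O E] [IsLocalRing B]

include O F E in
/-- `𝔪_O B = 𝔪_B ^ e` with `e` the ramification index. -/
theorem map_maximalIdeal_eq_pow_ramificationIdx :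
    (maximalIdeal O).map (algebraMap O B) =
      maximalIdeal B ^ ((maximalIdeal B).ramificationIdx O) := by
  haveI : IsDomain B := isDomain_of_isIntegralClosure O F E B
  haveI := isDedekindDomain_of_isIntegralClosure O F E B
  haveI := GL.LocalDegrees.liesOver_maximalIdeal O F E B
  obtain ⟨e, he0, he⟩ := exists_map_maximalIdeal_eq_pow O F E B
  have hne : (maximalIdeal O).map (algebraMap O B) ≠ ⊥ := map_maximalIdeal_ne_bot O F E B
  have h1 : (maximalIdeal O).ramificationIdx' (maximalIdeal B) = e := by
    apply Ideal.ramificationIdx'_spec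
    · rw [he]
    · rw [he]
      intro hle
      have hnf : ¬ IsField B := by
        intro hB
        have : maximalIdeal B = ⊥ := isField_iff_maximalIdeal_eq.1 hB
        rw [he, this] at hne
        exact hne (by rw [Ideal.bot_pow he0])
      have hm0 : maximalIdeal B ≠ ⊥ := fun h => hnf (isField_iff_maximalIdeal_eq.2 h)
      have := Ideal.pow_right_strictAnti (maximalIdeal B) hm0
        (Ideal.IsPrime.ne_top inferInstance) (Nat.lt_succ_self e)
      exact absurd hle (not_le_of_gt this)
  rw [← Ideal.ramificationIdx'_eq_ramificationIdx' (maximalIdeal O) (maximalIdeal B) hne, h1, he]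

include O in
/-- **Valuation in a finite extension of local fields**: `v_E|_F = e(E/F) · v_F`. -/
theorem valZ_algebraMap [IsDomain B] [IsDiscreteValuationRing B] [IsFractionRing B E] (x : Fˣ) :
    valZ B E (Units.map (algebraMap F E : F →* E) x) =
      valZ O F x ^ ((maximalIdeal B).ramificationIdx O) :=
  valZ_algebraMap_of_map_eq_pow (map_maximalIdeal_eq_pow_ramificationIdx O F E B) x

include O in
/-- **Valuation of a norm**: `v_F(N_{E/F} y) = f(E/F) · v_E(y)` for `E/F` Galois. -/
theorem valZ_norm [Finite (ResidueField O)] [IsGalois F E] [IsDomain B]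
    [IsDiscreteValuationRing B] [IsFractionRing B E] (y : Eˣ) :
    valZ O F (Units.map (Algebra.norm F : E →* F) y) =
      valZ B E y ^ ((maximalIdeal B).inertiaDeg O) := by
  set e := (maximalIdeal B).ramificationIdx O with he
  set f := (maximalIdeal B).inertiaDeg O with hf
  have hef : e * f = Module.finrank F E :=
    GL.LocalDegrees.ramificationIdx_mul_inertiaDeg_eq_finrank O F E B
  have he0 : e ≠ 0 := by
    intro h0
    have hpos : 0 < Module.finrank F E := Module.finrank_pos
    rw [← hef, h0, zero_mul] at hpos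
    exact lt_irrefl _ hpos
  -- compute `v_E (N y)` in two ways
  have h1 : valZ B E (Units.map (algebraMap F E : F →* E) (Units.map (Algebra.norm F : E →* F) y)) =
      valZ B E y ^ Module.finrank F E := by
    have hprod : Units.map (algebraMap F E : F →* E) (Units.map (Algebra.norm F : E →* F) y) =
        ∏ σ : E ≃ₐ[F] E, Units.map ((σ : E ≃+* E).toRingHom : E →* E) y := by
      apply Units.ext
      rw [Units.coe_prod]
      exact Algebra.norm_eq_prod_automorphisms F (y : E)
    rw [hprod, map_prod]
    simp only [valZ_map_algEquiv O F E B]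
    rw [Finset.prod_const, Finset.card_univ, ← Nat.card_eq_fintype_card,
      IsGalois.card_aut_eq_finrank]
  rw [valZ_algebraMap O F E B, ← hef, mul_comm, pow_mul] at h1
  -- cancel `e`
  have h2 : (e : ℤ) * Multiplicative.toAdd (valZ O F (Units.map (Algebra.norm F : E →* F) y)) =
      (e : ℤ) * Multiplicative.toAdd (valZ B E y ^ f) := by
    have := congrArg Multiplicative.toAdd h1
    rw [toAdd_pow, toAdd_pow, nsmul_eq_mul, nsmul_eq_mul] at this
    exact this
  have h3 := mul_left_cancel₀ (by exact_mod_cast he0 : (e : ℤ) ≠ 0) h2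
  exact Multiplicative.toAdd.injective h3

end Complete

section Tower

variable (O : Type*) [CommRing O] [IsDomain O] [IsDiscreteValuationRing O]
  [IsAdicComplete (maximalIdeal O) O]
  (F : Type*) [Field F] [Algebra O F] [IsFractionRing O F]
  (E : Type*) [Field E] [Algebra F E] [Algebra O E] [IsScalarTower O F E]
  [FiniteDimensional F E] [Algebra.IsSeparable F E]
  (B : Type*) [CommRing B] [Algebra O B] [Algebra B E] [IsScalarTower O B E]
  [IsIntegralClosure B O E] [IsLocalRing B]
  [IsDomain B] [IsDiscreteValuationRing B] [IsFractionRing B E]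
  (E' : Type*) [Field E'] [Algebra F E'] [Algebra O E'] [IsScalarTower O F E']
  [FiniteDimensional F E'] [Algebra.IsSeparable F E']
  (B' : Type*) [CommRing B'] [Algebra O B'] [Algebra B' E'] [IsScalarTower O B' E']
  [IsIntegralClosure B' O E'] [IsLocalRing B']
  [IsDomain B'] [IsDiscreteValuationRing B'] [IsFractionRing B' E']

include O in
/-- An `F`-embedding `E → E'` maps units of the integers to units of the integers. -/
theorem valZ_algHom_of_valZ_eq_one (j : E →ₐ[F] E') (x : Eˣ) (hx : valZ B E x = 1) :
    valZ B' E' (Units.map (j : E →* E') x) = 1 := by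
  obtain ⟨u, rfl⟩ := valZ_eq_one_iff.1 hx
  have hjO : ∀ b : B, IsIntegral O (j (algebraMap B E b)) := by
    intro b
    have hb : IsIntegral O (algebraMap B E b) :=
      (IsIntegralClosure.isIntegral_iff (A := B) (R := O) (B := E)).2 ⟨b, rfl⟩
    exact hb.map (j.restrictScalars O)
  obtain ⟨c, hc⟩ := (IsIntegralClosure.isIntegral_iff (A := B') (R := O) (B := E')).1
    (hjO (u : B))
  obtain ⟨d, hd⟩ := (IsIntegralClosure.isIntegral_iff (A := B') (R := O) (B := E')).1
    (hjO ((u⁻¹ : Bˣ) : B))
  have hcd : c * d = 1 := by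
    apply IsFractionRing.injective B' E'
    rw [map_mul, hc, hd, ← map_mul, ← map_mul, Units.mul_inv, map_one, map_one, map_one]
  rw [valZ_eq_one_iff]
  refine ⟨⟨c, d, hcd, by rw [mul_comm, hcd]⟩, Units.ext ?_⟩
  exact hc

include O in
/-- **Valuations in a tower** `F ⊆ E → E'`: `e(E/F) · v_{E'}(j x) = e(E'/F) · v_E(x)`. -/
theorem toAdd_valZ_algHom (j : E →ₐ[F] E') (x : Eˣ) :
    ((maximalIdeal B).ramificationIdx O : ℤ) *
        Multiplicative.toAdd (valZ B' E' (Units.map (j : E →* E') x)) =
      ((maximalIdeal B').ramificationIdx O : ℤ) * Multiplicative.toAdd (valZ B E x) := by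
  set e := (maximalIdeal B).ramificationIdx O with he
  set e' := (maximalIdeal B').ramificationIdx O with he'
  obtain ⟨ϖ, hϖ⟩ := IsDiscreteValuationRing.exists_irreducible O
  have hne : algebraMap O F ϖ ≠ 0 := by simpa using hϖ.ne_zero
  set πF : Fˣ := Units.mk0 _ hne with hπF
  have hvπ : valZ O F πF = Multiplicative.ofAdd (-1) := by
    apply WithZero.coe_injective
    rw [coe_valZ, hπF, Units.val_mk0, dvrValuation_uniformizer hϖ]
    rfl
  set m : ℤ := Multiplicative.toAdd (valZ B E x) with hm
  set y : Eˣ := x ^ e * (Units.map (algebraMap F E : F →* E) πF) ^ m with hy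
  have hvy : valZ B E y = 1 := by
    rw [hy, map_mul, map_pow, map_zpow, valZ_algebraMap O F E B, hvπ]
    apply Multiplicative.toAdd.injective
    rw [toAdd_mul, toAdd_pow, toAdd_zpow, toAdd_pow, toAdd_ofAdd, toAdd_one, ← hm, ← he]
    simp only [nsmul_eq_mul, smul_eq_mul]
    ring
  have h1 := valZ_algHom_of_valZ_eq_one O F E B E' B' j y hvy
  have hjπ : Units.map (j : E →* E') (Units.map (algebraMap F E : F →* E) πF) =
      Units.map (algebraMap F E' : F →* E') πF := by
    apply Units.ext
    exact j.commutes _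
  rw [hy, map_mul, map_pow, map_zpow, hjπ, map_mul, map_pow, map_zpow,
    valZ_algebraMap O F E' B', hvπ] at h1
  have h2 := congrArg Multiplicative.toAdd h1
  rw [toAdd_mul, toAdd_pow, toAdd_zpow, toAdd_pow, toAdd_ofAdd, toAdd_one, ← he'] at h2
  simp only [nsmul_eq_mul, smul_eq_mul] at h2
  linarith

end Tower

end Fermat.Agent.S55.Local
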