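/-
S55 LOC5 (alternative route to `kill`): transport of the unramified-layer computation to the kernel
of `resGal : Gal(M/K) -> Gal(E/K)`.

* `kerEquiv hEM : (resGal K Ω hEM).ker ≃* (M ≃ₐ[E] M)`;
* `exists_isUnramLayer_ker` : if `𝔪_E 𝒪_M = 𝔪_M` then the kernel carries an unramified layer
  (`IsUnramLayer φ (Nat.card ker) (ordZ 𝒪_M M)`) generated by a Frobenius `φ`;
* `resGal_eq_frob_pow`, `toAdd_ordZ_inclusion` (`ord_M = e(E/K) · ord_E` on `E` when `M/E` is
  unramified), `ramificationIdx_mul_inertiaDeg_eq`;
* `res2_map_eq_zero` : the conclusion of `LocalCFInput.kill`, from `hFn : IsUnramifiedIn O Fn`,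
  `Fn ≤ M`, `finrank K Fn = finrank K E` and `hunr : 𝔪_E 𝒪_M = 𝔪_M`.
-/
import Mathlib
import Fermat.Agent.S55.GC.GaloisLayerInf
import Fermat.Agent.S55.Local.UnramLayerInst
import Fermat.Agent.S55.Local.ValExt
import Fermat.Agent.S55.GC.InfRes2

set_option linter.style.haveILetI false
set_option linter.unusedSectionVars false
set_option linter.overlappingInstances false
set_option linter.unusedVariables false

namespace Fermat.Agent.S55.Local.KillTransport

open IsLocalRing IntermediateField Fermat.Agent.S55.GC.GaloisLayerInf Fermat.Agent.S55.Local.Unram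
  Fermat.Agent.S55.Local.UnramClass

section Ker

variable {K Ω : Type} [Field K] [Field Ω] [Algebra K Ω] {E M : IntermediateField K Ω}
  (hEM : E ≤ M)

/-- The `E`-algebra structure on `M` for `E ≤ M` (the one used by `resGal`). -/
noncomputable abbrev algInc : Algebra E M := (IntermediateField.inclusion hEM).toRingHom.toAlgebra

theorem isScalarTower_algInc :
    letI := algInc hEM
    IsScalarTower K E M :=
  letI := algInc hEM
  IsScalarTower.of_algebraMap_eq fun _ => rfl

variable [Normal K E]

theorem mem_ker_resGal_iff (d : M ≃ₐ[K] M) :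
    d ∈ (resGal K Ω hEM).ker ↔
      ∀ y : E, d (IntermediateField.inclusion hEM y) = IntermediateField.inclusion hEM y := by
  rw [MonoidHom.mem_ker]
  constructor
  · intro h y
    apply Subtype.ext
    rw [← coe_resGal K Ω hEM d y, h]
    rfl
  · intro h
    ext y
    rw [coe_resGal, h]
    rfl

/-- The kernel of the restriction `Gal(M/K) → Gal(E/K)` is `Gal(M/E)`. -/
noncomputable def kerEquiv :
    letI := algInc hEM
    ↥(resGal K Ω hEM).ker ≃* (M ≃ₐ[E] M) :=
  letI := algInc hEM
  haveI := isScalarTower_algInc hEM
  { toFun := fun g =>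
      { (g.1 : M ≃+* M) with
        commutes' := fun y => (mem_ker_resGal_iff hEM g.1).1 g.2 y }
    invFun := fun τ => ⟨τ.restrictScalars K, (mem_ker_resGal_iff hEM _).2 fun y => τ.commutes y⟩
    left_inv := fun g => Subtype.ext (AlgEquiv.ext fun x => rfl)
    right_inv := fun τ => AlgEquiv.ext fun x => rfl
    map_mul' := fun g h => AlgEquiv.ext fun x => rfl }

theorem kerEquiv_apply (g : ↥(resGal K Ω hEM).ker) (x : M) :
    letI := algInc hEM
    kerEquiv hEM g x = (g : M ≃ₐ[K] M) x := rfl

theorem coe_kerEquiv_symm (x : M) :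
    letI := algInc hEM
    ∀ τ : M ≃ₐ[E] M, (((kerEquiv hEM).symm τ : ↥(resGal K Ω hEM).ker) : M ≃ₐ[K] M) x = τ x :=
  fun _ => rfl

end Ker

section Rel

attribute [local instance 2000] Algebra.toSMul Algebra.toModule

variable (O : Type*) [CommRing O] [IsDomain O] [IsDiscreteValuationRing O]
  {K : Type} [Field K] [Algebra O K] [IsFractionRing O K]
  {Ω : Type} [Field Ω] [Algebra K Ω] [Algebra O Ω] [IsScalarTower O K Ω]
  {E M : IntermediateField K Ω} (hEM : E ≤ M)

/-- `𝒪_E → M`. -/
noncomputable abbrev algIntField : Algebra (integralClosure O E) M :=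
  ((IntermediateField.inclusion hEM).toRingHom.comp
    (algebraMap (integralClosure O E) E)).toAlgebra

/-- `𝒪_E → 𝒪_M`. -/
noncomputable abbrev algIntInt : Algebra (integralClosure O E) (integralClosure O M) :=
  (intIncl O hEM).toRingHom.toAlgebra

theorem isScalarTower_int_field :
    letI := algInc hEM
    letI := algIntField O hEM
    IsScalarTower (integralClosure O E) E M :=
  letI := algInc hEM
  letI := algIntField O hEM
  IsScalarTower.of_algebraMap_eq fun _ => rfl

theorem isScalarTower_int_int :
    letI := algIntField O hEM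
    letI := algIntInt O hEM
    IsScalarTower (integralClosure O E) (integralClosure O M) M :=
  letI := algIntField O hEM
  letI := algIntInt O hEM
  IsScalarTower.of_algebraMap_eq fun a => by
    apply Subtype.ext
    exact (coe_intIncl hEM a).symm

theorem isScalarTower_base_int_int :
    letI := algIntInt O hEM
    IsScalarTower O (integralClosure O E) (integralClosure O M) :=
  letI := algIntInt O hEM
  IsScalarTower.of_algebraMap_eq fun a => ((intIncl O hEM).commutes a).symm

theorem isIntegralClosure_int :
    letI := algIntField O hEM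
    letI := algIntInt O hEM
    IsIntegralClosure (integralClosure O M) (integralClosure O E) M := by
  letI := algInc hEM
  letI := algIntField O hEM
  letI := algIntInt O hEM
  haveI := isScalarTower_int_field O hEM
  haveI := isScalarTower_int_int O hEM
  haveI : IsScalarTower O (integralClosure O E) M :=
    IsScalarTower.of_algebraMap_eq fun a => by
      apply Subtype.ext
      show (algebraMap O Ω a) = _
      rfl
  refine ⟨Subtype.val_injective, fun {x} => ⟨fun hx => ?_, ?_⟩⟩
  · have hint : Algebra.IsIntegral O (integralClosure O E) := inferInstance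
    exact ⟨⟨x, isIntegral_trans x hx⟩, rfl⟩
  · rintro ⟨y, rfl⟩
    exact IsIntegral.tower_top (R := O) y.2

variable [IsAdicComplete (maximalIdeal O) O] [Finite (ResidueField O)] [PerfectField K]
  [FiniteDimensional K E] [FiniteDimensional K M] [Normal K E] [Normal K M]

/-- **Transport for `kill`**: if `M/E` is unramified (`𝔪_E 𝒪_M = 𝔪_M`), the subgroup
`ker (Gal(M/K) → Gal(E/K)) = Gal(M/E)` of `Gal(M/K)`, acting on `Mˣ`, is an unramified layer for
the valuation `ordZ 𝒪_M M`, with a generator `φ` acting as the Frobenius over `E`: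
`φ b ≡ b ^ #k_E` modulo small integers for all integers `b` of `M`. -/
theorem exists_isUnramLayer_ker [IsDiscreteValuationRing (integralClosure O M)]
    (hunr : (maximalIdeal (integralClosure O E)).map (intIncl O hEM).toRingHom =
      maximalIdeal (integralClosure O M)) :
    ∃ φ : ↥(resGal K Ω hEM).ker,
      IsUnramLayer (G := ↥(resGal K Ω hEM).ker) (M := Mˣ) φ
        (Nat.card ↥(resGal K Ω hEM).ker) (ordZ (integralClosure O M) M) ∧
      ∀ b : integralClosure O M, ∃ c ∈ maximalIdeal (integralClosure O M),
        (φ : M ≃ₐ[K] M) (b : M) =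
          ((b ^ Nat.card (ResidueField (integralClosure O E)) + c : integralClosure O M) : M) := by
  classical
  letI := algInc hEM
  letI := algIntField O hEM
  letI := algIntInt O hEM
  haveI := isScalarTower_algInc hEM
  haveI := isScalarTower_int_field O hEM
  haveI := isScalarTower_int_int O hEM
  haveI := isScalarTower_base_int_int O hEM
  haveI := isIntegralClosure_int O hEM
  haveI : Algebra.IsSeparable K E := Algebra.IsAlgebraic.isSeparable_of_perfectField
  haveI : Algebra.IsSeparable K M := Algebra.IsAlgebraic.isSeparable_of_perfectField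
  haveI : FiniteDimensional E M := Module.Finite.right K E M
  haveI : Algebra.IsSeparable E M := Algebra.isSeparable_tower_top_of_isSeparable K E M
  haveI : Normal E M := Normal.tower_top_of_normal K E M
  haveI : IsGalois E M := ⟨⟩
  haveI : IsDiscreteValuationRing (integralClosure O E) :=
    isDiscreteValuationRing_integralClosure O E
  haveI : IsAdicComplete (maximalIdeal (integralClosure O E)) (integralClosure O E) :=
    isAdicComplete_maximalIdeal_of_isIntegralClosure O K E (integralClosure O E)
  haveI : Finite (ResidueField (integralClosure O E)) :=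
    finite_residueField_of_isIntegralClosure O K E (integralClosure O E)
  have hunr' : (maximalIdeal (integralClosure O E)).map
      (algebraMap (integralClosure O E) (integralClosure O M)) =
      maximalIdeal (integralClosure O M) := hunr
  haveI : IsLocalHom (algebraMap (integralClosure O E) (integralClosure O M)) := by
    refine ⟨fun a ha => ?_⟩
    by_contra hna
    have h1 : a ∈ maximalIdeal (integralClosure O E) := (mem_maximalIdeal a).2 hna
    have h2 : algebraMap (integralClosure O E) (integralClosure O M) a ∈
        maximalIdeal (integralClosure O M) := by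
      rw [← hunr']
      exact Ideal.mem_map_of_mem _ h1
    exact (mem_maximalIdeal _).1 h2 ha
  haveI : Module.Finite (integralClosure O E) (integralClosure O M) :=
    Module.Finite.of_restrictScalars_finite O _ _
  haveI : Module.IsTorsionFree (integralClosure O E) (integralClosure O M) :=
    Module.isTorsionFree_iff_algebraMap_injective.2 (intIncl_injective hEM)
  have h : IsUnram (integralClosure O E) (integralClosure O M) := ⟨hunr', inferInstance⟩
  set φ' : M ≃ₐ[E] M := h.frobGal E M with hφ'
  refine ⟨(kerEquiv hEM).symm φ', ?_, ?_⟩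
  · have hφ : ∀ g : ↥(resGal K Ω hEM).ker, g ∈ Subgroup.zpowers ((kerEquiv hEM).symm φ') := by
      intro g
      obtain ⟨k, hk⟩ := Subgroup.mem_zpowers_iff.1 (h.mem_zpowers_frobGal E M (kerEquiv hEM g))
      refine Subgroup.mem_zpowers_iff.2 ⟨k, ?_⟩
      rw [← map_zpow, hk, MulEquiv.symm_apply_apply]
    have hcard : Nat.card ↥(resGal K Ω hEM).ker = Module.finrank E M := by
      rw [Nat.card_congr (kerEquiv hEM).toEquiv, IsGalois.card_aut_eq_finrank]
    rw [hcard]
    exact isUnramLayer_of_mulEquiv (integralClosure O E) E M (integralClosure O M) (kerEquiv hEM)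
      (fun g x => Units.ext rfl) hunr' hφ (ordZ (integralClosure O M) M) (Or.inl rfl)
  · intro b
    refine ⟨h.frob b - b ^ Nat.card (ResidueField (integralClosure O E)),
      h.frob_sub_pow_mem b, ?_⟩
    rw [add_sub_cancel]
    exact h.frobGal_algebraMap E M b

/-- `#k_E = #k ^ f(E/K)`. -/
theorem card_residueField_integralClosure :
    Nat.card (ResidueField (integralClosure O E)) =
      Nat.card (ResidueField O) ^ (maximalIdeal (integralClosure O E)).inertiaDeg O := by
  haveI : Algebra.IsSeparable K E := Algebra.IsAlgebraic.isSeparable_of_perfectField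
  haveI := GL.LocalDegrees.liesOver_maximalIdeal O K E (integralClosure O E)
  have := Ideal.cardQuot_pow_inertiaDeg (maximalIdeal O) (maximalIdeal (integralClosure O E))
  rw [Submodule.cardQuot_apply, Submodule.cardQuot_apply] at this
  exact this.symm

/-- **Frobenius restriction for `kill`**: an automorphism `φ` of `M/K` acting as
`b ↦ b ^ #k_E` modulo `𝔪_M` on integers restricts to `Frob ^ f(E/K)` on an unramified
subextension `Fn/K` of `M`. -/
theorem resGal_eq_frob_pow {Fn : IntermediateField K Ω} [Normal K Fn]
    (hFn : IsUnramifiedIn O Fn) (hFM : Fn ≤ M) (φ : M ≃ₐ[K] M)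
    (hφ : ∀ b : integralClosure O M, ∃ c ∈ maximalIdeal (integralClosure O M),
      φ (b : M) =
        ((b ^ Nat.card (ResidueField (integralClosure O E)) + c : integralClosure O M) : M)) :
    resGal K Ω hFM φ = hFn.frob ^ (maximalIdeal (integralClosure O E)).inertiaDeg O := by
  have hq := card_residueField_integralClosure O (E := E)
  set j := (maximalIdeal (integralClosure O E)).inertiaDeg O with hj
  haveI := hFn.1
  let f : Fn →ₐ[K] Ω := M.val.comp ((φ : M →ₐ[K] M).comp (IntermediateField.inclusion hFM))
  have key := hFn.eq_frob_pow_of_isSmallInt f j (fun b => ?_)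
  · ext y
    rw [coe_resGal]
    exact key y
  · obtain ⟨c, hc, hbc⟩ := hφ (intIncl O hFM b)
    have hincl : IntermediateField.inclusion hFM (b : Fn) = (intIncl O hFM b : M) := by
      apply Subtype.ext
      rw [coe_intIncl]
      rfl
    have hf : f (b : Fn) = ((φ (IntermediateField.inclusion hFM (b : Fn)) : M) : Ω) := rfl
    rw [hf, hincl, hbc, ← hq]
    have : (((intIncl O hFM b ^ Nat.card (ResidueField (integralClosure O E)) + c :
        integralClosure O M) : M) : Ω) - (((b : Fn) : Ω)) ^
          Nat.card (ResidueField (integralClosure O E)) = ((c : M) : Ω) := by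
      push_cast
      rw [coe_intIncl]
      ring
    rw [this]
    exact (mem_maximalIdeal_iff_isSmallInt c).1 hc

/-- In a DVR, `𝔪 ^ a = 𝔪 ^ b` forces `a = b`. -/
theorem pow_maximalIdeal_injective (R : Type*) [CommRing R] [IsDomain R]
    [IsDiscreteValuationRing R] {a b : ℕ} (h : maximalIdeal R ^ a = maximalIdeal R ^ b) :
    a = b := by
  have hm0 : maximalIdeal R ≠ ⊥ := IsDiscreteValuationRing.not_a_field R
  exact (Ideal.pow_right_strictAnti (maximalIdeal R) hm0
    (Ideal.IsPrime.ne_top inferInstance)).injective h

/-- `e(M/K) = e(E/K)` when `M/E` is unramified. -/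
theorem ramificationIdx_eq_of_unramified [IsDiscreteValuationRing (integralClosure O M)]
    (hunr : (maximalIdeal (integralClosure O E)).map (intIncl O hEM).toRingHom =
      maximalIdeal (integralClosure O M)) :
    (maximalIdeal (integralClosure O M)).ramificationIdx O =
      (maximalIdeal (integralClosure O E)).ramificationIdx O := by
  haveI : Algebra.IsSeparable K E := Algebra.IsAlgebraic.isSeparable_of_perfectField
  haveI : Algebra.IsSeparable K M := Algebra.IsAlgebraic.isSeparable_of_perfectField
  have hE := map_maximalIdeal_eq_pow_ramificationIdx O K E (integralClosure O E)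
  have hM := map_maximalIdeal_eq_pow_ramificationIdx O K M (integralClosure O M)
  have hcomp : (maximalIdeal O).map (algebraMap O (integralClosure O M)) =
      ((maximalIdeal O).map (algebraMap O (integralClosure O E))).map
        (intIncl O hEM).toRingHom := by
    rw [Ideal.map_map]
    congr 1
    refine RingHom.ext fun a => ?_
    exact ((intIncl O hEM).commutes a).symm
  rw [hE, Ideal.map_pow, hunr, hM] at hcomp
  exact pow_maximalIdeal_injective _ hcomp

/-- **Valuation bookkeeping for `kill`**: for `Fn/K` unramified, `Fn ≤ M`, `M/E` unramified: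
`ord_M(x) = e(E/K) · ord_{Fn}(x)` for `x ∈ Fnˣ`. -/
theorem toAdd_ordZ_inclusion {Fn : IntermediateField K Ω}
    (hFn : IsUnramifiedIn O Fn) (hFM : Fn ≤ M)
    [FiniteDimensional K Fn] [IsDiscreteValuationRing (integralClosure O Fn)]
    [IsDiscreteValuationRing (integralClosure O M)]
    (hunr : (maximalIdeal (integralClosure O E)).map (intIncl O hEM).toRingHom =
      maximalIdeal (integralClosure O M)) (x : Fnˣ) :
    Multiplicative.toAdd (ordZ (integralClosure O M) M
        (Units.map ((IntermediateField.inclusion hFM : Fn →ₐ[K] M) : Fn →* M) x)) =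
      ((maximalIdeal (integralClosure O E)).ramificationIdx O : ℤ) *
        Multiplicative.toAdd (ordZ (integralClosure O Fn) Fn x) := by
  haveI : Algebra.IsSeparable K Fn := Algebra.IsAlgebraic.isSeparable_of_perfectField
  haveI : Algebra.IsSeparable K M := Algebra.IsAlgebraic.isSeparable_of_perfectField
  have h1 := toAdd_valZ_algHom O K Fn (integralClosure O Fn) M (integralClosure O M)
    (IntermediateField.inclusion hFM) x
  have heF : (maximalIdeal (integralClosure O Fn)).ramificationIdx O = 1 := by
    have hF := map_maximalIdeal_eq_pow_ramificationIdx O K Fn (integralClosure O Fn)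
    rw [hFn.isUnram.map_eq] at hF
    have := pow_maximalIdeal_injective (integralClosure O Fn)
      (a := 1) (b := (maximalIdeal (integralClosure O Fn)).ramificationIdx O)
      (by rw [pow_one]; exact hF)
    exact this.symm
  rw [heF, ramificationIdx_eq_of_unramified O hEM hunr, Nat.cast_one, one_mul] at h1
  rw [toAdd_ordZ, toAdd_ordZ, h1]
  ring

/-- `e(E/K) · f(E/K) = [E : K]` (helper20), in the present notation. -/
theorem ramificationIdx_mul_inertiaDeg_eq :
    (maximalIdeal (integralClosure O E)).ramificationIdx O *
      (maximalIdeal (integralClosure O E)).inertiaDeg O = Module.finrank K E := by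
  haveI : Algebra.IsSeparable K E := Algebra.IsAlgebraic.isSeparable_of_perfectField
  exact GL.LocalDegrees.ramificationIdx_mul_inertiaDeg_eq_finrank O K E (integralClosure O E)

open CategoryTheory groupCohomology Fermat.Agent.S55.GC.InfRes2 in
/-- **`kill`, field form**: `Fn/K` unramified of degree `[E : K]`, `E, Fn ≤ M`, `M/E` unramified.
Then every class of `H²(Gal(Fn/K), Fnˣ)`, inflated to `Gal(M/K)`, dies on the subgroup
`ker (Gal(M/K) → Gal(E/K)) = Gal(M/E)`. -/
theorem res2_map_eq_zero {Fn : IntermediateField K Ω} [Normal K Fn]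
    (hFn : IsUnramifiedIn O Fn) (hFM : Fn ≤ M)
    (hdeg : Module.finrank K Fn = Module.finrank K E)
    (hunr : (maximalIdeal (integralClosure O E)).map (intIncl O hEM).toRingHom =
      maximalIdeal (integralClosure O M))
    (y : groupCohomology (Rep.ofAlgebraAutOnUnits K Fn) 2) :
    (res2 (Rep.ofAlgebraAutOnUnits K M) (resGal K Ω hEM).ker).hom
      ((groupCohomology.map (resGal K Ω hFM) (Fermat.Agent.S55.GC.GaloisLayerInf.unitsIncl K Ω hFM) 2).hom y) = 0 := by
  haveI := hFn.1
  haveI : IsDiscreteValuationRing (integralClosure O Fn) :=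
    isDiscreteValuationRing_integralClosure O Fn
  haveI : IsDiscreteValuationRing (integralClosure O M) :=
    isDiscreteValuationRing_integralClosure O M
  obtain ⟨φ, hG, hφ⟩ := exists_isUnramLayer_ker O hEM hunr
  have hH := isUnramLayer_ordZ_of_isUnramifiedIn O hFn
  haveI : NeZero (Module.finrank K Fn) := ⟨Module.finrank_pos.ne'⟩
  haveI : Finite (M ≃ₐ[K] M) := inferInstance
  haveI : NeZero (Nat.card ↥(resGal K Ω hEM).ker) := ⟨Nat.card_pos.ne'⟩
  have hcomp := groupCohomology.map_comp (resGal K Ω hFM) ((resGal K Ω hEM).ker.subtype)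
    (Fermat.Agent.S55.GC.GaloisLayerInf.unitsIncl K Ω hFM) (𝟙 _) 2
  have h1 : (res2 (Rep.ofAlgebraAutOnUnits K M) (resGal K Ω hEM).ker).hom
      ((groupCohomology.map (resGal K Ω hFM) (Fermat.Agent.S55.GC.GaloisLayerInf.unitsIncl K Ω hFM) 2).hom y) =
      (groupCohomology.map ((resGal K Ω hFM).comp (resGal K Ω hEM).ker.subtype)
        ((Rep.resFunctor (resGal K Ω hEM).ker.subtype).map (Fermat.Agent.S55.GC.GaloisLayerInf.unitsIncl K Ω hFM) ≫ 𝟙 _) 2).hom y := by
    rw [hcomp]
    rfl
  rw [h1]
  refine map_eq_zero_of_dvd hG hH ((resGal K Ω hFM).comp (resGal K Ω hEM).ker.subtype) _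
    ((maximalIdeal (integralClosure O E)).ramificationIdx O)
    ((maximalIdeal (integralClosure O E)).inertiaDeg O) ?_ ?_ ?_ y
  · intro x
    exact toAdd_ordZ_inclusion O hEM hFn hFM hunr (toM _ x)
  · exact resGal_eq_frob_pow O hFn hFM (φ : M ≃ₐ[K] M) hφ
  · rw [hdeg, ramificationIdx_mul_inertiaDeg_eq O]

end Rel

end Fermat.Agent.S55.Local.KillTransport
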