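/-
S55 package LO2 (unramified local extensions), part 6: an unramified extension of local fields is
an abstract unramified layer in the sense of helper19's `UnramClass.IsUnramLayer`.

Generic form (`O` complete DVR with finite residue field, `F = Frac O`, `E/F` finite separable,
`B` the integral closure of `O` in `E`, `𝔪_O B = 𝔪_B`):

* `isGalois_of_unramified`, `isCyclic_of_unramified`;
* `frobOfUnramified O F E B hunr : Gal(E/F)`, `frobOfUnramified_apply` (congruence),
  `eq_frobOfUnramified`, `eq_frobOfUnramified_pow`, `orderOf_frobOfUnramified`,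
  `mem_zpowers_frobOfUnramified`;
* `valPos B E : Eˣ →* Multiplicative ℤ`, the valuation normalised by `valPos ϖ = ofAdd 1`;
* `isUnramLayer_of_unramified : IsUnramLayer (frobOfUnramified …) (finrank F E) (valPos B E)`.
-/
import Fermat.Agent.S55.Local.UnramTower
import Fermat.Agent.S55.Local.NormUnram
import Fermat.Agent.S55.Local.UnramClass

set_option linter.unusedSectionVars false
set_option linter.overlappingInstances false
set_option linter.style.haveILetI false

namespace Fermat.Agent.S55.Local.Unram

open IsLocalRing Module Fermat.Agent.S55.Local Fermat.Agent.S55.Local.UnramClass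

section ValPos

variable (B : Type*) [CommRing B] [IsDomain B] [IsDiscreteValuationRing B]
  (E : Type*) [Field E] [Algebra B E] [IsFractionRing B E]

/-- The valuation of `E = Frac B` on units, normalised so that uniformisers have value
`ofAdd 1` (the inverse of helper8's `valZ`, which follows Mathlib's sign convention). -/
noncomputable def valPos : Eˣ →* Multiplicative ℤ := (valZ B E)⁻¹

theorem valPos_apply (x : Eˣ) : valPos B E x = (valZ B E x)⁻¹ := rfl

theorem valPos_eq_one_iff {x : Eˣ} : valPos B E x = 1 ↔ valZ B E x = 1 := by
  rw [valPos_apply, inv_eq_one]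

theorem valPos_uniformizer {ϖ : B} (hϖ : Irreducible ϖ) (x : Eˣ)
    (hx : (x : E) = algebraMap B E ϖ) : valPos B E x = Multiplicative.ofAdd 1 := by
  rw [valPos_apply, inv_eq_iff_eq_inv]
  apply WithZero.coe_injective
  rw [coe_valZ, hx, dvrValuation_uniformizer hϖ]
  rfl

theorem valPos_map_unit (u : Bˣ) :
    valPos B E (Units.map (algebraMap B E).toMonoidHom u) = 1 := by
  rw [valPos_eq_one_iff]
  exact valZ_map_unit u

end ValPos

section ValTower

variable (O : Type*) [CommRing O] [IsDomain O] [IsDiscreteValuationRing O]
  (F : Type*) [Field F] [Algebra O F] [IsFractionRing O F]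
  (B : Type*) [CommRing B] [IsDomain B] [IsDiscreteValuationRing B]
  (E : Type*) [Field E] [Algebra B E] [IsFractionRing B E]
  [Algebra O B] [Algebra F E] [Algebra O E] [IsScalarTower O F E] [IsScalarTower O B E]

theorem dvrValuation_algebraMap_of_map_eq_pow {e : ℕ}
    (he : (maximalIdeal O).map (algebraMap O B) = maximalIdeal B ^ e) {x : F} (hx0 : x ≠ 0) :
    dvrValuation B E (algebraMap F E x) = dvrValuation O F x ^ e := by
  obtain ⟨ϖ, hϖ⟩ := IsDiscreteValuationRing.exists_irreducible O
  obtain ⟨π, hπ⟩ := IsDiscreteValuationRing.exists_irreducible B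
  -- `ϖ = π ^ e` up to a unit
  have h1 : Ideal.span {algebraMap O B ϖ} = Ideal.span {π ^ e} := by
    rw [← Ideal.span_singleton_pow, ← hπ.maximalIdeal_eq, ← he, hϖ.maximalIdeal_eq, Ideal.map_span,
      Set.image_singleton]
  obtain ⟨w, hw⟩ := Ideal.span_singleton_eq_span_singleton.1 h1
  have hϖE : dvrValuation B E (algebraMap O E ϖ) = WithZero.exp (-1) ^ e := by
    have h2 : algebraMap O B ϖ = π ^ e * ((w⁻¹ : Bˣ) : B) := by
      rw [← hw, mul_assoc, Units.mul_inv, mul_one]
    rw [IsScalarTower.algebraMap_apply O B E, h2, map_mul, map_pow, map_mul, map_pow,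
      dvrValuation_uniformizer hπ, dvrValuation_algebraMap_unit, mul_one]
  obtain ⟨n, u, hx⟩ := exists_eq_unit_mul_zpow (F := F) hϖ (Units.mk0 x hx0)
  rw [Units.val_mk0] at hx
  have hxE : algebraMap F E x = algebraMap B E (Units.map (algebraMap O B).toMonoidHom u : Bˣ) *
      algebraMap O E ϖ ^ n := by
    rw [hx, map_mul, map_zpow₀, ← IsScalarTower.algebraMap_apply O F E,
      ← IsScalarTower.algebraMap_apply O F E, IsScalarTower.algebraMap_apply O B E]
    rfl
  rw [hxE, map_mul, map_zpow₀, dvrValuation_algebraMap_unit, one_mul, hϖE, hx,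
    dvrValuation_unit_mul_zpow hϖ, ← WithZero.exp_nsmul, ← WithZero.exp_zsmul,
    ← WithZero.exp_nsmul]
  congr 1
  simp only [smul_eq_mul, nsmul_eq_mul, mul_neg, mul_one]
  ring

/-- **Valuations in a tower**: if `𝔪_O B = 𝔪_B ^ e` then `v_E = e · v_F` on `Fˣ`. -/
theorem valZ_map_of_map_eq_pow {e : ℕ}
    (he : (maximalIdeal O).map (algebraMap O B) = maximalIdeal B ^ e) (x : Fˣ) :
    valZ B E (Units.map (algebraMap F E).toMonoidHom x) = valZ O F x ^ e := by
  apply WithZero.coe_injective
  rw [coe_valZ, WithZero.coe_pow, coe_valZ]
  exact dvrValuation_algebraMap_of_map_eq_pow O F B E he x.ne_zero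

theorem valPos_map_of_map_eq_pow {e : ℕ}
    (he : (maximalIdeal O).map (algebraMap O B) = maximalIdeal B ^ e) (x : Fˣ) :
    valPos B E (Units.map (algebraMap F E).toMonoidHom x) = valPos O F x ^ e := by
  rw [valPos_apply, valPos_apply, valZ_map_of_map_eq_pow O F B E he, inv_pow]

/-- Unramified case: `v_E` restricts to `v_F`. -/
theorem valPos_map_of_map_eq
    (he : (maximalIdeal O).map (algebraMap O B) = maximalIdeal B) (x : Fˣ) :
    valPos B E (Units.map (algebraMap F E).toMonoidHom x) = valPos O F x := by
  have := valPos_map_of_map_eq_pow O F B E (e := 1) (by rw [pow_one]; exact he) x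
  rwa [pow_one] at this

end ValTower

section Generic

variable (O : Type*) [CommRing O] [IsDomain O] [IsDiscreteValuationRing O]
  [IsAdicComplete (maximalIdeal O) O] [Finite (ResidueField O)]
  (F : Type*) [Field F] [Algebra O F] [IsFractionRing O F]
  (E : Type*) [Field E] [Algebra F E] [Algebra O E] [IsScalarTower O F E]
  [FiniteDimensional F E] [Algebra.IsSeparable F E]
  (B : Type*) [CommRing B] [Algebra O B] [Algebra B E] [IsScalarTower O B E]
  [IsIntegralClosure B O E]

omit [IsAdicComplete (maximalIdeal O) O] [Finite (ResidueField O)] in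
include F E in
theorem algebraMap_injective_of_isIntegralClosure : Function.Injective (algebraMap O B) := by
  have h1 : Function.Injective (algebraMap O E) := by
    rw [IsScalarTower.algebraMap_eq O F E]
    exact (algebraMap F E).injective.comp (IsFractionRing.injective O F)
  rw [IsScalarTower.algebraMap_eq O B E] at h1
  exact Function.Injective.of_comp h1

omit [IsAdicComplete (maximalIdeal O) O] [Finite (ResidueField O)] in
include F E in
theorem isLocalHom_algebraMap_of_isIntegralClosure [IsLocalRing B] :
    IsLocalHom (algebraMap O B) := by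
  haveI : Algebra.IsIntegral O B := IsIntegralClosure.isIntegral_algebra O E
  haveI : FaithfulSMul O B := (faithfulSMul_iff_algebraMap_injective O B).mpr
    (algebraMap_injective_of_isIntegralClosure O F E B)
  infer_instance

variable [IsLocalRing B]

include F E in
/-- The unramifiedness hypothesis `𝔪_O B = 𝔪_B` in the form of `IsUnram` (the residue field
extension is automatically separable, the residue field being finite). -/
theorem isUnram_of_map_eq [IsLocalHom (algebraMap O B)]
    (hunr : (maximalIdeal O).map (algebraMap O B) = maximalIdeal B) : IsUnram O B := by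
  haveI := finite_of_isIntegralClosure O F E B
  haveI : Algebra.IsAlgebraic (ResidueField O) (ResidueField B) := by
    haveI : Module.Finite (ResidueField O) (ResidueField B) := inferInstance
    exact Algebra.IsAlgebraic.of_finite _ _
  exact ⟨hunr, inferInstance⟩

omit [IsAdicComplete (maximalIdeal O) O] [Finite (ResidueField O)] [IsLocalRing B] in
include F E in
theorem isTorsionFree_of_isIntegralClosure : IsTorsionFree O B := by
  haveI : IsDomain B := isDomain_of_isIntegralClosure O F E B
  haveI : FaithfulSMul O B := (faithfulSMul_iff_algebraMap_injective O B).mpr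
    (algebraMap_injective_of_isIntegralClosure O F E B)
  infer_instance

include O F E in
theorem henselianLocalRing_of_isIntegralClosure : HenselianLocalRing B := by
  haveI : IsAdicComplete (maximalIdeal B) B :=
    isAdicComplete_maximalIdeal_of_isIntegralClosure O F E B
  exact henselianLocalRing_of_isAdicComplete B

variable (hunr : (maximalIdeal O).map (algebraMap O B) = maximalIdeal B)

include O B hunr in
/-- An unramified extension of local fields is Galois. -/
theorem isGalois_of_unramified : IsGalois F E := by
  haveI : IsDomain B := isDomain_of_isIntegralClosure O F E B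
  haveI : HenselianLocalRing B := henselianLocalRing_of_isIntegralClosure O F E B
  haveI := isLocalHom_algebraMap_of_isIntegralClosure O F E B
  haveI := finite_of_isIntegralClosure O F E B
  haveI := isTorsionFree_of_isIntegralClosure O F E B
  haveI := isFractionRing_of_isIntegralClosure O F E B
  exact (isUnram_of_map_eq O F E B hunr).isGalois F E

/-- The Frobenius of the unramified extension `E/F`. -/
noncomputable def frobOfUnramified : E ≃ₐ[F] E :=
  haveI : IsDomain B := isDomain_of_isIntegralClosure O F E B
  haveI : HenselianLocalRing B := henselianLocalRing_of_isIntegralClosure O F E B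
  haveI := isLocalHom_algebraMap_of_isIntegralClosure O F E B
  haveI := finite_of_isIntegralClosure O F E B
  haveI := isTorsionFree_of_isIntegralClosure O F E B
  haveI := isFractionRing_of_isIntegralClosure O F E B
  (isUnram_of_map_eq O F E B hunr).frobGal F E

/-- The Frobenius acts as `b ↦ b ^ #k` modulo `𝔪_B` on the integers. -/
theorem frobOfUnramified_apply (b : B) : ∃ c ∈ maximalIdeal B,
    frobOfUnramified O F E B hunr (algebraMap B E b) =
      algebraMap B E (b ^ Nat.card (ResidueField O) + c) := by
  haveI : IsDomain B := isDomain_of_isIntegralClosure O F E B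
  haveI : HenselianLocalRing B := henselianLocalRing_of_isIntegralClosure O F E B
  haveI := isLocalHom_algebraMap_of_isIntegralClosure O F E B
  haveI := finite_of_isIntegralClosure O F E B
  haveI := isTorsionFree_of_isIntegralClosure O F E B
  haveI := isFractionRing_of_isIntegralClosure O F E B
  have h := isUnram_of_map_eq O F E B hunr
  refine ⟨h.frob b - b ^ Nat.card (ResidueField O), h.frob_sub_pow_mem b, ?_⟩
  rw [add_sub_cancel]
  exact h.frobGal_algebraMap F E b

/-- The powers of the Frobenius are characterised by their congruence on the integers. -/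
theorem eq_frobOfUnramified_pow (σ : E ≃ₐ[F] E) (j : ℕ)
    (hσ : ∀ b : B, ∃ c ∈ maximalIdeal B,
      σ (algebraMap B E b) = algebraMap B E (b ^ (Nat.card (ResidueField O) ^ j) + c)) :
    σ = frobOfUnramified O F E B hunr ^ j := by
  haveI : IsDomain B := isDomain_of_isIntegralClosure O F E B
  haveI : HenselianLocalRing B := henselianLocalRing_of_isIntegralClosure O F E B
  haveI := isLocalHom_algebraMap_of_isIntegralClosure O F E B
  haveI := finite_of_isIntegralClosure O F E B
  haveI := isTorsionFree_of_isIntegralClosure O F E B
  haveI := isFractionRing_of_isIntegralClosure O F E B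
  exact (isUnram_of_map_eq O F E B hunr).eq_frobGal_pow F E σ j hσ

theorem eq_frobOfUnramified (σ : E ≃ₐ[F] E)
    (hσ : ∀ b : B, ∃ c ∈ maximalIdeal B,
      σ (algebraMap B E b) = algebraMap B E (b ^ Nat.card (ResidueField O) + c)) :
    σ = frobOfUnramified O F E B hunr := by
  have := eq_frobOfUnramified_pow O F E B hunr σ 1 (by simpa using hσ)
  rwa [pow_one] at this

theorem orderOf_frobOfUnramified :
    orderOf (frobOfUnramified O F E B hunr) = finrank F E := by
  haveI : IsDomain B := isDomain_of_isIntegralClosure O F E B
  haveI : HenselianLocalRing B := henselianLocalRing_of_isIntegralClosure O F E B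
  haveI := isLocalHom_algebraMap_of_isIntegralClosure O F E B
  haveI := finite_of_isIntegralClosure O F E B
  haveI := isTorsionFree_of_isIntegralClosure O F E B
  haveI := isFractionRing_of_isIntegralClosure O F E B
  exact (isUnram_of_map_eq O F E B hunr).orderOf_frobGal F E

theorem mem_zpowers_frobOfUnramified (σ : E ≃ₐ[F] E) :
    σ ∈ Subgroup.zpowers (frobOfUnramified O F E B hunr) := by
  haveI : IsDomain B := isDomain_of_isIntegralClosure O F E B
  haveI : HenselianLocalRing B := henselianLocalRing_of_isIntegralClosure O F E B
  haveI := isLocalHom_algebraMap_of_isIntegralClosure O F E B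
  haveI := finite_of_isIntegralClosure O F E B
  haveI := isTorsionFree_of_isIntegralClosure O F E B
  haveI := isFractionRing_of_isIntegralClosure O F E B
  exact (isUnram_of_map_eq O F E B hunr).mem_zpowers_frobGal F E σ

include O B hunr in
theorem isCyclic_of_unramified : IsCyclic (E ≃ₐ[F] E) :=
  ⟨⟨frobOfUnramified O F E B hunr, mem_zpowers_frobOfUnramified O F E B hunr⟩⟩

end Generic

section Layer

variable (O : Type*) [CommRing O] [IsDomain O] [IsDiscreteValuationRing O]
  [IsAdicComplete (maximalIdeal O) O] [Finite (ResidueField O)]
  (F : Type) [Field F] [Algebra O F] [IsFractionRing O F]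
  (E : Type) [Field E] [Algebra F E] [Algebra O E] [IsScalarTower O F E]
  [FiniteDimensional F E] [Algebra.IsSeparable F E]
  (B : Type*) [CommRing B] [Algebra O B] [Algebra B E] [IsScalarTower O B E]
  [IsIntegralClosure B O E] [IsDomain B] [IsDiscreteValuationRing B] [IsFractionRing B E]
  (hunr : (maximalIdeal O).map (algebraMap O B) = maximalIdeal B)

/-- **An unramified extension of local fields is an unramified layer** (helper19's
`UnramClass.IsUnramLayer`): `G = Gal(E/F)` acting on `M = Eˣ`, `φ` the Frobenius, `n = [E : F]`,
`v` the normalised valuation of `E`. -/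
theorem isUnramLayer_of_unramified :
    IsUnramLayer (G := E ≃ₐ[F] E) (M := Eˣ) (frobOfUnramified O F E B hunr) (finrank F E)
      (valPos B E) := by
  haveI := isGalois_of_unramified O F E B hunr
  refine ⟨mem_zpowers_frobOfUnramified O F E B hunr, orderOf_frobOfUnramified O F E B hunr,
    fun g x => ?_, ?_, fun u hu hv => ?_⟩
  · rw [valPos_apply, valPos_apply]
    congr 1
    exact valZ_map_algEquiv O F E B g x
  · obtain ⟨ϖ, hϖ⟩ := IsDiscreteValuationRing.exists_irreducible O
    have hπ := irreducible_algebraMap_of_unramified O F E B hunr hϖ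
    have hne : algebraMap B E (algebraMap O B ϖ) ≠ 0 := by
      rw [Ne, map_eq_zero_iff _ (IsFractionRing.injective B E)]
      exact hπ.ne_zero
    refine ⟨Units.mk0 _ hne, fun g => Units.ext ?_, valPos_uniformizer B E hπ _ rfl⟩
    show g (algebraMap B E (algebraMap O B ϖ)) = algebraMap B E (algebraMap O B ϖ)
    rw [← IsScalarTower.algebraMap_apply O B E, IsScalarTower.algebraMap_apply O F E]
    exact g.commutes _
  · obtain ⟨b, hb⟩ := exists_prod_eq_of_unramified O F E B hunr
      (mem_zpowers_frobOfUnramified O F E B hunr) u
      (congrArg Units.val (hu (frobOfUnramified O F E B hunr))) ((valPos_eq_one_iff B E).1 hv)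
    refine ⟨b, Units.ext ?_⟩
    rw [← hb, Units.coe_prod]
    rfl

end Layer

section Omega

variable (O : Type*) [CommRing O] [IsDomain O] [IsDiscreteValuationRing O]
  [IsAdicComplete (maximalIdeal O) O] [Finite (ResidueField O)]
variable {K : Type*} [Field K] [Algebra O K] [IsFractionRing O K] [PerfectField K]
variable {Ω : Type*} [Field Ω] [Algebra K Ω] [Algebra O Ω] [IsScalarTower O K Ω]

/-- The ring of integers of a finite subextension of `Ω/K` is a DVR (`O` complete). -/
instance instIsDiscreteValuationRingIntegralClosure (E : IntermediateField K Ω)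
    [FiniteDimensional K E] : IsDiscreteValuationRing (integralClosure O E) :=
  isDiscreteValuationRing_of_isIntegralClosure O K E (integralClosure O E)

variable {O}

theorem IsUnramifiedIn.map_eq {E : IntermediateField K Ω} [FiniteDimensional K E]
    (h : IsUnramifiedIn O E) :
    (maximalIdeal O).map (algebraMap O (integralClosure O E)) =
      maximalIdeal (integralClosure O E) :=
  h.isUnram.map_eq

theorem IsUnramifiedIn.frob_eq_frobOfUnramified {E : IntermediateField K Ω}
    [FiniteDimensional K E] (h : IsUnramifiedIn O E) :
    h.frob = frobOfUnramified O K E (integralClosure O E) h.map_eq := rfl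

theorem intIncl_mem_maximalIdeal_iff {E E' : IntermediateField K Ω} [FiniteDimensional K E]
    [FiniteDimensional K E'] (hEE' : E ≤ E') (b : integralClosure O E) :
    intIncl O hEE' b ∈ maximalIdeal (integralClosure O E') ↔
      b ∈ maximalIdeal (integralClosure O E) := by
  rw [mem_maximalIdeal_iff_isSmallInt, mem_maximalIdeal_iff_isSmallInt, coe_intIncl]

theorem map_intIncl_maximalIdeal_le {E E' : IntermediateField K Ω} [FiniteDimensional K E]
    [FiniteDimensional K E'] (hEE' : E ≤ E') :
    (maximalIdeal (integralClosure O E)).map (intIncl O hEE').toRingHom ≤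
      maximalIdeal (integralClosure O E') := by
  rw [Ideal.map_le_iff_le_comap]
  intro b hb
  exact (intIncl_mem_maximalIdeal_iff hEE' b).2 hb

/-- If `E'/K` is unramified and `E ≤ E'`, then `E'/E` is unramified: `𝔪_E 𝒪_{E'} = 𝔪_{E'}`. -/
theorem IsUnramifiedIn.map_intIncl_maximalIdeal {E E' : IntermediateField K Ω}
    [FiniteDimensional K E] [FiniteDimensional K E'] (h' : IsUnramifiedIn O E') (hEE' : E ≤ E') :
    (maximalIdeal (integralClosure O E)).map (intIncl O hEE').toRingHom =
      maximalIdeal (integralClosure O E') := by
  refine le_antisymm (map_intIncl_maximalIdeal_le hEE') ?_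
  rw [← h'.map_eq]
  have h1 : algebraMap O (integralClosure O E') =
      (intIncl O hEE').toRingHom.comp (algebraMap O (integralClosure O E)) :=
    RingHom.ext fun a => ((intIncl O hEE').commutes a).symm
  rw [h1, ← Ideal.map_map]
  apply Ideal.map_mono
  rw [Ideal.map_le_iff_le_comap]
  intro a ha
  rw [Ideal.mem_comap, mem_maximalIdeal, mem_nonunits_iff]
  exact fun hu => ha (isUnit_of_map_unit _ a hu)

/-- Valuations in a tower `E ≤ E'` of finite subextensions of `Ω/K`:
if `𝔪_E 𝒪_{E'} = 𝔪_{E'} ^ e` then `v_{E'} = e · v_E` on `Eˣ`. -/
theorem valPos_inclusion_of_map_eq_pow {E E' : IntermediateField K Ω} [FiniteDimensional K E]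
    [FiniteDimensional K E'] (hEE' : E ≤ E') {e : ℕ}
    (he : (maximalIdeal (integralClosure O E)).map (intIncl O hEE').toRingHom =
      maximalIdeal (integralClosure O E') ^ e) (x : Eˣ) :
    valPos (integralClosure O E') E'
        (Units.map (IntermediateField.inclusion hEE').toRingHom.toMonoidHom x) =
      valPos (integralClosure O E) E x ^ e := by
  letI : Algebra E E' := (IntermediateField.inclusion hEE').toRingHom.toAlgebra
  letI : Algebra (integralClosure O E) (integralClosure O E') :=
    (intIncl O hEE').toRingHom.toAlgebra
  haveI : IsScalarTower (integralClosure O E) (integralClosure O E') E' :=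
    IsScalarTower.of_algebraMap_eq fun b => by
      apply Subtype.ext
      exact (coe_intIncl hEE' b).symm
  exact valPos_map_of_map_eq_pow (integralClosure O E) E (integralClosure O E') E' he x

/-- If `E'/K` is unramified and `E ≤ E'`, the valuation of `E'` restricts to that of `E`. -/
theorem IsUnramifiedIn.valPos_inclusion {E E' : IntermediateField K Ω} [FiniteDimensional K E]
    [FiniteDimensional K E'] (h' : IsUnramifiedIn O E') (hEE' : E ≤ E') (x : Eˣ) :
    valPos (integralClosure O E') E'
        (Units.map (IntermediateField.inclusion hEE').toRingHom.toMonoidHom x) =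
      valPos (integralClosure O E) E x := by
  have := valPos_inclusion_of_map_eq_pow hEE' (e := 1)
    (by rw [pow_one]; exact h'.map_intIncl_maximalIdeal hEE') x
  rwa [pow_one] at this

end Omega

section OmegaLayer

variable {O : Type*} [CommRing O] [IsDomain O] [IsDiscreteValuationRing O]
  [IsAdicComplete (maximalIdeal O) O] [Finite (ResidueField O)]
variable {K : Type} [Field K] [Algebra O K] [IsFractionRing O K] [PerfectField K]
variable {Ω : Type} [Field Ω] [Algebra K Ω] [Algebra O Ω] [IsScalarTower O K Ω]

/-- **Unramified subextensions of `Ω/K` are unramified layers**: `G = Gal(E/K)`, `M = Eˣ`,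
`φ = h.frob`, `n = [E : K]`, `v` the normalised valuation of `E`. -/
theorem IsUnramifiedIn.isUnramLayer {E : IntermediateField K Ω} [FiniteDimensional K E]
    (h : IsUnramifiedIn O E) :
    IsUnramLayer (G := Gal(E/K)) (M := Eˣ) h.frob (finrank K E)
      (valPos (integralClosure O E) E) := by
  rw [h.frob_eq_frobOfUnramified]
  exact isUnramLayer_of_unramified O K E (integralClosure O E) h.map_eq

end OmegaLayer

end Fermat.Agent.S55.Local.Unram
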