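/-
S55 package LO2 (unramified local extensions), part 7: BASE CHANGE of unramified extensions.

Two local settings over the same big field `Ω`: `(O, K)` and `(O', K')` with `K → K' → Ω`,
`O → O'` local (`K'/K` arbitrary, e.g. finite).  For `E/K` unramified inside `Ω`:

* `IsUnramifiedIn.exists_adjoin_eq` : `E = K(θ)`, `θ` a root of a monic `g ∈ O[X]` with irreducible
  separable reduction;
* `IsUnramifiedIn.baseChange` : the compositum `K'·E` is unramified over `K'`;
* `IsUnramifiedIn.frob_pow_baseChange`, `frob_baseChange` : `Frob_{M'/K'}` acts on `E` as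
  `Frob_{E/K} ^ f`, for any unramified `M'/K'` containing `E` and `#k' = #k ^ f`;
* `IsUnramifiedIn.finrank_baseChange_dvd` : `[K'·E : K'] ∣ [E : K]`;
* `mem_unramExt_baseChange` : `unramExt O Ω n ⊆ unramExt O' Ω n`;
* instantiation at `(O', K') = (integralClosure O E₀, E₀)` for a finite subextension `E₀` of `Ω/K`
  (instances: finite residue field, complete, perfect): `IsUnramifiedIn.extendScalars`,
  `extendScalars_sup`, `frob_extendScalars`, `finrank_extendScalars_dvd`,
  `card_residueField_integralClosure`;
* `finrank_residueField_eq_inertiaDeg`, `card_residueField_eq_pow_inertiaDeg` (bridge to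
  `Ideal.inertiaDeg`).
-/
import Fermat.Agent.S55.Local.UnramLayer

set_option linter.unusedSectionVars false
set_option linter.overlappingInstances false
set_option linter.style.haveILetI false

namespace Fermat.Agent.S55.Local.Unram

open IsLocalRing Polynomial Module IntermediateField

section Inertia

theorem finrank_residueField_eq_inertiaDeg {O B : Type*} [CommRing O] [IsLocalRing O]
    [CommRing B] [IsLocalRing B] [Algebra O B] [IsLocalHom (algebraMap O B)] :
    finrank (ResidueField O) (ResidueField B) = (maximalIdeal B).inertiaDeg O := by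
  rw [Ideal.inertiaDeg_eq_of_isMaximal (maximalIdeal O) (maximalIdeal B)]
  rfl

theorem card_residueField_eq_pow_inertiaDeg {O B : Type*} [CommRing O] [IsLocalRing O]
    [CommRing B] [IsLocalRing B] [Algebra O B] [IsLocalHom (algebraMap O B)] [Module.Finite O B] :
    Nat.card (ResidueField B) = Nat.card (ResidueField O) ^ (maximalIdeal B).inertiaDeg O := by
  rw [← finrank_residueField_eq_inertiaDeg]
  exact Module.natCard_eq_pow_finrank

end Inertia

section Gen

variable {O : Type*} [CommRing O] [IsDomain O] [IsDiscreteValuationRing O]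
  [Finite (ResidueField O)]
variable {K : Type*} [Field K] [Algebra O K] [IsFractionRing O K] [PerfectField K]
variable {Ω : Type*} [Field Ω] [Algebra K Ω] [Algebra O Ω] [IsScalarTower O K Ω]
  [HenselianTower O K Ω]

/-- An unramified subextension is generated by a root of a monic polynomial over `O` with
irreducible separable reduction. -/
theorem IsUnramifiedIn.exists_adjoin_eq {E : IntermediateField K Ω} (h : IsUnramifiedIn O E) :
    ∃ (g : O[X]) (θ : Ω), g.Monic ∧ Irreducible (g.map (residue O)) ∧
      (g.map (residue O)).Separable ∧ aeval θ g = 0 ∧ E = K⟮θ⟯ := by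
  have := h.1
  obtain ⟨θ₀, hθ₀⟩ := h.isUnram.exists_gen
  have hint : IsIntegral O θ₀ := Algebra.IsIntegral.isIntegral θ₀
  have hg := minpoly.monic hint
  have hirr := h.isUnram.irreducible_minpoly_map θ₀ hθ₀
  have hθ : aeval (((θ₀ : E) : Ω)) (minpoly O θ₀) = 0 := by
    have h0 : aeval θ₀ (minpoly O θ₀) = 0 := minpoly.aeval _ _
    have h1 : (((aeval θ₀ (minpoly O θ₀) : integralClosure O E) : E) : Ω) = 0 := by
      rw [h0]; rfl
    rw [← h1]
    have : ∀ p : O[X], ((aeval θ₀ p : integralClosure O E) : E) = aeval (θ₀ : E) p := fun p => by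
      rw [← Subalgebra.coe_val, ← aeval_algHom_apply]
    rw [this]
    have h2 : ∀ p : O[X], ((aeval (θ₀ : E) p : E) : Ω) = aeval ((θ₀ : E) : Ω) p := fun p => by
      have := aeval_algHom_apply (E.val.restrictScalars O) (θ₀ : E) p
      exact this.symm
    rw [h2]
  refine ⟨minpoly O θ₀, ((θ₀ : E) : Ω), hg, hirr, h.isUnram.separable_minpoly_map θ₀ hθ₀, hθ, ?_⟩
  symm
  have hle : K⟮((θ₀ : E) : Ω)⟯ ≤ E := adjoin_simple_le_iff.mpr (θ₀ : E).2
  refine IntermediateField.eq_of_le_of_finrank_eq hle ?_
  have := h.isUnram.free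
  rw [finrank_adjoin_root K hg hirr hθ, h.finrank_eq, h.isUnram.finrank_residueField,
    (h.isUnram.powerBasis θ₀ hθ₀).finrank, h.isUnram.powerBasis_dim]

end Gen

section TwoSettings

variable {O : Type*} [CommRing O] [IsDomain O] [IsDiscreteValuationRing O]
  [Finite (ResidueField O)]
variable {K : Type*} [Field K] [Algebra O K] [IsFractionRing O K] [PerfectField K]
variable {Ω : Type*} [Field Ω] [Algebra K Ω] [Algebra O Ω] [IsScalarTower O K Ω]
  [HenselianTower O K Ω]
variable {O' : Type*} [CommRing O'] [IsDomain O'] [IsDiscreteValuationRing O']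
  [Finite (ResidueField O')]
variable {K' : Type*} [Field K'] [Algebra O' K'] [IsFractionRing O' K'] [PerfectField K']
  [Algebra K' Ω] [Algebra O' Ω] [IsScalarTower O' K' Ω] [HenselianTower O' K' Ω]
variable [Algebra K K'] [IsScalarTower K K' Ω] [Algebra O O'] [IsScalarTower O O' Ω]
  [IsLocalHom (algebraMap O O')]

/-- **Base change of unramified extensions**: if `E/K` is unramified then the compositum `K'·E`
is unramified over `K'` (`M'` is any presentation of the compositum as an intermediate field of
`Ω/K'`). -/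
theorem IsUnramifiedIn.baseChange {E : IntermediateField K Ω} (h : IsUnramifiedIn O E)
    {M' : IntermediateField K' Ω} (hEM : ∀ x ∈ E, x ∈ M')
    (hgen : M' ≤ IntermediateField.adjoin K' (E : Set Ω)) : IsUnramifiedIn O' M' := by
  obtain ⟨g, θ, hg, -, hsep, hθ, rfl⟩ := h.exists_adjoin_eq
  have hM' : M' = K'⟮θ⟯ := by
    apply le_antisymm
    · refine hgen.trans ?_
      rw [IntermediateField.adjoin_le_iff]
      have hle : K⟮θ⟯ ≤ (K'⟮θ⟯).restrictScalars K := by
        rw [adjoin_simple_le_iff]
        exact mem_adjoin_simple_self K' θ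
      exact fun x hx => hle hx
    · rw [adjoin_simple_le_iff]
      exact hEM θ (mem_adjoin_simple_self K θ)
  rw [hM']
  have hsep' : ((g.map (algebraMap O O')).map (residue O')).Separable := by
    have hcomp : (residue O').comp (algebraMap O O') =
        (ResidueField.map (algebraMap O O')).comp (residue O) := rfl
    rw [Polynomial.map_map, hcomp, ← Polynomial.map_map]
    exact hsep.map
  have hθ' : aeval θ (g.map (algebraMap O O')) = 0 := by rw [aeval_map_algebraMap, hθ]
  exact isUnramifiedIn_adjoin_root_of_separable (hg.map _) hsep' hθ'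

omit [IsDomain O] [IsDiscreteValuationRing O] [Finite (ResidueField O)] [IsDomain O']
  [IsDiscreteValuationRing O'] [Finite (ResidueField O')] [IsFractionRing O K] [PerfectField K]
  [IsScalarTower O K Ω] [HenselianTower O K Ω] [IsFractionRing O' K'] [PerfectField K']
  [IsScalarTower O' K' Ω] [HenselianTower O' K' Ω] [Algebra K K'] [IsScalarTower K K' Ω]
  [IsLocalHom (algebraMap O O')] [Algebra K Ω] [Algebra O K] [Algebra O' K'] [Algebra K' Ω] in
theorem IsSmallInt.of_tower {c : Ω} (hc : IsSmallInt O' c) (hint : IsIntegral O c) :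
    IsSmallInt O c :=
  ⟨hint, fun ⟨y, hy, hcy⟩ => hc.2 ⟨y, hy.tower_top, hcy⟩⟩

/-- **Frobenius under base change**: if `E/K` is unramified, `M'/K'` is unramified and contains
`E`, and `#k' = #k ^ f`, then `Frob_{M'/K'} ^ j` acts on `E` as `Frob_{E/K} ^ (f * j)`. -/
theorem IsUnramifiedIn.frob_pow_baseChange {E : IntermediateField K Ω} (h : IsUnramifiedIn O E)
    {M' : IntermediateField K' Ω} (h' : IsUnramifiedIn O' M') (hEM : ∀ x ∈ E, x ∈ M') (f : ℕ)
    (hf : Nat.card (ResidueField O') = Nat.card (ResidueField O) ^ f) (j : ℕ) (x : E) :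
    (((h'.frob ^ j) ⟨x, hEM x x.2⟩ : M') : Ω) = (((h.frob ^ (f * j)) x : E) : Ω) := by
  have := h.1
  have := h'.1
  let ι : E →+* M' :=
    { toFun := fun x => ⟨x, hEM x x.2⟩
      map_one' := rfl
      map_mul' := fun _ _ => rfl
      map_zero' := rfl
      map_add' := fun _ _ => rfl }
  let φr : E →+* Ω :=
    (algebraMap M' Ω).comp ((((h'.frob ^ j : Gal(M'/K')) : M' ≃+* M') : M' →+* M').comp ι)
  let φ : E →ₐ[K] Ω :=
    { φr with
      commutes' := fun a => by
        have h1 : ι (algebraMap K E a) = algebraMap K' M' (algebraMap K K' a) := by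
          apply Subtype.ext
          show algebraMap K Ω a = algebraMap K' Ω (algebraMap K K' a)
          rw [← IsScalarTower.algebraMap_apply K K' Ω]
        show (algebraMap M' Ω) ((h'.frob ^ j) (ι (algebraMap K E a))) = algebraMap K Ω a
        rw [h1, AlgEquiv.commutes, ← IsScalarTower.algebraMap_apply K' M' Ω,
          ← IsScalarTower.algebraMap_apply K K' Ω] }
  have key := h.eq_frob_pow_of_isSmallInt φ (f * j) (fun b => ?_) x
  · exact key
  · have hb'int : IsIntegral O' (⟨((b : E) : Ω), hEM _ (b : E).2⟩ : M') := by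
      rw [← isIntegral_coe_iff]
      exact ((isIntegral_coe_iff (b : E)).mpr b.2).tower_top
    have hs := h'.isSmallInt_frob_pow j ⟨_, hb'int⟩
    rw [hf, ← pow_mul] at hs
    refine IsSmallInt.of_tower hs (IsIntegral.sub ?_ ?_)
    · exact IsIntegral.map (φ.restrictScalars O) b.2
    · exact ((isIntegral_coe_iff (b : E)).mpr b.2).pow _

/-- `Frob_{M'/K'}` acts on `E` as `Frob_{E/K} ^ f` (`#k' = #k ^ f`). -/
theorem IsUnramifiedIn.frob_baseChange {E : IntermediateField K Ω} (h : IsUnramifiedIn O E)
    {M' : IntermediateField K' Ω} (h' : IsUnramifiedIn O' M') (hEM : ∀ x ∈ E, x ∈ M') (f : ℕ)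
    (hf : Nat.card (ResidueField O') = Nat.card (ResidueField O) ^ f) (x : E) :
    ((h'.frob ⟨x, hEM x x.2⟩ : M') : Ω) = (((h.frob ^ f) x : E) : Ω) := by
  have := h.frob_pow_baseChange h' hEM f hf 1 x
  rwa [pow_one, mul_one] at this

/-- The cardinality of the residue field of `O'` is a power of that of `O`, with exponent the
residue degree. -/
theorem card_residueField_eq_pow_finrank :
    Nat.card (ResidueField O') =
      Nat.card (ResidueField O) ^ finrank (ResidueField O) (ResidueField O') :=
  Module.natCard_eq_pow_finrank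

variable (O') in
include O' in
/-- If `E/K` is unramified of degree `n` and `M' = K'·E`, then `[M' : K'] ∣ n`. -/
theorem IsUnramifiedIn.finrank_baseChange_dvd {E : IntermediateField K Ω}
    (h : IsUnramifiedIn O E) {M' : IntermediateField K' Ω} (hEM : ∀ x ∈ E, x ∈ M')
    (hgen : M' ≤ IntermediateField.adjoin K' (E : Set Ω)) :
    finrank K' M' ∣ finrank K E := by
  have h' : IsUnramifiedIn O' M' := h.baseChange hEM hgen
  have := h.1
  have := h'.1
  rw [← h'.orderOf_frob]
  apply orderOf_dvd_of_pow_eq_one
  set n := finrank K E with hn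
  have hfrobn : h.frob ^ n = 1 := by rw [hn, ← h.orderOf_frob]; exact pow_orderOf_eq_one _
  have key : ∀ y (hy : y ∈ IntermediateField.adjoin K' (E : Set Ω)),
      ∃ hy' : y ∈ M', (h'.frob ^ n) ⟨y, hy'⟩ = ⟨y, hy'⟩ := by
    intro y hy
    induction hy using IntermediateField.adjoin_induction with
    | mem x hx =>
      refine ⟨hEM x hx, Subtype.ext ?_⟩
      have := h.frob_pow_baseChange h' hEM _
        (card_residueField_eq_pow_finrank (O := O) (O' := O')) n ⟨x, hx⟩
      rw [this, mul_comm, pow_mul, hfrobn, one_pow]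
      rfl
    | algebraMap c =>
      exact ⟨M'.algebraMap_mem c, (h'.frob ^ n).commutes c⟩
    | add x y _ _ hx hy =>
      obtain ⟨hx', hx''⟩ := hx
      obtain ⟨hy', hy''⟩ := hy
      refine ⟨M'.add_mem hx' hy', ?_⟩
      have : (⟨x + y, M'.add_mem hx' hy'⟩ : M') = ⟨x, hx'⟩ + ⟨y, hy'⟩ := rfl
      rw [this, map_add, hx'', hy'']
    | inv x _ hx =>
      obtain ⟨hx', hx''⟩ := hx
      refine ⟨M'.inv_mem hx', ?_⟩
      have : (⟨x⁻¹, M'.inv_mem hx'⟩ : M') = (⟨x, hx'⟩ : M')⁻¹ := rfl
      rw [this, map_inv₀, hx'']
    | mul x y _ _ hx hy =>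
      obtain ⟨hx', hx''⟩ := hx
      obtain ⟨hy', hy''⟩ := hy
      refine ⟨M'.mul_mem hx' hy', ?_⟩
      have : (⟨x * y, M'.mul_mem hx' hy'⟩ : M') = ⟨x, hx'⟩ * ⟨y, hy'⟩ := rfl
      rw [this, map_mul, hx'', hy'']
  ext y
  obtain ⟨hy', hy''⟩ := key y (hgen y.2)
  exact congrArg Subtype.val hy''

/-- The unramified extension of degree `n` of `K` is contained in the one of `K'` (inside the
algebraically closed `Ω`). -/
theorem mem_unramExt_baseChange [IsAlgClosed Ω] {n : ℕ} (hn : 0 < n) {x : Ω}
    (hx : x ∈ unramExt O Ω n (K := K)) : x ∈ unramExt O' Ω n (K := K') := by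
  have h := isUnramifiedIn_unramExt O Ω (K := K) hn
  have hEM : ∀ y ∈ unramExt O Ω n (K := K),
      y ∈ IntermediateField.adjoin K' ((unramExt O Ω n (K := K) : IntermediateField K Ω) : Set Ω) :=
    fun y hy => IntermediateField.subset_adjoin _ _ hy
  have h' : IsUnramifiedIn O' (IntermediateField.adjoin K'
      ((unramExt O Ω n (K := K) : IntermediateField K Ω) : Set Ω)) := h.baseChange hEM le_rfl
  have hdvd := h.finrank_baseChange_dvd O' hEM le_rfl
  rw [finrank_unramExt O Ω hn] at hdvd
  have := h'.1
  have hpos : 0 < finrank K' (IntermediateField.adjoin K'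
      ((unramExt O Ω n (K := K) : IntermediateField K Ω) : Set Ω)) := finrank_pos
  have hle := (unramExt_le_iff O' Ω (K := K') hpos hn).2 hdvd
  rw [← h'.eq_unramExt] at hle
  exact hle (hEM x hx)

end TwoSettings

section ExtendScalars

theorem extendScalars_le_adjoin {K Ω : Type*} [Field K] [Field Ω] [Algebra K Ω]
    {E₀ E M : IntermediateField K Ω} (hE₀M : E₀ ≤ M) (hM : M ≤ E₀ ⊔ E) :
    IntermediateField.extendScalars hE₀M ≤ IntermediateField.adjoin E₀ (E : Set Ω) := by
  intro x hx
  rw [IntermediateField.mem_extendScalars] at hx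
  have hle : E₀ ⊔ E ≤ (IntermediateField.adjoin E₀ (E : Set Ω)).restrictScalars K := by
    refine sup_le (fun y hy => ?_) (fun y hy => ?_)
    · rw [IntermediateField.mem_restrictScalars]
      exact IntermediateField.algebraMap_mem (IntermediateField.adjoin E₀ (E : Set Ω))
        (⟨y, hy⟩ : E₀)
    · rw [IntermediateField.mem_restrictScalars]
      exact IntermediateField.subset_adjoin _ _ hy
  have h1 := hle (hM hx)
  rwa [IntermediateField.mem_restrictScalars] at h1

end ExtendScalars

section Inst

variable (O : Type*) [CommRing O] [IsDomain O] [IsDiscreteValuationRing O]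
  [IsAdicComplete (maximalIdeal O) O] [Finite (ResidueField O)]
variable {K : Type*} [Field K] [Algebra O K] [IsFractionRing O K] [PerfectField K]
variable {Ω : Type*} [Field Ω] [Algebra K Ω] [Algebra O Ω] [IsScalarTower O K Ω]
variable (E₀ : IntermediateField K Ω) [FiniteDimensional K E₀]

/-- A finite subextension `E₀` of `Ω/K` with its ring of integers is again a "local setting":
the residue field is finite, -/
instance instFiniteResidueFieldIntegralClosure :
    Finite (ResidueField (integralClosure O E₀)) :=
  Fermat.Agent.S55.Local.finite_residueField_of_isIntegralClosure O K E₀ (integralClosure O E₀)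

/-- the ring of integers is complete, -/
instance instIsAdicCompleteIntegralClosure :
    IsAdicComplete (maximalIdeal (integralClosure O E₀)) (integralClosure O E₀) :=
  Fermat.Agent.S55.Local.isAdicComplete_maximalIdeal_of_isIntegralClosure O K E₀
    (integralClosure O E₀)

omit [FiniteDimensional K E₀] in
/-- and the field is perfect. -/
instance instPerfectFieldIntermediateField [Algebra.IsAlgebraic K E₀] : PerfectField E₀ :=
  Algebra.IsAlgebraic.perfectField (K := K)

example : HenselianTower (integralClosure O E₀) E₀ Ω := inferInstance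

variable {O}

theorem card_residueField_integralClosure :
    Nat.card (ResidueField (integralClosure O E₀)) =
      Nat.card (ResidueField O) ^
        finrank (ResidueField O) (ResidueField (integralClosure O E₀)) :=
  card_residueField_eq_pow_finrank

variable {E₀}

/-- **Base change to a finite subextension `E₀`**: if `E/K` is unramified then `E₀·E` is
unramified over `E₀` (with respect to the integers of `E₀`). -/
theorem IsUnramifiedIn.extendScalars {E M : IntermediateField K Ω} (h : IsUnramifiedIn O E)
    (hE₀M : E₀ ≤ M) (hEM : E ≤ M) (hM : M ≤ E₀ ⊔ E) :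
    IsUnramifiedIn (integralClosure O E₀) (IntermediateField.extendScalars hE₀M) :=
  h.baseChange (fun _ hx => (IntermediateField.mem_extendScalars hE₀M).2 (hEM hx))
    (extendScalars_le_adjoin hE₀M hM)

theorem IsUnramifiedIn.extendScalars_sup {E : IntermediateField K Ω} (h : IsUnramifiedIn O E) :
    IsUnramifiedIn (integralClosure O E₀)
      (IntermediateField.extendScalars (le_sup_left : E₀ ≤ E₀ ⊔ E)) :=
  h.extendScalars le_sup_left le_sup_right le_rfl

/-- **Frobenius under base change to `E₀`**: `Frob_{M/E₀}` acts on `E` as `Frob_{E/K} ^ f`,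
`f` the residue degree of `E₀/K`. -/
theorem IsUnramifiedIn.frob_extendScalars {E M : IntermediateField K Ω} (h : IsUnramifiedIn O E)
    (hE₀M : E₀ ≤ M) (hEM : E ≤ M)
    (h' : IsUnramifiedIn (integralClosure O E₀) (IntermediateField.extendScalars hE₀M)) (x : E) :
    ((h'.frob ⟨x, (IntermediateField.mem_extendScalars hE₀M).2 (hEM x.2)⟩ :
        IntermediateField.extendScalars hE₀M) : Ω) =
      (((h.frob ^ finrank (ResidueField O) (ResidueField (integralClosure O E₀))) x : E) : Ω) :=
  h.frob_baseChange h' (fun _ hx => (IntermediateField.mem_extendScalars hE₀M).2 (hEM hx)) _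
    (card_residueField_integralClosure E₀) x

/-- `[E₀·E : E₀]` divides `[E : K]` for `E/K` unramified. -/
theorem IsUnramifiedIn.finrank_extendScalars_dvd {E M : IntermediateField K Ω}
    (h : IsUnramifiedIn O E) (hE₀M : E₀ ≤ M) (hEM : E ≤ M) (hM : M ≤ E₀ ⊔ E) :
    finrank E₀ (IntermediateField.extendScalars hE₀M) ∣ finrank K E :=
  h.finrank_baseChange_dvd (integralClosure O E₀)
    (fun _ hx => (IntermediateField.mem_extendScalars hE₀M).2 (hEM hx))
    (extendScalars_le_adjoin hE₀M hM)

end Inst

end Fermat.Agent.S55.Local.Unram
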