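/-
S55 / LOC5 (5-A): the abstract order count of local class field theory
(Serre, Local Fields XIII.3; Milne, CFT III.2).

`G` a group, `A : Rep k G`, `N N' ◁ G` (think: `G = Gal(M/F)`, `N = Gal(M/E)`, `N' = Gal(M/F_n)` with
`F_n/F` the unramified extension of degree `n = [E:F]`).  Assume `H¹(N, A) = H¹(N', A) = 0`
(Hilbert 90), `|H²(G/N, A^N)| ∣ n` (dévissage from the cyclic case) and let `u ∈ H²(G/N', A^{N'})`
be a class whose order is divisible by `n` and whose inflation to `G` dies on `N`.  Then
`H²(G/N, A^N)` is cyclic of order `n`, generated by the unique `v` with `inf v = inf u`.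

Also: for a subgroup `S ≤ G` of finite index, a class `x ∈ Hⁿ(G, A)` with `m • x = 0 → |G| ∣ m`
restricts to a class `y` of `Hⁿ(S, A)` with `m • y = 0 → |S| ∣ m` (`cores ∘ res = index`).
-/
import Fermat.Agent.S55.GC.InfRes2
import Fermat.Agent.S55.GC.Cores

set_option autoImplicit false

universe u

open CategoryTheory groupCohomology Rep

namespace Fermat.Agent.S55.Local.ClassFormAbs

open Fermat.Agent.S55.GC.InfRes2 Fermat.Agent.S55.GC.Cores

section Generator

/-- In a finite additive group whose order divides `n`, an element `v` with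
`m • v = 0 → n ∣ m` generates, and the order is `n`. -/
theorem card_eq_and_generates {X : Type*} [AddCommGroup X] [Finite X] {n : ℕ}
    (hcard : Nat.card X ∣ n) (v : X) (hv : ∀ m : ℕ, m • v = 0 → n ∣ m) :
    Nat.card X = n ∧ (∀ m : ℕ, m • v = 0 ↔ n ∣ m) ∧ ∀ x : X, ∃ m : ℕ, m < n ∧ x = m • v := by
  have hpos : 0 < Nat.card X := Nat.card_pos
  have hn0 : n ≠ 0 := by
    rintro rfl
    have := hv (Nat.card X) (card_nsmul_eq_zero' (G := X) (x := v))
    exact hpos.ne' (Nat.eq_zero_of_zero_dvd this)
  have h1 : n ∣ Nat.card X := hv _ (card_nsmul_eq_zero' (G := X) (x := v))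
  have hcardn : Nat.card X = n := Nat.dvd_antisymm hcard h1
  have hiff : ∀ m : ℕ, m • v = 0 ↔ n ∣ m := by
    intro m
    refine ⟨hv m, ?_⟩
    rintro ⟨c, rfl⟩
    rw [mul_comm, mul_nsmul, ← hcardn, card_nsmul_eq_zero']
  have hord : addOrderOf v = n := by
    apply Nat.dvd_antisymm
    · exact addOrderOf_dvd_of_nsmul_eq_zero ((hiff n).2 dvd_rfl)
    · exact hv _ (addOrderOf_nsmul_eq_zero v)
  have htop : AddSubgroup.zmultiples v = ⊤ := by
    apply AddSubgroup.eq_top_of_card_eq
    rw [Nat.card_zmultiples, hord, hcardn]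
  refine ⟨hcardn, hiff, fun x => ?_⟩
  have hx : x ∈ AddSubgroup.zmultiples v := htop ▸ AddSubgroup.mem_top x
  obtain ⟨z, rfl⟩ := AddSubgroup.mem_zmultiples_iff.1 hx
  refine ⟨(z % (n : ℤ)).toNat, ?_, ?_⟩
  · have h2 : z % (n : ℤ) < n := Int.emod_lt_of_pos z (by exact_mod_cast Nat.pos_of_ne_zero hn0)
    have h3 : 0 ≤ z % (n : ℤ) := Int.emod_nonneg z (by exact_mod_cast hn0)
    omega
  · have h3 : 0 ≤ z % (n : ℤ) := Int.emod_nonneg z (by exact_mod_cast hn0)
    have h4 : ((z % (n : ℤ)).toNat : ℤ) = z % n := Int.toNat_of_nonneg h3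
    rw [← natCast_zsmul, h4]
    have h5 : z = z % n + n * (z / n) := (Int.emod_add_mul_ediv z n).symm
    conv_lhs => rw [h5]
    rw [add_zsmul, mul_zsmul', natCast_zsmul, (hiff n).2 dvd_rfl, zsmul_zero, add_zero]

end Generator

section Fundamental

variable {k G : Type u} [CommRing k] [Group G] (A : Rep k G)
  (N N' : Subgroup G) [N.Normal] [N'.Normal]

/-- **Abstract order count.** -/
theorem exists_fundamental (hN : H1ResVanishes A N) (hN' : H1ResVanishes A N') {n : ℕ}
    [Finite (groupCohomology (A.quotientToInvariants N) 2)]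
    (hcard : Nat.card (groupCohomology (A.quotientToInvariants N) 2) ∣ n)
    (u : groupCohomology (A.quotientToInvariants N') 2)
    (hu : ∀ m : ℕ, m • u = 0 → n ∣ m)
    (hres : res2 A N (inf2 A N' u) = 0) :
    ∃ v : groupCohomology (A.quotientToInvariants N) 2,
      inf2 A N v = inf2 A N' u ∧
      Nat.card (groupCohomology (A.quotientToInvariants N) 2) = n ∧
      (∀ m : ℕ, m • v = 0 ↔ n ∣ m) ∧
      ∀ x : groupCohomology (A.quotientToInvariants N) 2, ∃ m : ℕ, m < n ∧ x = m • v := by
  obtain ⟨v, hv⟩ := exists_inf_eq A N hN (inf2 A N' u) hres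
  have hv' : ∀ m : ℕ, m • v = 0 → n ∣ m := by
    intro m hm
    apply hu m
    apply inf_injective A N' hN'
    rw [map_nsmul, ← hv, ← map_nsmul, hm, map_zero, map_zero]
  obtain ⟨h1, h2, h3⟩ := card_eq_and_generates hcard v hv'
  exact ⟨v, hv, h1, h2, h3⟩

/-- Uniqueness of the class `v` with prescribed inflation. -/
theorem fundamental_unique (hN : H1ResVanishes A N)
    {v v' : groupCohomology (A.quotientToInvariants N) 2}
    (h : inf2 A N v = inf2 A N v') : v = v' :=
  inf_injective A N hN h

/-- Every class of `H²(G/N, A^N)` is, after inflation to `G`, the inflation of a class of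
`H²(G/N', A^{N'})` ("every class is split by the unramified extension of the same degree"). -/
theorem exists_inf_eq_inf (hN : H1ResVanishes A N) (hN' : H1ResVanishes A N') {n : ℕ}
    [Finite (groupCohomology (A.quotientToInvariants N) 2)]
    (hcard : Nat.card (groupCohomology (A.quotientToInvariants N) 2) ∣ n)
    (u : groupCohomology (A.quotientToInvariants N') 2)
    (hu : ∀ m : ℕ, m • u = 0 → n ∣ m)
    (hres : res2 A N (inf2 A N' u) = 0)
    (x : groupCohomology (A.quotientToInvariants N) 2) :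
    ∃ m : ℕ, m < n ∧ inf2 A N x = inf2 A N' (m • u) := by
  obtain ⟨v, hv, -, -, hgen⟩ := exists_fundamental A N N' hN hN' hcard u hu hres
  obtain ⟨m, hm, rfl⟩ := hgen x
  exact ⟨m, hm, by rw [map_nsmul, map_nsmul, hv]⟩

end Fundamental

section Restriction

variable {k G : Type u} [CommRing k] [Group G] (A : Rep k G) (S : Subgroup G)

/-- If the order of `x ∈ Hⁿ(G, A)` is divisible by `|G|`, then the order of its restriction to a
subgroup `S` is divisible by `|S|`. -/
theorem dvd_of_nsmul_resMap_eq_zero [Finite G] (n : ℕ) (x : groupCohomology A n)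
    (hx : ∀ m : ℕ, m • x = 0 → Nat.card G ∣ m) (m : ℕ) (hm : m • resMap S A n x = 0) :
    Nat.card S ∣ m := by
  have h1 : (m * S.index) • x = 0 := by
    have h2 : resMap S A n (m • x) = 0 := by rw [map_nsmul, hm]
    have h3 := index_nsmul_eq_zero_of_resMap_eq_zero S A n (m • x) h2
    rw [← mul_nsmul] at h3
    exact h3
  have h4 := hx _ h1
  rw [← S.card_mul_index] at h4
  exact Nat.dvd_of_mul_dvd_mul_right (Nat.pos_of_ne_zero Subgroup.FiniteIndex.index_ne_zero) h4

end Restriction

end Fermat.Agent.S55.Local.ClassFormAbs
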