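/-
S55 / LOC5 (5-C, level bookkeeping): from FIELD-LEVEL input to the class formation
`Formation (krullLevel F Ω) (unitsRep F Ω)` of `CFAbs.lean`.
-/
import Fermat.Agent.S55.CFAbs
import Fermat.Agent.S55.GaloisLevel
import Fermat.Agent.S55.GC.GaloisLayerInf

set_option autoImplicit false
set_option linter.unusedSectionVars false
set_option linter.style.haveILetI false

open CategoryTheory groupCohomology Rep IntermediateField

namespace Fermat.Agent.S55.Local.InvariantLevel

open Fermat.Agent.S55.Level Fermat.Agent.S55.LevelLayer Fermat.Agent.S55.GC.InfRes2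
  Fermat.Agent.S55.CFAbs Fermat.Agent.S55.GaloisLevel Fermat.Agent.S55.GC.GaloisLayerInf

variable (F Ω : Type) [Field F] [Field Ω] [Algebra F Ω] [IsGalois F Ω]

section Res

variable {F Ω} {E M : IntermediateField F Ω} [Normal F E] [Normal F M] (hEM : E ≤ M)

/-- The image of `Gal(Ω/E)` in the layer `Gal(Ω/F) ⧸ Gal(Ω/M)` corresponds to the kernel of
`Gal(M/F) → Gal(E/F)`. -/
theorem galQuotEquiv_mem_ker (s : imQ E.fixingSubgroup M.fixingSubgroup) :
    galQuotEquiv F Ω M (s : (Ω ≃ₐ[F] Ω) ⧸ M.fixingSubgroup) ∈ (resGal F Ω hEM).ker := by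
  obtain ⟨_, ⟨u, hu, rfl⟩⟩ := s
  rw [MonoidHom.mem_ker]
  show resGal F Ω hEM (galQuotEquiv F Ω M (QuotientGroup.mk u)) = 1
  rw [galQuotEquiv_mk, resGal_restrictNormalHom]
  have : u ∈ (AlgEquiv.restrictNormalHom (F := F) (K₁ := Ω) E).ker := by
    rw [E.restrictNormalHom_ker]
    exact hu
  exact this

/-- The group homomorphism `U/V → ker (Gal(M/F) → Gal(E/F))`. -/
noncomputable def subLayerHom :
    imQ E.fixingSubgroup M.fixingSubgroup →* (resGal F Ω hEM).ker :=
  ((galQuotEquiv F Ω M).toMonoidHom.comp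
    (imQ E.fixingSubgroup M.fixingSubgroup).subtype).codRestrict _ (galQuotEquiv_mem_ker hEM)

theorem subLayerHom_coe (s : imQ E.fixingSubgroup M.fixingSubgroup) :
    ((subLayerHom hEM s : (resGal F Ω hEM).ker) : M ≃ₐ[F] M) =
      galQuotEquiv F Ω M (s : (Ω ≃ₐ[F] Ω) ⧸ M.fixingSubgroup) := rfl

/-- The module map `Mˣ → (Ωˣ)^V` over `subLayerHom`. -/
noncomputable def subLayerModHom :
    res (subLayerHom hEM) (res (resGal F Ω hEM).ker.subtype (Rep.ofAlgebraAutOnUnits F M)) ⟶
      res (imQ E.fixingSubgroup M.fixingSubgroup).subtype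
        ((Rep.ofAlgebraAutOnUnits F Ω).quotientToInvariants M.fixingSubgroup) :=
  Rep.ofHom ⟨(unitsLayerEquivF F Ω M).symm.toLinearMap, fun s => by
    refine LinearMap.ext fun y => ?_
    have h := LinearMap.congr_fun (unitsLayerEquivF_ρ F Ω M
      (s : (Ω ≃ₐ[F] Ω) ⧸ M.fixingSubgroup)) ((unitsLayerEquivF F Ω M).symm y)
    have h' : unitsLayerEquivF F Ω M
        (((Rep.ofAlgebraAutOnUnits F Ω).quotientToInvariants M.fixingSubgroup).ρ
          (s : (Ω ≃ₐ[F] Ω) ⧸ M.fixingSubgroup) ((unitsLayerEquivF F Ω M).symm y)) =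
        (Rep.ofAlgebraAutOnUnits F M).ρ
          (galQuotEquiv F Ω M (s : (Ω ≃ₐ[F] Ω) ⧸ M.fixingSubgroup))
          (unitsLayerEquivF F Ω M ((unitsLayerEquivF F Ω M).symm y)) := h
    rw [LinearEquiv.apply_symm_apply] at h'
    show (unitsLayerEquivF F Ω M).symm ((Rep.ofAlgebraAutOnUnits F M).ρ
        (galQuotEquiv F Ω M (s : (Ω ≃ₐ[F] Ω) ⧸ M.fixingSubgroup)) y) =
      ((Rep.ofAlgebraAutOnUnits F Ω).quotientToInvariants M.fixingSubgroup).ρ
          (s : (Ω ≃ₐ[F] Ω) ⧸ M.fixingSubgroup) ((unitsLayerEquivF F Ω M).symm y)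
    rw [← h', LinearEquiv.symm_apply_apply]⟩

/-- Restriction to `U/V` on the layer `G ⧸ V`, in terms of the restriction to
`ker (Gal(M/F) → Gal(E/F))` on `Gal(M/F)`. -/
theorem res2_layer_eq :
    res2 ((Rep.ofAlgebraAutOnUnits F Ω).quotientToInvariants M.fixingSubgroup)
        (imQ E.fixingSubgroup M.fixingSubgroup) =
      (unitsLayerIsoF F Ω M 2).hom ≫
        res2 (Rep.ofAlgebraAutOnUnits F M) (resGal F Ω hEM).ker ≫
        groupCohomology.map (subLayerHom hEM) (subLayerModHom hEM) 2 := by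
  show groupCohomology.map _ _ 2 = groupCohomology.map _ _ 2 ≫
    groupCohomology.map _ _ 2 ≫ groupCohomology.map _ _ 2
  rw [← groupCohomology.map_comp, ← groupCohomology.map_comp]
  refine groupCohomology.map_congr ?_ ?_ 2
  · ext s
    show (s : (Ω ≃ₐ[F] Ω) ⧸ M.fixingSubgroup) =
      (galQuotEquiv F Ω M).symm (galQuotEquiv F Ω M (s : (Ω ≃ₐ[F] Ω) ⧸ M.fixingSubgroup))
    rw [MulEquiv.symm_apply_apply]
  · refine LinearMap.ext fun x => ?_
    show x = (unitsLayerEquivF F Ω M).symm (unitsLayerEquivF F Ω M x)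
    rw [LinearEquiv.symm_apply_apply]

end Res

section Input

/-- **Field-level input** for the local class formation of `Ω/F`. -/
structure LocalCFInput where
  /-- (H2) the order bound for all finite Galois subextensions -/
  h2 : ∀ (E : IntermediateField F Ω) [Normal F E] [FiniteDimensional F E],
    Finite (groupCohomology (Rep.ofAlgebraAutOnUnits F E) 2) ∧
      Nat.card (groupCohomology (Rep.ofAlgebraAutOnUnits F E) 2) ∣ Module.finrank F E
  /-- (D) the distinguished ("unramified") extension of degree `n` -/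
  Fn : ℕ → IntermediateField F Ω
  [Fn_normal : ∀ n, Normal F (Fn n)]
  Fn_finite : ∀ n, n ≠ 0 → FiniteDimensional F (Fn n)
  Fn_finrank : ∀ n, n ≠ 0 → Module.finrank F (Fn n) = n
  Fn_le : ∀ n m, n ≠ 0 → m ≠ 0 → n ∣ m → Fn n ≤ Fn m
  /-- the invariant of the distinguished extensions -/
  invF : ∀ (n : ℕ) [NeZero n], groupCohomology (Rep.ofAlgebraAutOnUnits F (Fn n)) 2 →+ ZMod n
  invF_bijective : ∀ (n : ℕ) [NeZero n], Function.Bijective (invF n)
  invF_inf : ∀ (n m : ℕ) [NeZero n] [NeZero m] (hnm : n ∣ m)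
    (y : groupCohomology (Rep.ofAlgebraAutOnUnits F (Fn n)) 2),
    ZMod.toAddCircle (invF m ((groupCohomology.map
      (resGal F Ω (Fn_le n m (NeZero.ne n) (NeZero.ne m) hnm))
      (unitsIncl F Ω (Fn_le n m (NeZero.ne n) (NeZero.ne m) hnm)) 2).hom y)) =
      ZMod.toAddCircle (invF n y)
  /-- (K) the distinguished classes of degree `[E:F]` die over `E` -/
  kill : ∀ (E : IntermediateField F Ω) [Normal F E] [FiniteDimensional F E] (n : ℕ),
    Module.finrank F E = n →
    ∃ (M : IntermediateField F Ω) (_ : Normal F M) (_ : FiniteDimensional F M) (hEM : E ≤ M)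
      (hFM : Fn n ≤ M),
      ∀ y : groupCohomology (Rep.ofAlgebraAutOnUnits F (Fn n)) 2,
        (res2 (Rep.ofAlgebraAutOnUnits F M) (resGal F Ω hEM).ker).hom
          ((groupCohomology.map (resGal F Ω hFM) (unitsIncl F Ω hFM) 2).hom y) = 0

attribute [instance] LocalCFInput.Fn_normal

end Input

section Formation

variable {F Ω}

/-- Members of the Krull level structure are the fixing subgroups of the finite normal
subextensions. -/
theorem exists_eq_fixingSubgroup {U : Subgroup (Ω ≃ₐ[F] Ω)}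
    (hU : U ∈ (krullLevel F Ω).sets) :
    ∃ (E : IntermediateField F Ω) (_ : Normal F E) (_ : FiniteDimensional F E),
      U = E.fixingSubgroup := by
  have := hU.1
  exact ⟨fixedField U, hU.2.normal_fixedField, hU.2.finiteDimensional,
    hU.2.fixingSubgroup_fixedField.symm⟩

theorem isGalois_of_normal (E : IntermediateField F Ω) [Normal F E] : IsGalois F E := by
  have hsep : Algebra.IsSeparable F E := Algebra.isSeparable_tower_bot_of_isSeparable F E Ω
  exact ⟨⟩

theorem fixingSubgroup_mem (E : IntermediateField F Ω) [Normal F E] [FiniteDimensional F E] :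
    E.fixingSubgroup ∈ (krullLevel F Ω).sets := by
  haveI := isGalois_of_normal E
  exact fixingSubgroup_mem_krullLevel E

/-- (H1) for the unit module of `Ω/F`. -/
theorem h1_layer (U V : Subgroup (Ω ≃ₐ[F] Ω)) [U.Normal] [V.Normal]
    (hV : V ∈ (krullLevel F Ω).sets) :
    H1ResVanishes ((unitsRep F Ω).quotientToInvariants V) (imQ U V) := by
  obtain ⟨E', hn, hf, rfl⟩ := exists_eq_fixingSubgroup hV
  exact h1ResVanishes_layer F Ω E' (imQ U E'.fixingSubgroup)

variable (I : LocalCFInput F Ω)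

include I in
/-- (H2) for the unit module of `Ω/F`. -/
theorem h2_layer (U : Subgroup (Ω ≃ₐ[F] Ω)) [U.Normal] (hU : U ∈ (krullLevel F Ω).sets) :
    Finite (groupCohomology ((unitsRep F Ω).quotientToInvariants U) 2) ∧
      Nat.card (groupCohomology ((unitsRep F Ω).quotientToInvariants U) 2) ∣ U.index := by
  obtain ⟨E, hn, hf, rfl⟩ := exists_eq_fixingSubgroup hU
  obtain ⟨h1, h2⟩ := I.h2 E
  have e := (unitsLayerIsoF F Ω E 2).toLinearEquiv.toEquiv
  refine ⟨Finite.of_equiv _ e.symm, ?_⟩
  rw [Nat.card_congr e, ← IntermediateField.finrank_eq_fixingSubgroup_index]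
  exact h2

/-- The distinguished subgroups. -/
def W (n : ℕ) : Subgroup (Ω ≃ₐ[F] Ω) := (I.Fn n).fixingSubgroup

instance W_normal (n : ℕ) : (W I n).Normal := normal_fixingSubgroup F Ω (I.Fn n)

theorem W_mem (n : ℕ) (hn : n ≠ 0) : W I n ∈ (krullLevel F Ω).sets := by
  haveI := I.Fn_finite n hn
  exact fixingSubgroup_mem (I.Fn n)

theorem W_index (n : ℕ) (hn : n ≠ 0) : (W I n).index = n := by
  haveI := I.Fn_finite n hn
  rw [W, ← IntermediateField.finrank_eq_fixingSubgroup_index, I.Fn_finrank n hn]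

theorem W_le (n m : ℕ) (hn : n ≠ 0) (hm : m ≠ 0) (hnm : n ∣ m) : W I m ≤ W I n :=
  IntermediateField.fixingSubgroup_antitone (I.Fn_le n m hn hm hnm)

/-- The invariant of the distinguished layers. -/
noncomputable def invZ (n : ℕ) [NeZero n] :
    groupCohomology ((unitsRep F Ω).quotientToInvariants (W I n)) 2 →+ ZMod n :=
  (I.invF n).comp (unitsLayerIsoF F Ω (I.Fn n) 2).hom.hom.toAddMonoidHom

theorem invZ_apply (n : ℕ) [NeZero n]
    (y : groupCohomology ((unitsRep F Ω).quotientToInvariants (W I n)) 2) :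
    invZ I n y = I.invF n ((unitsLayerIsoF F Ω (I.Fn n) 2).hom.hom y) := rfl

theorem invZ_bijective (n : ℕ) [NeZero n] : Function.Bijective (invZ I n) :=
  (I.invF_bijective n).comp
    ((ConcreteCategory.isIso_iff_bijective (unitsLayerIsoF F Ω (I.Fn n) 2).hom).1 inferInstance)

theorem invZ_inf (n m : ℕ) [NeZero n] [NeZero m] (hnm : n ∣ m)
    (y : groupCohomology ((unitsRep F Ω).quotientToInvariants (W I n)) 2) :
    ZMod.toAddCircle (invZ I m
      ((infLayer (unitsRep F Ω) (W_le I n m (NeZero.ne n) (NeZero.ne m) hnm) 2).hom y)) =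
      ZMod.toAddCircle (invZ I n y) := by
  rw [invZ_apply, invZ_apply, ← I.invF_inf n m hnm]
  have h := infLayer_unitsLayerIsoF F Ω (I.Fn_le n m (NeZero.ne n) (NeZero.ne m) hnm) 2
  have h' := congrArg (fun ψ => ψ.hom y) h
  exact congrArg (fun z => ZMod.toAddCircle (I.invF m z)) h'

/-- (K) for the unit module of `Ω/F`. -/
theorem kill_layer (U : Subgroup (Ω ≃ₐ[F] Ω)) [U.Normal] (hU : U ∈ (krullLevel F Ω).sets) :
    ∃ (V : Subgroup (Ω ≃ₐ[F] Ω)) (_ : V.Normal) (_ : V ∈ (krullLevel F Ω).sets) (_ : V ≤ U)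
      (hVW : V ≤ W I U.index),
      ∀ y : groupCohomology ((unitsRep F Ω).quotientToInvariants (W I U.index)) 2,
        (res2 ((unitsRep F Ω).quotientToInvariants V) (imQ U V)).hom
          ((infLayer (unitsRep F Ω) hVW 2).hom y) = 0 := by
  obtain ⟨E, hn, hf, rfl⟩ := exists_eq_fixingSubgroup hU
  obtain ⟨M, hMn, hMf, hEM, hFM, hkill⟩ := I.kill E E.fixingSubgroup.index
    E.finrank_eq_fixingSubgroup_index
  refine ⟨M.fixingSubgroup, normal_fixingSubgroup F Ω M, fixingSubgroup_mem M,
    IntermediateField.fixingSubgroup_antitone hEM,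
    IntermediateField.fixingSubgroup_antitone hFM, fun y => ?_⟩
  have h1 := infLayer_unitsLayerIsoF F Ω hFM 2
  have h1' : (unitsLayerIsoF F Ω M 2).hom.hom
      ((infLayer (unitsRep F Ω) (IntermediateField.fixingSubgroup_antitone hFM) 2).hom y) =
      (groupCohomology.map (resGal F Ω hFM) (unitsIncl F Ω hFM) 2).hom
        ((unitsLayerIsoF F Ω (I.Fn E.fixingSubgroup.index) 2).hom.hom y) :=
    congrArg (fun ψ => ψ.hom y) h1
  have h2 := congrArg (fun ψ => ψ.hom
    ((infLayer (unitsRep F Ω) (IntermediateField.fixingSubgroup_antitone hFM) 2).hom y))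
    (res2_layer_eq hEM)
  refine h2.trans ?_
  show (groupCohomology.map (subLayerHom hEM) (subLayerModHom hEM) 2).hom
    ((res2 (Rep.ofAlgebraAutOnUnits F M) (resGal F Ω hEM).ker).hom
      ((unitsLayerIsoF F Ω M 2).hom.hom
        ((infLayer (unitsRep F Ω) (IntermediateField.fixingSubgroup_antitone hFM) 2).hom y))) = 0
  rw [h1', hkill, map_zero]

/-- **The local class formation** attached to field-level input. -/
noncomputable def formation : Formation (krullLevel F Ω) (unitsRep F Ω) :=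
  Formation.ofZMod (krullLevel F Ω) (unitsRep F Ω)
    (fun U V _ _ _ hV _ => h1_layer U V hV)
    (fun U _ hU => (h2_layer I U hU).1)
    (fun U _ hU => (h2_layer I U hU).2)
    (W I) (W_mem I) (W_index I) (W_le I) (invZ I) (invZ_bijective I) (invZ_inf I)
    (fun U _ hU => kill_layer I U hU)

theorem formation_W (n : ℕ) : (formation I).W n = W I n := rfl

/-- The invariant of a class inflated from the distinguished layer of degree `n`, in terms of the
field-level invariant. -/
theorem inv_levelInf_W (n : ℕ) [NeZero n]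
    (y : groupCohomology ((unitsRep F Ω).quotientToInvariants (W I n)) 2) :
    (formation I).inv
        ((levelInf (krullLevel F Ω) (unitsRep F Ω) (W_mem I n (NeZero.ne n)) 2).hom y) =
      ZMod.toAddCircle (I.invF n ((unitsLayerIsoF F Ω (I.Fn n) 2).hom.hom y)) := by
  have h1 := (formation I).inv_levelInf_W (NeZero.ne n) y
  refine h1.trans ?_
  unfold formation
  rw [Formation.ofZMod_invD_apply]
  rfl

/-- Every class of `H²(Gal(Ω/F), Ωˣ)` (level cohomology) comes from a distinguished layer. -/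
theorem exists_levelInf_W_eq (x : levelCohomology (krullLevel F Ω) (unitsRep F Ω) 2) :
    ∃ (n : ℕ) (hn : n ≠ 0) (y : groupCohomology ((unitsRep F Ω).quotientToInvariants (W I n)) 2),
      (levelInf (krullLevel F Ω) (unitsRep F Ω) (W_mem I n hn) 2).hom y = x :=
  (formation I).exists_levelInf_W_eq x

end Formation

end Fermat.Agent.S55.Local.InvariantLevel
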