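/-
S55 / LOC5 (5-C ingredients): local fields as a predicate, inheritance to finite extensions, and the
bridge from the cyclic norm index (LO3) to the order bound of local class field theory.

* `IsLocalField F` : `F` is the fraction field of a complete discrete valuation ring with finite
  residue field; `IsLocalField.of_finite` : finite separable extensions of local fields are local
  fields (helper8's `CompleteDVR`).
* `card_H1_H2_units_eq_hIdx` : for `E/F` finite Galois with `Gal(E/F) = ⟨τ⟩`:
  `|H²(Gal(E/F), Eˣ)| = [ker (τ-1) : im N]` on `Additive Eˣ` (helper29's `fieldUnitsEnd`),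
  i.e. `[Fˣ : N Eˣ]`.
* `NormIndexStatement` : the statement of LO3 (`[Fˣ : N Eˣ] = [E:F]` for cyclic extensions of local
  fields), as a hypothesis; under it:
  `card_H2_units_dvd` (`|H²(Gal(E/F), Eˣ)| ∣ [E:F]` for EVERY finite Galois extension of local
  fields), `card_H2_units_cyclic` (equality for cyclic ones) and `card_H2_layer_dvd_of_normIndex`
  (the hypothesis (H2) of the abstract class formation on the layers of `Gal(Ω/F)`).
(helper16)
-/
import Mathlib
import Fermat.Agent.S55.Local.CompleteDVR
import Fermat.Agent.S55.GL.CFLayer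
import Fermat.Agent.S14.Hilbert90Add
import Fermat.Agent.S55.GC.GaloisLayerInf

set_option autoImplicit false
set_option linter.unusedSectionVars false

open CategoryTheory groupCohomology Rep IntermediateField IsLocalRing
open Fermat.Agent.S14.Herbrand Fermat.Agent.S14.H90

namespace Fermat.Agent.S55.Local.LocalField

/-- `F` is a (nonarchimedean) local field: the fraction field of a complete discrete valuation
ring with finite residue field. -/
def IsLocalField (F : Type) [Field F] : Prop :=
  ∃ (O : Type) (_ : CommRing O) (_ : IsDomain O) (_ : IsDiscreteValuationRing O)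
    (_ : Algebra O F), IsFractionRing O F ∧ IsAdicComplete (maximalIdeal O) O ∧
      Finite (ResidueField O)

theorem isLocalField_of_dvr (O F : Type) [CommRing O] [IsDomain O] [IsDiscreteValuationRing O]
    [Field F] [Algebra O F] [IsFractionRing O F] [IsAdicComplete (maximalIdeal O) O]
    [Finite (ResidueField O)] : IsLocalField F :=
  ⟨O, inferInstance, inferInstance, inferInstance, inferInstance, inferInstance, inferInstance,
    inferInstance⟩

/-- A finite separable extension of a local field is a local field. -/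
theorem IsLocalField.of_finite {F E : Type} [Field F] [Field E] [Algebra F E]
    [FiniteDimensional F E] [Algebra.IsSeparable F E] (h : IsLocalField F) : IsLocalField E := by
  obtain ⟨O, _, _, _, _, hfr, hcomp, hfin⟩ := h
  letI : Algebra O E := ((algebraMap F E).comp (algebraMap O F)).toAlgebra
  haveI : IsScalarTower O F E := IsScalarTower.of_algebraMap_eq (fun x => rfl)
  haveI : IsLocalRing (integralClosure O E) :=
    isLocalRing_of_isIntegralClosure O F E (integralClosure O E)
  haveI : IsDiscreteValuationRing (integralClosure O E) :=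
    isDiscreteValuationRing_of_isIntegralClosure O F E (integralClosure O E)
  exact ⟨integralClosure O E, inferInstance, inferInstance, inferInstance, inferInstance,
    isFractionRing_of_isIntegralClosure O F E (integralClosure O E),
    isAdicComplete_maximalIdeal_of_isIntegralClosure O F E (integralClosure O E),
    finite_residueField_of_isIntegralClosure O F E (integralClosure O E)⟩

section Cyclic

variable (F E : Type) [Field F] [Field E] [Algebra F E] [FiniteDimensional F E] [IsGalois F E]

/-- For `Gal(E/F) = ⟨τ⟩`: `|H¹(Gal(E/F), Eˣ)| = [ker N : im (τ-1)]` and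
`|H²(Gal(E/F), Eˣ)| = [ker (τ-1) : im N]`, on `Additive Eˣ`. -/
theorem card_H1_H2_units_eq_hIdx (τ : E ≃ₐ[F] E) (hτ : ∀ g, g ∈ Subgroup.zpowers τ) :
    Nat.card (groupCohomology (Rep.ofAlgebraAutOnUnits F E) 1) =
        hIdx (nrm (fieldUnitsEnd F E τ) (Module.finrank F E)) (dlt (fieldUnitsEnd F E τ)) ∧
      Nat.card (groupCohomology (Rep.ofAlgebraAutOnUnits F E) 2) =
        hIdx (dlt (fieldUnitsEnd F E τ)) (nrm (fieldUnitsEnd F E τ) (Module.finrank F E)) := by
  classical
  letI : Fintype (E ≃ₐ[F] E) := Fintype.ofFinite _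
  have h := Fermat.Agent.S55.GL.CF1.card_H1_H2_eq_hIdx (Rep.ofAlgebraAutOnUnits F E) τ hτ
  have hcard : Fintype.card (E ≃ₐ[F] E) = Module.finrank F E := by
    rw [← Nat.card_eq_fintype_card, IsGalois.card_aut_eq_finrank]
  rw [hcard] at h
  exact h

end Cyclic

/-- **The statement of LO3**: for a finite cyclic extension `E/F` of local fields with
`Gal(E/F) = ⟨τ⟩`, the norm index `[Fˣ : N Eˣ] = [ker (τ-1) : im N]` equals `[E:F]`. -/
def NormIndexStatement : Prop :=
  ∀ (F E : Type) [Field F] [Field E] [Algebra F E] [FiniteDimensional F E] [IsGalois F E],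
    IsLocalField F → ∀ τ : E ≃ₐ[F] E, (∀ g, g ∈ Subgroup.zpowers τ) →
      hIdx (dlt (fieldUnitsEnd F E τ)) (nrm (fieldUnitsEnd F E τ) (Module.finrank F E)) =
        Module.finrank F E

section Bound

variable (hLO3 : NormIndexStatement)
include hLO3

/-- `|H²(Gal(E/F), Eˣ)| = [E:F]` for a cyclic extension of local fields. -/
theorem card_H2_units_cyclic (F E : Type) [Field F] [Field E] [Algebra F E]
    [FiniteDimensional F E] [IsGalois F E] (hF : IsLocalField F) [hc : IsCyclic (E ≃ₐ[F] E)] :
    Nat.card (groupCohomology (Rep.ofAlgebraAutOnUnits F E) 2) = Module.finrank F E := by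
  obtain ⟨τ, hτ⟩ := hc.exists_generator
  rw [(card_H1_H2_units_eq_hIdx F E τ hτ).2]
  exact hLO3 F E hF τ hτ

/-- The cyclic layers of prime degree of a finite Galois extension of local fields. -/
theorem hcyc_of_normIndex (F E : Type) [Field F] [Field E] [Algebra F E]
    [FiniteDimensional F E] [IsGalois F E] (hF : IsLocalField F) (p : ℕ) (hp : p.Prime)
    (F₁ : IntermediateField F E) (L₁ : IntermediateField F₁ E) (hG : IsGalois F₁ L₁)
    (hdeg : Module.finrank F₁ L₁ = p) :
    Nat.card (groupCohomology (Rep.ofAlgebraAutOnUnits F₁ L₁) 2) ∣ p := by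
  have hF₁ : IsLocalField F₁ := hF.of_finite
  have hcard : Nat.card (L₁ ≃ₐ[F₁] L₁) = p := by
    rw [IsGalois.card_aut_eq_finrank, hdeg]
  haveI : Fact p.Prime := ⟨hp⟩
  haveI : IsCyclic (L₁ ≃ₐ[F₁] L₁) := isCyclic_of_prime_card hcard
  rw [card_H2_units_cyclic hLO3 F₁ L₁ hF₁, hdeg]

/-- **Order bound**: `|H²(Gal(E/F), Eˣ)|` is finite and divides `[E:F]` for every finite Galois
extension of local fields. -/
theorem card_H2_units_dvd (F E : Type) [Field F] [Field E] [Algebra F E]
    [FiniteDimensional F E] [IsGalois F E] (hF : IsLocalField F) :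
    Finite (groupCohomology (Rep.ofAlgebraAutOnUnits F E) 2) ∧
      Nat.card (groupCohomology (Rep.ofAlgebraAutOnUnits F E) 2) ∣ Module.finrank F E :=
  Fermat.Agent.S55.GC.GaloisLayer.units_devissage_top F E
    (fun p hp F₁ L₁ hG hdeg => hcyc_of_normIndex hLO3 F E hF p hp F₁ L₁ hG hdeg)

/-- The same for all subgroups: `H¹(S, Eˣ) = 0`, `|H²(S, Eˣ)| ∣ |S|`. -/
theorem card_H2_units_subgroup_dvd (F E : Type) [Field F] [Field E] [Algebra F E]
    [FiniteDimensional F E] [IsGalois F E] (hF : IsLocalField F) (S : Subgroup (E ≃ₐ[F] E)) :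
    Limits.IsZero (groupCohomology (res S.subtype (Rep.ofAlgebraAutOnUnits F E)) 1) ∧
      Finite (groupCohomology (res S.subtype (Rep.ofAlgebraAutOnUnits F E)) 2) ∧
      Nat.card (groupCohomology (res S.subtype (Rep.ofAlgebraAutOnUnits F E)) 2) ∣ Nat.card S :=
  Fermat.Agent.S55.GC.GaloisLayer.units_devissage F E
    (fun p hp F₁ L₁ hG hdeg => hcyc_of_normIndex hLO3 F E hF p hp F₁ L₁ hG hdeg) S

/-- **Hypothesis (H2) of the abstract class formation** for the unit module of a Galois extension
`Ω/F` of a local field: the layer at `U = Gal(Ω/E)`, `E/F` finite Galois, has `H²` finite of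
order dividing `[Gal(Ω/F) : U]`. -/
theorem card_H2_layer_dvd_of_normIndex (F Ω : Type) [Field F] [Field Ω] [Algebra F Ω]
    [IsGalois F Ω] (hF : IsLocalField F) (E : IntermediateField F Ω) [Normal F E]
    [FiniteDimensional F E] :
    Finite (groupCohomology
        ((Rep.ofAlgebraAutOnUnits F Ω).quotientToInvariants E.fixingSubgroup) 2) ∧
      Nat.card (groupCohomology
        ((Rep.ofAlgebraAutOnUnits F Ω).quotientToInvariants E.fixingSubgroup) 2) ∣
        E.fixingSubgroup.index := by
  have hsep : Algebra.IsSeparable F E := Algebra.isSeparable_tower_bot_of_isSeparable F E Ω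
  have : IsGalois F E := ⟨⟩
  exact Fermat.Agent.S55.GC.GaloisLayerInf.card_H2_layer_dvd F Ω E
    (fun p hp F₁ L₁ hG hdeg => hcyc_of_normIndex hLO3 F E hF p hp F₁ L₁ hG hdeg)

end Bound

end Fermat.Agent.S55.Local.LocalField
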