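/-
S55 / LOC5 (5-C): the statement of LO3 in the predicate form of `Local/LocalField.lean`, from
helper8's `Local/NormIndex.lean`; consequences without hypotheses: for every finite Galois extension
`E/F` of local fields, `H²(Gal(E/F), Eˣ)` is finite of order dividing `[E:F]` (equality for cyclic
extensions), and the hypothesis (H2) of the abstract class formation holds on the layers of
`Gal(Ω/F)`.
(helper16)
-/
import Mathlib
import Fermat.Agent.S55.Local.LocalField
import Fermat.Agent.S55.Local.NormIndex

set_option autoImplicit false
set_option linter.unusedSectionVars false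

open CategoryTheory groupCohomology Rep IntermediateField IsLocalRing
open Fermat.Agent.S14.Herbrand Fermat.Agent.S14.H90

namespace Fermat.Agent.S55.Local.LocalField

/-- helper8's `unitsEnd` and helper29's `fieldUnitsEnd` agree. -/
theorem unitsEnd_eq_fieldUnitsEnd (F E : Type) [Field F] [Field E] [Algebra F E]
    (τ : E ≃ₐ[F] E) :
    Fermat.Agent.S55.Local.unitsEnd ((τ : E ≃ₐ[F] E) : E ≃+* E) = fieldUnitsEnd F E τ := rfl

/-- **LO3** (helper8): the local norm index, in the form `NormIndexStatement`. -/
theorem normIndexStatement : NormIndexStatement := by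
  intro F E _ _ _ _ _ hF τ hτ
  obtain ⟨O, _, _, _, _, hfr, hcomp, hfin⟩ := hF
  letI : Algebra O E := ((algebraMap F E).comp (algebraMap O F)).toAlgebra
  haveI : IsScalarTower O F E := IsScalarTower.of_algebraMap_eq (fun x => rfl)
  have h := Fermat.Agent.S55.Local.hIdx_dlt_nrm_field_units O F E (integralClosure O E) hτ
  rw [unitsEnd_eq_fieldUnitsEnd] at h
  exact h

section Consequences

variable (F E : Type) [Field F] [Field E] [Algebra F E] [FiniteDimensional F E] [IsGalois F E]

/-- `|H²(Gal(E/F), Eˣ)| = [E:F]` for a cyclic extension of local fields. -/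
theorem card_H2_units_of_isCyclic (hF : IsLocalField F) [IsCyclic (E ≃ₐ[F] E)] :
    Nat.card (groupCohomology (Rep.ofAlgebraAutOnUnits F E) 2) = Module.finrank F E :=
  card_H2_units_cyclic normIndexStatement F E hF

/-- `H²(Gal(E/F), Eˣ)` is finite of order dividing `[E:F]`, for every finite Galois extension of
local fields. -/
theorem card_H2_units_dvd_finrank (hF : IsLocalField F) :
    Finite (groupCohomology (Rep.ofAlgebraAutOnUnits F E) 2) ∧
      Nat.card (groupCohomology (Rep.ofAlgebraAutOnUnits F E) 2) ∣ Module.finrank F E :=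
  card_H2_units_dvd normIndexStatement F E hF

/-- For every subgroup `S ≤ Gal(E/F)`: `H¹(S, Eˣ) = 0` and `|H²(S, Eˣ)| ∣ |S|`. -/
theorem card_H2_units_res_dvd (hF : IsLocalField F) (S : Subgroup (E ≃ₐ[F] E)) :
    Limits.IsZero (groupCohomology (res S.subtype (Rep.ofAlgebraAutOnUnits F E)) 1) ∧
      Finite (groupCohomology (res S.subtype (Rep.ofAlgebraAutOnUnits F E)) 2) ∧
      Nat.card (groupCohomology (res S.subtype (Rep.ofAlgebraAutOnUnits F E)) 2) ∣ Nat.card S :=
  card_H2_units_subgroup_dvd normIndexStatement F E hF S

end Consequences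

/-- **Hypothesis (H2) of the abstract class formation**, unconditionally: for a Galois extension
`Ω/F` of a local field and `E/F` finite Galois inside `Ω`, the layer at `U = Gal(Ω/E)` has `H²`
finite of order dividing `[Gal(Ω/F) : U]`. -/
theorem card_H2_layer_dvd_index (F Ω : Type) [Field F] [Field Ω] [Algebra F Ω] [IsGalois F Ω]
    (hF : IsLocalField F) (E : IntermediateField F Ω) [Normal F E] [FiniteDimensional F E] :
    Finite (groupCohomology
        ((Rep.ofAlgebraAutOnUnits F Ω).quotientToInvariants E.fixingSubgroup) 2) ∧
      Nat.card (groupCohomology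
        ((Rep.ofAlgebraAutOnUnits F Ω).quotientToInvariants E.fixingSubgroup) 2) ∣
        E.fixingSubgroup.index :=
  card_H2_layer_dvd_of_normIndex normIndexStatement F Ω hF E

end Fermat.Agent.S55.Local.LocalField
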