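/-
S55 / LOC5 (5-C): the field-level input `LocalCFInput K Ω` of the local class formation, for a
local field `K` (fraction field of a complete DVR `O` with finite residue field, perfect) and an
algebraically closed Galois extension `Ω/K`.
(helper16)
-/
import Fermat.Agent.S55.Local.InvariantLevel
import Fermat.Agent.S55.Local.NormIndexGlue
import Fermat.Agent.S55.Local.UnramLayerInst
import Fermat.Agent.S55.Local.ValExt

set_option autoImplicit false
set_option linter.unusedSectionVars false
set_option linter.style.haveILetI false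
set_option linter.overlappingInstances false

open CategoryTheory groupCohomology Rep IntermediateField IsLocalRing

namespace Fermat.Agent.S55.Local.Invariant

open Fermat.Agent.S55.Local Fermat.Agent.S55.Local.Unram Fermat.Agent.S55.Local.UnramClass
  Fermat.Agent.S55.Local.LocalField Fermat.Agent.S55.Local.InvariantLevel
  Fermat.Agent.S55.GC.GaloisLayerInf

variable (O : Type) [CommRing O] [IsDomain O] [IsDiscreteValuationRing O]
  [IsAdicComplete (maximalIdeal O) O] [Finite (ResidueField O)]
  {K : Type} [Field K] [Algebra O K] [IsFractionRing O K] [PerfectField K]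
  {Ω : Type} [Field Ω] [Algebra K Ω] [Algebra O Ω] [IsScalarTower O K Ω]

section Unramified

variable {O}

/-- The normalised valuation (`ord` sign) of an unramified subextension. -/
noncomputable def ordE {E : IntermediateField K Ω} (h : IsUnramifiedIn O E) :
    Eˣ →* Multiplicative ℤ :=
  haveI := h.1
  haveI := isDiscreteValuationRing_integralClosure O E
  ordZ (integralClosure O E) E

/-- An unramified subextension of degree `n` is an unramified layer. -/
theorem isUnramLayer_of_finrank {E : IntermediateField K Ω} (h : IsUnramifiedIn O E) {n : ℕ}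
    (hn : Module.finrank K E = n) :
    IsUnramLayer (G := E ≃ₐ[K] E) (M := Eˣ) h.frob n (ordE h) := by
  haveI := h.1
  haveI := isDiscreteValuationRing_integralClosure O E
  subst hn
  exact isUnramLayer_ordZ_of_isUnramifiedIn O h

theorem ramificationIdx_eq_one {E : IntermediateField K Ω} [FiniteDimensional K E]
    (h : IsUnramifiedIn O E) [IsDiscreteValuationRing (integralClosure O E)] :
    (maximalIdeal (integralClosure O E)).ramificationIdx O = 1 := by
  haveI : Algebra.IsSeparable K E := Algebra.IsAlgebraic.isSeparable_of_perfectField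
  have h1 := map_maximalIdeal_eq_pow_ramificationIdx O K E (integralClosure O E)
  have h2 := h.isUnram.map_eq
  rw [h2] at h1
  have hne : maximalIdeal (integralClosure O E) ≠ ⊥ :=
    IsDiscreteValuationRing.not_a_field _
  have hinj := (Ideal.pow_right_strictAnti (maximalIdeal (integralClosure O E)) hne
    (Ideal.IsPrime.ne_top inferInstance)).injective
  have : maximalIdeal (integralClosure O E) ^ 1 =
      maximalIdeal (integralClosure O E) ^ ((maximalIdeal (integralClosure O E)).ramificationIdx O) := by
    rw [pow_one]; exact h1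
  exact (hinj this).symm

/-- Valuations of unramified subextensions are compatible. -/
theorem ordE_inclusion {E E' : IntermediateField K Ω} (h : IsUnramifiedIn O E)
    (h' : IsUnramifiedIn O E') (hle : E ≤ E') (x : Eˣ) :
    ordE h' (Units.map (IntermediateField.inclusion hle : E →* E') x) = ordE h x := by
  haveI := h.1
  haveI := h'.1
  haveI := isDiscreteValuationRing_integralClosure O E
  haveI := isDiscreteValuationRing_integralClosure O E'
  haveI : Algebra.IsSeparable K E := Algebra.IsAlgebraic.isSeparable_of_perfectField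
  haveI : Algebra.IsSeparable K E' := Algebra.IsAlgebraic.isSeparable_of_perfectField
  have key := toAdd_valZ_algHom O K E (integralClosure O E) E' (integralClosure O E')
    (IntermediateField.inclusion hle) x
  rw [ramificationIdx_eq_one h, ramificationIdx_eq_one h'] at key
  simp only [Nat.cast_one, one_mul] at key
  unfold ordE
  apply Multiplicative.toAdd.injective
  rw [toAdd_ordZ, toAdd_ordZ]
  exact congrArg Neg.neg key

/-- Restriction of the Frobenius, in terms of `resGal`. -/
theorem resGal_frob {E E' : IntermediateField K Ω} (h : IsUnramifiedIn O E)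
    (h' : IsUnramifiedIn O E') (hle : E ≤ E') [Normal K E] :
    resGal K Ω hle h'.frob = h.frob := by
  ext y
  rw [coe_resGal]
  exact h.frob_restrict h' hle y

/-- **Inflation of the unramified invariant.** -/
theorem invUnr_inf {E E' : IntermediateField K Ω} (h : IsUnramifiedIn O E)
    (h' : IsUnramifiedIn O E') (hle : E ≤ E') [Normal K E] {n m : ℕ} [NeZero n] [NeZero m]
    (hn : Module.finrank K E = n) (hm : Module.finrank K E' = m)
    (y : groupCohomology (Rep.ofAlgebraAutOnUnits K E) 2) :
    ZMod.toAddCircle (invUnr (isUnramLayer_of_finrank h' hm)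
      ((groupCohomology.map (resGal K Ω hle) (GC.GaloisLayerInf.unitsIncl K Ω hle) 2).hom y)) =
    ZMod.toAddCircle (invUnr (isUnramLayer_of_finrank h hn) y) := by
  have key := invUnr_map (isUnramLayer_of_finrank h' hm) (isUnramLayer_of_finrank h hn)
    (resGal K Ω hle) (GC.GaloisLayerInf.unitsIncl K Ω hle) 1 1 ?_ ?_ y
  · rw [mul_one, one_nsmul] at key
    exact key
  · intro x
    rw [Nat.cast_one, one_mul, vZ_apply, vZ_apply]
    exact congrArg Multiplicative.toAdd (ordE_inclusion h h' hle _)
  · rw [pow_one]
    exact resGal_frob h h' hle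

end Unramified

section Tower

variable [IsAlgClosed Ω]

/-- The unramified extension of degree `n` (and `⊥` for `n = 0`). -/
noncomputable def Fn (n : ℕ) : IntermediateField K Ω := unramExt O Ω n

theorem isUnramifiedIn_Fn {n : ℕ} (hn : n ≠ 0) :
    IsUnramifiedIn O (Fn O n : IntermediateField K Ω) :=
  isUnramifiedIn_unramExt O Ω (Nat.pos_of_ne_zero hn)

theorem finrank_Fn {n : ℕ} (hn : n ≠ 0) :
    Module.finrank K (Fn O n : IntermediateField K Ω) = n :=
  finrank_unramExt O Ω (Nat.pos_of_ne_zero hn)

theorem Fn_zero : (Fn O 0 : IntermediateField K Ω) = ⊥ := by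
  unfold Fn unramExt
  simp

instance normal_Fn (n : ℕ) : Normal K (Fn O n : IntermediateField K Ω) := by
  rcases eq_or_ne n 0 with rfl | hn
  · rw [Fn_zero]
    infer_instance
  · have := (isUnramifiedIn_Fn O (K := K) (Ω := Ω) hn).isGalois
    infer_instance

theorem finiteDimensional_Fn {n : ℕ} (hn : n ≠ 0) :
    FiniteDimensional K (Fn O n : IntermediateField K Ω) :=
  (isUnramifiedIn_Fn O hn).1

theorem Fn_le {n m : ℕ} (hn : n ≠ 0) (hm : m ≠ 0) (hnm : n ∣ m) :
    (Fn O n : IntermediateField K Ω) ≤ Fn O m :=
  (unramExt_le_iff O Ω (Nat.pos_of_ne_zero hn) (Nat.pos_of_ne_zero hm)).2 hnm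

/-- The invariant of the unramified extension of degree `n`. -/
noncomputable def invF (n : ℕ) [NeZero n] :
    groupCohomology (Rep.ofAlgebraAutOnUnits K (Fn O n : IntermediateField K Ω)) 2 →+ ZMod n :=
  invUnr (isUnramLayer_of_finrank (isUnramifiedIn_Fn O (NeZero.ne n)) (finrank_Fn O (NeZero.ne n)))

theorem invF_bijective (n : ℕ) [NeZero n] :
    Function.Bijective (invF O (K := K) (Ω := Ω) n) :=
  ⟨invUnr_injective _, invUnr_surjective _⟩

theorem invF_inf (n m : ℕ) [NeZero n] [NeZero m] (hnm : n ∣ m)
    (y : groupCohomology (Rep.ofAlgebraAutOnUnits K (Fn O n : IntermediateField K Ω)) 2) :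
    ZMod.toAddCircle (invF O m ((groupCohomology.map
      (resGal K Ω (Fn_le O (NeZero.ne n) (NeZero.ne m) hnm))
      (GC.GaloisLayerInf.unitsIncl K Ω (Fn_le O (NeZero.ne n) (NeZero.ne m) hnm)) 2).hom y)) =
      ZMod.toAddCircle (invF O n y) :=
  invUnr_inf (isUnramifiedIn_Fn O (NeZero.ne n)) (isUnramifiedIn_Fn O (NeZero.ne m))
    (Fn_le O (NeZero.ne n) (NeZero.ne m) hnm) (finrank_Fn O (NeZero.ne n))
    (finrank_Fn O (NeZero.ne m)) y


include O in
/-- The order bound (H2) of the local class formation (LO3 + dévissage). -/
theorem h2_local [IsGalois K Ω] (E : IntermediateField K Ω) [Normal K E]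
    [FiniteDimensional K E] :
    Finite (groupCohomology (Rep.ofAlgebraAutOnUnits K E) 2) ∧
      Nat.card (groupCohomology (Rep.ofAlgebraAutOnUnits K E) 2) ∣ Module.finrank K E := by
  haveI := isGalois_of_normal E
  exact card_H2_units_dvd_finrank K E (isLocalField_of_dvr O K)

/-- The killing hypothesis of `LocalCFInput`, as a statement. -/
def KillStatement [IsGalois K Ω] : Prop :=
  ∀ (E : IntermediateField K Ω) [Normal K E] [FiniteDimensional K E] (n : ℕ),
    Module.finrank K E = n →
    ∃ (M : IntermediateField K Ω) (_ : Normal K M) (_ : FiniteDimensional K M) (hEM : E ≤ M)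
      (hFM : Fn O n ≤ M),
      ∀ y : groupCohomology (Rep.ofAlgebraAutOnUnits K (Fn O n : IntermediateField K Ω)) 2,
        (GC.InfRes2.res2 (Rep.ofAlgebraAutOnUnits K M) (resGal K Ω hEM).ker).hom
          ((groupCohomology.map (resGal K Ω hFM) (GC.GaloisLayerInf.unitsIncl K Ω hFM) 2).hom y) = 0

/-- **The field-level input of the local class formation**, given the killing statement. -/
noncomputable def localCFInputOfKill [IsGalois K Ω] (hkill : KillStatement O (K := K) (Ω := Ω)) :
    LocalCFInput K Ω where
  h2 E _ _ := h2_local O E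
  Fn := Fn O
  Fn_normal := normal_Fn O
  Fn_finite _ hn := finiteDimensional_Fn O hn
  Fn_finrank _ hn := finrank_Fn O hn
  Fn_le _ _ hn hm hnm := Fn_le O hn hm hnm
  invF n _ := invF O n
  invF_bijective n _ := invF_bijective O n
  invF_inf n m _ _ hnm y := invF_inf O n m hnm y
  kill E _ _ n hn := hkill E n hn


theorem localCFInputOfKill_Fn [IsGalois K Ω] (hkill : KillStatement O (K := K) (Ω := Ω)) (n : ℕ) :
    (localCFInputOfKill O hkill).Fn n = unramExt O Ω n := rfl

theorem localCFInputOfKill_invF [IsGalois K Ω] (hkill : KillStatement O (K := K) (Ω := Ω))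
    (n : ℕ) [NeZero n] : (localCFInputOfKill O hkill).invF n = invF O n := rfl

end Tower


end Fermat.Agent.S55.Local.Invariant
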