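/-
S55 / LOC5 (5-C): base change of the unramified invariant, in an ABSTRACT two-base setting.

Two local bases `(O, K)` and `(O', K')` inside the same `Ω` (`K → K' → Ω`), `L/K` unramified,
`M'/K'` unramified with `L ⊆ M'`.  For a group homomorphism `f : Gal(M'/K') → Gal(L/K)` which is
the restriction, and `ι : Lˣ → M'ˣ` the inclusion:
`inv_{M'/K'} (map f ι z) = (e * r) • inv_{L/K} z`, where `v_{K'} = e · v_K` on `Kˣ` and
`#k' = #k ^ r` (and `Frob_{M'/K'}` restricts to `Frob_{L/K} ^ r`).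
The instantiation `K' = E₀` (a finite subextension of `Ω/K`), `O' = integralClosure O E₀` gives
`LocalCFInput.kill` and `LocalBCInput`.
(helper16)
-/
import Fermat.Agent.S55.Local.Invariant

set_option autoImplicit false
set_option linter.unusedSectionVars false
set_option linter.style.haveILetI false
set_option linter.overlappingInstances false

open CategoryTheory groupCohomology Rep IntermediateField IsLocalRing

namespace Fermat.Agent.S55.Local.InvariantBase

open Fermat.Agent.S55.Local Fermat.Agent.S55.Local.Unram Fermat.Agent.S55.Local.UnramClass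
  Fermat.Agent.S55.Local.Invariant

variable {O : Type} [CommRing O] [IsDomain O] [IsDiscreteValuationRing O]
  [IsAdicComplete (maximalIdeal O) O] [Finite (ResidueField O)]
  {K : Type} [Field K] [Algebra O K] [IsFractionRing O K] [PerfectField K]
  {Ω : Type} [Field Ω] [Algebra K Ω] [Algebra O Ω] [IsScalarTower O K Ω]
  {O' : Type} [CommRing O'] [IsDomain O'] [IsDiscreteValuationRing O']
  [IsAdicComplete (maximalIdeal O') O'] [Finite (ResidueField O')]
  {K' : Type} [Field K'] [Algebra O' K'] [IsFractionRing O' K'] [PerfectField K']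
  [Algebra K' Ω] [Algebra O' Ω] [IsScalarTower O' K' Ω]
  [Algebra K K'] [IsScalarTower K K' Ω]

/-- An element of `M'` whose image in `Ω` is integral over `O'` with integral inverse is a unit of
the integers of `M'`. -/
theorem valZ_eq_one_of_isIntegral {M' : IntermediateField K' Ω} [FiniteDimensional K' M']
    [IsDiscreteValuationRing (integralClosure O' M')]
    (y : M'ˣ) (hy : IsIntegral O' ((y : M') : Ω)) (hy' : IsIntegral O' (((y⁻¹ : M'ˣ) : M') : Ω)) :
    valZ (integralClosure O' M') M' y = 1 := by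
  have h1 : IsIntegral O' (y : M') := (isIntegral_coe_iff (O := O') (y : M')).1 hy
  have h2 : IsIntegral O' ((y⁻¹ : M'ˣ) : M') :=
    (isIntegral_coe_iff (O := O') ((y⁻¹ : M'ˣ) : M')).1 hy'
  rw [valZ_eq_one_iff]
  refine ⟨⟨⟨(y : M'), h1⟩, ⟨((y⁻¹ : M'ˣ) : M'), h2⟩, ?_, ?_⟩, Units.ext rfl⟩
  · apply Subtype.ext
    show (y : M') * ((y⁻¹ : M'ˣ) : M') = 1
    rw [← Units.val_mul, mul_inv_cancel, Units.val_one]
  · apply Subtype.ext
    show ((y⁻¹ : M'ˣ) : M') * (y : M') = 1
    rw [← Units.val_mul, inv_mul_cancel, Units.val_one]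

/-- **Valuations under base change**: for `L/K` unramified and `M'/K'` unramified containing `L`,
`ord_{M'} = e · ord_L` on `Lˣ`, when `v_{K'} = e · v_K` on `Kˣ`. -/
theorem toAdd_ordE_bc {L : IntermediateField K Ω} (h : IsUnramifiedIn O L)
    {M' : IntermediateField K' Ω} (h' : IsUnramifiedIn O' M') (e : ℕ)
    (he : ∀ z : Kˣ, valZ O' K' (Units.map (algebraMap K K' : K →* K') z) = valZ O K z ^ e)
    (hint : ∀ c : Ω, IsIntegral O c → IsIntegral O' c)
    (x : Lˣ) (y : M'ˣ) (hxy : ((y : M') : Ω) = ((x : L) : Ω)) :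
    Multiplicative.toAdd (ordE h' y) = (e : ℤ) * Multiplicative.toAdd (ordE h x) := by
  haveI := h.1
  haveI := h'.1
  haveI := isDiscreteValuationRing_integralClosure O L
  haveI := isDiscreteValuationRing_integralClosure O' M'
  haveI : Algebra.IsSeparable K L := Algebra.IsAlgebraic.isSeparable_of_perfectField
  haveI := h.isGalois
  obtain ⟨ϖ, hϖ⟩ := IsDiscreteValuationRing.exists_irreducible O
  have hϖL : Irreducible (algebraMap O (integralClosure O L) ϖ) :=
    irreducible_algebraMap_of_unramified O K L (integralClosure O L) h.isUnram.map_eq hϖ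
  obtain ⟨k, u, hx⟩ := exists_eq_unit_mul_zpow (F := L) hϖL x
  have hvx : valZ (integralClosure O L) L x = Multiplicative.ofAdd (-k) := by
    apply WithZero.coe_injective
    rw [coe_valZ, hx, dvrValuation_unit_mul_zpow hϖL]
    rfl
  -- the uniformiser of `K` in `K'` and `M'`
  have hϖK : algebraMap O K ϖ ≠ 0 := by simpa using hϖ.ne_zero
  set πK : Kˣ := Units.mk0 _ hϖK with hπK
  have hvπK : valZ O K πK = Multiplicative.ofAdd (-1) := by
    apply WithZero.coe_injective
    rw [coe_valZ, hπK, Units.val_mk0, dvrValuation_uniformizer hϖ]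
    rfl
  set πE : K'ˣ := Units.map (algebraMap K K' : K →* K') πK with hπE
  have hvπE : valZ O' K' πE = Multiplicative.ofAdd (-1) ^ e := by
    rw [hπE, he, hvπK]
  set πM : M'ˣ := Units.map (algebraMap K' M' : K' →* M') πE with hπM
  have hvπM : valZ (integralClosure O' M') M' πM = Multiplicative.ofAdd (-1) ^ e := by
    have h1 := valZ_algebraMap_of_map_eq_pow (O := O') (F := K') (E := M')
      (B := integralClosure O' M') (e := 1)
      (by rw [pow_one]; exact h'.isUnram.map_eq) πE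
    rw [hπM, h1, pow_one, hvπE]
  have hπMΩ : ((πM : M') : Ω) = algebraMap O Ω ϖ := by
    rw [IsScalarTower.algebraMap_apply O K Ω, IsScalarTower.algebraMap_apply K K' Ω]
    rfl
  -- the unit part
  have hxΩ : ((x : L) : Ω) = (((u : integralClosure O L) : L) : Ω) * algebraMap O Ω ϖ ^ k := by
    rw [hx]
    rfl
  have hϖΩ : algebraMap O Ω ϖ ≠ 0 := by
    rw [← hπMΩ]
    exact fun h0 => πM.ne_zero (Subtype.ext h0)
  set yu : M'ˣ := y * πM ^ (-k) with hyu
  have hyuΩ : ((yu : M') : Ω) = (((u : integralClosure O L) : L) : Ω) := by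
    have h1 : ((yu : M') : Ω) = ((y : M') : Ω) * ((πM : M') : Ω) ^ (-k) := by
      rw [hyu, Units.val_mul, Units.val_zpow_eq_zpow_val]
      exact (map_mul M'.val _ _).trans (by rw [map_zpow₀]; rfl)
    rw [h1, hxy, hxΩ, hπMΩ, mul_assoc, ← zpow_add₀ hϖΩ, add_neg_cancel, zpow_zero, mul_one]
  have hyuΩ' : (((yu⁻¹ : M'ˣ) : M') : Ω) = ((((u⁻¹ : (integralClosure O L)ˣ) :
      integralClosure O L) : L) : Ω) := by
    have h1 : (((yu⁻¹ : M'ˣ) : M') : Ω) * ((yu : M') : Ω) = 1 := by
      have h3 : (((((yu⁻¹ : M'ˣ) : M') * (yu : M') : M')) : Ω) = 1 := by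
        rw [Units.inv_mul]
        rfl
      exact h3
    have h2 : ((((u⁻¹ : (integralClosure O L)ˣ) : integralClosure O L) : L) : Ω) *
        (((u : integralClosure O L) : L) : Ω) = 1 := by
      have h3 : ((((((u⁻¹ : (integralClosure O L)ˣ) : integralClosure O L) *
          (u : integralClosure O L) : integralClosure O L)) : L) : Ω) = 1 := by
        rw [Units.inv_mul]
        rfl
      exact h3
    have hne : ((yu : M') : Ω) ≠ 0 := fun h0 => yu.ne_zero (Subtype.ext h0)
    apply mul_right_cancel₀ hne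
    rw [h1, hyuΩ, h2]
  have hvyu : valZ (integralClosure O' M') M' yu = 1 := by
    apply valZ_eq_one_of_isIntegral
    · rw [hyuΩ]
      exact hint _ ((isIntegral_coe_iff (O := O) ((u : integralClosure O L) : L)).2
        (u : integralClosure O L).2)
    · rw [hyuΩ']
      exact hint _ ((isIntegral_coe_iff (O := O)
        (((u⁻¹ : (integralClosure O L)ˣ) : integralClosure O L) : L)).2
        ((u⁻¹ : (integralClosure O L)ˣ) : integralClosure O L).2)
  have hy : y = yu * πM ^ k := by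
    rw [hyu, mul_assoc, ← zpow_add, neg_add_cancel, zpow_zero, mul_one]
  have hvy : valZ (integralClosure O' M') M' y = (Multiplicative.ofAdd (-1) ^ e) ^ k := by
    rw [hy, map_mul, map_zpow, hvyu, hvπM, one_mul]
  unfold ordE
  rw [toAdd_ordZ, toAdd_ordZ, hvy, hvx]
  simp only [toAdd_zpow, toAdd_pow, toAdd_ofAdd, nsmul_eq_mul, smul_eq_mul]
  ring

/-- **Base change of the unramified invariant** (abstract form): `inv' ∘ map f ι = (e * r) • inv`
for `f : Gal(M'/K') → Gal(L/K)` the restriction and `ι : Lˣ → M'ˣ` the inclusion. -/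
theorem invUnr_bc {L : IntermediateField K Ω} (h : IsUnramifiedIn O L)
    {M' : IntermediateField K' Ω} (h' : IsUnramifiedIn O' M')
    (hLM' : ∀ x : Ω, x ∈ L → x ∈ M')
    {n m : ℕ} [NeZero n] [NeZero m] (hn : Module.finrank K L = n) (hm : Module.finrank K' M' = m)
    (f : (M' ≃ₐ[K'] M') →* (L ≃ₐ[K] L))
    (hf : ∀ (τ : M' ≃ₐ[K'] M') (y : L),
      ((f τ y : L) : Ω) = ((τ ⟨(y : Ω), hLM' _ y.2⟩ : M') : Ω))
    (ι : Rep.res f (Rep.ofAlgebraAutOnUnits K L) ⟶ Rep.ofAlgebraAutOnUnits K' M')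
    (hι : ∀ x : (Rep.ofAlgebraAutOnUnits K L).V,
      (((Additive.toMul (ι.hom x : Additive M'ˣ) : M'ˣ) : M') : Ω) =
        (((Additive.toMul (x : Additive Lˣ) : Lˣ) : L) : Ω))
    (e r : ℕ)
    (he : ∀ z : Kˣ, valZ O' K' (Units.map (algebraMap K K' : K →* K') z) = valZ O K z ^ e)
    (hint : ∀ c : Ω, IsIntegral O c → IsIntegral O' c)
    (hfrob : ∀ x : L, ((h'.frob ⟨(x : Ω), hLM' _ x.2⟩ : M') : Ω) = (((h.frob ^ r) x : L) : Ω))
    (z : groupCohomology (Rep.ofAlgebraAutOnUnits K L) 2) :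
    ZMod.toAddCircle (invUnr (isUnramLayer_of_finrank h' hm)
        ((groupCohomology.map f ι 2).hom z)) =
      (e * r) • ZMod.toAddCircle (invUnr (isUnramLayer_of_finrank h hn) z) := by
  refine invUnr_map (isUnramLayer_of_finrank h' hm) (isUnramLayer_of_finrank h hn) f ι e r ?_ ?_ z
  · intro x
    rw [vZ_apply, vZ_apply]
    exact toAdd_ordE_bc h h' e he hint _ _ (hι x)
  · ext y
    rw [hf]
    exact hfrob y

/-- If moreover `n ∣ e * r`, the base-changed classes vanish. -/
theorem map_eq_zero_bc {L : IntermediateField K Ω} (h : IsUnramifiedIn O L)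
    {M' : IntermediateField K' Ω} (h' : IsUnramifiedIn O' M')
    (hLM' : ∀ x : Ω, x ∈ L → x ∈ M')
    (f : (M' ≃ₐ[K'] M') →* (L ≃ₐ[K] L))
    (hf : ∀ (τ : M' ≃ₐ[K'] M') (y : L),
      ((f τ y : L) : Ω) = ((τ ⟨(y : Ω), hLM' _ y.2⟩ : M') : Ω))
    (ι : Rep.res f (Rep.ofAlgebraAutOnUnits K L) ⟶ Rep.ofAlgebraAutOnUnits K' M')
    (hι : ∀ x : (Rep.ofAlgebraAutOnUnits K L).V,
      (((Additive.toMul (ι.hom x : Additive M'ˣ) : M'ˣ) : M') : Ω) =
        (((Additive.toMul (x : Additive Lˣ) : Lˣ) : L) : Ω))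
    (e r : ℕ)
    (he : ∀ z : Kˣ, valZ O' K' (Units.map (algebraMap K K' : K →* K') z) = valZ O K z ^ e)
    (hint : ∀ c : Ω, IsIntegral O c → IsIntegral O' c)
    (hfrob : ∀ x : L, ((h'.frob ⟨(x : Ω), hLM' _ x.2⟩ : M') : Ω) = (((h.frob ^ r) x : L) : Ω))
    (hdvd : Module.finrank K L ∣ e * r)
    (z : groupCohomology (Rep.ofAlgebraAutOnUnits K L) 2) :
    (groupCohomology.map f ι 2).hom z = 0 := by
  haveI := h.1
  haveI := h'.1
  haveI : NeZero (Module.finrank K L) := ⟨Module.finrank_pos.ne'⟩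
  haveI : NeZero (Module.finrank K' M') := ⟨Module.finrank_pos.ne'⟩
  refine map_eq_zero_of_dvd (isUnramLayer_of_finrank h' rfl) (isUnramLayer_of_finrank h rfl)
    f ι e r ?_ ?_ hdvd z
  · intro x
    rw [vZ_apply, vZ_apply]
    exact toAdd_ordE_bc h h' e he hint _ _ (hι x)
  · ext y
    rw [hf]
    exact hfrob y

end Fermat.Agent.S55.Local.InvariantBase
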