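/-
S55 / LOC5 (5-C): instantiation of the abstract base change (`InvariantBase`) at a finite
subextension `E₀` of `Ω/K`, `O' = integralClosure O E₀`: the killing hypothesis, hence the
field-level input `LocalCFInput K Ω` of the local class formation, and the base change input
`LocalBCInput` (`inv_{E₀} ∘ res = [E₀:K] • inv_K`), from the base change of unramified extensions
(`BaseChangeStatement`, helper1's `UnramBC`).
(helper16)
-/
import Fermat.Agent.S55.Local.InvariantBase
import Fermat.Agent.S55.GC.GaloisKerBC
import Fermat.Agent.S55.Local.InvariantBC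

set_option autoImplicit false
set_option linter.unusedSectionVars false
set_option linter.style.haveILetI false
set_option linter.overlappingInstances false

open CategoryTheory groupCohomology Rep IntermediateField IsLocalRing

namespace Fermat.Agent.S55.Local.InvariantInst

open Fermat.Agent.S55.Local Fermat.Agent.S55.Local.Unram Fermat.Agent.S55.Local.UnramClass
  Fermat.Agent.S55.Local.LocalField Fermat.Agent.S55.Local.InvariantLevel
  Fermat.Agent.S55.GC.GaloisLayerInf Fermat.Agent.S55.Local.Invariant
  Fermat.Agent.S55.Local.InvariantBase Fermat.Agent.S55.GC.GaloisKerBC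
  Fermat.Agent.S55.GaloisLayerBC

variable (O : Type) [CommRing O] [IsDomain O] [IsDiscreteValuationRing O]
  [IsAdicComplete (maximalIdeal O) O] [Finite (ResidueField O)]
  {K : Type} [Field K] [Algebra O K] [IsFractionRing O K] [PerfectField K]
  {Ω : Type} [Field Ω] [Algebra K Ω] [Algebra O Ω] [IsScalarTower O K Ω]

section Inst

variable (E₀ : IntermediateField K Ω) [FiniteDimensional K E₀]

theorem isDVR_int : IsDiscreteValuationRing (integralClosure O E₀) :=
  isDiscreteValuationRing_integralClosure O E₀

theorem perfectField_int : PerfectField E₀ :=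
  Algebra.IsAlgebraic.perfectField (K := K)

theorem isAdicComplete_int [IsLocalRing (integralClosure O E₀)] :
    IsAdicComplete (maximalIdeal (integralClosure O E₀)) (integralClosure O E₀) := by
  haveI : Algebra.IsSeparable K E₀ := Algebra.IsAlgebraic.isSeparable_of_perfectField
  exact isAdicComplete_maximalIdeal_of_isIntegralClosure O K E₀ (integralClosure O E₀)

theorem finite_residueField_int [IsLocalRing (integralClosure O E₀)] :
    Finite (ResidueField (integralClosure O E₀)) := by
  haveI : Algebra.IsSeparable K E₀ := Algebra.IsAlgebraic.isSeparable_of_perfectField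
  exact finite_residueField_of_isIntegralClosure O K E₀ (integralClosure O E₀)

end Inst


section Degrees

variable (E₀ : IntermediateField K Ω) [FiniteDimensional K E₀]

attribute [local instance] isDVR_int perfectField_int isAdicComplete_int finite_residueField_int

/-- The ramification index of `E₀/K`. -/
noncomputable def eDeg : ℕ := (maximalIdeal (integralClosure O E₀)).ramificationIdx O

/-- The residue degree of `E₀/K`. -/
noncomputable def fDeg : ℕ := (maximalIdeal (integralClosure O E₀)).inertiaDeg O

theorem eDeg_mul_fDeg : eDeg O E₀ * fDeg O E₀ = Module.finrank K E₀ := by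
  haveI : Algebra.IsSeparable K E₀ := Algebra.IsAlgebraic.isSeparable_of_perfectField
  exact GL.LocalDegrees.ramificationIdx_mul_inertiaDeg_eq_finrank O K E₀ (integralClosure O E₀)

theorem card_residueField_int :
    Nat.card (ResidueField (integralClosure O E₀)) = Nat.card (ResidueField O) ^ fDeg O E₀ := by
  haveI : Algebra.IsSeparable K E₀ := Algebra.IsAlgebraic.isSeparable_of_perfectField
  haveI := finite_of_isIntegralClosure O K E₀ (integralClosure O E₀)
  haveI := GL.LocalDegrees.liesOver_maximalIdeal O K E₀ (integralClosure O E₀)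
  have := Ideal.cardQuot_pow_inertiaDeg (maximalIdeal O) (maximalIdeal (integralClosure O E₀))
  rw [Submodule.cardQuot_apply, Submodule.cardQuot_apply] at this
  exact this.symm

theorem valZ_algebraMap_int (z : Kˣ) :
    valZ (integralClosure O E₀) E₀ (Units.map (algebraMap K E₀ : K →* E₀) z) =
      valZ O K z ^ eDeg O E₀ := by
  haveI : Algebra.IsSeparable K E₀ := Algebra.IsAlgebraic.isSeparable_of_perfectField
  exact valZ_algebraMap O K E₀ (integralClosure O E₀) z

theorem isIntegral_int (c : Ω) (hc : IsIntegral O c) : IsIntegral (integralClosure O E₀) c :=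
  hc.tower_top

end Degrees

section Kill

variable [IsGalois K Ω]

attribute [local instance] isDVR_int perfectField_int isAdicComplete_int finite_residueField_int

/-- The killing statement for one pair `(E₀, L)`, given the base change of unramified extensions
(`E₀ L / E₀` unramified with Frobenius restricting to `Frob_L ^ f(E₀/K)`). -/
theorem kill_of_baseChange (E₀ : IntermediateField K Ω) [Normal K E₀] [FiniteDimensional K E₀]
    {L : IntermediateField K Ω} (h : IsUnramifiedIn O L) [Normal K L]
    (h' : IsUnramifiedIn (integralClosure O E₀) (extendScalars (le_sup_left : E₀ ≤ E₀ ⊔ L)))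
    (hfrob : ∀ x : L, ((h'.frob ⟨(x : Ω), (show (x : Ω) ∈ extendScalars
        (le_sup_left : E₀ ≤ E₀ ⊔ L) from (le_sup_right : L ≤ E₀ ⊔ L) x.2)⟩ :
          extendScalars (le_sup_left : E₀ ≤ E₀ ⊔ L)) : Ω) =
      (((h.frob ^ fDeg O E₀) x : L) : Ω))
    (hdeg : Module.finrank K L ∣ Module.finrank K E₀)
    (y : groupCohomology (Rep.ofAlgebraAutOnUnits K L) 2) :
    (GC.InfRes2.res2 (Rep.ofAlgebraAutOnUnits K (E₀ ⊔ L : IntermediateField K Ω))
        (resGal K Ω (le_sup_left : E₀ ≤ E₀ ⊔ L)).ker).hom
      ((groupCohomology.map (resGal K Ω (le_sup_right : L ≤ E₀ ⊔ L))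
        (GC.GaloisLayerInf.unitsIncl K Ω (le_sup_right : L ≤ E₀ ⊔ L)) 2).hom y) = 0 := by
  haveI := h'.isGalois
  haveI : Normal E₀ (extendScalars (le_sup_left : E₀ ≤ E₀ ⊔ L)) := inferInstance
  have hLM' := mem_extendScalars_of_le (le_sup_left : E₀ ≤ E₀ ⊔ L) (le_sup_right : L ≤ E₀ ⊔ L)
  apply kill_of_galBC_eq_zero (le_sup_left : E₀ ≤ E₀ ⊔ L) (le_sup_right : L ≤ E₀ ⊔ L) y
  exact map_eq_zero_bc (O := O) (O' := integralClosure O E₀) (K' := E₀) h h' hLM'
    (galBC hLM') (coe_galBC hLM') (unitsInclBC hLM') (unitsInclBC_coe hLM')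
    (eDeg O E₀) (fDeg O E₀) (valZ_algebraMap_int O E₀) (isIntegral_int O E₀) hfrob
    (by rw [eDeg_mul_fDeg]; exact hdeg) y

/-- **Base change of unramified extensions**, as a statement (helper1's `UnramBC`): for `E₀/K`
finite and `L/K` unramified, `E₀ L / E₀` is unramified, and the Frobenius of any unramified
`M'/E₀` containing `L` restricts to `Frob_{L/K} ^ f(E₀/K)`. -/
def BaseChangeStatement : Prop :=
  ∀ (E₀ : IntermediateField K Ω) [FiniteDimensional K E₀] (L : IntermediateField K Ω)
    (h : IsUnramifiedIn O L),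
    IsUnramifiedIn (integralClosure O E₀) (extendScalars (le_sup_left : E₀ ≤ E₀ ⊔ L)) ∧
    ∀ (M' : IntermediateField E₀ Ω) (h' : IsUnramifiedIn (integralClosure O E₀) M')
      (hLM' : ∀ x : Ω, x ∈ L → x ∈ M') (x : L),
      ((h'.frob ⟨(x : Ω), hLM' _ x.2⟩ : M') : Ω) = (((h.frob ^ fDeg O E₀) x : L) : Ω)

/-- The killing hypothesis of the local class formation, from base change. -/
theorem killStatement_of_baseChange [IsAlgClosed Ω]
    (hBC : BaseChangeStatement O (K := K) (Ω := Ω)) : KillStatement O (K := K) (Ω := Ω) := by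
  intro E _ _ n hn
  have hn0 : n ≠ 0 := by
    rw [← hn]
    exact Module.finrank_pos.ne'
  have h := isUnramifiedIn_Fn O (K := K) (Ω := Ω) hn0
  obtain ⟨h', hfrob⟩ := hBC E (Fn O n) h
  haveI := finiteDimensional_Fn O (K := K) (Ω := Ω) hn0
  refine ⟨E ⊔ Fn O n, inferInstance, inferInstance, le_sup_left, le_sup_right, fun y => ?_⟩
  exact kill_of_baseChange O E h h'
    (fun x => hfrob _ h' (fun c hc => (le_sup_right : Fn O n ≤ E ⊔ Fn O n) hc) x)
    (by rw [finrank_Fn O hn0, hn]) y

/-- **The field-level input of the local class formation**, from base change. -/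
noncomputable def localCFInputOfBaseChange [IsAlgClosed Ω]
    (hBC : BaseChangeStatement O (K := K) (Ω := Ω)) : LocalCFInput K Ω :=
  localCFInputOfKill O (killStatement_of_baseChange O hBC)

theorem localCFInputOfBaseChange_Fn [IsAlgClosed Ω]
    (hBC : BaseChangeStatement O (K := K) (Ω := Ω)) (n : ℕ) :
    (localCFInputOfBaseChange O hBC).Fn n = unramExt O Ω n := rfl

theorem localCFInputOfBaseChange_invF [IsAlgClosed Ω]
    (hBC : BaseChangeStatement O (K := K) (Ω := Ω)) (n : ℕ) [NeZero n] :
    (localCFInputOfBaseChange O hBC).invF n = invF O n := rfl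

end Kill

section BC

variable [IsGalois K Ω] [IsAlgClosed Ω]

attribute [local instance] isDVR_int perfectField_int isAdicComplete_int finite_residueField_int

/-- **Base change input for the local invariant**: `inv_{E₀} ∘ res = [E₀ : K] • inv_K`, in field
language (the hypothesis `LocalBCInput` of `InvariantBC.inv_res`), from base change of unramified
extensions over `K` and over `E₀`. -/
theorem localBCInputOfBaseChange (hBC : BaseChangeStatement O (K := K) (Ω := Ω))
    (E₀ : IntermediateField K Ω) [FiniteDimensional K E₀]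
    (hBC' : BaseChangeStatement (integralClosure O E₀) (K := E₀) (Ω := Ω)) :
    InvariantBC.LocalBCInput E₀ (localCFInputOfBaseChange O hBC)
      (localCFInputOfBaseChange (integralClosure O E₀) hBC') (Module.finrank K E₀) := by
  constructor
  intro n _
  have hn0 := NeZero.ne n
  have h := isUnramifiedIn_Fn O (K := K) (Ω := Ω) hn0
  obtain ⟨h'₀, hfrob⟩ := hBC E₀ (Fn O n) h
  haveI := h'₀.1
  have hm0 : Module.finrank E₀ (extendScalars (le_sup_left : E₀ ≤ E₀ ⊔ Fn O n)) ≠ 0 :=
    Module.finrank_pos.ne'
  have heq : extendScalars (le_sup_left : E₀ ≤ E₀ ⊔ Fn O n) =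
      unramExt (integralClosure O E₀) Ω
        (Module.finrank E₀ (extendScalars (le_sup_left : E₀ ≤ E₀ ⊔ Fn O n))) :=
    h'₀.eq_unramExt
  have hLM' : ∀ x : Ω, x ∈ (Fn O n : IntermediateField K Ω) →
      x ∈ Fn (integralClosure O E₀) (K := E₀) (Ω := Ω)
      (Module.finrank E₀ (extendScalars (le_sup_left : E₀ ≤ E₀ ⊔ Fn O n))) := by
    intro x hx
    show x ∈ unramExt (integralClosure O E₀) Ω _
    rw [← heq]
    exact (le_sup_right : Fn O n ≤ E₀ ⊔ Fn O n) hx
  haveI : NeZero (Module.finrank E₀ (extendScalars (le_sup_left : E₀ ≤ E₀ ⊔ Fn O n))) := ⟨hm0⟩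
  refine ⟨_, ⟨hm0⟩, hLM', fun z => ?_⟩
  have key := invUnr_bc (O := O) (O' := integralClosure O E₀) (K' := E₀) h
    (isUnramifiedIn_Fn (integralClosure O E₀) (K := E₀) (Ω := Ω) hm0) hLM' (finrank_Fn O hn0)
    (finrank_Fn (integralClosure O E₀) hm0) (galBC hLM') (coe_galBC hLM') (unitsInclBC hLM')
    (unitsInclBC_coe hLM') (eDeg O E₀) (fDeg O E₀) (valZ_algebraMap_int O E₀)
    (isIntegral_int O E₀) (fun x => hfrob _ _ hLM' x) z
  rw [eDeg_mul_fDeg] at key
  exact key

end BC

end Fermat.Agent.S55.Local.InvariantInst
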