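/-
S55 / LOC5: transitivity of base change `bcMap` in towers `K → E₁ → E₂ → Ω` and the RELATIVE base
change formula `inv_{E₂} ∘ res_{E₁ → E₂} = [E₂:E₁] • inv_{E₁}` deduced from the two absolute ones
(`inv_{Eᵢ} ∘ res_{K → Eᵢ} = [Eᵢ:K] • inv_K`) and the surjectivity of `res_{K → E₁}` on `H²`.
(helper26)
-/
import Fermat.Agent.S55.CFAbs
import Fermat.Agent.S55.GaloisLevelBC
import Fermat.Agent.S55.LevelConj

set_option autoImplicit false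
set_option linter.unusedSectionVars false

open CategoryTheory

namespace Fermat.Agent.S55.Local.InvariantRel

open Fermat.Agent.S55.Level Fermat.Agent.S55.CFAbs Fermat.Agent.S55.GaloisLevel

variable (K E₁ E₂ Ω : Type) [Field K] [Field E₁] [Field E₂] [Field Ω]
  [Algebra K E₁] [Algebra K E₂] [Algebra E₁ E₂] [Algebra K Ω] [Algebra E₁ Ω] [Algebra E₂ Ω]
  [IsScalarTower K E₁ Ω] [IsScalarTower K E₂ Ω] [IsScalarTower E₁ E₂ Ω]
  [IsGalois K Ω] [IsGalois E₁ Ω] [IsGalois E₂ Ω]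

/-- **Transitivity of base change** on level cohomology of the units. -/
theorem bcMap_comp_apply (n : ℕ) (x : levelCohomology (krullLevel K Ω) (unitsRep K Ω) n) :
    (bcMap E₁ E₂ Ω n).hom ((bcMap K E₁ Ω n).hom x) = (bcMap K E₂ Ω n).hom x :=
  levelCohomologyMap_comp_eq_apply
    (AlgEquiv.restrictScalarsHom K) (refines_restrictScalarsHom K E₁ Ω) (unitsRes K E₁ Ω)
    (AlgEquiv.restrictScalarsHom E₁) (refines_restrictScalarsHom E₁ E₂ Ω) (unitsRes E₁ E₂ Ω)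
    (AlgEquiv.restrictScalarsHom K) (refines_restrictScalarsHom K E₂ Ω) (unitsRes K E₂ Ω)
    (fun _ => rfl) (fun _ => rfl) n x

theorem bcMap_comp (n : ℕ) :
    bcMap K E₁ Ω n ≫ bcMap E₁ E₂ Ω n = bcMap K E₂ Ω n :=
  levelCohomologyMap_comp_eq
    (AlgEquiv.restrictScalarsHom K) (refines_restrictScalarsHom K E₁ Ω) (unitsRes K E₁ Ω)
    (AlgEquiv.restrictScalarsHom E₁) (refines_restrictScalarsHom E₁ E₂ Ω) (unitsRes E₁ E₂ Ω)
    (AlgEquiv.restrictScalarsHom K) (refines_restrictScalarsHom K E₂ Ω) (unitsRes K E₂ Ω)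
    (fun _ => rfl) (fun _ => rfl) n

variable {K E₁ E₂ Ω}

/-- Restriction `H²(Gal(Ω/K), Ωˣ) → H²(Gal(Ω/E₁), Ωˣ)` is surjective as soon as it multiplies
the invariants by a nonzero integer. -/
theorem bcMap_surjective
    (Φ₀ : Formation (krullLevel K Ω) (unitsRep K Ω))
    (Φ₁ : Formation (krullLevel E₁ Ω) (unitsRep E₁ Ω)) {d₁ : ℕ} (hd₁ : d₁ ≠ 0)
    (h1 : ∀ x, Φ₁.inv ((bcMap K E₁ Ω 2).hom x) = d₁ • Φ₀.inv x)
    (y : levelCohomology (krullLevel E₁ Ω) (unitsRep E₁ Ω) 2) :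
    ∃ x, (bcMap K E₁ Ω 2).hom x = y :=
  levelCohomologyMap_surjective Φ₀ Φ₁ (AlgEquiv.restrictScalarsHom K)
    (refines_restrictScalarsHom K E₁ Ω) (unitsRes K E₁ Ω) d₁ hd₁ h1 y

/-- **Relative base change from absolute base change**: if `inv_{Eᵢ} ∘ res_{K→Eᵢ} = dᵢ • inv_K`
(`i = 1, 2`), `d₁ ≠ 0` and `d₂ = d * d₁`, then `inv_{E₂} ∘ res_{E₁→E₂} = d • inv_{E₁}`. -/
theorem inv_bcMap_rel
    (Φ₀ : Formation (krullLevel K Ω) (unitsRep K Ω))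
    (Φ₁ : Formation (krullLevel E₁ Ω) (unitsRep E₁ Ω))
    (Φ₂ : Formation (krullLevel E₂ Ω) (unitsRep E₂ Ω))
    {d₁ d₂ d : ℕ} (hd₁ : d₁ ≠ 0) (hd : d₂ = d * d₁)
    (h1 : ∀ x, Φ₁.inv ((bcMap K E₁ Ω 2).hom x) = d₁ • Φ₀.inv x)
    (h2 : ∀ x, Φ₂.inv ((bcMap K E₂ Ω 2).hom x) = d₂ • Φ₀.inv x)
    (y : levelCohomology (krullLevel E₁ Ω) (unitsRep E₁ Ω) 2) :
    Φ₂.inv ((bcMap E₁ E₂ Ω 2).hom y) = d • Φ₁.inv y := by
  obtain ⟨x, rfl⟩ := bcMap_surjective Φ₀ Φ₁ hd₁ h1 y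
  rw [bcMap_comp_apply, h2, h1, hd, mul_smul]

/-- The relative restriction is surjective too. -/
theorem bcMap_rel_surjective
    (Φ₀ : Formation (krullLevel K Ω) (unitsRep K Ω))
    (Φ₂ : Formation (krullLevel E₂ Ω) (unitsRep E₂ Ω)) {d₂ : ℕ} (hd₂ : d₂ ≠ 0)
    (h2 : ∀ x, Φ₂.inv ((bcMap K E₂ Ω 2).hom x) = d₂ • Φ₀.inv x)
    (z : levelCohomology (krullLevel E₂ Ω) (unitsRep E₂ Ω) 2) :
    ∃ y, (bcMap E₁ E₂ Ω 2).hom y = z := by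
  obtain ⟨x, rfl⟩ := bcMap_surjective Φ₀ Φ₂ hd₂ h2 z
  exact ⟨(bcMap K E₁ Ω 2).hom x, bcMap_comp_apply K E₁ E₂ Ω 2 x⟩

end Fermat.Agent.S55.Local.InvariantRel
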