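/-
S55 / LOC5, consumer layer: the local class formations of `ℚ_q` and of its finite extensions inside
`PadicAlgCl q`, with base change (absolute and relative) and the formula for the invariant of
unramified classes.

Everything is stated for `H : PadicInput q`, the bundle of the remaining field-level inputs
(killing statements + `LocalBCInput`), which follows from the base change of unramified extensions
(`padicInput_of_baseChange`, on helper16's `InvariantInst`).
(helper26)
-/
import Fermat.Agent.S55.Local.Invariant
import Fermat.Agent.S55.Local.InvariantBC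
import Fermat.Agent.S55.Local.InvariantRel
import Fermat.Agent.S55.Local.InvariantInst
import Fermat.Agent.S55.GL.PlacesDVR
import Fermat.Agent.S55.LocalInt
import Fermat.Agent.S55.LocalKrasner

set_option autoImplicit false
set_option linter.unusedSectionVars false
set_option linter.style.haveILetI false
set_option linter.overlappingInstances false

open CategoryTheory groupCohomology Rep IntermediateField IsLocalRing

namespace Fermat.Agent.S55.Local.PadicFormation

open Fermat.Agent.S55.Level Fermat.Agent.S55.LevelLayer Fermat.Agent.S55.CFAbs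
  Fermat.Agent.S55.GaloisLevel Fermat.Agent.S55.GC.GaloisLayerInf
  Fermat.Agent.S55.Local.Unram Fermat.Agent.S55.Local.UnramClass
  Fermat.Agent.S55.Local.Invariant Fermat.Agent.S55.Local.InvariantLevel
  Fermat.Agent.S55.Local.InvariantBC

/-! ### Generic: the invariant of a class inflated from an arbitrary unramified layer -/

section Generic

variable (O : Type) [CommRing O] [IsDomain O] [IsDiscreteValuationRing O]
  [IsAdicComplete (maximalIdeal O) O] [Finite (ResidueField O)]
  {K : Type} [Field K] [Algebra O K] [IsFractionRing O K] [PerfectField K]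
  {Ω : Type} [Field Ω] [Algebra K Ω] [Algebra O Ω] [IsScalarTower O K Ω] [IsAlgClosed Ω]
  [IsGalois K Ω]

/-- **The invariant on unramified classes**: for ANY unramified subextension `M/K` of degree `m`,
the invariant of a class inflated from the layer `Gal(M/K)` is the unramified invariant
`invUnr` (`[cyc Frob a] ↦ ord(a)/m`). -/
theorem inv_levelInf_of_isUnramifiedIn (hkill : KillStatement O (K := K) (Ω := Ω))
    {M : IntermediateField K Ω} (h : IsUnramifiedIn O M) [Normal K M] [FiniteDimensional K M]
    {m : ℕ} [NeZero m] (hm : Module.finrank K M = m)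
    (y : groupCohomology ((unitsRep K Ω).quotientToInvariants M.fixingSubgroup) 2) :
    (formation (localCFInputOfKill O hkill)).inv
        ((levelInf (krullLevel K Ω) (unitsRep K Ω) (fixingSubgroup_mem M) 2).hom y) =
      ZMod.toAddCircle (invUnr (isUnramLayer_of_finrank h hm)
        ((unitsLayerIsoF K Ω M 2).hom.hom y)) := by
  have hM : M = Fn O m := by
    rw [← hm]
    exact h.eq_unramExt O Ω
  subst hM
  exact InvariantLevel.inv_levelInf_W (localCFInputOfKill O hkill) m y

end Generic

/-! ### The local class formations of the finite extensions of `ℚ_q` inside `PadicAlgCl q` -/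

section Padic

variable (q : ℕ) [Fact q.Prime]

/-- The remaining field-level inputs of local class field theory over `ℚ_q` (killing statement
over `ℚ_q` and over its finite extensions, base change), as one hypothesis. -/
structure PadicInput : Prop where
  killQ : KillStatement ℤ_[q] (K := ℚ_[q]) (Ω := PadicAlgCl q)
  killE : ∀ (E : IntermediateField ℚ_[q] (PadicAlgCl q)) [FiniteDimensional ℚ_[q] E],
    KillStatement (integralClosure ℤ_[q] E) (K := E) (Ω := PadicAlgCl q)
  bc : ∀ (E : IntermediateField ℚ_[q] (PadicAlgCl q)) [FiniteDimensional ℚ_[q] E],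
    LocalBCInput E (localCFInputOfKill ℤ_[q] killQ)
      (localCFInputOfKill (integralClosure ℤ_[q] E) (killE E)) (Module.finrank ℚ_[q] E)

/-- The inputs over `ℚ_q` from the base change of unramified extensions (helper16's
`InvariantInst.BaseChangeStatement`) over `ℚ_q` and over its finite extensions. -/
theorem padicInput_of_baseChange
    (hQ : InvariantInst.BaseChangeStatement ℤ_[q] (K := ℚ_[q]) (Ω := PadicAlgCl q))
    (hE : ∀ (E : IntermediateField ℚ_[q] (PadicAlgCl q)) [FiniteDimensional ℚ_[q] E],
      InvariantInst.BaseChangeStatement (integralClosure ℤ_[q] E) (K := E) (Ω := PadicAlgCl q)) :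
    PadicInput q where
  killQ := InvariantInst.killStatement_of_baseChange ℤ_[q] hQ
  killE E _ := InvariantInst.killStatement_of_baseChange (integralClosure ℤ_[q] E) (hE E)
  bc E _ := InvariantInst.localBCInputOfBaseChange ℤ_[q] hQ E (hE E)

variable {q} (H : PadicInput q)

/-- The field-level input of local class field theory over `ℚ_q`. -/
noncomputable def inputQ : LocalCFInput ℚ_[q] (PadicAlgCl q) :=
  localCFInputOfKill ℤ_[q] H.killQ

/-- **The local class formation of `ℚ_q`**. -/
noncomputable def formationQ :
    Formation (krullLevel ℚ_[q] (PadicAlgCl q)) (unitsRep ℚ_[q] (PadicAlgCl q)) :=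
  formation (inputQ H)

variable (E : IntermediateField ℚ_[q] (PadicAlgCl q)) [FiniteDimensional ℚ_[q] E]

/-- The field-level input of local class field theory over a finite extension `E` of `ℚ_q`. -/
noncomputable def inputAt : LocalCFInput E (PadicAlgCl q) :=
  localCFInputOfKill (integralClosure ℤ_[q] E) (H.killE E)

/-- **The local class formation of a finite extension `E` of `ℚ_q`** (inside `PadicAlgCl q`). -/
noncomputable def formationAt :
    Formation (krullLevel E (PadicAlgCl q)) (unitsRep E (PadicAlgCl q)) :=
  formation (inputAt H E)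

theorem inputQ_Fn (n : ℕ) : (inputQ H).Fn n = unramExt ℤ_[q] (PadicAlgCl q) n := rfl

theorem inputAt_Fn (n : ℕ) :
    (inputAt H E).Fn n = unramExt (integralClosure ℤ_[q] E) (PadicAlgCl q) n := rfl

/-- **Base change** `inv_E ∘ res = [E:ℚ_q] • inv_{ℚ_q}`. -/
theorem inv_bcMap_formationAt
    (x : levelCohomology (krullLevel ℚ_[q] (PadicAlgCl q)) (unitsRep ℚ_[q] (PadicAlgCl q)) 2) :
    (formationAt H E).inv ((bcMap ℚ_[q] E (PadicAlgCl q) 2).hom x) =
      Module.finrank ℚ_[q] E • (formationQ H).inv x :=
  inv_bcMap (H.bc E) x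

include H in
/-- Restriction `Br(ℚ_q) → Br(E)` is surjective. -/
theorem bcMap_surjective_formationAt
    (z : levelCohomology (krullLevel E (PadicAlgCl q)) (unitsRep E (PadicAlgCl q)) 2) :
    ∃ x, (bcMap ℚ_[q] E (PadicAlgCl q) 2).hom x = z :=
  InvariantRel.bcMap_surjective (formationQ H) (formationAt H E) Module.finrank_pos.ne'
    (inv_bcMap_formationAt H E) z

/-- **The invariant on unramified classes** over `E`: for ANY unramified extension `M/E` of
degree `m`, the invariant of a class inflated from `Gal(M/E)` is `invUnr` of the `ord` layer. -/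
theorem inv_levelInf_formationAt {M : IntermediateField E (PadicAlgCl q)}
    (h : IsUnramifiedIn (integralClosure ℤ_[q] E) M) [Normal E M] [FiniteDimensional E M]
    {m : ℕ} [NeZero m] (hm : Module.finrank E M = m)
    (y : groupCohomology ((unitsRep E (PadicAlgCl q)).quotientToInvariants M.fixingSubgroup) 2) :
    (formationAt H E).inv
        ((levelInf (krullLevel E (PadicAlgCl q)) (unitsRep E (PadicAlgCl q))
          (fixingSubgroup_mem M) 2).hom y) =
      ZMod.toAddCircle (invUnr (isUnramLayer_of_finrank h hm)
        ((unitsLayerIsoF E (PadicAlgCl q) M 2).hom.hom y)) :=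
  inv_levelInf_of_isUnramifiedIn (integralClosure ℤ_[q] E) (H.killE E) h hm y

/-- The same over `ℚ_q`. -/
theorem inv_levelInf_formationQ {M : IntermediateField ℚ_[q] (PadicAlgCl q)}
    (h : IsUnramifiedIn ℤ_[q] M) [Normal ℚ_[q] M] [FiniteDimensional ℚ_[q] M]
    {m : ℕ} [NeZero m] (hm : Module.finrank ℚ_[q] M = m)
    (y : groupCohomology
      ((unitsRep ℚ_[q] (PadicAlgCl q)).quotientToInvariants M.fixingSubgroup) 2) :
    (formationQ H).inv
        ((levelInf (krullLevel ℚ_[q] (PadicAlgCl q)) (unitsRep ℚ_[q] (PadicAlgCl q))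
          (fixingSubgroup_mem M) 2).hom y) =
      ZMod.toAddCircle (invUnr (isUnramLayer_of_finrank h hm)
        ((unitsLayerIsoF ℚ_[q] (PadicAlgCl q) M 2).hom.hom y)) :=
  inv_levelInf_of_isUnramifiedIn ℤ_[q] H.killQ h hm y

/-- The family `FE` of `LocalInvCores.exists_tau_krull_family` /
`TraceGlueLocal.result_of_formations`. -/
noncomputable def formationFamily (E : IntermediateField ℚ_[q] (PadicAlgCl q))
    (hfd : FiniteDimensional ℚ_[q] E) (_ : IsGalois ℚ_[q] E) :
    Formation (krullLevel E (PadicAlgCl q)) (unitsRep E (PadicAlgCl q)) :=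
  formationAt H E

/-- The base change hypothesis `hBC` of `TraceGlueLocal.result_of_formations`. -/
theorem formationFamily_bc (E : IntermediateField ℚ_[q] (PadicAlgCl q))
    (hfd : FiniteDimensional ℚ_[q] E) (hgal : IsGalois ℚ_[q] E)
    (x : levelCohomology (krullLevel ℚ_[q] (PadicAlgCl q)) (unitsRep ℚ_[q] (PadicAlgCl q)) 2) :
    (formationFamily H E hfd hgal).inv ((bcMap ℚ_[q] E (PadicAlgCl q) 2).hom x) =
      Module.finrank ℚ_[q] E • (formationQ H).inv x :=
  inv_bcMap_formationAt H E x

section Relative

variable (E₁ E₂ : IntermediateField ℚ_[q] (PadicAlgCl q)) [FiniteDimensional ℚ_[q] E₁]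
  [FiniteDimensional ℚ_[q] E₂] [Algebra E₁ E₂] [IsScalarTower E₁ E₂ (PadicAlgCl q)]

/-- A tower `E₁ → E₂ → Ω_q` of subfields of `Ω_q` is automatically a tower over `ℚ_q`. -/
theorem isScalarTower_of_tower : IsScalarTower ℚ_[q] E₁ E₂ := by
  refine IsScalarTower.of_algebraMap_eq fun x => ?_
  apply (algebraMap E₂ (PadicAlgCl q)).injective
  rw [← IsScalarTower.algebraMap_apply E₁ E₂ (PadicAlgCl q),
    ← IsScalarTower.algebraMap_apply ℚ_[q] E₁ (PadicAlgCl q),
    ← IsScalarTower.algebraMap_apply ℚ_[q] E₂ (PadicAlgCl q)]

theorem finrank_mul_finrank_of_tower :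
    Module.finrank ℚ_[q] E₂ = Module.finrank E₁ E₂ * Module.finrank ℚ_[q] E₁ := by
  haveI := isScalarTower_of_tower E₁ E₂
  rw [mul_comm]
  exact (Module.finrank_mul_finrank ℚ_[q] E₁ E₂).symm

/-- **Relative base change** `inv_{E₂} ∘ res_{E₁ → E₂} = [E₂:E₁] • inv_{E₁}` for finite extensions
`E₁ → E₂` of `ℚ_q` inside `Ω_q` (any algebra structure compatible with the embeddings in `Ω_q`). -/
theorem inv_bcMap_formationAt_rel
    (y : levelCohomology (krullLevel E₁ (PadicAlgCl q)) (unitsRep E₁ (PadicAlgCl q)) 2) :
    (formationAt H E₂).inv ((bcMap E₁ E₂ (PadicAlgCl q) 2).hom y) =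
      Module.finrank E₁ E₂ • (formationAt H E₁).inv y :=
  InvariantRel.inv_bcMap_rel (formationQ H) (formationAt H E₁) (formationAt H E₂)
    Module.finrank_pos.ne' (finrank_mul_finrank_of_tower E₁ E₂)
    (inv_bcMap_formationAt H E₁) (inv_bcMap_formationAt H E₂) y

include H in
/-- The relative restriction `Br(E₁) → Br(E₂)` is surjective. -/
theorem bcMap_surjective_formationAt_rel
    (z : levelCohomology (krullLevel E₂ (PadicAlgCl q)) (unitsRep E₂ (PadicAlgCl q)) 2) :
    ∃ y, (bcMap E₁ E₂ (PadicAlgCl q) 2).hom y = z :=
  InvariantRel.bcMap_rel_surjective (formationQ H) (formationAt H E₂) Module.finrank_pos.ne'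
    (inv_bcMap_formationAt H E₂) z

end Relative

end Padic

end Fermat.Agent.S55.Local.PadicFormation
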