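/-
S55 / LOC6: local Tate vanishing in level form.

For a Galois extension `Ω / K` (in the application `K` a finite extension of `ℚ_q` and
`Ω = PadicAlgCl q`) whose finite Galois layers are class modules (LOC5):

* `isZero_H3_units`: `H³(Gal(E/K), Eˣ) = 0` for every finite Galois layer `E / K`;
* `isZero_levelCohomology_units_three`: `H³(Gal(Ω/K), Ωˣ) = 0` in level cohomology;
* `torsionRep A m`, `torsionι`: the `m`-torsion subrepresentation and the Kummer sequence
  `0 → Ωˣ[m] → Ωˣ → Ωˣ → 0` when `Ω` contains all `m`-th roots;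
* `isZero_levelCohomology_mu_three`: `H³(Gal(Ω/K), μ_m) = 0` if moreover `H²(Gal(Ω/K), Ωˣ)` is
  `m`-divisible.
-/
import Fermat.Agent.S55.GaloisLevel
import Fermat.Agent.S55.GC.TateH3Int
import Fermat.Agent.S55.CF.Kummer
import Fermat.Agent.S55.DevissageRep

set_option autoImplicit false

open CategoryTheory IntermediateField

namespace Fermat.Agent.S55.Local.Tate

open Fermat.Agent.S55.Level Fermat.Agent.S55.LevelLayer Fermat.Agent.S55.GaloisLevel
  Fermat.Agent.S55.GC Fermat.Agent.S55.CF groupCohomology

/-! ### The torsion subrepresentation -/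

section Torsion

universe u

variable {k G : Type u} [CommRing k] [Group G] (A : Rep.{u} k G) (m : ℕ)

/-- The `m`-torsion submodule of a representation. -/
def torsionSubmodule : Submodule k A.V where
  carrier := {a | m • a = 0}
  add_mem' {a b} ha hb := by
    show m • (a + b) = 0
    rw [smul_add, show m • a = 0 from ha, show m • b = 0 from hb, add_zero]
  zero_mem' := smul_zero m
  smul_mem' c a ha := by
    show m • (c • a) = 0
    rw [smul_comm, show m • a = 0 from ha, smul_zero]

lemma mem_torsionSubmodule_iff (a : A.V) : a ∈ torsionSubmodule A m ↔ m • a = 0 := Iff.rfl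

/-- The `m`-torsion of `A` as a representation. -/
noncomputable def torsionRep : Rep.{u} k G :=
  Rep.of (A.ρ.subrepresentation (torsionSubmodule A m) fun g a ha => by
    show m • A.ρ g a = 0
    rw [← map_nsmul, show m • a = 0 from ha, map_zero])

/-- The inclusion of the `m`-torsion. -/
noncomputable def torsionι : torsionRep A m ⟶ A :=
  Rep.ofHom ⟨(torsionSubmodule A m).subtype, fun _ => rfl⟩

lemma torsionι_injective : Function.Injective (torsionι A m).hom :=
  Subtype.val_injective

lemma torsionι_surjective_on (e : A.V) (he : m • e = 0) : ∃ z, (torsionι A m).hom z = e :=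
  ⟨⟨e, he⟩, rfl⟩

lemma nsmul_torsionRep_eq_zero (z : torsionRep A m) : m • z = 0 :=
  Subtype.ext z.2

instance isDiscrete_torsionRep (𝒰 : LevelStructure G) [Level.IsDiscrete 𝒰 A] :
    Level.IsDiscrete 𝒰 (torsionRep A m) :=
  Devissage.isDiscrete_of_injective (torsionι A m) (torsionι_injective A m)

/-- The Kummer sequence `0 → A[m] → A → A → 0` of an `m`-divisible representation. -/
theorem kummer_shortExact (hdiv : ∀ e : A.V, ∃ e' : A.V, m • e' = e) :
    (ShortComplex.mk (torsionι A m) (m • 𝟙 A)
      (kummer_zero_of (torsionι A m) m (nsmul_torsionRep_eq_zero A m))).ShortExact :=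
  kummer_shortExact_of (torsionι A m) m (torsionι_injective A m)
    (torsionι_surjective_on A m) hdiv _

end Torsion

variable {K Ω : Type} [Field K] [Field Ω] [Algebra K Ω] [IsGalois K Ω]

/-! ### Finite layers -/

variable (K Ω) in
/-- Every finite Galois layer of `Ω / K` carries a fundamental class making its unit group a class
module (the output of local class field theory, LOC5). -/
def HasClassModules : Prop :=
  ∀ E : IntermediateField K Ω, FiniteDimensional K E → IsGalois K E →
    ∃ u : groupCohomology (Rep.ofAlgebraAutOnUnits K E) 2,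
      IsClassModule (Rep.ofAlgebraAutOnUnits K E) u

/-- `H³(Gal(E/K), Eˣ) = 0` for a finite Galois extension whose unit group is a class module. -/
theorem isZero_H3_units {E : Type} [Field E] [Algebra K E] [FiniteDimensional K E]
    {u : groupCohomology (Rep.ofAlgebraAutOnUnits K E) 2}
    (hu : IsClassModule (Rep.ofAlgebraAutOnUnits K E) u) :
    Limits.IsZero (groupCohomology (Rep.ofAlgebraAutOnUnits K E) 3) :=
  hu.isZero_H3

/-! ### Level form -/

/-- **Local Tate vanishing, level form**: `H³(Gal(Ω/K), Ωˣ) = 0`. -/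
theorem isZero_levelCohomology_units_three (h : HasClassModules K Ω) :
    Limits.IsZero (levelCohomology (krullLevel K Ω) (unitsRep K Ω) 3) := by
  apply isZero_levelCohomology_unitsRep_of_layers
  intro E hE hG
  obtain ⟨u, hu⟩ := h E hE hG
  exact isZero_H3_units hu

omit [IsGalois K Ω] in
/-- If `Ω` contains all `m`-th roots, `Ωˣ` is `m`-divisible. -/
lemma unitsRep_divisible (m : ℕ) (hm : m ≠ 0) (hroots : ∀ x : Ω, ∃ y : Ω, y ^ m = x)
    (e : (unitsRep K Ω).V) : ∃ e' : (unitsRep K Ω).V, m • e' = e := by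
  obtain ⟨y, hy⟩ := hroots ((Additive.toMul (e : Additive Ωˣ) : Ωˣ) : Ω)
  have hy0 : y ≠ 0 := by
    rintro rfl
    rw [zero_pow hm] at hy
    exact (Additive.toMul (e : Additive Ωˣ) : Ωˣ).ne_zero hy.symm
  refine ⟨Additive.ofMul (Units.mk0 y hy0), ?_⟩
  apply Additive.toMul.injective
  apply Units.ext
  exact hy

/-- The group `μ_m` of `m`-th roots of unity of `Ω`, as a representation of `Gal(Ω/K)`. -/
noncomputable abbrev muRep (K Ω : Type) [Field K] [Field Ω] [Algebra K Ω] (m : ℕ) :
    Rep.{0} ℤ Gal(Ω/K) :=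
  torsionRep (unitsRep K Ω) m

/-- **`H³(Gal(Ω/K), μ_m) = 0`** for a local field: from `H³(Gal(Ω/K), Ωˣ) = 0` (class modules,
Tate) and the `m`-divisibility of the Brauer group `H²(Gal(Ω/K), Ωˣ)`. -/
theorem isZero_levelCohomology_mu_three (h : HasClassModules K Ω) (m : ℕ) (hm : m ≠ 0)
    (hroots : ∀ x : Ω, ∃ y : Ω, y ^ m = x)
    (hdiv : ∀ y : levelCohomology (krullLevel K Ω) (unitsRep K Ω) 2,
      ∃ x : levelCohomology (krullLevel K Ω) (unitsRep K Ω) 2, m • x = y) :
    Limits.IsZero (levelCohomology (krullLevel K Ω) (muRep K Ω m) 3) := by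
  have hK := kummer_shortExact (unitsRep K Ω) m (unitsRep_divisible m hm hroots)
  have h3 := isZero_levelCohomology_units_three h
  have := subsingleton_of_divisible_of_torsionFree (krullLevel K Ω) hK 2 hdiv
    (fun x _ => (ModuleCat.subsingleton_of_isZero h3).elim x 0)
  exact ModuleCat.isZero_of_subsingleton _

/-- `H²(Gal(Ω/K), μ_m) → H²(Gal(Ω/K), Ωˣ)` is injective (Hilbert 90), with image the `m`-torsion:
the exact sequence `0 → H²(μ_m) → Br(K) → Br(K)`. -/
theorem Hmap_mu_two_injective (m : ℕ) (hm : m ≠ 0) (hroots : ∀ x : Ω, ∃ y : Ω, y ^ m = x) :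
    Function.Injective
      (Hmap (krullLevel K Ω) (torsionι (unitsRep K Ω) m) 2).hom := by
  have hK := kummer_shortExact (unitsRep K Ω) m (unitsRep_divisible m hm hroots)
  rw [injective_iff_map_eq_zero]
  intro z hz
  obtain ⟨x, rfl⟩ := (Hmap_ι_eq_zero_iff (krullLevel K Ω) hK 1 z).1 hz
  have hx : x = 0 :=
    (ModuleCat.subsingleton_of_isZero isZero_levelCohomology_unitsRep_one).elim x 0
  rw [hx, map_zero]

/-- The image of `H²(μ_m)` in the Brauer group is its `m`-torsion. -/
theorem exists_Hmap_mu_two_eq (m : ℕ) (hm : m ≠ 0) (hroots : ∀ x : Ω, ∃ y : Ω, y ^ m = x)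
    (x : levelCohomology (krullLevel K Ω) (unitsRep K Ω) 2) (hx : m • x = 0) :
    ∃ z, (Hmap (krullLevel K Ω) (torsionι (unitsRep K Ω) m) 2).hom z = x := by
  have hK := kummer_shortExact (unitsRep K Ω) m (unitsRep_divisible m hm hroots)
  exact (kummer_nsmul_eq_zero_iff (krullLevel K Ω) hK 2 x).1 hx

end Fermat.Agent.S55.Local.Tate
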