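/-
S55 / local glue (G3): the local invariant on `H²(μ_p)`.

GENERIC PART.  `Ω/K` Galois, `F : CFAbs.Formation (krullLevel K Ω) (unitsRep K Ω)` (the output of
local class field theory, LOC5), `ι : M ⟶ Ωˣ` a Kummer sequence `0 → M → Ωˣ --p--> Ωˣ → 0`
(`M = μ_p`).  Then

  `invK F hK : H²(Gal(Ω/K), M) →+ ZMod p`,   `toAddCircle (invK x) = F.inv (ι_* x)`,

is BIJECTIVE (injective by level Hilbert 90 + injectivity of `F.inv`; surjective because the
`p`-torsion of the Brauer group is the image of `H²(M)` and `F.inv` is onto the torsion of `ℝ/ℤ`).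
(helper27)
-/
import Fermat.Agent.S55.GaloisLevel
import Fermat.Agent.S55.CFAbs
import Fermat.Agent.S55.CF.Kummer
import Fermat.Agent.S55.LevelScalars
import Fermat.Agent.S55.LevelTransport
import Fermat.Agent.S55.DualTwist
import Fermat.Agent.S55.Local.KrullLocal
import Fermat.Agent.S55.Local.TateLevel

set_option autoImplicit false
set_option linter.unusedSectionVars false

open CategoryTheory

namespace Fermat.Agent.S55.Local.LocalInv

open Fermat.Agent.S55.Level Fermat.Agent.S55.GaloisLevel Fermat.Agent.S55.CF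
  Fermat.Agent.S55.CFAbs

section Generic

variable {K Ω : Type} [Field K] [Field Ω] [Algebra K Ω] [IsGalois K Ω]
  {M : Rep.{0} ℤ Gal(Ω/K)} [Level.IsDiscrete (krullLevel K Ω) M]
  {ι : M ⟶ unitsRep K Ω} {p : ℕ} [NeZero p]
  {w : ι ≫ (p • 𝟙 (unitsRep K Ω)) = 0}
  (F : Formation (krullLevel K Ω) (unitsRep K Ω))
  (hK : (ShortComplex.mk ι (p • 𝟙 (unitsRep K Ω)) w).ShortExact)

/-- The invariant of the image of a class of `H²(M)` in the Brauer group. -/
noncomputable def invCircle (F : Formation (krullLevel K Ω) (unitsRep K Ω))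
    (ι : M ⟶ unitsRep K Ω) : levelCohomology (krullLevel K Ω) M 2 →+ UnitAddCircle :=
  F.inv.comp (Hmap (krullLevel K Ω) ι 2).hom.toAddMonoidHom

lemma invCircle_apply (x : levelCohomology (krullLevel K Ω) M 2) :
    invCircle F ι x = F.inv ((Hmap (krullLevel K Ω) ι 2).hom x) := rfl

include hK in
lemma nsmul_invCircle (x : levelCohomology (krullLevel K Ω) M 2) : p • invCircle F ι x = 0 := by
  rw [← map_nsmul, nsmul_levelCohomology_eq_zero (krullLevel K Ω) hK 2 x, map_zero]

include hK in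
lemma invCircle_mem_range (x : levelCohomology (krullLevel K Ω) M 2) :
    invCircle F ι x ∈ (ZMod.toAddCircle (N := p)).range := by
  obtain ⟨j, hj⟩ := exists_toAddCircle_eq (n := p) _ (nsmul_invCircle F hK x)
  exact ⟨j, hj⟩

/-- **The local invariant on `H²(μ_p)`**, with values in `ZMod p`. -/
noncomputable def invK : levelCohomology (krullLevel K Ω) M 2 →+ ZMod p :=
  ((ZMod.toAddCircle (N := p)).ofInjective (ZMod.toAddCircle_injective p)).symm.toAddMonoidHom.comp
    ((invCircle F ι).codRestrict _ (invCircle_mem_range F hK))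

/-- The defining formula: `inv_K x / p = inv (ι_* x)` in `ℝ/ℤ`. -/
theorem toAddCircle_invK (x : levelCohomology (krullLevel K Ω) M 2) :
    ZMod.toAddCircle (invK F hK x) = F.inv ((Hmap (krullLevel K Ω) ι 2).hom x) := by
  have h := ((ZMod.toAddCircle (N := p)).ofInjective
    (ZMod.toAddCircle_injective p)).apply_symm_apply
      ((invCircle F ι).codRestrict _ (invCircle_mem_range F hK) x)
  exact congrArg Subtype.val h

include hK in
/-- `H²(M) → Br(K)` is injective (level Hilbert 90). -/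
theorem Hmap_two_injective :
    Function.Injective (Hmap (krullLevel K Ω) ι 2).hom := by
  rw [injective_iff_map_eq_zero]
  intro z hz
  obtain ⟨x, rfl⟩ := (Hmap_ι_eq_zero_iff (krullLevel K Ω) hK 1 z).1 hz
  have hx : x = 0 :=
    (ModuleCat.subsingleton_of_isZero isZero_levelCohomology_unitsRep_one).elim x 0
  rw [hx, map_zero]

/-- **`inv_K` is injective.** -/
theorem invK_injective : Function.Injective (invK F hK) := by
  intro x y hxy
  apply Hmap_two_injective hK
  apply F.inv_injective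
  rw [← toAddCircle_invK F hK, ← toAddCircle_invK F hK, hxy]

/-- **`inv_K` is surjective.** -/
theorem invK_surjective : Function.Surjective (invK F hK) := by
  intro j
  have hp : p ≠ 0 := NeZero.ne p
  have ht : p • ZMod.toAddCircle j = 0 := by
    rw [← map_nsmul]
    have : p • j = 0 := by
      rw [nsmul_eq_mul, ZMod.natCast_self, zero_mul]
    rw [this, map_zero]
  obtain ⟨y, hy⟩ := F.exists_inv_eq hp (ZMod.toAddCircle j) ht
  set z := (LevelLayer.levelInf (krullLevel K Ω) (unitsRep K Ω) (F.W_mem p hp) 2).hom y with hz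
  have hpz : p • z = 0 := by
    apply F.inv_injective
    rw [map_nsmul, hy, ht, map_zero]
  obtain ⟨x, hx⟩ := (kummer_nsmul_eq_zero_iff (krullLevel K Ω) hK 2 z).1 hpz
  refine ⟨x, ?_⟩
  apply ZMod.toAddCircle_injective p
  rw [toAddCircle_invK, hx, hy]

theorem invK_bijective : Function.Bijective (invK F hK) :=
  ⟨invK_injective F hK, invK_surjective F hK⟩

/-- `inv_K x = 0` iff the image of `x` in the Brauer group vanishes. -/
theorem invK_eq_zero_iff (x : levelCohomology (krullLevel K Ω) M 2) :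
    invK F hK x = 0 ↔ x = 0 :=
  map_eq_zero_iff _ (invK_injective F hK)

end Generic

/-! ### The Kummer sequence `0 → 𝔽_p(χ_cyc) → Ω_qˣ → Ω_qˣ → 0` over `ℚ_q` -/

section Concrete

open ExtCitation groupCohomology Fermat.Agent.S55.DualTwist Fermat.Agent.S55.LevelScalars
  Fermat.Agent.S55.Local.Tate

variable (p : ℕ) [Fact p.Prime] (q : ℕ) [Fact q.Prime]

local notation "Qbar" => AlgebraicClosure ℚ
local notation "Γ" => (AlgebraicClosure ℚ ≃ₐ[ℚ] AlgebraicClosure ℚ)

local instance neZero_LI : NeZero p := ⟨(Fact.out : p.Prime).ne_zero⟩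

/-- `𝔽_p(χ_cyc)` restricted to the local Galois group at `q`. -/
noncomputable abbrev localMu : Rep.{0} (ZMod p) Gal(PadicAlgCl q/ℚ_[q]) :=
  Rep.res (localGaloisToGlobal q) (ofChar (k := ZMod p) (cycloChar p))

variable {p} {ζ : Qbar} (hζ : IsPrimitiveRoot ζ p)

/-- The image in `PadicAlgCl q` of a primitive `p`-th root of unity of `ℚ̄`, as a unit. -/
noncomputable def zetaUnit : (PadicAlgCl q)ˣ :=
  Units.map (padicEmbedding q : Qbar →* PadicAlgCl q) (hζ.isUnit (NeZero.ne p)).unit

lemma coe_zetaUnit : ((zetaUnit q hζ : (PadicAlgCl q)ˣ) : PadicAlgCl q) = padicEmbedding q ζ := rfl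

lemma isPrimitiveRoot_zetaUnit : IsPrimitiveRoot (zetaUnit q hζ : (PadicAlgCl q)ˣ) p := by
  rw [← IsPrimitiveRoot.coe_units_iff, coe_zetaUnit]
  exact hζ.map_of_injective (padicEmbedding q).toRingHom.injective

lemma zetaUnit_pow : (zetaUnit q hζ) ^ p = 1 := (isPrimitiveRoot_zetaUnit q hζ).pow_eq_one

/-- The local Galois group acts on `ι_q ζ` through the cyclotomic character. -/
lemma smul_zetaUnit (g : Gal(PadicAlgCl q/ℚ_[q])) :
    g • zetaUnit q hζ =
      zetaUnit q hζ ^ ((cycloChar p (localGaloisToGlobal q g) : (ZMod p)ˣ) : ZMod p).val := by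
  apply Units.ext
  show g (padicEmbedding q ζ) = (padicEmbedding q ζ) ^ _
  rw [← padicEmbedding_localGaloisToGlobal, cycloChar_spec p _ hζ.pow_eq_one, map_pow]

/-- `a ↦ (ι_q ζ) ^ a`, as an additive map `ZMod p →+ Additive Ω_qˣ`. -/
noncomputable def zetaHom : ZMod p →+ Additive (PadicAlgCl q)ˣ :=
  ZMod.lift p ⟨zmultiplesHom _ (Additive.ofMul (zetaUnit q hζ)), by
    show (p : ℤ) • Additive.ofMul (zetaUnit q hζ) = 0
    rw [natCast_zsmul, ← ofMul_pow, zetaUnit_pow]
    rfl⟩

lemma zetaHom_intCast (i : ℤ) :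
    zetaHom q hζ (i : ZMod p) = i • Additive.ofMul (zetaUnit q hζ) :=
  ZMod.lift_coe p _ i

lemma zetaHom_natCast (i : ℕ) :
    zetaHom q hζ (i : ZMod p) = Additive.ofMul (zetaUnit q hζ ^ i) := by
  have := zetaHom_intCast q hζ (i : ℤ)
  rw [Int.cast_natCast, natCast_zsmul] at this
  rw [this, ofMul_pow]

lemma zetaHom_injective : Function.Injective (zetaHom q hζ) := by
  rw [injective_iff_map_eq_zero]
  intro a ha
  rw [← ZMod.natCast_zmod_val a, zetaHom_natCast] at ha
  have h1 : zetaUnit q hζ ^ a.val = 1 := ha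
  have h2 := (isPrimitiveRoot_zetaUnit q hζ).dvd_of_pow_eq_one _ h1
  rw [← ZMod.natCast_zmod_val a, (ZMod.natCast_eq_zero_iff _ _).2 h2]

lemma exists_zetaHom_eq (e : Additive (PadicAlgCl q)ˣ) (he : p • e = 0) :
    ∃ a : ZMod p, zetaHom q hζ a = e := by
  have h1 : (Additive.toMul e) ^ p = 1 := by
    have := congrArg Additive.toMul he
    simpa using this
  have h2 : ((Additive.toMul e : (PadicAlgCl q)ˣ) : PadicAlgCl q) ^ p = 1 := by
    rw [← Units.val_pow_eq_pow_val, h1, Units.val_one]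
  have hprim : IsPrimitiveRoot (padicEmbedding q ζ) p :=
    hζ.map_of_injective (padicEmbedding q).toRingHom.injective
  obtain ⟨i, -, hi⟩ := hprim.eq_pow_of_pow_eq_one h2
  refine ⟨(i : ZMod p), ?_⟩
  rw [zetaHom_natCast]
  apply Additive.toMul.injective
  apply Units.ext
  show ((zetaUnit q hζ ^ i : (PadicAlgCl q)ˣ) : PadicAlgCl q) = _
  rw [Units.val_pow_eq_pow_val, coe_zetaUnit, hi]

lemma zetaHom_mul_cycloChar (g : Gal(PadicAlgCl q/ℚ_[q])) (a : ZMod p) :
    zetaHom q hζ (((cycloChar p (localGaloisToGlobal q g) : (ZMod p)ˣ) : ZMod p) * a) =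
      (unitsRep ℚ_[q] (PadicAlgCl q)).ρ g (zetaHom q hζ a) := by
  set c := ((cycloChar p (localGaloisToGlobal q g) : (ZMod p)ˣ) : ZMod p) with hc
  have h1 : c * a = ((c.val * a.val : ℕ) : ZMod p) := by
    rw [Nat.cast_mul, ZMod.natCast_zmod_val, ZMod.natCast_zmod_val]
  have h2 : zetaHom q hζ a = Additive.ofMul (zetaUnit q hζ ^ a.val) := by
    conv_lhs => rw [← ZMod.natCast_zmod_val a]
    exact zetaHom_natCast q hζ a.val
  rw [h1, zetaHom_natCast, h2]
  apply Additive.toMul.injective
  apply Units.ext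
  rw [unitsRep_ρ_apply]
  show ((zetaUnit q hζ ^ (c.val * a.val) : (PadicAlgCl q)ˣ) : PadicAlgCl q) =
    g ((zetaUnit q hζ ^ a.val : (PadicAlgCl q)ˣ) : PadicAlgCl q)
  rw [Units.val_pow_eq_pow_val, Units.val_pow_eq_pow_val, map_pow, pow_mul]
  congr 1
  have := congrArg (fun u : (PadicAlgCl q)ˣ => (u : PadicAlgCl q)) (smul_zetaUnit q hζ g)
  simp only [Units.val_pow_eq_pow_val] at this
  exact this.symm

/-- **The Kummer map** `𝔽_p(χ_cyc) ⟶ Ω_qˣ`, `a ↦ (ι_q ζ)^a`, of `ℤ[Gal(Ω_q/ℚ_q)]`-modules. -/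
noncomputable def zetaMap :
    toIntRep (localMu p q) ⟶ unitsRep ℚ_[q] (PadicAlgCl q) :=
  Rep.ofHom ⟨(zetaHom q hζ).toIntLinearMap, fun g => by
    refine LinearMap.ext fun a => ?_
    exact zetaHom_mul_cycloChar q hζ g a⟩

lemma zetaMap_hom_apply (a : ZMod p) : (zetaMap q hζ).hom a = zetaHom q hζ a := rfl

lemma zetaMap_comp_eq_zero :
    zetaMap q hζ ≫ (p • 𝟙 (unitsRep ℚ_[q] (PadicAlgCl q))) = 0 :=
  kummer_zero_of (zetaMap q hζ) p fun z => by
    have h : ∀ y : ZMod p, p • y = 0 := fun y => by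
      rw [nsmul_eq_mul, ZMod.natCast_self, zero_mul]
    exact h z

lemma exists_pow_eq_padicAlgCl (x : PadicAlgCl q) : ∃ y : PadicAlgCl q, y ^ p = x :=
  IsAlgClosed.exists_pow_nat_eq x (Fact.out : p.Prime).pos

/-- **The local Kummer sequence** `0 → 𝔽_p(χ_cyc) → Ω_qˣ --p--> Ω_qˣ → 0`. -/
theorem zeta_shortExact :
    (ShortComplex.mk (zetaMap q hζ) (p • 𝟙 (unitsRep ℚ_[q] (PadicAlgCl q)))
      (zetaMap_comp_eq_zero q hζ)).ShortExact :=
  kummer_shortExact_of (zetaMap q hζ) p (zetaHom_injective q hζ)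
    (fun e he => exists_zetaHom_eq q hζ e he)
    (unitsRep_divisible p (NeZero.ne p) (exists_pow_eq_padicAlgCl q)) _

/-! ### The invariant in the types of the bridge / cone side -/

open Fermat.Agent.S55.Local.KrullLocal Fermat.Agent.S55.LevelTransport

instance isDiscrete_krullLevel_toIntRep_localMu :
    Level.IsDiscrete (krullLevel ℚ_[q] (PadicAlgCl q)) (toIntRep (localMu p q)) := by
  obtain ⟨ζ, hζ⟩ := exists_primitiveRoot p
  exact Devissage.isDiscrete_of_injective (zetaMap q hζ) (zetaHom_injective q hζ)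

/-- `𝔽_p(χ_cyc)` is discrete for the local level structure (no hypothesis on `q`). -/
theorem isDiscrete_localLevel_localMu :
    Level.IsDiscrete (localLevel (localGaloisToGlobal q)) (localMu p q) := ⟨fun a => by
  obtain ⟨U, hU, h⟩ := Level.IsDiscrete.exists_fix (𝒰 := krullLevel ℚ_[q] (PadicAlgCl q))
    (A := toIntRep (localMu p q)) a
  exact ⟨U, (mem_localLevel_iff q U).2 hU, h⟩⟩

variable [Level.IsDiscrete (localLevel (localGaloisToGlobal q)) (localMu p q)]

/-- Change of scalars and of level structure: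
`H²(localLevel, 𝔽_p(χ)) ≃+ H²(krullLevel, 𝔽_p(χ) as a ℤ-module)`. -/
noncomputable def toKrull (n : ℕ) :
    levelCohomology (localLevel (localGaloisToGlobal q)) (localMu p q) n ≃+
      levelCohomology (krullLevel ℚ_[q] (PadicAlgCl q)) (toIntRep (localMu p q)) n :=
  (levelCohomologyIntEquiv (localMu p q) (localLevel (localGaloisToGlobal q)) n).symm.trans
    (levelCohomologyIsoOfSetsEq (toIntRep (localMu p q))
      (congrArg LevelStructure.sets (localLevel_eq_krullLevel q)) n).toLinearEquiv.toAddEquiv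

/-- **The local Kummer map into the Brauer group**
`H²(ℚ_q, 𝔽_p(χ_cyc)) →+ H²(Gal(Ω_q/ℚ_q), Ω_qˣ)` (`κ_q` of the Brauer chase, over `ℚ`). -/
noncomputable def locBr :
    levelCohomology (localLevel (localGaloisToGlobal q)) (localMu p q) 2 →+
      levelCohomology (krullLevel ℚ_[q] (PadicAlgCl q)) (unitsRep ℚ_[q] (PadicAlgCl q)) 2 :=
  (Hmap (krullLevel ℚ_[q] (PadicAlgCl q)) (zetaMap q hζ) 2).hom.toAddMonoidHom.comp
    (toKrull (p := p) q 2).toAddMonoidHom

lemma locBr_apply (x : levelCohomology (localLevel (localGaloisToGlobal q)) (localMu p q) 2) :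
    locBr q hζ x =
      (Hmap (krullLevel ℚ_[q] (PadicAlgCl q)) (zetaMap q hζ) 2).hom (toKrull (p := p) q 2 x) := rfl

/-- `κ_q` is injective (local Hilbert 90). -/
theorem locBr_injective : Function.Injective (locBr q hζ) := by
  intro x y hxy
  apply (toKrull (p := p) q 2).injective
  exact Hmap_two_injective (zeta_shortExact q hζ) hxy

/-- The image of `κ_q` is the `p`-torsion of the Brauer group. -/
theorem exists_locBr_eq
    (z : levelCohomology (krullLevel ℚ_[q] (PadicAlgCl q)) (unitsRep ℚ_[q] (PadicAlgCl q)) 2)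
    (hz : p • z = 0) : ∃ x, locBr q hζ x = z := by
  obtain ⟨y, hy⟩ := (kummer_nsmul_eq_zero_iff (krullLevel ℚ_[q] (PadicAlgCl q))
    (zeta_shortExact q hζ) 2 z).1 hz
  exact ⟨(toKrull (p := p) q 2).symm y, by rw [locBr_apply, AddEquiv.apply_symm_apply, hy]⟩

variable (F : Formation (krullLevel ℚ_[q] (PadicAlgCl q)) (unitsRep ℚ_[q] (PadicAlgCl q)))

/-- **The local invariant** `inv_q : H²(ℚ_q, 𝔽_p(χ_cyc)) →ₗ[𝔽_p] 𝔽_p` in the types of the bridge /
cone side, from the local class formation `F` (LOC5). -/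
noncomputable def invQ :
    levelCohomology (localLevel (localGaloisToGlobal q)) (localMu p q) 2 →ₗ[ZMod p] ZMod p :=
  AddMonoidHom.toZModLinearMap p
    ((invK F (zeta_shortExact q hζ)).comp (toKrull (p := p) q 2).toAddMonoidHom)

lemma invQ_apply (x : levelCohomology (localLevel (localGaloisToGlobal q)) (localMu p q) 2) :
    invQ q hζ F x = invK F (zeta_shortExact q hζ) (toKrull (p := p) q 2 x) := rfl

/-- **The defining formula**: `inv_q(x)/p = inv_{ℚ_q}(κ_q x)` in `ℝ/ℤ`. -/
theorem toAddCircle_invQ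
    (x : levelCohomology (localLevel (localGaloisToGlobal q)) (localMu p q) 2) :
    ZMod.toAddCircle (invQ q hζ F x) = F.inv (locBr q hζ x) := by
  rw [invQ_apply, toAddCircle_invK, locBr_apply]

/-- **`inv_q` is bijective.** -/
theorem invQ_bijective : Function.Bijective (invQ q hζ F) :=
  (invK_bijective F (zeta_shortExact q hζ)).comp (toKrull (p := p) q 2).bijective

theorem invQ_injective : Function.Injective (invQ q hζ F) := (invQ_bijective q hζ F).1

theorem invQ_surjective : Function.Surjective (invQ q hζ F) := (invQ_bijective q hζ F).2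

end Concrete

/-! ### Frozen types: `primeLocalToGlobal q`, `q : Nat.Primes` -/

section Primes

open ExtCitation groupCohomology Fermat.Agent.S55.DualTwist

variable {p : ℕ} [Fact p.Prime] (q : Nat.Primes)

local notation "Qbar" => AlgebraicClosure ℚ

local instance factPrime_LI : Fact (q : ℕ).Prime := ⟨q.2⟩

/-- `𝔽_p(χ_cyc)` is discrete for the local level structure, frozen types. -/
theorem isDiscrete_localLevel_primeLocalToGlobal :
    Level.IsDiscrete (localLevel (primeLocalToGlobal q))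
      (Rep.res (primeLocalToGlobal q) (ofChar (k := ZMod p) (cycloChar p))) :=
  isDiscrete_localLevel_localMu (p := p) (q : ℕ)

variable {ζ : Qbar} (hζ : IsPrimitiveRoot ζ p)
  [hd : Level.IsDiscrete (localLevel (primeLocalToGlobal q))
    (Rep.res (primeLocalToGlobal q) (ofChar (k := ZMod p) (cycloChar p)))]
  (F : Formation (krullLevel ℚ_[(q : ℕ)] (PadicAlgCl (q : ℕ)))
    (unitsRep ℚ_[(q : ℕ)] (PadicAlgCl (q : ℕ))))

/-- **The local invariant in the frozen types of `Assembly.localData`.** -/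
noncomputable def invPrime :
    levelCohomology (localLevel (primeLocalToGlobal q))
      (Rep.res (primeLocalToGlobal q) (ofChar (k := ZMod p) (cycloChar p))) 2 →ₗ[ZMod p] ZMod p :=
  haveI : Level.IsDiscrete (localLevel (localGaloisToGlobal (q : ℕ))) (localMu p (q : ℕ)) := hd
  invQ (p := p) (q : ℕ) hζ F

theorem invPrime_bijective : Function.Bijective (invPrime q hζ F) :=
  haveI : Level.IsDiscrete (localLevel (localGaloisToGlobal (q : ℕ))) (localMu p (q : ℕ)) := hd
  invQ_bijective (p := p) (q : ℕ) hζ F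

/-- The local Kummer map into the Brauer group, frozen types. -/
noncomputable def locBrPrime :
    levelCohomology (localLevel (primeLocalToGlobal q))
      (Rep.res (primeLocalToGlobal q) (ofChar (k := ZMod p) (cycloChar p))) 2 →+
      levelCohomology (krullLevel ℚ_[(q : ℕ)] (PadicAlgCl (q : ℕ)))
        (unitsRep ℚ_[(q : ℕ)] (PadicAlgCl (q : ℕ))) 2 :=
  haveI : Level.IsDiscrete (localLevel (localGaloisToGlobal (q : ℕ))) (localMu p (q : ℕ)) := hd
  locBr (p := p) (q : ℕ) hζ

theorem locBrPrime_injective : Function.Injective (locBrPrime q hζ) :=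
  haveI : Level.IsDiscrete (localLevel (localGaloisToGlobal (q : ℕ))) (localMu p (q : ℕ)) := hd
  locBr_injective (p := p) (q : ℕ) hζ

theorem toAddCircle_invPrime
    (x : levelCohomology (localLevel (primeLocalToGlobal q))
      (Rep.res (primeLocalToGlobal q) (ofChar (k := ZMod p) (cycloChar p))) 2) :
    ZMod.toAddCircle (invPrime q hζ F x) = F.inv (locBrPrime q hζ x) :=
  haveI : Level.IsDiscrete (localLevel (localGaloisToGlobal (q : ℕ))) (localMu p (q : ℕ)) := hd
  toAddCircle_invQ (p := p) (q : ℕ) hζ F x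

end Primes

end Fermat.Agent.S55.Local.LocalInv
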