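import Mathlib
import Fermat.Agent.S55.Local.UnitFiltration

/-!
# S55 local arithmetic core, A3: the `p`-th power map on the unit filtration

For a complete discrete valuation ring `O` with `(p) = 𝔪^e` (`e = 0` allowed: `p` a unit), the map
`u ↦ u^p` is a bijection `U^(n) → U^(n+e)` as soon as `n ≥ 1` and `(p-1) n > e`.
-/

set_option linter.style.haveILetI false
set_option linter.unusedSectionVars false

namespace Fermat.Agent.S55.Local

open IsLocalRing Finset

/-- Binomial congruence: if `p ∈ J^e`, `x ∈ J^m`, `m ≥ 1` and `(p-1) m ≥ e + 1`, then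
`(1 + x)^p ≡ 1 + p x mod J^(m+e+1)`. -/
theorem one_add_pow_sub_mem {O : Type*} [CommRing O] (J : Ideal O) {p : ℕ} (hp : p.Prime)
    {m e : ℕ} (hpJ : (p : O) ∈ J ^ e) (hm : 1 ≤ m) (hme : e + 1 ≤ (p - 1) * m) {x : O}
    (hx : x ∈ J ^ m) : (1 + x) ^ p - 1 - p * x ∈ J ^ (m + e + 1) := by
  obtain ⟨q, rfl⟩ : ∃ q, p = q + 2 := ⟨p - 2, by have := hp.two_le; omega⟩
  have hexp : (1 + x) ^ (q + 2) - 1 - ((q + 2 : ℕ) : O) * x =
      ∑ j ∈ range (q + 1), x ^ (j + 2) * ((q + 2).choose (j + 2) : O) := by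
    rw [add_comm 1 x, add_pow, Finset.sum_range_succ', Finset.sum_range_succ']
    simp only [one_pow, mul_one, pow_zero, Nat.choose_zero_right, Nat.cast_one, zero_add, pow_one,
      Nat.choose_one_right]
    ring
  rw [hexp]
  refine Ideal.sum_mem _ (fun j hj => ?_)
  have hj' : j < q + 1 := Finset.mem_range.1 hj
  have hxj : x ^ (j + 2) ∈ J ^ (m * (j + 2)) := by
    rw [pow_mul]; exact Ideal.pow_mem_pow hx _
  by_cases hjq : j = q
  · subst hjq
    rw [Nat.choose_self, Nat.cast_one, mul_one]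
    refine Ideal.pow_le_pow_right ?_ hxj
    have : (j + 2 - 1) * m = (j + 1) * m := by congr 1
    rw [this] at hme
    nlinarith
  · have hlt : j + 2 < q + 2 := by omega
    have hdvd : (q + 2) ∣ (q + 2).choose (j + 2) := hp.dvd_choose_self (by omega) hlt
    obtain ⟨c, hc⟩ := hdvd
    rw [hc, Nat.cast_mul]
    have h1 : x ^ (j + 2) * (((q + 2 : ℕ) : O) * (c : O)) ∈ J ^ (m * (j + 2)) * J ^ e :=
      Ideal.mul_mem_mul hxj (Ideal.mul_mem_right (c : O) _ hpJ)
    rw [← pow_add] at h1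
    refine Ideal.pow_le_pow_right ?_ h1
    nlinarith

section DVR

variable {O : Type*} [CommRing O] [IsDomain O] [IsDiscreteValuationRing O]
variable {p : ℕ} (hp : p.Prime) {e : ℕ} (hpe : Ideal.span {(p : O)} = maximalIdeal O ^ e)

include hpe in
theorem natCast_mem_pow : (p : O) ∈ maximalIdeal O ^ e :=
  hpe ▸ Ideal.mem_span_singleton_self _

include hpe in
theorem natCast_ne_zero' : (p : O) ≠ 0 := by
  intro h
  rw [h, Ideal.span_singleton_eq_bot.2 rfl] at hpe
  exact pow_ne_zero e (IsDiscreteValuationRing.not_a_field O) hpe.symm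

include hpe in
/-- Elements of `𝔪^(k+e)` are `p` times elements of `𝔪^k`. -/
theorem exists_eq_natCast_mul {k : ℕ} {a : O} (ha : a ∈ maximalIdeal O ^ (k + e)) :
    ∃ b ∈ maximalIdeal O ^ k, a = p * b := by
  rw [add_comm, pow_add, ← hpe, Ideal.mem_span_singleton_mul] at ha
  obtain ⟨b, hb, rfl⟩ := ha
  exact ⟨b, hb, rfl⟩

include hp hpe in
theorem pow_mem_unitFil {m : ℕ} (hm : 1 ≤ m) (hme : e + 1 ≤ (p - 1) * m) {u : Oˣ}
    (hu : u ∈ unitFil O m) : u ^ p ∈ unitFil O (m + e) := by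
  rw [mem_unitFil] at hu ⊢
  set x := (u : O) - 1 with hx
  have hux : (u : O) = 1 + x := by rw [hx]; ring
  have h1 := one_add_pow_sub_mem (maximalIdeal O) hp (natCast_mem_pow hpe) hm hme hu
  have h2 : (p : O) * x ∈ maximalIdeal O ^ (m + e) := by
    rw [add_comm, pow_add]
    exact Ideal.mul_mem_mul (natCast_mem_pow hpe) hu
  have h3 : ((u ^ p : Oˣ) : O) - 1 = ((1 + x) ^ p - 1 - p * x) + p * x := by
    rw [Units.val_pow_eq_pow_val, hux]; ring
  rw [h3]
  exact Ideal.add_mem _ (Ideal.pow_le_pow_right (Nat.le_succ _) h1) h2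

include hp hpe in
theorem exists_pow_div_mem_unitFil {m : ℕ} (hm : 1 ≤ m) (hme : e + 1 ≤ (p - 1) * m) {y : Oˣ}
    (hy : y ∈ unitFil O (m + e)) :
    ∃ x ∈ unitFil O m, y / x ^ p ∈ unitFil O (m + e + 1) := by
  rw [mem_unitFil] at hy
  obtain ⟨a, ha, hya⟩ := exists_eq_natCast_mul hpe hy
  have ha1 : a ∈ maximalIdeal O := by
    have := Ideal.pow_le_pow_right hm ha
    rwa [pow_one] at this
  refine ⟨oneAddUnit a ha1, oneAddUnit_mem_unitFil a ha1 ha, div_mem_unitFil ?_⟩
  have h1 := one_add_pow_sub_mem (maximalIdeal O) hp (natCast_mem_pow hpe) hm hme ha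
  have h2 : (y : O) - ((oneAddUnit a ha1 ^ p : Oˣ) : O) = -((1 + a) ^ p - 1 - p * a) := by
    rw [Units.val_pow_eq_pow_val, coe_oneAddUnit]
    have : (y : O) = 1 + p * a := by rw [← hya]; ring
    rw [this]; ring
  rw [h2]
  exact (Ideal.neg_mem_iff _).2 h1

include hp hpe in
theorem mem_unitFil_succ_of_pow_mem {m : ℕ} (hm : 1 ≤ m) (hme : e + 1 ≤ (p - 1) * m) {u : Oˣ}
    (hu : u ∈ unitFil O m) (hup : u ^ p ∈ unitFil O (m + e + 1)) : u ∈ unitFil O (m + 1) := by
  rw [mem_unitFil] at hu hup ⊢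
  set x := (u : O) - 1 with hx
  have hux : (u : O) = 1 + x := by rw [hx]; ring
  have h1 := one_add_pow_sub_mem (maximalIdeal O) hp (natCast_mem_pow hpe) hm hme hu
  have h3 : (p : O) * x = (((u ^ p : Oˣ) : O) - 1) - ((1 + x) ^ p - 1 - p * x) := by
    rw [Units.val_pow_eq_pow_val, hux]; ring
  have h4 : (p : O) * x ∈ maximalIdeal O ^ (m + 1 + e) := by
    rw [h3, add_right_comm]
    exact Ideal.sub_mem _ hup h1
  obtain ⟨b, hb, hpb⟩ := exists_eq_natCast_mul hpe h4
  have : x = b := mul_left_cancel₀ (natCast_ne_zero' hpe) hpb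
  rwa [this]

include hp hpe in
/-- `u ↦ u^p` is injective on `U^(n)` for `n ≥ 1`, `(p-1) n > e`. -/
theorem eq_one_of_pow_eq_one [IsHausdorff (maximalIdeal O) O] {n : ℕ} (hn : 1 ≤ n)
    (hne : e + 1 ≤ (p - 1) * n) {u : Oˣ} (hu : u ∈ unitFil O n) (hup : u ^ p = 1) : u = 1 := by
  have hall : ∀ i, u ∈ unitFil O (n + i) := by
    intro i
    induction i with
    | zero => simpa using hu
    | succ i ih =>
      have hm : 1 ≤ n + i := le_trans hn (Nat.le_add_right _ _)
      have hme : e + 1 ≤ (p - 1) * (n + i) :=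
        le_trans hne (Nat.mul_le_mul_left _ (Nat.le_add_right _ _))
      have := mem_unitFil_succ_of_pow_mem hp hpe hm hme ih (by rw [hup]; exact one_mem _)
      simpa [add_assoc] using this
  exact unitFil_separated u (fun k => unitFil_antitone (Nat.le_add_left k n) (hall k))

include hp hpe in
/-- `u ↦ u^p` maps `U^(n)` onto `U^(n+e)` for `n ≥ 1`, `(p-1) n > e`. -/
theorem exists_pow_eq [IsAdicComplete (maximalIdeal O) O] {n : ℕ} (hn : 1 ≤ n)
    (hne : e + 1 ≤ (p - 1) * n) {y : Oˣ} (hy : y ∈ unitFil O (n + e)) :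
    ∃ x ∈ unitFil O n, x ^ p = y := by
  have hm : ∀ i, 1 ≤ n + i := fun i => le_trans hn (Nat.le_add_right _ _)
  have hme : ∀ i, e + 1 ≤ (p - 1) * (n + i) := fun i =>
    le_trans hne (Nat.mul_le_mul_left _ (Nat.le_add_right _ _))
  have key := exists_preimage_of_graded_zero (Fil := fun i => unitFilAdd O (n + i))
    (Fil' := fun i => unitFilAdd O (n + e + i)) (filComplete_unitFilAdd.shift n)
    (filSeparated_unitFilAdd.shift unitFilAdd_antitone (n + e))
    (nsmulAddMonoidHom p : Additive Oˣ →+ Additive Oˣ)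
    (fun i x hx => by
      have := pow_mem_unitFil hp hpe (hm i) (hme i) (mem_unitFilAdd.1 hx)
      rw [add_right_comm] at this
      exact this)
    ⊤ (fun _ => AddSubgroup.mem_top _)
    (fun i y _ hy => by
      have hy' : Additive.toMul y ∈ unitFil O (n + i + e) := by
        have := mem_unitFilAdd.1 hy; rwa [add_right_comm] at this
      obtain ⟨x, hx, hx'⟩ := exists_pow_div_mem_unitFil hp hpe (hm i) (hme i) hy'
      refine ⟨Additive.ofMul x, hx, ?_⟩
      have : n + e + (i + 1) = n + i + e + 1 := by ring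
      rw [mem_unitFilAdd, this]
      exact hx')
    (Additive.ofMul y) (AddSubgroup.mem_top _) (by
      show Additive.ofMul y ∈ unitFilAdd O (n + e + 0)
      rw [add_zero]; exact hy)
  obtain ⟨x, hx, hxy⟩ := key
  refine ⟨Additive.toMul x, ?_, hxy⟩
  have : x ∈ unitFilAdd O (n + 0) := hx
  rw [add_zero] at this
  exact this

end DVR

end Fermat.Agent.S55.Local
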