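import Mathlib
import Fermat.Agent.S55.Local.PowerIndex
import Fermat.Agent.S55.Local.ValZ
import Fermat.Agent.S14.Herbrand
import Fermat.Agent.S14.HerbrandCyclic

/-!
# S55 local arithmetic core: the index of `p`-th powers in a local field

For a complete DVR `O` with finite residue field `k`, fraction field `F`, a prime number `p` with
`(p) = 𝔪^e` (`e = 0` iff `p` is invertible in `O`):
* `relIndex_unitFil`: `[U^(n) : U^(n+e)] = |k|^e` for `1 ≤ n`, `e ≤ n`;
* `index_range_pow_units`: `[U : U^p] = |μ_p(O)| · |O/pO|`;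
* `index_range_pow_field_units`: `[Fˣ : Fˣ^p] = p · |μ_p(F)| · |O/pO|`;
* `exists_pow_eq_iff_of_isUnit`: if `p` is invertible, a unit is a `p`-th power iff its residue is.
The index computations run in the Herbrand calculus of `Fermat.Agent.S14.Herbrand` with `f = 0`,
`g = p •`.
-/

set_option linter.style.haveILetI false
set_option linter.unusedSectionVars false

namespace Fermat.Agent.S55.Local

open IsLocalRing Finset

section Index

variable {O : Type*} [CommRing O] [IsDomain O] [IsDiscreteValuationRing O]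

/-- `|O ⧸ 𝔪^i| = |k|^i`. -/
theorem card_quotient_maximalIdeal_pow (i : ℕ) :
    Nat.card (O ⧸ maximalIdeal O ^ i) = Nat.card (ResidueField O) ^ i := by
  have h := cardQuot_pow_of_prime (P := maximalIdeal O) (IsDiscreteValuationRing.not_a_field O)
    (i := i)
  rw [Submodule.cardQuot_apply, Submodule.cardQuot_apply] at h
  exact h

/-- The homomorphism `U^(n) → O ⧸ 𝔪^(n+e)`, `u ↦ u - 1`, for `e ≤ n`. -/
noncomputable def unitFilSubOne {n e : ℕ} (hne : e ≤ n) :
    unitFil O n →* Multiplicative (O ⧸ maximalIdeal O ^ (n + e)) where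
  toFun u := Multiplicative.ofAdd (Ideal.Quotient.mk _ (((u : Oˣ) : O) - 1))
  map_one' := by simp
  map_mul' u v := by
    rw [← ofAdd_add, ← map_add]
    congr 1
    rw [Ideal.Quotient.eq]
    have hu := mem_unitFil.1 u.2
    have hv := mem_unitFil.1 v.2
    have : (((u * v : unitFil O n) : Oˣ) : O) - 1 - ((((u : Oˣ) : O) - 1) + (((v : Oˣ) : O) - 1)) =
        (((u : Oˣ) : O) - 1) * (((v : Oˣ) : O) - 1) := by
      simp only [Subgroup.coe_mul, Units.val_mul]; ring
    rw [this]
    have h2 : (((u : Oˣ) : O) - 1) * (((v : Oˣ) : O) - 1) ∈ maximalIdeal O ^ (n + n) := by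
      rw [pow_add]; exact Ideal.mul_mem_mul hu hv
    exact Ideal.pow_le_pow_right (by omega) h2

theorem ker_unitFilSubOne {n e : ℕ} (hne : e ≤ n) :
    (unitFilSubOne (O := O) hne).ker = (unitFil O (n + e)).subgroupOf (unitFil O n) := by
  ext u
  rw [MonoidHom.mem_ker, Subgroup.mem_subgroupOf, mem_unitFil]
  simp only [unitFilSubOne, MonoidHom.coe_mk, OneHom.coe_mk]
  rw [← ofAdd_zero, Multiplicative.ofAdd.injective.eq_iff, Ideal.Quotient.eq_zero_iff_mem]

theorem card_range_unitFilSubOne [Finite (ResidueField O)] {n e : ℕ} (hn : 1 ≤ n) (hne : e ≤ n) :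
    Nat.card (unitFilSubOne (O := O) hne).range = Nat.card (ResidueField O) ^ e := by
  haveI : Finite (O ⧸ maximalIdeal O) := inferInstanceAs (Finite (ResidueField O))
  haveI hfin : ∀ i, Finite (O ⧸ maximalIdeal O ^ i) := fun i =>
    Ideal.finite_quotient_pow (IsNoetherian.noetherian _) i
  have hle : maximalIdeal O ^ (n + e) ≤ maximalIdeal O ^ n := Ideal.pow_le_pow_right (by omega)
  let ψ : (O ⧸ maximalIdeal O ^ (n + e)) →+ (O ⧸ maximalIdeal O ^ n) :=
    (Ideal.Quotient.factor hle).toAddMonoidHom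
  have hψ : Function.Surjective ψ := Ideal.Quotient.factor_surjective hle
  -- the range is the kernel of ψ
  have hrange : ∀ q : Multiplicative (O ⧸ maximalIdeal O ^ (n + e)),
      q ∈ (unitFilSubOne (O := O) hne).range ↔ Multiplicative.toAdd q ∈ ψ.ker := by
    intro q
    constructor
    · rintro ⟨u, rfl⟩
      simp only [unitFilSubOne, MonoidHom.coe_mk, OneHom.coe_mk, toAdd_ofAdd, AddMonoidHom.mem_ker, ψ]
      show Ideal.Quotient.factor hle (Ideal.Quotient.mk _ _) = 0
      rw [Ideal.Quotient.factor_mk, Ideal.Quotient.eq_zero_iff_mem]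
      exact mem_unitFil.1 u.2
    · intro hq
      obtain ⟨x, hx⟩ := Ideal.Quotient.mk_surjective (Multiplicative.toAdd q)
      have hxn : x ∈ maximalIdeal O ^ n := by
        rw [AddMonoidHom.mem_ker, ← hx] at hq
        have : Ideal.Quotient.factor hle (Ideal.Quotient.mk _ x) = 0 := hq
        rwa [Ideal.Quotient.factor_mk, Ideal.Quotient.eq_zero_iff_mem] at this
      have hx1 : x ∈ maximalIdeal O := by
        have := Ideal.pow_le_pow_right hn hxn
        rwa [pow_one] at this
      refine ⟨⟨oneAddUnit x hx1, oneAddUnit_mem_unitFil x hx1 hxn⟩, ?_⟩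
      simp only [unitFilSubOne, MonoidHom.coe_mk, OneHom.coe_mk, coe_oneAddUnit, add_sub_cancel_left]
      rw [hx]; rfl
  have hcard : Nat.card (unitFilSubOne (O := O) hne).range = Nat.card ψ.ker := by
    refine Nat.card_congr ?_
    exact
      { toFun := fun q => ⟨Multiplicative.toAdd q.1, (hrange q.1).1 q.2⟩
        invFun := fun a => ⟨Multiplicative.ofAdd a.1, (hrange _).2 a.2⟩
        left_inv := fun q => rfl
        right_inv := fun a => rfl }
  rw [hcard]
  have h1 : Nat.card ψ.ker * ψ.ker.index = Nat.card (O ⧸ maximalIdeal O ^ (n + e)) :=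
    AddSubgroup.card_mul_index _
  rw [AddSubgroup.index_ker, AddMonoidHom.range_eq_top.2 hψ] at h1
  have h2 : Nat.card (⊤ : AddSubgroup (O ⧸ maximalIdeal O ^ n)) =
      Nat.card (O ⧸ maximalIdeal O ^ n) := Nat.card_congr (Equiv.Set.univ _)
  rw [h2, card_quotient_maximalIdeal_pow, card_quotient_maximalIdeal_pow] at h1
  have hk : 0 < Nat.card (ResidueField O) ^ n := pow_pos Nat.card_pos n
  have h3 : Nat.card ψ.ker * Nat.card (ResidueField O) ^ n =
      Nat.card (ResidueField O) ^ e * Nat.card (ResidueField O) ^ n := by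
    rw [h1, ← pow_add, add_comm]
  exact Nat.eq_of_mul_eq_mul_right hk h3

/-- `[U^(n) : U^(n+e)] = |k|^e` for `1 ≤ n`, `e ≤ n`. -/
theorem relIndex_unitFil [Finite (ResidueField O)] {n e : ℕ} (hn : 1 ≤ n) (hne : e ≤ n) :
    (unitFil O (n + e)).relIndex (unitFil O n) = Nat.card (ResidueField O) ^ e := by
  rw [Subgroup.relIndex, ← ker_unitFilSubOne hne, Subgroup.index_ker,
    card_range_unitFilSubOne hn hne]

end Index

section General

open Fermat.Agent.S14.Herbrand

variable {M : Type*} [AddCommGroup M]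

/-- Index of `pM` through a finite-index subgroup `A` without `p`-torsion:
`[M : pM] = |M[p]| · [A : pA]`. -/
theorem index_range_nsmul_of_finiteIndex (p : ℕ) {A : AddSubgroup M} (hA : A.index ≠ 0)
    (htf : ∀ a ∈ A, p • a = 0 → a = 0) :
    (nsmulAddMonoidHom p : M →+ M).range.index =
      Nat.card (nsmulAddMonoidHom p : M →+ M).ker *
        (A.map (nsmulAddMonoidHom p : M →+ M)).relIndex A := by
  set g : M →+ M := nsmulAddMonoidHom p with hg
  have hAf : A.map (0 : M →+ M) ≤ A := by
    rw [AddSubgroup.map_zero_eq_bot]; exact bot_le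
  have hAg : A.map g ≤ A := by
    rintro _ ⟨a, ha, rfl⟩
    exact A.nsmul_mem ha p
  have h := hIdx_mul_hSub_of_finiteIndex (f := (0 : M →+ M)) (g := g) (fun x => rfl)
    (fun x => map_zero g) hAf hAg hA
  have e1 : hIdx (0 : M →+ M) g = g.range.index := by
    rw [hIdx, AddMonoidHom.ker_zero, AddSubgroup.relIndex_top_right]
  have e2 : hSub g (0 : M →+ M) A = 1 := by
    rw [hSub, AddSubgroup.map_zero_eq_bot, AddSubgroup.relIndex_bot_left]
    have : A ⊓ g.ker = ⊥ := by
      rw [eq_bot_iff]
      rintro a ⟨ha, hga⟩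
      exact htf a ha hga
    rw [this]
    exact Nat.card_unique
  have e3 : hIdx g (0 : M →+ M) = Nat.card g.ker := by
    rw [hIdx, AddMonoidHom.range_zero, AddSubgroup.relIndex_bot_left]
  have e4 : hSub (0 : M →+ M) g A = (A.map g).relIndex A := by
    rw [hSub, AddMonoidHom.ker_zero, inf_top_eq]
  rw [e1, e2, e3, e4, mul_one] at h
  exact h

end General

section PthPowers

open Fermat.Agent.S14.Herbrand

variable {O : Type*} [CommRing O] [IsDomain O] [IsDiscreteValuationRing O]
  [IsAdicComplete (maximalIdeal O) O] [Finite (ResidueField O)]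
variable {p : ℕ} (hp : p.Prime) {e : ℕ} (hpe : Ideal.span {(p : O)} = maximalIdeal O ^ e)

include hp hpe in
/-- `(U^(n))^p = U^(n+e)` for `n ≥ 1`, `(p-1) n > e`. -/
theorem map_nsmul_unitFilAdd {n : ℕ} (hn : 1 ≤ n) (hne : e + 1 ≤ (p - 1) * n) :
    (unitFilAdd O n).map (nsmulAddMonoidHom p : Additive Oˣ →+ Additive Oˣ) =
      unitFilAdd O (n + e) := by
  ext x
  constructor
  · rintro ⟨a, ha, rfl⟩
    exact pow_mem_unitFil hp hpe hn hne ha
  · intro hx
    obtain ⟨y, hy, hyx⟩ := exists_pow_eq hp hpe hn hne hx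
    exact ⟨Additive.ofMul y, hy, congrArg Additive.ofMul hyx⟩

include hp hpe in
/-- `[U : U^p] = |U[p]| · |k|^e` (additive form). -/
theorem index_range_nsmul_units :
    (nsmulAddMonoidHom p : Additive Oˣ →+ Additive Oˣ).range.index =
      Nat.card (nsmulAddMonoidHom p : Additive Oˣ →+ Additive Oˣ).ker *
        Nat.card (ResidueField O) ^ e := by
  have hn : 1 ≤ e + 1 := by omega
  have hne : e + 1 ≤ (p - 1) * (e + 1) := by
    have := hp.two_le
    calc e + 1 = 1 * (e + 1) := (one_mul _).symm
      _ ≤ (p - 1) * (e + 1) := Nat.mul_le_mul_right _ (by omega)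
  have hA : (unitFilAdd O (e + 1)).index ≠ 0 := by
    rw [unitFilAdd, Subgroup.index_toAddSubgroup]
    exact (finiteIndex_unitFil (O := O) (e + 1)).index_ne_zero
  have htf : ∀ a ∈ unitFilAdd O (e + 1), p • a = 0 → a = 0 := by
    intro a ha h
    have h' : (Additive.toMul a) ^ p = 1 := h
    have := eq_one_of_pow_eq_one hp hpe hn hne ha h'
    exact this
  rw [index_range_nsmul_of_finiteIndex p hA htf, map_nsmul_unitFilAdd hp hpe hn hne,
    unitFilAdd, unitFilAdd, Subgroup.relIndex_toAddSubgroup,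
    relIndex_unitFil hn (Nat.le_succ e)]

/-- Dictionary: the range of `p •` on `Additive G` is the range of `x ↦ x^p`. -/
theorem range_nsmul_additive (G : Type*) [CommGroup G] (p : ℕ) :
    (nsmulAddMonoidHom p : Additive G →+ Additive G).range =
      Subgroup.toAddSubgroup (powMonoidHom p : G →* G).range := by
  ext x
  constructor
  · rintro ⟨y, rfl⟩
    exact ⟨Additive.toMul y, rfl⟩
  · rintro ⟨y, hy⟩
    exact ⟨Additive.ofMul y, congrArg Additive.ofMul hy⟩

/-- Dictionary: the kernel of `p •` on `Additive Rˣ` has the cardinality of `μ_p(R)`. -/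
theorem card_ker_nsmul_additive_units (R : Type*) [CommMonoid R] (p : ℕ) :
    Nat.card (nsmulAddMonoidHom p : Additive Rˣ →+ Additive Rˣ).ker =
      Nat.card (rootsOfUnity p R) := by
  refine Nat.card_congr ?_
  exact
    { toFun := fun x => ⟨Additive.toMul x.1, by
        rw [mem_rootsOfUnity]
        have : p • x.1 = 0 := x.2
        exact this⟩
      invFun := fun u => ⟨Additive.ofMul u.1, by
        have : u.1 ^ p = 1 := (mem_rootsOfUnity _ _).1 u.2
        exact this⟩
      left_inv := fun x => rfl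
      right_inv := fun u => rfl }

include hpe in
theorem card_quotient_span_natCast :
    Nat.card (O ⧸ Ideal.span {(p : O)}) = Nat.card (ResidueField O) ^ e := by
  rw [hpe, card_quotient_maximalIdeal_pow]

include hp hpe in
/-- **`[U : U^p] = |μ_p(O)| · |O/pO|`** for the units of a complete DVR with finite residue
field. -/
theorem index_range_pow_units :
    (powMonoidHom p : Oˣ →* Oˣ).range.index =
      Nat.card (rootsOfUnity p O) * Nat.card (O ⧸ Ideal.span {(p : O)}) := by
  rw [← Subgroup.index_toAddSubgroup, ← range_nsmul_additive, index_range_nsmul_units hp hpe,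
    card_ker_nsmul_additive_units, card_quotient_span_natCast hpe]

end PthPowers

section FieldPthPowers

open Fermat.Agent.S14.Herbrand

variable {O : Type*} [CommRing O] [IsDomain O] [IsDiscreteValuationRing O]
  [IsAdicComplete (maximalIdeal O) O] [Finite (ResidueField O)]
  (F : Type*) [Field F] [Algebra O F] [IsFractionRing O F]
variable {p : ℕ} (hp : p.Prime) {e : ℕ} (hpe : Ideal.span {(p : O)} = maximalIdeal O ^ e)

include hp hpe in
/-- `[Fˣ : Fˣ^p] = p · |Fˣ[p]| · |k|^e` (additive form). -/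
theorem index_range_nsmul_field_units :
    (nsmulAddMonoidHom p : Additive Fˣ →+ Additive Fˣ).range.index =
      p * Nat.card (nsmulAddMonoidHom p : Additive Fˣ →+ Additive Fˣ).ker *
        Nat.card (ResidueField O) ^ e := by
  let ι : Additive Oˣ →+ Additive Fˣ :=
    MonoidHom.toAdditive (Units.map (algebraMap O F).toMonoidHom)
  let π : Additive Fˣ →+ ℤ := MonoidHom.toAdditiveLeft (valZ O F)
  have hι : Function.Injective ι := fun x y h =>
    units_map_injective (O := O) (F := F) h
  have hπ : Function.Surjective π := fun z => by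
    obtain ⟨x, hx⟩ := valZ_surjective (O := O) (F := F) (Multiplicative.ofAdd z)
    exact ⟨Additive.ofMul x, congrArg Multiplicative.toAdd hx⟩
  have hex : ι.range = π.ker := by
    ext x
    have h := ker_valZ (O := O) (F := F)
    constructor
    · rintro ⟨u, rfl⟩
      have : Units.map (algebraMap O F).toMonoidHom (Additive.toMul u) ∈ (valZ O F).ker := by
        rw [h]; exact ⟨_, rfl⟩
      exact congrArg Multiplicative.toAdd (MonoidHom.mem_ker.1 this)
    · intro hx
      have hx' : Additive.toMul x ∈ (valZ O F).ker := by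
        rw [MonoidHom.mem_ker]
        exact congrArg Multiplicative.ofAdd (AddMonoidHom.mem_ker.1 hx)
      rw [h] at hx'
      obtain ⟨u, hu⟩ := hx'
      exact ⟨Additive.ofMul u, congrArg Additive.ofMul hu⟩
  have key := herbrand_exact (f' := (0 : Additive Oˣ →+ Additive Oˣ))
    (g' := nsmulAddMonoidHom p) (f := (0 : Additive Fˣ →+ Additive Fˣ))
    (g := nsmulAddMonoidHom p) (f'' := (0 : ℤ →+ ℤ)) (g'' := nsmulAddMonoidHom p)
    ι π hι hπ hex (fun x => (map_zero ι).symm) (fun x => (map_nsmul ι p x).symm)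
    (fun x => (map_zero π).symm) (fun x => (map_nsmul π p x).symm) (fun x => rfl)
    (fun x => map_zero _)
  -- identify the six indices
  have hF1 : hIdx (0 : Additive Fˣ →+ Additive Fˣ) (nsmulAddMonoidHom p) =
      (nsmulAddMonoidHom p : Additive Fˣ →+ Additive Fˣ).range.index := by
    rw [hIdx, AddMonoidHom.ker_zero, AddSubgroup.relIndex_top_right]
  have hF2 : hIdx (nsmulAddMonoidHom p) (0 : Additive Fˣ →+ Additive Fˣ) =
      Nat.card (nsmulAddMonoidHom p : Additive Fˣ →+ Additive Fˣ).ker := by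
    rw [hIdx, AddMonoidHom.range_zero, AddSubgroup.relIndex_bot_left]
  have hU1 : hIdx (0 : Additive Oˣ →+ Additive Oˣ) (nsmulAddMonoidHom p) =
      (nsmulAddMonoidHom p : Additive Oˣ →+ Additive Oˣ).range.index := by
    rw [hIdx, AddMonoidHom.ker_zero, AddSubgroup.relIndex_top_right]
  have hU2 : hIdx (nsmulAddMonoidHom p) (0 : Additive Oˣ →+ Additive Oˣ) =
      Nat.card (nsmulAddMonoidHom p : Additive Oˣ →+ Additive Oˣ).ker := by
    rw [hIdx, AddMonoidHom.range_zero, AddSubgroup.relIndex_bot_left]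
  have hZ1 : hIdx (0 : ℤ →+ ℤ) (nsmulAddMonoidHom p) = p := by
    have h := int_trivial_zero p
    rw [dlt_one] at h
    have : nrm (1 : AddMonoid.End ℤ) p = nsmulAddMonoidHom p := by
      ext; simp [nrm_one_apply]
    rwa [this] at h
  have hZ2 : hIdx (nsmulAddMonoidHom p) (0 : ℤ →+ ℤ) = 1 := by
    have h := int_trivial_one hp.ne_zero
    rw [dlt_one] at h
    have : nrm (1 : AddMonoid.End ℤ) p = nsmulAddMonoidHom p := by
      ext; simp [nrm_one_apply]
    rwa [this] at h
  rw [hF1, hF2, hU1, hU2, hZ1, hZ2, index_range_nsmul_units hp hpe, mul_one] at key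
  -- cancel `|U[p]| ≠ 0`
  have hfin : Nat.card (nsmulAddMonoidHom p : Additive Oˣ →+ Additive Oˣ).ker ≠ 0 := by
    rw [card_ker_nsmul_additive_units]
    haveI : NeZero p := ⟨hp.ne_zero⟩
    exact Nat.card_pos.ne'
  have key' : (nsmulAddMonoidHom p : Additive Fˣ →+ Additive Fˣ).range.index *
      Nat.card (nsmulAddMonoidHom p : Additive Oˣ →+ Additive Oˣ).ker =
      (p * Nat.card (nsmulAddMonoidHom p : Additive Fˣ →+ Additive Fˣ).ker *
        Nat.card (ResidueField O) ^ e) *
      Nat.card (nsmulAddMonoidHom p : Additive Oˣ →+ Additive Oˣ).ker := by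
    rw [key]; ring
  exact Nat.eq_of_mul_eq_mul_right (Nat.pos_of_ne_zero hfin) key'

include hp hpe in
/-- **`[Fˣ : Fˣ^p] = p · |μ_p(F)| · |O/pO|`** for the fraction field of a complete DVR with finite
residue field (`p` may or may not be the residue characteristic; `|O/pO| = 1` if it is not). -/
theorem index_range_pow_field_units :
    (powMonoidHom p : Fˣ →* Fˣ).range.index =
      p * Nat.card (rootsOfUnity p F) * Nat.card (O ⧸ Ideal.span {(p : O)}) := by
  rw [← Subgroup.index_toAddSubgroup, ← range_nsmul_additive,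
    index_range_nsmul_field_units F hp hpe, card_ker_nsmul_additive_units,
    card_quotient_span_natCast hpe]

end FieldPthPowers

section Corollaries

variable {O : Type*} [CommRing O] [IsDomain O] [IsDiscreteValuationRing O]

/-- In a DVR every nonzero principal ideal is a power of the maximal ideal. -/
theorem exists_span_eq_maximalIdeal_pow {a : O} (ha : a ≠ 0) :
    ∃ e : ℕ, Ideal.span {a} = maximalIdeal O ^ e := by
  obtain ⟨ϖ, hϖ⟩ := IsDiscreteValuationRing.exists_irreducible O
  have hne : Ideal.span {a} ≠ ⊥ := by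
    rwa [Ne, Ideal.span_singleton_eq_bot]
  obtain ⟨e, he⟩ := IsDiscreteValuationRing.ideal_eq_span_pow_irreducible hne hϖ
  refine ⟨e, ?_⟩
  rw [he, hϖ.maximalIdeal_eq, Ideal.span_singleton_pow]

theorem span_eq_maximalIdeal_pow_zero_of_isUnit {a : O} (ha : IsUnit a) :
    Ideal.span {a} = maximalIdeal O ^ 0 := by
  rw [pow_zero, Ideal.one_eq_top, Ideal.span_singleton_eq_top]
  exact ha

variable [IsAdicComplete (maximalIdeal O) O]

/-- If `p` is invertible in `O`, then `U^(1)` is `p`-divisible. -/
theorem exists_pow_eq_of_isUnit {p : ℕ} (hp : p.Prime) (hpu : IsUnit (p : O)) {y : Oˣ}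
    (hy : y ∈ unitFil O 1) : ∃ x ∈ unitFil O 1, x ^ p = y := by
  have hpe := span_eq_maximalIdeal_pow_zero_of_isUnit hpu
  have h2 := hp.two_le
  exact exists_pow_eq hp hpe (n := 1) le_rfl (by omega) hy

/-- If `p` is invertible in `O`, a unit is a `p`-th power iff it is one modulo `𝔪`. -/
theorem exists_pow_eq_iff_of_isUnit {p : ℕ} (hp : p.Prime) (hpu : IsUnit (p : O)) (u : Oˣ) :
    (∃ x : Oˣ, x ^ p = u) ↔ ∃ y : O, (u : O) - y ^ p ∈ maximalIdeal O := by
  constructor
  · rintro ⟨x, rfl⟩
    exact ⟨(x : O), by simp⟩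
  · rintro ⟨y, hy⟩
    have hyu : IsUnit y := by
      by_contra h
      have h1 : y ∈ maximalIdeal O := (mem_maximalIdeal _).2 h
      have h2 : y ^ p ∈ maximalIdeal O := Ideal.pow_mem_of_mem _ h1 p hp.pos
      have h3 : (u : O) ∈ maximalIdeal O := by
        have := Ideal.add_mem _ hy h2
        rwa [sub_add_cancel] at this
      exact (mem_maximalIdeal _).1 h3 u.isUnit
    obtain ⟨y', rfl⟩ := hyu
    have hmem : u / y' ^ p ∈ unitFil O 1 := by
      rw [mem_unitFil, pow_one]
      have : ((u / y' ^ p : Oˣ) : O) - 1 = (((y' ^ p)⁻¹ : Oˣ) : O) * ((u : O) - (y' : O) ^ p) := by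
        rw [div_eq_mul_inv, Units.val_mul, mul_sub, ← Units.val_pow_eq_pow_val, Units.inv_mul]
        ring
      rw [this]
      exact Ideal.mul_mem_left _ _ hy
    obtain ⟨x, -, hx⟩ := exists_pow_eq_of_isUnit hp hpu hmem
    exact ⟨x * y', by rw [mul_pow, hx, div_mul_cancel]⟩

variable [Finite (ResidueField O)]

theorem card_quotient_span_of_isUnit {a : O} (ha : IsUnit a) :
    Nat.card (O ⧸ Ideal.span {a}) = 1 := by
  rw [Ideal.span_singleton_eq_top.2 ha]
  exact Nat.card_unique

/-- `[U : U^p] = |μ_p(O)|` if `p` is invertible in `O`. -/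
theorem index_range_pow_units_of_isUnit {p : ℕ} (hp : p.Prime) (hpu : IsUnit (p : O)) :
    (powMonoidHom p : Oˣ →* Oˣ).range.index = Nat.card (rootsOfUnity p O) := by
  rw [index_range_pow_units hp (span_eq_maximalIdeal_pow_zero_of_isUnit hpu),
    card_quotient_span_of_isUnit hpu, mul_one]

/-- `[U : U^p] = |μ_p(O)| · |O/pO|`, version without the exponent `e`. -/
theorem index_range_pow_units' {p : ℕ} (hp : p.Prime) (hp0 : (p : O) ≠ 0) :
    (powMonoidHom p : Oˣ →* Oˣ).range.index =
      Nat.card (rootsOfUnity p O) * Nat.card (O ⧸ Ideal.span {(p : O)}) := by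
  obtain ⟨e, he⟩ := exists_span_eq_maximalIdeal_pow hp0
  exact index_range_pow_units hp he

variable (F : Type*) [Field F] [Algebra O F] [IsFractionRing O F]

/-- `[Fˣ : Fˣ^p] = p · |μ_p(F)|` if `p` is invertible in `O`. -/
theorem index_range_pow_field_units_of_isUnit {p : ℕ} (hp : p.Prime) (hpu : IsUnit (p : O)) :
    (powMonoidHom p : Fˣ →* Fˣ).range.index = p * Nat.card (rootsOfUnity p F) := by
  rw [index_range_pow_field_units F hp (span_eq_maximalIdeal_pow_zero_of_isUnit hpu),
    card_quotient_span_of_isUnit hpu, mul_one]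

/-- `[Fˣ : Fˣ^p] = p · |μ_p(F)| · |O/pO|`, version without the exponent `e`. -/
theorem index_range_pow_field_units' {p : ℕ} (hp : p.Prime) (hp0 : (p : O) ≠ 0) :
    (powMonoidHom p : Fˣ →* Fˣ).range.index =
      p * Nat.card (rootsOfUnity p F) * Nat.card (O ⧸ Ideal.span {(p : O)}) := by
  obtain ⟨e, he⟩ := exists_span_eq_maximalIdeal_pow hp0
  exact index_range_pow_field_units F hp he

end Corollaries

end Fermat.Agent.S55.Local
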