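/-
S55 / LOC7 (core): the local Hilbert pairing, cocycle-level.

`(H, 𝒱)` a group with a level structure (`H = G_F`), `C : Rep ℤ H` discrete (`C = F̄ˣ`, written
additively), `ζ ∈ C^H` of exact order `p` generating the `p`-torsion (`μ_p ⊂ F`), `C` `p`-divisible,
finite-layer Hilbert 90.  Then

* (B) Kummer/cup identity: for `p • α = a ∈ C^H` with Kummer cocycle `κ` (`g α - α = κ(g) ζ`) and
  a character `χ`, `cupChar χ a = d (h ↦ χ(h) α) - (κ ∪ χ) ζ`;
* (A) norm criterion: if `cupChar χ a` is the coboundary of a finite-level cochain then `a` is a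
  norm from `C^{ker χ}`;
* (K) every finite-level homomorphism `H → ZMod p` is a Kummer cocycle;
* core: if the norm from `C^{ker χ}` is not surjective onto `C^H`, there is a finite-level
  homomorphism `κ` such that `κ ∪ χ` is not the coboundary of a finite-level `ZMod p`-cochain.
-/
import Mathlib
import Fermat.Agent.S55.LevelLow
import Fermat.Agent.S55.GC.CyclicH2
import Fermat.Agent.S55.GC.InfRes2

set_option autoImplicit false
set_option linter.unusedSectionVars false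

namespace Fermat.Agent.S55.Local.Hilbert

open groupCohomology Fermat.Agent.S55.Level Fermat.Agent.S55.GC Fermat.Agent.S55.GC.CyclicH2

section Torsion

variable {M : Type*} [AddCommGroup M] {p : ℕ}

/-- If `p • ζ = 0` then `n • ζ` only depends on `n` mod `p`. -/
lemma nsmul_eq_of_mod_eq {ζ : M} (hζ : p • ζ = 0) {m n : ℕ} (h : m % p = n % p) :
    m • ζ = n • ζ := by
  rw [← Nat.mod_add_div m p, ← Nat.mod_add_div n p, add_nsmul, add_nsmul, mul_nsmul, mul_nsmul,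
    hζ, smul_zero, smul_zero, h]

lemma val_nsmul_add [NeZero p] {ζ : M} (hζ : p • ζ = 0) (x y : ZMod p) :
    (x + y).val • ζ = x.val • ζ + y.val • ζ := by
  rw [← add_nsmul]
  exact nsmul_eq_of_mod_eq hζ (by rw [ZMod.val_add, Nat.mod_mod])

lemma val_nsmul_mul [NeZero p] {ζ : M} (hζ : p • ζ = 0) (x y : ZMod p) :
    (x * y).val • ζ = (x.val * y.val) • ζ :=
  nsmul_eq_of_mod_eq hζ (by rw [ZMod.val_mul, Nat.mod_mod])

/-- If `ζ` has exact order `p` (prime), `n ↦ n.val • ζ` is injective on `ZMod p`. -/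
lemma val_nsmul_injective [Fact p.Prime] {ζ : M} (hζ : p • ζ = 0) (hζ0 : ζ ≠ 0) {x y : ZMod p}
    (h : x.val • ζ = y.val • ζ) : x = y := by
  have hp : p.Prime := Fact.out
  have hord : addOrderOf ζ = p := by
    have hd : addOrderOf ζ ∣ p := addOrderOf_dvd_of_nsmul_eq_zero hζ
    rcases (Nat.dvd_prime hp).1 hd with h1 | h1
    · exact absurd (AddMonoid.addOrderOf_eq_one_iff.1 h1) hζ0
    · exact h1
  have := (nsmul_eq_nsmul_iff_modEq (x := ζ) (m := y.val) (n := x.val)).1 h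
  rw [hord] at this
  have h2 : ((x.val : ℕ) : ZMod p) = ((y.val : ℕ) : ZMod p) :=
    ((ZMod.natCast_eq_natCast_iff _ _ _).2 this)
  simpa using h2

end Torsion

section CupIdentity

variable {H : Type} [Group H] {C : Rep ℤ H} {p : ℕ} [Fact p.Prime]

/-- The `ZMod p`-valued 2-cochain `κ ∪ χ : (g, h) ↦ κ(g) χ(h)` (trivial action). -/
def cupZ (κ χ : H → ZMod p) : H × H → ZMod p := fun gh => κ gh.1 * χ gh.2

/-- The differential `d₁₂` for the trivial action on `ZMod p`: `(g, h) ↦ f h - f (g h) + f g`. -/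
def dZ (f : H → ZMod p) : H × H → ZMod p := fun gh => f gh.2 - f (gh.1 * gh.2) + f gh.1

/-- **Kummer/cup identity.**  If `p • α = a` and `g α - α = κ(g) ζ`, then
`cupChar χ a = d (h ↦ χ(h) α) - (κ ∪ χ) ζ`. -/
theorem cupChar_eq_d₁₂_sub (χ : H →* Multiplicative (ZMod p)) {ζ α a : C}
    (hζp : p • ζ = 0) (hα : p • α = a) {κ : H → ZMod p}
    (hκ : ∀ g, C.ρ g α - α = (κ g).val • ζ) :
    cupChar C χ a = d₁₂ C (fun h => (χ h).toAdd.val • α) -
      fun gh => (cupZ κ (fun h => (χ h).toAdd) gh).val • ζ := by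
  have : NeZero p := ⟨(Fact.out : p.Prime).ne_zero⟩
  funext gh
  obtain ⟨g, h⟩ := gh
  rw [Pi.sub_apply, d₁₂_hom_apply, cupChar_apply]
  simp only [cupZ]
  have hg : C.ρ g α = α + (κ g).val • ζ := by rw [← hκ g]; abel
  have hval := val_add_val (χ g).toAdd (χ h).toAdd
  have hgh : (χ (g * h)).toAdd = (χ g).toAdd + (χ h).toAdd := by rw [map_mul, toAdd_mul]
  rw [map_nsmul, hg, hgh, val_nsmul_mul hζp, ← hα]
  set x := (χ g).toAdd.val
  set y := (χ h).toAdd.val
  set z := ((χ g).toAdd + (χ h).toAdd).val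
  set c := carry (χ g).toAdd (χ h).toAdd
  have e1 : (x + y) • α = (z + p * c) • α := by rw [hval]
  rw [add_nsmul, add_nsmul, mul_nsmul'] at e1
  have e3 : y • (κ g).val • ζ = ((κ g).val * y) • ζ := by rw [smul_smul, mul_comm]
  have e2 : c • p • α = x • α + y • α - z • α := by
    rw [e1, smul_comm]; abel
  rw [e2, smul_add, e3]
  abel

/-- `(x - y).val • ζ = x.val • ζ - y.val • ζ` when `p • ζ = 0`. -/
lemma val_nsmul_sub {M : Type*} [AddCommGroup M] {ζ : M} (hζ : p • ζ = 0) (x y : ZMod p) :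
    (x - y).val • ζ = x.val • ζ - y.val • ζ := by
  have : NeZero p := ⟨(Fact.out : p.Prime).ne_zero⟩
  have h := val_nsmul_add hζ (x - y) y
  rw [sub_add_cancel] at h
  rw [h, add_sub_cancel_right]

/-- `dZ f`, multiplied by an invariant `p`-torsion element, is a `d₁₂`. -/
theorem dZ_nsmul_eq_d₁₂ {ζ : C} (hζfix : ∀ g, C.ρ g ζ = ζ) (hζp : p • ζ = 0) (f : H → ZMod p) :
    (fun gh => (dZ f gh).val • ζ) = d₁₂ C (fun h => (f h).val • ζ) := by
  have : NeZero p := ⟨(Fact.out : p.Prime).ne_zero⟩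
  funext gh
  obtain ⟨g, h⟩ := gh
  rw [d₁₂_hom_apply]
  simp only [dZ, map_nsmul, hζfix]
  rw [val_nsmul_add hζp, val_nsmul_sub hζp]

/-- (B'): if `κ ∪ χ = d f` on `ZMod p`-cochains then `cupChar χ a` is the coboundary of
`h ↦ χ(h) α - f(h) ζ`. -/
theorem cupChar_eq_d₁₂_of_cupZ_eq (χ : H →* Multiplicative (ZMod p)) {ζ α a : C}
    (hζfix : ∀ g, C.ρ g ζ = ζ) (hζp : p • ζ = 0) (hα : p • α = a) {κ : H → ZMod p}
    (hκ : ∀ g, C.ρ g α - α = (κ g).val • ζ) (f : H → ZMod p)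
    (hf : cupZ κ (fun h => (χ h).toAdd) = dZ f) :
    cupChar C χ a = d₁₂ C (fun h => (χ h).toAdd.val • α - (f h).val • ζ) := by
  rw [cupChar_eq_d₁₂_sub χ hζp hα hκ, hf, dZ_nsmul_eq_d₁₂ hζfix hζp f, ← map_sub]
  rfl

end CupIdentity

section NormCriterion

variable {H : Type} [Group H] (𝒱 : LevelStructure H) (C : Rep ℤ H) [IsDiscrete 𝒱 C] {p : ℕ}
  [Fact p.Prime]

/-- Finite-layer Hilbert 90: for every member `U` of the level structure and every subgroup `N`
of `H ⧸ U`, every crossed homomorphism `N → C^U` is principal. -/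
def Hilbert90 : Prop :=
  ∀ (U : Subgroup H) [U.Normal], U ∈ 𝒱.sets → ∀ N : Subgroup (H ⧸ U),
    InfRes2.H1ResVanishes (C.quotientToInvariants U) N

variable {𝒱 C}

/-- **(A) Norm criterion.**  If `cupChar χ a` is the coboundary of a finite-level cochain, then
`a` is a norm from `C^{ker χ}`. -/
theorem exists_norm_eq_of_cupChar_eq_d₁₂ (h90 : Hilbert90 𝒱 C)
    (χ : H →* Multiplicative (ZMod p)) (hχ : ∃ U ∈ 𝒱.sets, U ≤ χ.ker) (σ : H)
    (hσ : χ σ = Multiplicative.ofAdd 1) (a : C) (ha : ∀ g, C.ρ g a = a) (γ : H → C)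
    (hγ : IsLevel₁ 𝒱 γ) (hc : cupChar C χ a = d₁₂ C γ) :
    ∃ b : C, (∀ g, χ g = 1 → C.ρ g b = b) ∧ ∑ i ∈ Finset.range p, C.ρ (σ ^ i) b = a := by
  classical
  have hp : p.Prime := Fact.out
  have : NeZero p := ⟨hp.ne_zero⟩
  have : Fact (1 < p) := ⟨hp.one_lt⟩
  -- Step 1: a common level
  obtain ⟨U₀, hU₀, hU₀χ⟩ := hχ
  obtain ⟨W, hW, hWinv, hWfix⟩ := ((isLevel₁_iff γ).1 hγ).exists_fix
  obtain ⟨U, hU, hUle⟩ := 𝒱.directed U₀ hU₀ W hW
  have hUn : U.Normal := 𝒱.normal U hU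
  have hUχ : U ≤ χ.ker := (hUle.trans inf_le_left).trans hU₀χ
  have hγinv : ∀ g, ∀ s ∈ U, γ (g * s) = γ g := fun g s hs =>
    hWinv (fun _ => g) (fun _ => s) (fun _ => (hUle.trans inf_le_right) hs)
  have hγfix : ∀ g, ∀ u ∈ U, C.ρ u (γ g) = γ g := fun g u hu =>
    hWfix (fun _ => g) u ((hUle.trans inf_le_right) hu)
  -- Step 2: descent to `Q = H ⧸ U`
  let B : Rep ℤ (H ⧸ U) := C.quotientToInvariants U
  let χQ : H ⧸ U →* Multiplicative (ZMod p) := QuotientGroup.lift U χ hUχ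
  let aQ : B := ⟨a, fun u => ha u⟩
  let γQ : H ⧸ U → B := fun q => Quotient.liftOn' q
    (fun g => (⟨γ g, fun u => hγfix g u u.2⟩ : B))
    (fun g g' hgg' => Subtype.ext (by
      have hs : g⁻¹ * g' ∈ U := QuotientGroup.leftRel_apply.1 hgg'
      have h1 := hγinv g _ hs
      rw [mul_inv_cancel_left] at h1
      exact h1.symm))
  have hstep2 : ∀ q₁ q₂ : H ⧸ U, carry (χQ q₁).toAdd (χQ q₂).toAdd • aQ =
      B.ρ q₁ (γQ q₂) - γQ (q₁ * q₂) + γQ q₁ := by
    intro q₁ q₂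
    induction q₁ using QuotientGroup.induction_on with | H g =>
    induction q₂ using QuotientGroup.induction_on with | H h =>
    apply Subtype.ext
    have h1 := congrFun hc (g, h)
    rw [cupChar_apply, d₁₂_hom_apply] at h1
    exact h1
  -- Step 3: descent to the cyclic quotient `Q ⧸ ker χ`
  let N : Subgroup (H ⧸ U) := χQ.ker
  have hH1 : InfRes2.H1ResVanishes B N := h90 U hU N
  let B' : Rep ℤ ((H ⧸ U) ⧸ N) := B.quotientToInvariants N
  let χ' : (H ⧸ U) ⧸ N →* Multiplicative (ZMod p) := QuotientGroup.kerLift χQ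
  have hχ'inj : Function.Injective χ' := QuotientGroup.kerLift_injective χQ
  have haQinv : ∀ q, B.ρ q aQ = aQ := by
    intro q
    induction q using QuotientGroup.induction_on with | H g =>
    exact Subtype.ext (ha g)
  let a' : B' := ⟨aQ, fun n => haQinv n⟩
  have ha'inv : ∀ q', B'.ρ q' a' = a' := by
    intro q'
    induction q' using QuotientGroup.induction_on with | H q =>
    exact Subtype.ext (haQinv q)
  let y : cocycles₂ B' := ⟨cupChar B' χ' a', cupChar_mem_cocycles₂ χ' ha'inv⟩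
  obtain ⟨b₀, hb₀⟩ := InfRes2.coboundary_of_inflated B N hH1 y γQ (fun q₁ q₂ => by
    rw [← hstep2]; rfl)
  -- Step 4: the cyclic classification
  have hycob : y.1 ∈ coboundaries₂ B' := by
    refine ⟨b₀, ?_⟩
    funext q
    obtain ⟨q₁, q₂⟩ := q
    rw [d₁₂_hom_apply]
    exact (hb₀ q₁ q₂).symm
  let σ' : (H ⧸ U) ⧸ N := (((σ : H ⧸ U)) : (H ⧸ U) ⧸ N)
  have hσ' : χ' σ' = Multiplicative.ofAdd 1 := hσ
  have hgen : ∀ g : (H ⧸ U) ⧸ N, g ∈ Subgroup.zpowers σ' := by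
    intro g
    refine ⟨((χ' g).toAdd.val : ℤ), ?_⟩
    apply hχ'inj
    simp only [zpow_natCast]
    rw [map_pow, hσ']
    apply Multiplicative.toAdd.injective
    rw [toAdd_pow, toAdd_ofAdd, nsmul_eq_mul, mul_one, ZMod.natCast_zmod_val]
  have hord : orderOf σ' = p := by
    rw [← orderOf_injective χ' hχ'inj σ', hσ', orderOf_ofAdd_eq_addOrderOf, ZMod.addOrderOf_one]
  have hpow : σ' ^ p = 1 := by
    have h := pow_orderOf_eq_one σ'
    rwa [hord] at h
  obtain ⟨b', hb'⟩ := (mem_coboundaries₂_iff_ev hgen hord _ y.2).1 hycob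
  have hev : ev σ' p (cupChar B' χ' a') = a' := by
    rw [ev_cupChar hpow χ' a', hσ', toAdd_ofAdd, ZMod.val_one, mul_one,
      Nat.div_self hp.pos, one_nsmul]
  change normσ σ' p b' = ev σ' p (cupChar B' χ' a') at hb'
  rw [hev] at hb'
  refine ⟨b'.1.1, ?_, ?_⟩
  · intro g hg
    have hmem : ((g : H ⧸ U)) ∈ N := hg
    exact congrArg Subtype.val (b'.2 ⟨(g : H ⧸ U), hmem⟩)
  · have h1 : ((normσ σ' p b' : B').1.1 : C) = a := congrArg (fun x : B' => (x.1.1 : C)) hb'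
    rw [← h1, normσ]
    have h2 : ∀ (s : Finset ℕ) (f : ℕ → B'), ((∑ i ∈ s, f i : B').1.1 : C) =
        ∑ i ∈ s, ((f i).1.1 : C) := by
      intro s f
      induction s using Finset.induction_on with
      | empty => simp
      | insert i s hi ih =>
        rw [Finset.sum_insert hi, Finset.sum_insert hi, ← ih]
        rfl
    rw [h2]
    refine Finset.sum_congr rfl fun i _ => ?_
    have h3 : σ' ^ i = (((σ ^ i : H) : H ⧸ U) : (H ⧸ U) ⧸ N) := rfl
    rw [h3]
    rfl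

/-- **Hilbert 90 in the limit**: a finite-level crossed homomorphism `H → C` is principal. -/
theorem exists_eq_sub_of_isLevel₁ (h90 : Hilbert90 𝒱 C) (f : H → C)
    (hf : ∀ g h, f (g * h) = C.ρ g (f h) + f g) (hlev : IsLevel₁ 𝒱 f) :
    ∃ α : C, ∀ g, f g = C.ρ g α - α := by
  classical
  obtain ⟨U, hU, hUinv, hUfix⟩ := ((isLevel₁_iff f).1 hlev).exists_fix
  have hUn : U.Normal := 𝒱.normal U hU
  have hfinv : ∀ g, ∀ s ∈ U, f (g * s) = f g := fun g s hs =>
    hUinv (fun _ => g) (fun _ => s) (fun _ => hs)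
  have hffix : ∀ g, ∀ u ∈ U, C.ρ u (f g) = f g := fun g u hu => hUfix (fun _ => g) u hu
  let B : Rep ℤ (H ⧸ U) := C.quotientToInvariants U
  let fQ : H ⧸ U → B := fun q => Quotient.liftOn' q
    (fun g => (⟨f g, fun u => hffix g u u.2⟩ : B))
    (fun g g' hgg' => Subtype.ext (by
      have hs : g⁻¹ * g' ∈ U := QuotientGroup.leftRel_apply.1 hgg'
      have h1 := hfinv g _ hs
      rw [mul_inv_cancel_left] at h1
      exact h1.symm))
  have hfQ : ∀ q₁ q₂ : H ⧸ U, fQ (q₁ * q₂) = B.ρ q₁ (fQ q₂) + fQ q₁ := by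
    intro q₁ q₂
    induction q₁ using QuotientGroup.induction_on with | H g =>
    induction q₂ using QuotientGroup.induction_on with | H h =>
    exact Subtype.ext (hf g h)
  obtain ⟨y, hy⟩ := h90 U hU ⊤ (fun s => fQ (s : H ⧸ U)) (fun s t => hfQ s t)
  refine ⟨y.1, fun g => ?_⟩
  have := hy ⟨(g : H ⧸ U), Subgroup.mem_top _⟩
  exact congrArg Subtype.val this

end NormCriterion

section Kummer

variable {H : Type} [Group H] (𝒱 : LevelStructure H) (C : Rep ℤ H) (p : ℕ)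

/-- The Kummer data: `ζ ∈ C^H` of exact order `p` generating the `p`-torsion of `C`, `C` is
`p`-divisible, and finite-layer Hilbert 90 holds.  (`C = F̄ˣ`, `μ_p ⊂ F`.) -/
structure KummerData [IsDiscrete 𝒱 C] where
  /-- a generator of the `p`-torsion -/
  ζ : C
  ζ_fix : ∀ g, C.ρ g ζ = ζ
  ζ_tors : p • ζ = 0
  ζ_ne : ζ ≠ 0
  tors_gen : ∀ c : C, p • c = 0 → ∃ n : ZMod p, c = n.val • ζ
  divisible : ∀ c : C, ∃ α : C, p • α = c
  h90 : Hilbert90 𝒱 C

variable {𝒱 C p} [IsDiscrete 𝒱 C] [Fact p.Prime] (D : KummerData 𝒱 C p)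

/-- The Kummer cocycle of `α` (with `p • α` invariant): `g α - α = kum α g • ζ`. -/
noncomputable def kum (α : C) (hα : ∀ g, C.ρ g (p • α) = p • α) (g : H) : ZMod p :=
  Classical.choose (D.tors_gen (C.ρ g α - α) (by rw [smul_sub, ← map_nsmul, hα, sub_self]))

lemma kum_spec (α : C) (hα : ∀ g, C.ρ g (p • α) = p • α) (g : H) :
    C.ρ g α - α = (kum D α hα g).val • D.ζ :=
  Classical.choose_spec (D.tors_gen (C.ρ g α - α) (by rw [smul_sub, ← map_nsmul, hα, sub_self]))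

lemma kum_mul (α : C) (hα : ∀ g, C.ρ g (p • α) = p • α) (g h : H) :
    kum D α hα (g * h) = kum D α hα g + kum D α hα h := by
  have : NeZero p := ⟨(Fact.out : p.Prime).ne_zero⟩
  apply val_nsmul_injective D.ζ_tors D.ζ_ne
  rw [← kum_spec, val_nsmul_add D.ζ_tors, ← kum_spec D α hα g]
  have h1 : C.ρ (g * h) α - α = C.ρ g (C.ρ h α - α) + (C.ρ g α - α) := by
    rw [map_mul, map_sub]; simp
  rw [h1, kum_spec D α hα h, map_nsmul, D.ζ_fix, add_comm]

lemma kum_eq_zero_of_fix (α : C) (hα : ∀ g, C.ρ g (p • α) = p • α) {s : H}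
    (hs : C.ρ s α = α) : kum D α hα s = 0 := by
  apply val_nsmul_injective D.ζ_tors D.ζ_ne
  rw [← kum_spec, hs, sub_self, ZMod.val_zero, zero_nsmul]

lemma kum_isLevel₁ (α : C) (hα : ∀ g, C.ρ g (p • α) = p • α) : IsLevel₁ 𝒱 (kum D α hα) := by
  obtain ⟨U, hU, hfix⟩ := IsDiscrete.exists_fix (𝒰 := 𝒱) α
  refine ⟨U, hU, fun g s hs => ?_⟩
  rw [kum_mul, kum_eq_zero_of_fix D α hα (hfix s hs), add_zero]

/-- **(K) Kummer surjectivity**: every finite-level homomorphism `κ : H → ZMod p` is the Kummer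
cocycle of some `α` with `p • α ∈ C^H`. -/
theorem exists_kummer (κ : H → ZMod p) (hκ : ∀ g h, κ (g * h) = κ g + κ h)
    (hlev : IsLevel₁ 𝒱 κ) :
    ∃ α : C, (∀ g, C.ρ g (p • α) = p • α) ∧ ∀ g, C.ρ g α - α = (κ g).val • D.ζ := by
  have : NeZero p := ⟨(Fact.out : p.Prime).ne_zero⟩
  obtain ⟨α, hα⟩ := exists_eq_sub_of_isLevel₁ D.h90 (fun g => (κ g).val • D.ζ)
    (fun g h => by
      simp only [map_nsmul, D.ζ_fix]
      rw [hκ, val_nsmul_add D.ζ_tors, add_comm])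
    (hlev.comp fun n : ZMod p => n.val • D.ζ)
  refine ⟨α, fun g => ?_, fun g => (hα g).symm⟩
  have h1 : C.ρ g (p • α) - p • α = 0 := by
    rw [map_nsmul, ← smul_sub, ← hα g, smul_comm, D.ζ_tors, smul_zero]
  exact sub_eq_zero.1 h1

/-- A character `χ : H →* Multiplicative (ZMod p)` is of finite level. -/
def IsLevelChar (𝒱 : LevelStructure H) (χ : H →* Multiplicative (ZMod p)) : Prop :=
  ∃ U ∈ 𝒱.sets, U ≤ χ.ker

lemma IsLevelChar.isLevel₁ {χ : H →* Multiplicative (ZMod p)} (hχ : IsLevelChar 𝒱 χ) :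
    IsLevel₁ 𝒱 (fun h => (χ h).toAdd) := by
  obtain ⟨U, hU, hle⟩ := hχ
  refine ⟨U, hU, fun g s hs => ?_⟩
  have : χ s = 1 := hle hs
  change (χ (g * s)).toAdd = (χ g).toAdd
  rw [map_mul, this, mul_one]

/-- The norm from `C^{ker χ}` to `C^H` along `σ` (`χ σ = 1`) hits `a`. -/
def IsNormFrom (χ : H →* Multiplicative (ZMod p)) (σ : H) (a : C) : Prop :=
  ∃ b : C, (∀ g, χ g = 1 → C.ρ g b = b) ∧ ∑ i ∈ Finset.range p, C.ρ (σ ^ i) b = a

lemma IsLevel₁.sub' {f f' : H → C} (hf : IsLevel₁ 𝒱 f) (hf' : IsLevel₁ 𝒱 f') :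
    IsLevel₁ 𝒱 (fun h => f h - f' h) := by
  obtain ⟨U, hU, h⟩ := hf
  obtain ⟨V, hV, h'⟩ := hf'
  obtain ⟨W, hW, hWUV⟩ := 𝒱.directed U hU V hV
  refine ⟨W, hW, fun g s hs => ?_⟩
  change f (g * s) - f' (g * s) = f g - f' g
  rw [h g s ((hWUV.trans inf_le_left) hs), h' g s ((hWUV.trans inf_le_right) hs)]

include D

/-- **(A) + (B)**: if `a = p • α` is invariant and the cup product of its Kummer cocycle with `χ`
is the coboundary of a finite-level `ZMod p`-cochain, then `a` is a norm from `C^{ker χ}`. -/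
theorem isNormFrom_of_cupZ_eq_dZ (χ : H →* Multiplicative (ZMod p)) (hχ : IsLevelChar 𝒱 χ)
    (σ : H) (hσ : χ σ = Multiplicative.ofAdd 1) (α : C) (hα : ∀ g, C.ρ g (p • α) = p • α)
    (f : H → ZMod p) (hf : IsLevel₁ 𝒱 f)
    (h : cupZ (kum D α hα) (fun h => (χ h).toAdd) = dZ f) : IsNormFrom χ σ (p • α) := by
  have h1 := cupChar_eq_d₁₂_of_cupZ_eq χ D.ζ_fix D.ζ_tors rfl (kum_spec D α hα) f h
  refine exists_norm_eq_of_cupChar_eq_d₁₂ D.h90 χ hχ σ hσ (p • α) hα _ ?_ h1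
  exact IsLevel₁.sub' (hχ.isLevel₁.comp fun n : ZMod p => n.val • α)
    (hf.comp fun n : ZMod p => n.val • D.ζ)

/-- **Core of the local Hilbert pairing.**  If the norm from `C^{ker χ}` does not hit every
invariant, there is a finite-level homomorphism `κ : H → ZMod p` (a Kummer cocycle) such that
`κ ∪ χ` is not the coboundary of a finite-level `ZMod p`-cochain. -/
theorem exists_cupZ_ne_dZ (χ : H →* Multiplicative (ZMod p)) (hχ : IsLevelChar 𝒱 χ)
    (σ : H) (hσ : χ σ = Multiplicative.ofAdd 1)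
    (hNI : ∃ a : C, (∀ g, C.ρ g a = a) ∧ ¬ IsNormFrom χ σ a) :
    ∃ κ : H → ZMod p, (∀ g h, κ (g * h) = κ g + κ h) ∧ IsLevel₁ 𝒱 κ ∧
      ¬ ∃ f : H → ZMod p, IsLevel₁ 𝒱 f ∧ cupZ κ (fun h => (χ h).toAdd) = dZ f := by
  obtain ⟨a, ha, hna⟩ := hNI
  obtain ⟨α, rfl⟩ := D.divisible a
  refine ⟨kum D α ha, kum_mul D α ha, kum_isLevel₁ D α ha, ?_⟩
  rintro ⟨f, hf, h⟩
  exact hna (isNormFrom_of_cupZ_eq_dZ D χ hχ σ hσ α ha f hf h)

/-- **Injectivity of `H²(H, μ_p) → H²(H, C)` on finite-level classes**, cocycle form: if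
`c • ζ` is the coboundary of a finite-level `C`-valued cochain, then `c` is the coboundary of a
finite-level `ZMod p`-valued cochain. -/
theorem exists_dZ_eq_of_nsmul_eq_d₁₂ (c : H × H → ZMod p) (γ : H → C) (hγ : IsLevel₁ 𝒱 γ)
    (h : (fun gh => (c gh).val • D.ζ) = d₁₂ C γ) :
    ∃ f : H → ZMod p, IsLevel₁ 𝒱 f ∧ c = dZ f := by
  have : NeZero p := ⟨(Fact.out : p.Prime).ne_zero⟩
  -- `p • γ` is a finite-level crossed homomorphism
  have hpγ : ∀ g h', (p • γ) (g * h') = C.ρ g ((p • γ) h') + (p • γ) g := by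
    intro g h'
    have h1 := congrFun h (g, h')
    rw [d₁₂_hom_apply] at h1
    have h2 : p • (C.ρ g (γ h') - γ (g * h') + γ g) = 0 := by
      rw [← h1, smul_comm, D.ζ_tors, smul_zero]
    simp only [Pi.smul_apply, map_nsmul]
    rw [smul_add, smul_sub, sub_add_eq_add_sub, sub_eq_zero] at h2
    exact h2.symm
  obtain ⟨α', hα'⟩ := exists_eq_sub_of_isLevel₁ D.h90 (p • γ) hpγ
    (hγ.comp fun c : C => p • c)
  obtain ⟨α, rfl⟩ := D.divisible α'
  -- the corrected cochain is `p`-torsion valued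
  have htors : ∀ g, p • (γ g - (C.ρ g α - α)) = 0 := by
    intro g
    have := hα' g
    simp only [Pi.smul_apply, map_nsmul] at this
    rw [smul_sub, smul_sub, this, sub_self]
  choose f hf using fun g => D.tors_gen _ (htors g)
  obtain ⟨U, hU, hfix⟩ := IsDiscrete.exists_fix (𝒰 := 𝒱) α
  have hlev' : IsLevel₁ 𝒱 (fun g => γ g - (C.ρ g α - α)) := by
    refine IsLevel₁.sub' hγ ⟨U, hU, fun g s hs => ?_⟩
    change C.ρ (g * s) α - α = C.ρ g α - α
    rw [map_mul]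
    change C.ρ g (C.ρ s α) - α = _
    rw [hfix s hs]
  refine ⟨f, ?_, ?_⟩
  · obtain ⟨V, hV, hV'⟩ := hlev'
    refine ⟨V, hV, fun g s hs => ?_⟩
    apply val_nsmul_injective D.ζ_tors D.ζ_ne
    rw [← hf, ← hf]
    exact hV' g s hs
  · funext gh
    obtain ⟨g, h'⟩ := gh
    apply val_nsmul_injective D.ζ_tors D.ζ_ne
    have h1 := congrFun h (g, h')
    have h2 := congrFun (dZ_nsmul_eq_d₁₂ D.ζ_fix D.ζ_tors f) (g, h')
    simp only at h1 h2
    rw [h1, h2, d₁₂_hom_apply, d₁₂_hom_apply]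
    simp only [← hf, map_sub, map_mul]
    simp only [Module.End.mul_apply]
    abel

end Kummer

end Fermat.Agent.S55.Local.Hilbert
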