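/-
S55 / LOC7 (b): the local Hilbert pairing `H¹ × H¹ → H²` in LEVEL COHOMOLOGY form, trivial
coefficients `ZMod p`.

`H` a group with a level structure `𝒱` (`H = G_F`, Krull levels), `T := trivRep H p` the trivial
representation on `ZMod p`, cup product along the multiplication `ZMod p × ZMod p → ZMod p`.
Inputs: a discrete `C : Rep ℤ H` with `KummerData` (`C = F̄ˣ`, `μ_p ⊂ F`, Hilbert 90) and the norm
index hypothesis `NormIndex` (for every cyclic layer of degree `p` the norm is not surjective).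

* `levelCupH_levelH1π`: the cup product of two classes of degree one on representatives;
* `levelCupH_one_one_comm`: anti-commutativity `x ∪ y = -(y ∪ x)` in degrees `(1, 1)`;
* `eq_zero_of_levelCupH_right / _left`: the cup product `H¹ × H¹ → H²` has trivial kernels;
* `finite_levelH1`: `H¹(H, ZMod p)` is finite if `C^H / p` is;
* `cupDual_injective`, `cupDual_bijective`: for an injective functional `t` on `H²`, the map
  `y ↦ (x ↦ t (x ∪ y))`, `H¹ → (H¹)^*`, is injective, and bijective if `H¹` is finite.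
-/
import Mathlib
import Fermat.Agent.S55.Local.HilbertCore
import Fermat.Agent.S55.CupLevel
import Fermat.Agent.S55.LevelH1
import Fermat.Agent.S55.LevelScalars

set_option autoImplicit false
set_option linter.unusedSectionVars false

namespace Fermat.Agent.S55.Local.Hilbert

open groupCohomology CategoryTheory Fermat.Agent.S55.Level Fermat.Agent.S55.Cup
  Fermat.Agent.S55.CochainTools Fermat.Agent.S55.LevelScalars

section TrivialCoeff

variable {H : Type} [Group H] (𝒱 : LevelStructure H) (p : ℕ) [Fact p.Prime]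

/-- The trivial representation of `H` on `ZMod p`. -/
noncomputable abbrev trivRep (H : Type) [Group H] (p : ℕ) : Rep (ZMod p) H :=
  Rep.trivial (ZMod p) H (ZMod p)

theorem trivRep_ρ (g : H) (x : ZMod p) : (trivRep H p).ρ g x = x := rfl

instance isDiscrete_trivRep : IsDiscrete 𝒱 (trivRep H p) := ⟨fun a => by
  obtain ⟨U, hU⟩ := 𝒱.nonempty
  exact ⟨U, hU, fun u _ => rfl⟩⟩

/-- The 1-cocycles with trivial coefficients are the homomorphisms. -/
theorem mem_cocycles₁_trivRep_iff (f : H → ZMod p) :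
    f ∈ cocycles₁ (trivRep H p) ↔ ∀ g h, f (g * h) = f g + f h := by
  rw [mem_cocycles₁_iff]
  constructor
  · intro h g k
    rw [h g k, add_comm]; rfl
  · intro h g k
    rw [h g k, add_comm]; rfl

theorem d₁₂_trivRep (f : H → ZMod p) : (d₁₂ (trivRep H p)).hom f = dZ f := by
  funext ⟨g, h⟩
  rw [d₁₂_hom_apply]
  rfl

/-- The multiplication pairing `ZMod p × ZMod p → ZMod p` on trivial representations. -/
noncomputable abbrev mulP (H : Type) [Group H] (p : ℕ) :
    trivRep H p →ₗ[ZMod p] trivRep H p →ₗ[ZMod p] trivRep H p :=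
  LinearMap.mul (ZMod p) (ZMod p)

theorem mulP_equivariant (g : H) (a b : trivRep H p) :
    mulP H p ((trivRep H p).ρ g a) ((trivRep H p).ρ g b) = (trivRep H p).ρ g (mulP H p a b) := rfl

theorem cup_cochainsIso₁_inv (x y : H → ZMod p) :
    cup (mulP H p) ((cochainsIso₁ (trivRep H p)).inv.hom x)
      ((cochainsIso₁ (trivRep H p)).inv.hom y) = (cochainsIso₂ (trivRep H p)).inv.hom (cupZ x y) := by
  funext g
  rw [cup_apply]
  rfl

variable {p}

theorem cupZ_mem_cocycles₂ {x y : H → ZMod p} (hx : ∀ g h, x (g * h) = x g + x h)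
    (hy : ∀ g h, y (g * h) = y g + y h) : cupZ x y ∈ cocycles₂ (trivRep H p) := by
  rw [mem_cocycles₂_iff]
  intro g h j
  show x (g * h) * y j + x g * y h = x h * y j + x g * y (h * j)
  rw [hx, hy]
  ring

variable {𝒱}

theorem isLevel₂_cupZ {x y : H → ZMod p} (hx : IsLevel₁ 𝒱 x) (hy : IsLevel₁ 𝒱 y) :
    IsLevel₂ 𝒱 (cupZ x y) := by
  obtain ⟨U, hU, h⟩ := hx
  obtain ⟨V, hV, h'⟩ := hy
  obtain ⟨W, hW, hWUV⟩ := 𝒱.directed U hU V hV
  refine ⟨W, hW, fun g g' s hs s' hs' => ?_⟩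
  show x (g * s) * y (g' * s') = x g * y g'
  rw [h g s ((hWUV.trans inf_le_left) hs), h' g' s' ((hWUV.trans inf_le_right) hs')]

theorem IsLevel₁.neg_mul {x y : H → ZMod p} (hx : IsLevel₁ 𝒱 x) (hy : IsLevel₁ 𝒱 y) :
    IsLevel₁ 𝒱 (fun h => -(x h * y h)) := by
  obtain ⟨U, hU, h⟩ := hx
  obtain ⟨V, hV, h'⟩ := hy
  obtain ⟨W, hW, hWUV⟩ := 𝒱.directed U hU V hV
  refine ⟨W, hW, fun g s hs => ?_⟩
  show -(x (g * s) * y (g * s)) = -(x g * y g)
  rw [h g s ((hWUV.trans inf_le_left) hs), h' g s ((hWUV.trans inf_le_right) hs)]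

variable (𝒱)

/-- A finite-level homomorphism `H → ZMod p` as a level 1-cocycle. -/
theorem mem_levelCocycles₁_trivRep_iff (f : H → ZMod p) :
    f ∈ levelCocycles₁ 𝒱 (trivRep H p) ↔ (∀ g h, f (g * h) = f g + f h) ∧ IsLevel₁ 𝒱 f := by
  rw [mem_levelCocycles₁_iff, mem_cocycles₁_trivRep_iff]

theorem cupZ_mem_levelCocycles₂ (x y : levelCocycles₁ 𝒱 (trivRep H p)) :
    cupZ x.1 y.1 ∈ levelCocycles₂ 𝒱 (trivRep H p) := by
  have hx := (mem_levelCocycles₁_trivRep_iff 𝒱 _).1 x.2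
  have hy := (mem_levelCocycles₁_trivRep_iff 𝒱 _).1 y.2
  rw [mem_levelCocycles₂_iff]
  exact ⟨cupZ_mem_cocycles₂ hx.1 hy.1, isLevel₂_cupZ hx.2 hy.2⟩

/-- The cup product of two classes of degree one with trivial coefficients `ZMod p`, on
representatives. -/
theorem levelCupH_levelH1π (x y : levelCocycles₁ 𝒱 (trivRep H p)) :
    levelCupH 𝒱 (mulP H p) (mulP_equivariant p) 1 1 (levelH1π 𝒱 _ x) (levelH1π 𝒱 _ y) =
      levelH2π 𝒱 _ ⟨cupZ x.1 y.1, cupZ_mem_levelCocycles₂ 𝒱 x y⟩ := by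
  show levelCupH 𝒱 (mulP H p) (mulP_equivariant p) 1 1
      ((levelπ 𝒱 _ 1).hom (levelCocycles₁ToLevelCocycles 𝒱 _ x))
      ((levelπ 𝒱 _ 1).hom (levelCocycles₁ToLevelCocycles 𝒱 _ y)) =
    (levelπ 𝒱 _ 2).hom (levelCocycles₂ToLevelCocycles 𝒱 _ ⟨cupZ x.1 y.1, _⟩)
  rw [levelπ_eq_cls _ 𝒱 1 _ (mem_Z_levelComplex _ 𝒱 1 _),
    levelπ_eq_cls _ 𝒱 1 _ (mem_Z_levelComplex _ 𝒱 1 _),
    levelπ_eq_cls _ 𝒱 2 _ (mem_Z_levelComplex _ 𝒱 2 _), levelCupH_cls]
  congr 1

/-- Anti-commutativity of the cup product of two homomorphisms, at the cocycle level. -/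
theorem cupZ_add_cupZ_swap {x y : H → ZMod p} (hx : ∀ g h, x (g * h) = x g + x h)
    (hy : ∀ g h, y (g * h) = y g + y h) :
    cupZ x y + cupZ y x = dZ (fun h => -(x h * y h)) := by
  funext ⟨g, h⟩
  show x g * y h + y g * x h = -(x h * y h) - -(x (g * h) * y (g * h)) + -(x g * y g)
  rw [hx, hy]
  ring

/-- Anti-commutativity of the cup product `H¹ × H¹ → H²` with trivial coefficients `ZMod p`. -/
theorem levelCupH_one_one_comm (x y : levelCohomology 𝒱 (trivRep H p) 1) :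
    levelCupH 𝒱 (mulP H p) (mulP_equivariant p) 1 1 x y =
      -levelCupH 𝒱 (mulP H p) (mulP_equivariant p) 1 1 y x := by
  obtain ⟨x, rfl⟩ := levelH1π_surjective 𝒱 _ x
  obtain ⟨y, rfl⟩ := levelH1π_surjective 𝒱 _ y
  rw [levelCupH_levelH1π, levelCupH_levelH1π, eq_neg_iff_add_eq_zero, ← map_add,
    levelH2π_eq_zero_iff]
  have hx := (mem_levelCocycles₁_trivRep_iff 𝒱 _).1 x.2
  have hy := (mem_levelCocycles₁_trivRep_iff 𝒱 _).1 y.2
  rw [mem_levelCoboundaries₂_iff]
  refine ⟨fun h => -(x.1 h * y.1 h), IsLevel₁.neg_mul hx.2 hy.2, ?_⟩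
  rw [d₁₂_trivRep]
  exact (cupZ_add_cupZ_swap hx.1 hy.1).symm

end TrivialCoeff

section Pairing

variable {H : Type} [Group H] (𝒱 : LevelStructure H) (C : Rep ℤ H) [IsDiscrete 𝒱 C] (p : ℕ)
  [Fact p.Prime]

/-- **Norm index hypothesis (NI)**: for every finite-level character `χ` onto `ZMod p` (and `σ`
with `χ σ = 1`) the norm `C^{ker χ} → C^H` is not surjective.  (LO3: for a cyclic extension `E/F`
of local fields of degree `p` the norm `Eˣ → Fˣ` is not surjective.) -/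
def NormIndex : Prop :=
  ∀ (χ : H →* Multiplicative (ZMod p)) (σ : H), IsLevelChar 𝒱 χ → χ σ = Multiplicative.ofAdd 1 →
    ∃ a : C, (∀ g, C.ρ g a = a) ∧ ¬ IsNormFrom χ σ a

variable {𝒱 C p} (D : KummerData 𝒱 C p) (hNI : NormIndex 𝒱 C p)

include D hNI

/-- **Cocycle form of the non-degeneracy**: for a non-zero finite-level homomorphism
`y : H → ZMod p` there is a finite-level homomorphism `κ` such that `κ ∪ y` is not the coboundary
of a finite-level cochain. -/
theorem exists_cupZ_ne_dZ_of_ne_zero (y : H → ZMod p) (hy : ∀ g h, y (g * h) = y g + y h)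
    (hlev : IsLevel₁ 𝒱 y) (hy0 : y ≠ 0) :
    ∃ κ : H → ZMod p, (∀ g h, κ (g * h) = κ g + κ h) ∧ IsLevel₁ 𝒱 κ ∧
      ¬ ∃ f : H → ZMod p, IsLevel₁ 𝒱 f ∧ cupZ κ y = dZ f := by
  have : NeZero p := ⟨(Fact.out : p.Prime).ne_zero⟩
  let χ : H →* Multiplicative (ZMod p) :=
    MonoidHom.mk' (fun h => Multiplicative.ofAdd (y h)) (fun g h => by rw [hy, ofAdd_add])
  have hχ : IsLevelChar 𝒱 χ := by
    obtain ⟨U, hU, h⟩ := hlev
    refine ⟨U, hU, fun s hs => ?_⟩
    rw [MonoidHom.mem_ker]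
    have h1 : y s = 0 := by
      have h2 := h 1 s hs
      rw [one_mul] at h2
      have h3 : y 1 = 0 := by
        have := hy 1 1
        rw [one_mul] at this
        exact left_eq_add.1 this
      rw [h2, h3]
    show Multiplicative.ofAdd (y s) = 1
    rw [h1]; rfl
  obtain ⟨h₀, hh₀⟩ : ∃ h₀, y h₀ ≠ 0 := by
    by_contra hcon
    simp only [not_exists, not_not] at hcon
    exact hy0 (funext hcon)
  let σ : H := h₀ ^ ((y h₀)⁻¹).val
  have hσ : χ σ = Multiplicative.ofAdd 1 := by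
    show χ (h₀ ^ ((y h₀)⁻¹).val) = _
    rw [map_pow]
    show (Multiplicative.ofAdd (y h₀)) ^ ((y h₀)⁻¹).val = _
    rw [← ofAdd_nsmul, nsmul_eq_mul, ZMod.natCast_zmod_val, inv_mul_cancel₀ hh₀]
  exact exists_cupZ_ne_dZ D χ hχ σ hσ (hNI χ σ hχ hσ)

/-- **Right kernel**: a class `y ∈ H¹(H, ZMod p)` with `x ∪ y = 0` for all `x` vanishes. -/
theorem eq_zero_of_levelCupH_right (y : levelCohomology 𝒱 (trivRep H p) 1)
    (h : ∀ x, levelCupH 𝒱 (mulP H p) (mulP_equivariant p) 1 1 x y = 0) : y = 0 := by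
  obtain ⟨y, rfl⟩ := levelH1π_surjective 𝒱 _ y
  have hy := (mem_levelCocycles₁_trivRep_iff 𝒱 _).1 y.2
  by_contra hne
  have hy0 : y.1 ≠ 0 := by
    intro h0
    apply hne
    have : y = 0 := Subtype.ext h0
    rw [this, map_zero]
  obtain ⟨κ, hκ, hκl, hκn⟩ := exists_cupZ_ne_dZ_of_ne_zero D hNI y.1 hy.1 hy.2 hy0
  apply hκn
  have h1 := h (levelH1π 𝒱 _ ⟨κ, (mem_levelCocycles₁_trivRep_iff 𝒱 _).2 ⟨hκ, hκl⟩⟩)
  rw [levelCupH_levelH1π, levelH2π_eq_zero_iff, mem_levelCoboundaries₂_iff] at h1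
  obtain ⟨f, hf, hfe⟩ := h1
  rw [d₁₂_trivRep] at hfe
  exact ⟨f, hf, hfe.symm⟩

/-- **Left kernel**: a class `x ∈ H¹(H, ZMod p)` with `x ∪ y = 0` for all `y` vanishes. -/
theorem eq_zero_of_levelCupH_left (x : levelCohomology 𝒱 (trivRep H p) 1)
    (h : ∀ y, levelCupH 𝒱 (mulP H p) (mulP_equivariant p) 1 1 x y = 0) : x = 0 := by
  apply eq_zero_of_levelCupH_right D hNI x
  intro y
  rw [levelCupH_one_one_comm, h y, neg_zero]

omit hNI in
/-- **Finiteness of `H¹(H, ZMod p)`, cocycle form**: if `C^H / p` is finite, there are only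
finitely many finite-level homomorphisms `H → ZMod p` (all of them are Kummer cocycles). -/
theorem finite_levelHoms
    (hfin : ∃ s : Set C, s.Finite ∧ ∀ a : C, (∀ g, C.ρ g a = a) →
      ∃ b ∈ s, ∃ c : C, (∀ g, C.ρ g c = c) ∧ a = b + p • c) :
    {κ : H → ZMod p | (∀ g h, κ (g * h) = κ g + κ h) ∧ IsLevel₁ 𝒱 κ}.Finite := by
  classical
  have : NeZero p := ⟨(Fact.out : p.Prime).ne_zero⟩
  obtain ⟨s, hs, hcov⟩ := hfin
  choose β hβ using D.divisible
  let F : C → (H → ZMod p) := fun b =>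
    if hb : ∀ g, C.ρ g b = b then kum D (β b) (fun g => by rw [hβ]; exact hb g) else 0
  refine (hs.image F).subset ?_
  rintro κ ⟨hκ, hκl⟩
  obtain ⟨α, hα, hακ⟩ := exists_kummer D κ hκ hκl
  obtain ⟨b, hbs, c, hc, hab⟩ := hcov (p • α) hα
  have hb : ∀ g, C.ρ g b = b := by
    intro g
    have h1 : b = p • α - p • c := by rw [hab]; abel
    rw [h1, map_sub, hα g, map_nsmul, hc g]
  refine ⟨b, hbs, ?_⟩
  show (if hb : ∀ g, C.ρ g b = b then kum D (β b) (fun g => by rw [hβ]; exact hb g) else 0) = κ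
  rw [dif_pos hb]
  funext g
  apply val_nsmul_injective D.ζ_tors D.ζ_ne
  rw [← kum_spec, ← hακ g]
  -- `τ := α - c - β b` is `p`-torsion, hence invariant
  have hτ : p • (α - c - β b) = 0 := by
    rw [smul_sub, smul_sub, hβ, hab]; abel
  obtain ⟨n, hn⟩ := D.tors_gen _ hτ
  have hτfix : C.ρ g (α - c - β b) = α - c - β b := by
    rw [hn, map_nsmul, D.ζ_fix]
  have h2 : β b = α - c - (α - c - β b) := by abel
  rw [h2, map_sub, map_sub, hτfix, hc g]
  abel

omit hNI in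
/-- **Finiteness of `H¹(H, ZMod p)`** if `C^H / p` is finite. -/
theorem finite_levelH1
    (hfin : ∃ s : Set C, s.Finite ∧ ∀ a : C, (∀ g, C.ρ g a = a) →
      ∃ b ∈ s, ∃ c : C, (∀ g, C.ρ g c = c) ∧ a = b + p • c) :
    Finite (levelCohomology 𝒱 (trivRep H p) 1) := by
  have h1 : (levelCocycles₁ 𝒱 (trivRep H p) : Set (H → ZMod p)).Finite :=
    (finite_levelHoms D hfin).subset fun κ hκ => (mem_levelCocycles₁_trivRep_iff 𝒱 κ).1 hκ
  have : Finite (levelCocycles₁ 𝒱 (trivRep H p)) := h1.to_subtype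
  exact Finite.of_surjective _ (levelH1π_surjective 𝒱 (trivRep H p))

omit D hNI in
/-- The duality map `H¹ → (H¹)^*`, `y ↦ (x ↦ t (x ∪ y))`, of a functional `t` on `H²`. -/
noncomputable def cupDual (t : levelCohomology 𝒱 (trivRep H p) 2 →ₗ[ZMod p] ZMod p) :
    levelCohomology 𝒱 (trivRep H p) 1 →ₗ[ZMod p]
      Module.Dual (ZMod p) (levelCohomology 𝒱 (trivRep H p) 1) :=
  ((levelCupH 𝒱 (mulP H p) (mulP_equivariant p) 1 1).compr₂ t).flip

omit D hNI in
theorem cupDual_apply (t : levelCohomology 𝒱 (trivRep H p) 2 →ₗ[ZMod p] ZMod p)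
    (x y : levelCohomology 𝒱 (trivRep H p) 1) :
    cupDual t y x = t (levelCupH 𝒱 (mulP H p) (mulP_equivariant p) 1 1 x y) := rfl

/-- **The local Hilbert pairing is non-degenerate**: for an injective functional `t` on
`H²(H, ZMod p)`, the duality map `H¹ → (H¹)^*` is injective. -/
theorem cupDual_injective (t : levelCohomology 𝒱 (trivRep H p) 2 →ₗ[ZMod p] ZMod p)
    (ht : Function.Injective t) : Function.Injective (cupDual t) := by
  rw [injective_iff_map_eq_zero]
  intro y hy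
  apply eq_zero_of_levelCupH_right D hNI y
  intro x
  apply ht
  rw [map_zero]
  have := LinearMap.congr_fun hy x
  rwa [cupDual_apply] at this

/-- **The local Hilbert pairing is perfect** if `H¹(H, ZMod p)` is finite. -/
theorem cupDual_bijective (t : levelCohomology 𝒱 (trivRep H p) 2 →ₗ[ZMod p] ZMod p)
    (ht : Function.Injective t) [Finite (levelCohomology 𝒱 (trivRep H p) 1)] :
    Function.Bijective (cupDual t) := by
  have : Module.Finite (ZMod p) (levelCohomology 𝒱 (trivRep H p) 1) := Module.Finite.of_finite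
  refine ⟨cupDual_injective D hNI t ht, ?_⟩
  exact (LinearMap.injective_iff_surjective_of_finrank_eq_finrank
    (Subspace.dual_finrank_eq).symm).1 (cupDual_injective D hNI t ht)

end Pairing

end Fermat.Agent.S55.Local.Hilbert
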