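/-
S55 (T4), row KC (board #702, for ARITH-L (d) `finrank P1' = 2 s_L` and for LOC7 `hfin`):
THE EXACT LOCAL KUMMER COUNT and the CONCRETE `KummerData`.

* (KC1, abstract; helper6's `Local/Hilbert` setting `D : KummerData 𝒱 C p`):
  `invs C : AddSubgroup C` (the invariants `C^H`), `kumHom D : invs C →+ H¹(𝒱, ZMod p)`
  (`a ↦ kum D (a^{1/p})`), `kumHom_surjective`, `ker_kumHom` (`= p·C^H`), `kumEquiv`,
  ★ `card_levelH1 D : Nat.card (levelCohomology 𝒱 (trivRep H p) 1) = [C^H : p·C^H]`.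
* (H90) `hilbert90_unitsRep F Ω : Hilbert90 (krullLevel F Ω) (unitsRep F Ω)` for ANY Galois `Ω/F`.
* (KC2) ★ `kummerData K Ω hζ hroots : KummerData (krullLevel K Ω) (unitsRep K Ω) p` for `Ω/K` Galois,
  `ζ ∈ K` a primitive `p`-th root of unity, `hroots : ∀ x : Ω, ∃ y, y ^ p = x`.
* (Count) `unitsEquivInvs : Additive Kˣ ≃+ invs (unitsRep K Ω)`,
  ★ `card_levelH1_eq_index : Nat.card H¹(Gal(Ω/K), ZMod p) = [Kˣ : Kˣᵖ]`.
* (KC3) for `K/ℚ_q` finite: ★ `card_levelH1_local`, `finite_levelH1_local`,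
  ★ `finrank_levelH1_local : finrank (ZMod p) H¹(Gal(Ω/K), ZMod p) = 2 + [q = p]·[K : ℚ_q]`,
  `hfin_of_index_ne_zero`, ★ `hfin_local` (= the `hfin` of helper6's `localBase_trivRep'`).
-/
import Mathlib
import Fermat.Agent.S55.Local.Hilbert
import Fermat.Agent.S55.GaloisLevel
import Fermat.Agent.S55.GC.GaloisLayerInf
import Fermat.Agent.S55.GL.LocalIndex

set_option autoImplicit false
set_option linter.unusedSectionVars false

namespace Fermat.Agent.S55.Local.KummerCount

open groupCohomology CategoryTheory Fermat.Agent.S55.Level Fermat.Agent.S55.Local.Hilbert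

section Abstract

variable {H : Type} [Group H] {𝒱 : LevelStructure H} {C : Rep ℤ H} [IsDiscrete 𝒱 C] {p : ℕ}
  [Fact p.Prime] (D : KummerData 𝒱 C p)

/-- The invariants `C^H` as an additive subgroup (avoids the two `ℤ`-module structures on `C`). -/
def invs (C : Rep ℤ H) : AddSubgroup C where
  carrier := {a | ∀ g, C.ρ g a = a}
  zero_mem' := fun g => map_zero _
  add_mem' := fun {a b} ha hb g => by rw [map_add, ha g, hb g]
  neg_mem' := fun {a} ha g => by rw [map_neg, ha g]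

lemma mem_invs_iff (a : C) : a ∈ invs C ↔ ∀ g, C.ρ g a = a := Iff.rfl

/-- The Kummer cocycle only depends on `g ↦ g α - α`. -/
lemma kum_congr {α α' : C} (hα : ∀ g, C.ρ g (p • α) = p • α) (hα' : ∀ g, C.ρ g (p • α') = p • α')
    (h : ∀ g, C.ρ g α - α = C.ρ g α' - α') : kum D α hα = kum D α' hα' := by
  funext g
  apply val_nsmul_injective D.ζ_tors D.ζ_ne
  rw [← kum_spec, ← kum_spec, h g]

/-- The Kummer cocycle is additive in `α`. -/
lemma kum_add {α α' : C} (hα : ∀ g, C.ρ g (p • α) = p • α) (hα' : ∀ g, C.ρ g (p • α') = p • α')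
    (hαα' : ∀ g, C.ρ g (p • (α + α')) = p • (α + α')) (g : H) :
    kum D (α + α') hαα' g = kum D α hα g + kum D α' hα' g := by
  have : NeZero p := ⟨(Fact.out : p.Prime).ne_zero⟩
  apply val_nsmul_injective D.ζ_tors D.ζ_ne
  rw [← kum_spec, val_nsmul_add D.ζ_tors, ← kum_spec, ← kum_spec, map_add]
  abel

include D in
/-- `p`-torsion elements are invariant. -/
lemma ρ_eq_of_nsmul_eq_zero {τ : C} (hτ : p • τ = 0) (g : H) : C.ρ g τ = τ := by
  obtain ⟨n, hn⟩ := D.tors_gen τ hτ
  rw [hn, map_nsmul, D.ζ_fix]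

/-- If `α - α'` is `p`-torsion, the Kummer cocycles agree. -/
lemma kum_eq_of_nsmul_sub_eq_zero {α α' : C} (hα : ∀ g, C.ρ g (p • α) = p • α)
    (hα' : ∀ g, C.ρ g (p • α') = p • α') (h : p • (α - α') = 0) :
    kum D α hα = kum D α' hα' := by
  apply kum_congr D hα hα'
  intro g
  have h1 := ρ_eq_of_nsmul_eq_zero D h g
  rw [map_sub] at h1
  have h2 : C.ρ g α - α = (C.ρ g α - C.ρ g α') - (α - α') + (C.ρ g α' - α') := by abel
  rw [h2, h1, sub_self, zero_add]

/-- The Kummer cocycle vanishes iff `α` is invariant. -/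
lemma kum_eq_zero_iff {α : C} (hα : ∀ g, C.ρ g (p • α) = p • α) :
    kum D α hα = 0 ↔ ∀ g, C.ρ g α = α := by
  constructor
  · intro h g
    have h1 := kum_spec D α hα g
    rw [h, Pi.zero_apply, ZMod.val_zero, zero_nsmul] at h1
    exact sub_eq_zero.1 h1
  · intro h
    funext g
    exact kum_eq_zero_of_fix D α hα (h g)

/-- A chosen `p`-th root. -/
noncomputable def root (c : C) : C := Classical.choose (D.divisible c)

lemma nsmul_root (c : C) : p • root D c = c := Classical.choose_spec (D.divisible c)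

lemma root_inv (a : invs C) (g : H) : C.ρ g (p • root D (a : C)) = p • root D (a : C) := by
  rw [nsmul_root]
  exact a.2 g

/-- The Kummer cocycle of (a `p`-th root of) an invariant element, as a level 1-cocycle. -/
noncomputable def kumCocycle (a : invs C) : levelCocycles₁ 𝒱 (trivRep H p) :=
  ⟨kum D (root D (a : C)) (root_inv D a),
    (mem_levelCocycles₁_trivRep_iff 𝒱 _).2 ⟨kum_mul D _ _, kum_isLevel₁ D _ _⟩⟩

lemma kumCocycle_zero : kumCocycle D (0 : invs C) = 0 := by
  apply Subtype.ext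
  show kum D (root D ((0 : invs C) : C)) (root_inv D 0) = 0
  rw [kum_eq_zero_iff]
  intro g
  apply ρ_eq_of_nsmul_eq_zero D
  rw [nsmul_root]; rfl

lemma kumCocycle_add (a b : invs C) :
    kumCocycle D (a + b) = kumCocycle D a + kumCocycle D b := by
  apply Subtype.ext
  show kum D (root D ((a + b : invs C) : C)) (root_inv D (a + b)) =
    kum D (root D (a : C)) (root_inv D a) + kum D (root D (b : C)) (root_inv D b)
  have hab : ∀ g, C.ρ g (p • (root D (a : C) + root D (b : C))) =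
      p • (root D (a : C) + root D (b : C)) := by
    intro g
    rw [smul_add, map_add, root_inv D a g, root_inv D b g]
  rw [kum_eq_of_nsmul_sub_eq_zero D (root_inv D (a + b)) hab]
  · funext g
    exact kum_add D (root_inv D a) (root_inv D b) hab g
  · rw [smul_sub, smul_add, nsmul_root, nsmul_root, nsmul_root]
    show ((a : C) + (b : C)) - ((a : C) + (b : C)) = 0
    exact sub_self _

/-- **The Kummer map** `C^H → H¹(H, ZMod p)`. -/
noncomputable def kumHom : invs C →+ levelCohomology 𝒱 (trivRep H p) 1 where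
  toFun a := levelH1π 𝒱 _ (kumCocycle D a)
  map_zero' := by rw [kumCocycle_zero, map_zero]
  map_add' a b := by rw [kumCocycle_add, map_add]

/-- With trivial coefficients there are no nonzero 1-coboundaries. -/
lemma coboundaries₁_trivRep (f : H → ZMod p) (hf : f ∈ coboundaries₁ (trivRep H p)) : f = 0 := by
  obtain ⟨x, rfl⟩ := hf
  funext g
  show (trivRep H p).ρ g x - x = 0
  rw [trivRep_ρ, sub_self]

lemma kumHom_eq_zero_iff (a : invs C) :
    kumHom D a = 0 ↔ ∀ g, C.ρ g (root D (a : C)) = root D (a : C) := by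
  show levelH1π 𝒱 _ (kumCocycle D a) = 0 ↔ _
  rw [levelH1π_eq_zero_iff, ← kum_eq_zero_iff D (root_inv D a)]
  constructor
  · intro h
    exact coboundaries₁_trivRep _ h
  · intro h
    show kum D (root D (a : C)) (root_inv D a) ∈ coboundaries₁ (trivRep H p)
    rw [h]
    exact Submodule.zero_mem _

theorem kumHom_surjective : Function.Surjective (kumHom D) := by
  intro x
  obtain ⟨z, rfl⟩ := levelH1π_surjective 𝒱 _ x
  have hz := (mem_levelCocycles₁_trivRep_iff 𝒱 _).1 z.2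
  obtain ⟨α, hα, hακ⟩ := exists_kummer D z.1 hz.1 hz.2
  refine ⟨⟨p • α, hα⟩, ?_⟩
  show levelH1π 𝒱 _ (kumCocycle D _) = levelH1π 𝒱 _ z
  have hzz : kumCocycle D ⟨p • α, hα⟩ = z := by
    apply Subtype.ext
    show kum D (root D (p • α)) (root_inv D ⟨p • α, hα⟩) = z.1
    have h1 : kum D (root D (p • α)) (root_inv D ⟨p • α, hα⟩) = kum D α hα := by
      apply kum_eq_of_nsmul_sub_eq_zero
      rw [smul_sub, nsmul_root, sub_self]
    rw [h1]
    funext g
    apply val_nsmul_injective D.ζ_tors D.ζ_ne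
    rw [← kum_spec, hακ g]
  rw [hzz]

theorem ker_kumHom :
    (kumHom D).ker = (nsmulAddMonoidHom p : invs C →+ invs C).range := by
  ext a
  rw [AddMonoidHom.mem_ker, kumHom_eq_zero_iff, AddMonoidHom.mem_range]
  constructor
  · intro h
    refine ⟨⟨root D (a : C), h⟩, ?_⟩
    apply Subtype.ext
    show p • root D (a : C) = a
    exact nsmul_root D _
  · rintro ⟨c, rfl⟩ g
    have hτ : p • (root D ((nsmulAddMonoidHom p c : invs C) : C) - (c : C)) = 0 := by
      rw [smul_sub, nsmul_root]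
      show p • (c : C) - p • (c : C) = 0
      exact sub_self _
    have h1 := ρ_eq_of_nsmul_eq_zero D hτ g
    rw [map_sub, c.2 g] at h1
    exact sub_left_injective h1

/-- **(KC1)** `H¹(H, ZMod p) ≃ C^H / p C^H`. -/
noncomputable def kumEquiv :
    (invs C ⧸ (nsmulAddMonoidHom p : invs C →+ invs C).range) ≃+
      levelCohomology 𝒱 (trivRep H p) 1 :=
  (QuotientAddGroup.quotientAddEquivOfEq (ker_kumHom D).symm).trans
    (QuotientAddGroup.quotientKerEquivOfSurjective (kumHom D) (kumHom_surjective D))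

include D in
/-- **(KC1)** `|H¹(H, ZMod p)| = [C^H : p C^H]`. -/
theorem card_levelH1 :
    Nat.card (levelCohomology 𝒱 (trivRep H p) 1) =
      (nsmulAddMonoidHom p : invs C →+ invs C).range.index := by
  rw [AddSubgroup.index_eq_card]
  exact (Nat.card_congr (kumEquiv D).toEquiv).symm

end Abstract

section H90

open Fermat.Agent.S55.GC.InfRes2 Fermat.Agent.S55.GC.GaloisLayerInf IntermediateField

/-- Hilbert 90 in the form `H1ResVanishes`, for ANY subgroup of a finite Galois group (no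
normality). -/
theorem h1ResVanishes_units' (K L : Type) [Field K] [Field L] [Algebra K L]
    [FiniteDimensional K L] [IsGalois K L] (S : Subgroup (L ≃ₐ[K] L)) :
    H1ResVanishes (Rep.ofAlgebraAutOnUnits K L) S := by
  intro f hf
  obtain ⟨y, hy⟩ := h90_subgroup K L S (fun s => Additive.toMul (f s : Additive Lˣ))
    (fun s t => by
      have := hf s t
      exact congrArg Additive.toMul this)
  refine ⟨Additive.ofMul y, fun s => ?_⟩
  have := hy s
  exact congrArg Additive.ofMul this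

/-- Transport of `H1ResVanishes` along an isomorphism of groups with modules (no normality). -/
theorem h1ResVanishes_of_equiv' {k G G' : Type} [CommRing k] [Group G] [Group G'] (e : G ≃* G')
    (A : Rep k G) (A' : Rep k G') (e₁ : A.V ≃ₗ[k] A'.V)
    (he : ∀ g x, e₁ (A.ρ g x) = A'.ρ (e g) (e₁ x))
    (S : Subgroup G) (S' : Subgroup G') (hS : ∀ s, s ∈ S ↔ e s ∈ S')
    (h : H1ResVanishes A' S') : H1ResVanishes A S := by
  intro f hf
  have hmem : ∀ s' : S', e.symm (s' : G') ∈ S := fun s' => by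
    rw [hS, MulEquiv.apply_symm_apply]
    exact s'.2
  let f' : S' → A' := fun s' => e₁ (f ⟨e.symm (s' : G'), hmem s'⟩)
  have hf' : ∀ s t : S', f' (s * t) = A'.ρ (s : G') (f' t) + f' s := by
    intro s t
    have h1 : (⟨e.symm ((s * t : S') : G'), hmem (s * t)⟩ : S) =
        ⟨e.symm (s : G'), hmem s⟩ * ⟨e.symm (t : G'), hmem t⟩ := by
      apply Subtype.ext
      show e.symm ((s : G') * (t : G')) = e.symm (s : G') * e.symm (t : G')
      rw [map_mul]
    show e₁ (f _) = A'.ρ (s : G') (e₁ (f _)) + e₁ (f _)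
    rw [h1, hf, map_add, he]
    show A'.ρ (e (e.symm (s : G'))) _ + _ = _
    rw [MulEquiv.apply_symm_apply]
  obtain ⟨y', hy'⟩ := h f' hf'
  refine ⟨e₁.symm y', fun s => ?_⟩
  apply e₁.injective
  have hs' : e (s : G) ∈ S' := (hS _).1 s.2
  have h2 := hy' ⟨e (s : G), hs'⟩
  have h3 : f' ⟨e (s : G), hs'⟩ = e₁ (f s) := by
    show e₁ (f ⟨e.symm (e (s : G)), _⟩) = e₁ (f s)
    congr 2
    apply Subtype.ext
    exact MulEquiv.symm_apply_apply e (s : G)
  rw [← h3, h2, map_sub, he, LinearEquiv.apply_symm_apply]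

variable (F Ω : Type) [Field F] [Field Ω] [Algebra F Ω] [IsGalois F Ω]

/-- Hilbert 90 on the layers for ANY subgroup `S` of `Gal(Ω/F) ⧸ Gal(Ω/E')`. -/
theorem h1ResVanishes_layer' (E' : IntermediateField F Ω) [Normal F E'] [FiniteDimensional F E']
    (S : Subgroup ((Ω ≃ₐ[F] Ω) ⧸ E'.fixingSubgroup)) :
    H1ResVanishes ((Rep.ofAlgebraAutOnUnits F Ω).quotientToInvariants E'.fixingSubgroup) S := by
  have hsep : Algebra.IsSeparable F E' := Algebra.isSeparable_tower_bot_of_isSeparable F E' Ω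
  have : IsGalois F E' := ⟨⟩
  refine h1ResVanishes_of_equiv' (galQuotEquiv F Ω E') _ (Rep.ofAlgebraAutOnUnits F E')
    (unitsLayerEquivF F Ω E') (fun g x => ?_) S (S.map (galQuotEquiv F Ω E').toMonoidHom)
    (fun s => ?_) (h1ResVanishes_units' F E' _)
  · exact LinearMap.congr_fun (unitsLayerEquivF_ρ F Ω E' g) x
  · exact (Subgroup.mem_map_iff_mem (galQuotEquiv F Ω E').injective).symm

open Fermat.Agent.S55.GaloisLevel in
theorem h1ResVanishes_of_eq (U : Subgroup (Ω ≃ₐ[F] Ω)) [U.Normal] (E' : IntermediateField F Ω)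
    [Normal F E'] [FiniteDimensional F E'] (h : E'.fixingSubgroup = U)
    (N : Subgroup ((Ω ≃ₐ[F] Ω) ⧸ U)) :
    H1ResVanishes ((unitsRep F Ω).quotientToInvariants U) N := by
  subst h
  exact h1ResVanishes_layer' F Ω E' N

open Fermat.Agent.S55.GaloisLevel in
/-- **Finite-layer Hilbert 90** for `(Gal(Ω/F), krullLevel, Ωˣ)`. -/
theorem hilbert90_unitsRep : Hilbert90 (krullLevel F Ω) (unitsRep F Ω) := by
  intro U hUn hU N
  have hfd : FiniteDimensional F (fixedField U) := hU.2.finiteDimensional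
  have hnorm : Normal F (fixedField U) := hU.2.normal_fixedField
  exact h1ResVanishes_of_eq F Ω U (fixedField U) hU.2.fixingSubgroup_fixedField N

end H90

section Concrete

open Fermat.Agent.S55.GaloisLevel

variable (K Ω : Type) [Field K] [Field Ω] [Algebra K Ω] [IsGalois K Ω] {p : ℕ} [Fact p.Prime]

/-- The image in `Ωˣ` of a root of unity of `K`. -/
noncomputable def zetaUnit {ζ : K} (hζ : IsPrimitiveRoot ζ p) : Ωˣ :=
  Units.map (algebraMap K Ω : K →* Ω) (hζ.isUnit (Fact.out : p.Prime).ne_zero).unit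

lemma coe_zetaUnit {ζ : K} (hζ : IsPrimitiveRoot ζ p) :
    ((zetaUnit K Ω hζ : Ωˣ) : Ω) = algebraMap K Ω ζ := rfl

lemma isPrimitiveRoot_zetaUnit {ζ : K} (hζ : IsPrimitiveRoot ζ p) :
    IsPrimitiveRoot (zetaUnit K Ω hζ) p := by
  rw [← IsPrimitiveRoot.coe_units_iff, coe_zetaUnit]
  exact hζ.map_of_injective (algebraMap K Ω).injective

/-- **(KC2)** The Kummer data of `(Gal(Ω/K), krullLevel, Ωˣ)` for `ζ_p ∈ K` and `Ω` closed under
`p`-th roots. -/
noncomputable def kummerData {ζ : K} (hζ : IsPrimitiveRoot ζ p)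
    (hroots : ∀ x : Ω, ∃ y : Ω, y ^ p = x) :
    KummerData (krullLevel K Ω) (unitsRep K Ω) p where
  ζ := Additive.ofMul (zetaUnit K Ω hζ)
  ζ_fix g := by
    apply Additive.toMul.injective
    apply Units.ext
    show g (algebraMap K Ω ζ) = algebraMap K Ω ζ
    exact g.commutes ζ
  ζ_tors := by
    show Additive.ofMul ((zetaUnit K Ω hζ) ^ p) = 0
    rw [(isPrimitiveRoot_zetaUnit K Ω hζ).pow_eq_one]
    rfl
  ζ_ne := by
    intro h
    have h1 : zetaUnit K Ω hζ = 1 := h
    have := (isPrimitiveRoot_zetaUnit K Ω hζ).ne_one (Fact.out : p.Prime).one_lt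
    exact this h1
  tors_gen c hc := by
    have hp : p.Prime := Fact.out
    have : NeZero p := ⟨hp.ne_zero⟩
    have hc' : (Additive.toMul c : Ωˣ) ^ p = 1 := hc
    have hc'' : ((Additive.toMul c : Ωˣ) : Ω) ^ p = 1 := by
      rw [← Units.val_pow_eq_pow_val, hc', Units.val_one]
    have hζΩ : IsPrimitiveRoot (algebraMap K Ω ζ) p :=
      hζ.map_of_injective (algebraMap K Ω).injective
    obtain ⟨i, hi, hic⟩ := hζΩ.eq_pow_of_pow_eq_one hc''
    refine ⟨(i : ZMod p), ?_⟩
    rw [ZMod.val_natCast_of_lt hi]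
    apply Additive.toMul.injective
    apply Units.ext
    show ((Additive.toMul c : Ωˣ) : Ω) = (((zetaUnit K Ω hζ) ^ i : Ωˣ) : Ω)
    rw [Units.val_pow_eq_pow_val, coe_zetaUnit, hic]
  divisible c := by
    have hp : p.Prime := Fact.out
    obtain ⟨y, hy⟩ := hroots ((Additive.toMul c : Ωˣ) : Ω)
    have hyu : IsUnit y := by
      have : IsUnit (y ^ p) := hy ▸ (Additive.toMul c : Ωˣ).isUnit
      exact (isUnit_pow_iff hp.ne_zero).1 this
    refine ⟨Additive.ofMul hyu.unit, ?_⟩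
    apply Additive.toMul.injective
    apply Units.ext
    show ((hyu.unit ^ p : Ωˣ) : Ω) = _
    rw [Units.val_pow_eq_pow_val, IsUnit.unit_spec]
    exact hy
  h90 := hilbert90_unitsRep K Ω

end Concrete

section Count

open Fermat.Agent.S55.GaloisLevel Fermat.Agent.S55.Local

variable (K Ω : Type) [Field K] [Field Ω] [Algebra K Ω] [IsGalois K Ω]

/-- `Kˣ → (Ωˣ)^{Gal(Ω/K)}`. -/
noncomputable def unitsToInvs : Additive Kˣ →+ invs (unitsRep K Ω) where
  toFun x := ⟨Additive.ofMul (Units.map (algebraMap K Ω : K →* Ω) (Additive.toMul x)), fun g => by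
    apply Additive.toMul.injective
    apply Units.ext
    show g (algebraMap K Ω ((Additive.toMul x : Kˣ) : K)) = algebraMap K Ω _
    exact g.commutes _⟩
  map_zero' := by
    apply Subtype.ext
    show Additive.ofMul (Units.map (algebraMap K Ω : K →* Ω) 1) = 0
    rw [map_one]; rfl
  map_add' x y := by
    apply Subtype.ext
    show Additive.ofMul (Units.map (algebraMap K Ω : K →* Ω)
      (Additive.toMul x * Additive.toMul y)) = _
    rw [map_mul]; rfl

lemma unitsToInvs_bijective : Function.Bijective (unitsToInvs K Ω) := by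
  constructor
  · intro x y h
    apply Additive.toMul.injective
    apply Units.ext
    apply (algebraMap K Ω).injective
    have h1 := congrArg (fun a : invs (unitsRep K Ω) =>
      ((Additive.toMul (a.1 : Additive Ωˣ) : Ωˣ) : Ω)) h
    exact h1
  · rintro ⟨a, ha⟩
    have hfix : ∀ g : Gal(Ω/K), g ((Additive.toMul (a : Additive Ωˣ) : Ωˣ) : Ω) =
        ((Additive.toMul (a : Additive Ωˣ) : Ωˣ) : Ω) := fun g =>
      congrArg (fun b : Additive Ωˣ => ((Additive.toMul b : Ωˣ) : Ω)) (ha g)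
    obtain ⟨x, hx⟩ := (InfiniteGalois.mem_range_algebraMap_iff_fixed _).2 hfix
    have hx0 : x ≠ 0 := by
      rintro rfl
      rw [map_zero] at hx
      exact (Additive.toMul (a : Additive Ωˣ) : Ωˣ).ne_zero hx.symm
    refine ⟨Additive.ofMul (Units.mk0 x hx0), ?_⟩
    apply Subtype.ext
    apply Additive.toMul.injective
    apply Units.ext
    exact hx

/-- `(Ωˣ)^{Gal(Ω/K)} ≃ Kˣ`. -/
noncomputable def unitsEquivInvs : Additive Kˣ ≃+ invs (unitsRep K Ω) :=
  AddEquiv.ofBijective (unitsToInvs K Ω) (unitsToInvs_bijective K Ω)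

/-- `[C^H : p C^H] = [Kˣ : Kˣᵖ]` for `C = Ωˣ`, `H = Gal(Ω/K)`. -/
theorem index_range_nsmul_invs (p : ℕ) :
    (nsmulAddMonoidHom p : invs (unitsRep K Ω) →+ invs (unitsRep K Ω)).range.index =
      (powMonoidHom p : Kˣ →* Kˣ).range.index := by
  have h1 : (nsmulAddMonoidHom p : invs (unitsRep K Ω) →+ invs (unitsRep K Ω)).range =
      ((nsmulAddMonoidHom p : Additive Kˣ →+ Additive Kˣ).range).map
        ((unitsEquivInvs K Ω : Additive Kˣ ≃+ invs (unitsRep K Ω)) : Additive Kˣ →+ _) := by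
    ext b
    constructor
    · rintro ⟨c, rfl⟩
      refine ⟨p • (unitsEquivInvs K Ω).symm c, ⟨_, rfl⟩, ?_⟩
      show (unitsEquivInvs K Ω) (p • (unitsEquivInvs K Ω).symm c) = p • c
      rw [map_nsmul, AddEquiv.apply_symm_apply]
    · rintro ⟨_, ⟨x, rfl⟩, rfl⟩
      refine ⟨unitsEquivInvs K Ω x, ?_⟩
      show p • (unitsEquivInvs K Ω x) = (unitsEquivInvs K Ω) (p • x)
      rw [map_nsmul]
  rw [h1, AddSubgroup.index_map_equiv, range_nsmul_additive, Subgroup.index_toAddSubgroup]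

variable {p : ℕ} [Fact p.Prime]

/-- **(KC1)+(KC2)** `|H¹(Gal(Ω/K), ZMod p)| = [Kˣ : Kˣᵖ]` for `ζ_p ∈ K`, `Ω` closed under `p`-th
roots. -/
theorem card_levelH1_eq_index {ζ : K} (hζ : IsPrimitiveRoot ζ p)
    (hroots : ∀ x : Ω, ∃ y : Ω, y ^ p = x) :
    Nat.card (levelCohomology (krullLevel K Ω) (trivRep Gal(Ω/K) p) 1) =
      (powMonoidHom p : Kˣ →* Kˣ).range.index := by
  rw [card_levelH1 (kummerData K Ω hζ hroots), index_range_nsmul_invs]

end Count

section LocalCount

open Fermat.Agent.S55.GaloisLevel Fermat.Agent.S55.Local Fermat.Agent.S55.GL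

variable (K Ω : Type) [Field K] [Field Ω] [Algebra K Ω] [IsGalois K Ω]

/-- helper6's finiteness hypothesis `hfin` ("`C^H / p` is finite") for `C = Ωˣ`, `H = Gal(Ω/K)`,
from `[Kˣ : Kˣᵖ] < ∞`. -/
theorem hfin_of_index_ne_zero (p : ℕ) (h : (powMonoidHom p : Kˣ →* Kˣ).range.index ≠ 0) :
    ∃ s : Set (unitsRep K Ω), s.Finite ∧ ∀ a : unitsRep K Ω, (∀ g, (unitsRep K Ω).ρ g a = a) →
      ∃ b ∈ s, ∃ c : unitsRep K Ω, (∀ g, (unitsRep K Ω).ρ g c = c) ∧ a = b + p • c := by
  have hfi : (powMonoidHom p : Kˣ →* Kˣ).range.FiniteIndex := ⟨h⟩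
  have hfq : Finite (Kˣ ⧸ (powMonoidHom p : Kˣ →* Kˣ).range) :=
    Subgroup.finite_quotient_of_finiteIndex
  let f : Kˣ ⧸ (powMonoidHom p : Kˣ →* Kˣ).range → unitsRep K Ω := fun x =>
    ((unitsToInvs K Ω (Additive.ofMul x.out) : invs (unitsRep K Ω)) : unitsRep K Ω)
  refine ⟨Set.range f, Set.finite_range f, ?_⟩
  intro a ha
  obtain ⟨x, hx⟩ := (unitsToInvs_bijective K Ω).2 ⟨a, ha⟩
  let x' : Kˣ := Additive.toMul x
  have hmem : (QuotientGroup.mk x' : Kˣ ⧸ (powMonoidHom p : Kˣ →* Kˣ).range).out⁻¹ * x' ∈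
      (powMonoidHom p : Kˣ →* Kˣ).range := by
    rw [← QuotientGroup.eq]
    exact QuotientGroup.out_eq' _
  obtain ⟨y, hy⟩ := hmem
  refine ⟨f (QuotientGroup.mk x'), ⟨_, rfl⟩,
    ((unitsToInvs K Ω (Additive.ofMul y) : invs (unitsRep K Ω)) : unitsRep K Ω),
    (unitsToInvs K Ω (Additive.ofMul y)).2, ?_⟩
  have hx2 : x = Additive.ofMul (QuotientGroup.mk x' :
      Kˣ ⧸ (powMonoidHom p : Kˣ →* Kˣ).range).out + p • Additive.ofMul y := by
    apply Additive.toMul.injective
    show x' = (QuotientGroup.mk x' : Kˣ ⧸ (powMonoidHom p : Kˣ →* Kˣ).range).out * y ^ p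
    have : y ^ p = (QuotientGroup.mk x' : Kˣ ⧸ (powMonoidHom p : Kˣ →* Kˣ).range).out⁻¹ * x' := hy
    rw [this, mul_inv_cancel_left]
  have h3 := congrArg (fun z : invs (unitsRep K Ω) => (z : unitsRep K Ω)) hx
  simp only at h3
  rw [← h3, hx2, map_add, map_nsmul]
  rfl

variable (q : ℕ) [Fact q.Prime] [Algebra ℚ_[q] K] [FiniteDimensional ℚ_[q] K] {p : ℕ}
  [Fact p.Prime]

/-- **(KC3)** the exact local Kummer count: for `K/ℚ_q` finite with `ζ_p ∈ K` and `Ω/K` Galois,
closed under `p`-th roots: `|H¹(Gal(Ω/K), ZMod p)| = p ^ (2 + [q = p]·[K : ℚ_q])`. -/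
theorem card_levelH1_local {ζ : K} (hζ : IsPrimitiveRoot ζ p)
    (hroots : ∀ x : Ω, ∃ y : Ω, y ^ p = x) :
    Nat.card (levelCohomology (krullLevel K Ω) (trivRep Gal(Ω/K) p) 1) =
      p ^ (2 + if q = p then Module.finrank ℚ_[q] K else 0) := by
  rw [card_levelH1_eq_index K Ω hζ hroots, LocalIndex.index_range_pow_units q K Fact.out hζ]

include q in
/-- `H¹(Gal(Ω/K), ZMod p)` is finite. -/
theorem finite_levelH1_local {ζ : K} (hζ : IsPrimitiveRoot ζ p)
    (hroots : ∀ x : Ω, ∃ y : Ω, y ^ p = x) :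
    Finite (levelCohomology (krullLevel K Ω) (trivRep Gal(Ω/K) p) 1) := by
  apply Nat.finite_of_card_ne_zero
  rw [card_levelH1_local K Ω q hζ hroots]
  exact pow_ne_zero _ (Fact.out : p.Prime).ne_zero

/-- **(KC3)**, dimension form: `dim_{𝔽_p} H¹(Gal(Ω/K), ZMod p) = 2 + [q = p]·[K : ℚ_q]`. -/
theorem finrank_levelH1_local {ζ : K} (hζ : IsPrimitiveRoot ζ p)
    (hroots : ∀ x : Ω, ∃ y : Ω, y ^ p = x) :
    Module.finrank (ZMod p) (levelCohomology (krullLevel K Ω) (trivRep Gal(Ω/K) p) 1) =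
      2 + if q = p then Module.finrank ℚ_[q] K else 0 :=
  LocalIndex.finrank_eq_of_card_eq_pow (card_levelH1_local K Ω q hζ hroots)

include q in
/-- helper6's `hfin` for a finite extension `K` of `ℚ_q` with `ζ_p ∈ K`. -/
theorem hfin_local {ζ : K} (hζ : IsPrimitiveRoot ζ p) :
    ∃ s : Set (unitsRep K Ω), s.Finite ∧ ∀ a : unitsRep K Ω, (∀ g, (unitsRep K Ω).ρ g a = a) →
      ∃ b ∈ s, ∃ c : unitsRep K Ω, (∀ g, (unitsRep K Ω).ρ g c = c) ∧ a = b + p • c := by
  apply hfin_of_index_ne_zero K Ω p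
  rw [LocalIndex.index_range_pow_units q K Fact.out hζ]
  exact pow_ne_zero _ (Fact.out : p.Prime).ne_zero

omit [IsGalois K Ω] in
/-- An algebraically closed field has all `p`-th roots (the `hroots` hypothesis above). -/
theorem hroots_of_isAlgClosed [IsAlgClosed Ω] (p : ℕ) (hp : 0 < p) : ∀ x : Ω, ∃ y : Ω, y ^ p = x :=
  fun x => IsAlgClosed.exists_pow_nat_eq x hp

end LocalCount

end Fermat.Agent.S55.Local.KummerCount
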