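/-
S55, row KF (board: claimed after #739): LOCAL KUMMER FINITENESS = the hypothesis `hlocal` of
`AssemblyMain.result_of_main` / `TraceGlue.result_of_inv`.

* generic (`Ω/K` Galois, `E/K` finite): `charToHom`, `finite_levelChars_fixingSubgroup E hfin` :
  finitely many finite-level homomorphisms `Gal(Ω/E) → ZMod p` ⇒
  `(levelChars (krullLevel K Ω) E.fixingSubgroup (ZMod p)).Finite`
  (through helper27's `openEquiv` / `refines_openEquiv_symm`).
* `K = ℚ_q`, `Ω` algebraically closed: `finite_levelChars_of_isPrimitiveRoot q Ω E hζ`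
  (helper6's `finite_levelHoms` at `KummerCount.kummerData E Ω hζ _` with `KummerCount.hfin_local`),
  ★ `exists_small_finite_levelChars q Ω` : `∀ U₀ ∈ (krullLevel ℚ_[q] Ω).sets, ∃ U ∈ sets, U ≤ U₀ ∧
  (levelChars (krullLevel ℚ_[q] Ω) U (ZMod p)).Finite` (`U` = fixing subgroup of the normal closure
  of `E₀(ζ_p)`).
* ★★ `hlocal (q : Nat.Primes)` : VERBATIM the frozen shape, for
  `localLevel (primeLocalToGlobal q)` (helper27's `localLevel_primeLocalToGlobal_eq`); use as
  `fun q => KummerFinite.hlocal q.1`.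
-/
import Mathlib
import Fermat.Agent.S55.Local.KummerCount
import Fermat.Agent.S55.GaloisLevelBC
import Fermat.Agent.S55.Local.KrullLocal
import Fermat.Agent.S55.LevelFinite

set_option autoImplicit false
set_option linter.unusedSectionVars false
set_option linter.style.haveILetI false

open ExtCitation

namespace Fermat.Agent.S55.Local.KummerFinite

open Fermat.Agent.S55.Level Fermat.Agent.S55.GaloisLevel Fermat.Agent.S55.Local.Hilbert
  Fermat.Agent.S55.Local.KummerCount

section Generic

variable {K Ω : Type} [Field K] [Field Ω] [Algebra K Ω] [IsGalois K Ω]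
  (E : IntermediateField K Ω) [FiniteDimensional K E] {p : ℕ}

/-- A character of the open subgroup `Gal(Ω/E) ≤ Gal(Ω/K)` as a function on `Gal(Ω/E)`. -/
noncomputable def charToHom (χ : E.fixingSubgroup →* Multiplicative (ZMod p)) :
    Gal(Ω/E) → ZMod p :=
  fun τ => Multiplicative.toAdd
    (χ ((openEquiv (rfl : E.fixingSubgroup = E.fixingSubgroup)).symm τ))

lemma charToHom_injective :
    Function.Injective (charToHom E : (E.fixingSubgroup →* Multiplicative (ZMod p)) → _) := by
  intro χ χ' h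
  apply MonoidHom.ext
  intro u
  have h1 := congrFun h (openEquiv (rfl : E.fixingSubgroup = E.fixingSubgroup) u)
  simp only [charToHom, MulEquiv.symm_apply_apply] at h1
  exact Multiplicative.toAdd.injective h1

lemma charToHom_mul (χ : E.fixingSubgroup →* Multiplicative (ZMod p)) (g h : Gal(Ω/E)) :
    charToHom E χ (g * h) = charToHom E χ g + charToHom E χ h := by
  simp only [charToHom, map_mul, toAdd_mul]

lemma isLevel₁_charToHom {χ : E.fixingSubgroup →* Multiplicative (ZMod p)}
    (hχ : χ ∈ levelChars (krullLevel K Ω) E.fixingSubgroup (ZMod p)) :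
    IsLevel₁ (krullLevel E Ω) (charToHom E χ) := by
  obtain ⟨V, hV, hVχ⟩ := hχ
  obtain ⟨W, hW, hWV⟩ := refines_openEquiv_symm (rfl : E.fixingSubgroup = E.fixingSubgroup) _
    ((krullLevel K Ω).mem_restrict_sets E.fixingSubgroup hV)
  refine ⟨W, hW, fun g s hs => ?_⟩
  rw [charToHom_mul]
  have h1 : ((openEquiv (rfl : E.fixingSubgroup = E.fixingSubgroup)).symm s : Gal(Ω/K)) ∈ V :=
    Subgroup.mem_subgroupOf.1 (hWV hs)
  have h2 : charToHom E χ s = 0 := by
    show Multiplicative.toAdd (χ _) = 0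
    rw [hVχ _ h1]; rfl
  rw [h2, add_zero]

/-- **Generic finiteness**: finitely many finite-level homomorphisms `Gal(Ω/E) → ZMod p` implies
finitely many level characters of the open subgroup `Gal(Ω/E) ≤ Gal(Ω/K)`. -/
theorem finite_levelChars_fixingSubgroup
    (hfin : {κ : Gal(Ω/E) → ZMod p | (∀ g h, κ (g * h) = κ g + κ h) ∧
      IsLevel₁ (krullLevel E Ω) κ}.Finite) :
    (levelChars (krullLevel K Ω) E.fixingSubgroup (ZMod p)).Finite := by
  refine (hfin.preimage ((charToHom_injective E).injOn)).subset ?_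
  intro χ hχ
  exact ⟨charToHom_mul E χ, isLevel₁_charToHom E hχ⟩

end Generic

section Padic

variable (q : ℕ) [Fact q.Prime] (Ω : Type) [Field Ω] [Algebra ℚ_[q] Ω] [IsGalois ℚ_[q] Ω]
  [IsAlgClosed Ω] {p : ℕ} [Fact p.Prime]

/-- Level characters of `Gal(Ω/E)`, `E/ℚ_q` finite containing `ζ_p`: finitely many. -/
theorem finite_levelChars_of_isPrimitiveRoot (E : IntermediateField ℚ_[q] Ω)
    [FiniteDimensional ℚ_[q] E] {ζ : E} (hζ : IsPrimitiveRoot ζ p) :
    (levelChars (krullLevel ℚ_[q] Ω) E.fixingSubgroup (ZMod p)).Finite := by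
  apply finite_levelChars_fixingSubgroup E
  have hroots : ∀ x : Ω, ∃ y : Ω, y ^ p = x :=
    fun x => IsAlgClosed.exists_pow_nat_eq x (Fact.out : p.Prime).pos
  exact finite_levelHoms (kummerData E Ω hζ hroots) (hfin_local E Ω q hζ)

/-- **Local Kummer finiteness** for `Gal(Ω/ℚ_q)`: arbitrarily small members of the Krull level
structure have finitely many level characters with values in `ZMod p`. -/
theorem exists_small_finite_levelChars :
    ∀ U₀ ∈ (krullLevel ℚ_[q] Ω).sets, ∃ U ∈ (krullLevel ℚ_[q] Ω).sets, U ≤ U₀ ∧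
      (levelChars (krullLevel ℚ_[q] Ω) U (ZMod p)).Finite := by
  intro U₀ hU₀
  have hp : p.Prime := Fact.out
  obtain ⟨E₀, hE₀, _, hE₀U⟩ := exists_fixingSubgroup_le hU₀.2
  haveI : CharZero Ω := charZero_of_injective_algebraMap (algebraMap ℚ_[q] Ω).injective
  haveI : NeZero (p : Ω) := ⟨Nat.cast_ne_zero.mpr hp.ne_zero⟩
  obtain ⟨ζ, hζ⟩ := HasEnoughRootsOfUnity.exists_primitiveRoot Ω p
  let E₁ : IntermediateField ℚ_[q] Ω := E₀ ⊔ IntermediateField.adjoin ℚ_[q] {ζ}
  haveI : FiniteDimensional ℚ_[q] (IntermediateField.adjoin ℚ_[q] {ζ}) :=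
    IntermediateField.adjoin.finiteDimensional
      (Algebra.IsIntegral.isIntegral (R := ℚ_[q]) ζ)
  haveI : FiniteDimensional ℚ_[q] E₁ := IntermediateField.finiteDimensional_sup _ _
  let E : IntermediateField ℚ_[q] Ω := IntermediateField.normalClosure ℚ_[q] E₁ Ω
  haveI : FiniteDimensional ℚ_[q] E := normalClosure.is_finiteDimensional ℚ_[q] E₁ Ω
  haveI : IsGalois ℚ_[q] E := IsGalois.normalClosure ℚ_[q] E₁ Ω
  have hE₁E : E₁ ≤ E := IntermediateField.le_normalClosure E₁
  have hζE : ζ ∈ E := hE₁E (le_sup_right (a := E₀)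
    (IntermediateField.mem_adjoin_simple_self ℚ_[q] ζ))
  have hζ' : IsPrimitiveRoot (⟨ζ, hζE⟩ : E) p :=
    IsPrimitiveRoot.of_map_of_injective (f := E.val) (by exact hζ) E.val.injective
  refine ⟨E.fixingSubgroup, fixingSubgroup_mem_krullLevel E, ?_,
    finite_levelChars_of_isPrimitiveRoot q Ω E hζ'⟩
  refine le_trans ?_ hE₀U
  exact IntermediateField.fixingSubgroup_antitone (le_trans le_sup_left hE₁E)

end Padic

section Frozen

variable (q : Nat.Primes) {p : ℕ} [Fact p.Prime]

local instance factPrime_KF : Fact (q : ℕ).Prime := ⟨q.2⟩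

/-- **`hlocal`** of `AssemblyMain.result_of_main` / `TraceGlue.result_of_inv`, in the frozen types
of `Assembly.localData`. -/
theorem hlocal : ∀ U₀ ∈ (localLevel (primeLocalToGlobal q)).sets,
    ∃ U ∈ (localLevel (primeLocalToGlobal q)).sets, U ≤ U₀ ∧
      (levelChars (localLevel (primeLocalToGlobal q)) U (ZMod p)).Finite := by
  rw [KrullLocal.localLevel_primeLocalToGlobal_eq]
  exact exists_small_finite_levelChars (q : ℕ) (PadicAlgCl (q : ℕ))

end Frozen

end Fermat.Agent.S55.Local.KummerFinite
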