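/-
S55 / LOC7 (c): the local Hilbert pairing in the `Ψ`-form consumed by LOC8
(`LevelDuality.LocalBaseHyp₁`).

* `section CupLow`: the cup products `H¹ × H¹ → H²`, `H² × H⁰ → H²`, `H⁰ × H² → H²` of level
  cohomology on low-degree representatives, for arbitrary coefficients and pairings.
* `section TrivialAction`: cocycles and coboundaries in low degree for a trivial action.
* `section PsiOneOne`: for `X` finite dimensional with TRIVIAL action and `χ = 1`, `Ψ¹¹` is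
  injective, its transpose is injective (left and right kernels of the local pairing), and `Ψ¹¹` is
  bijective if there are finitely many finite-level homomorphisms `S → ZMod p`.
* `section PsiTriv`: `X = ZMod p`: `Ψ²⁰` bijective and `Ψ⁰²` injective for a bijective functional
  `t`; `localBase_trivRep` = the three statements of `LocalBaseHyp₁`.
-/
import Mathlib
import Fermat.Agent.S55.Local.Hilbert
import Fermat.Agent.S55.CF.LowDegree
import Fermat.Agent.S55.LevelDuality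

set_option autoImplicit false
set_option linter.unusedSectionVars false

namespace Fermat.Agent.S55.Local.Hilbert

open groupCohomology CategoryTheory Fermat.Agent.S55.Level Fermat.Agent.S55.Cup
  Fermat.Agent.S55.CochainTools Fermat.Agent.S55.LevelScalars Fermat.Agent.S55.CF

section CupLow

variable {k G : Type} [CommRing k] [Group G] {A B E : Rep k G} (𝒰 : LevelStructure G)
  [IsDiscrete 𝒰 A] [IsDiscrete 𝒰 B] [IsDiscrete 𝒰 E] (φ : A →ₗ[k] B →ₗ[k] E)
  (hφ : ∀ (g : G) (a : A) (b : B), φ (A.ρ g a) (B.ρ g b) = E.ρ g (φ a b))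

/-- The cup product of two 1-cochains in low-degree form. -/
def cup₁₁ (x : G → A) (y : G → B) : G × G → E := fun gh => φ (x gh.1) (B.ρ gh.1 (y gh.2))

theorem cup_cochainsIso₁_inv_general (x : G → A) (y : G → B) :
    cup φ ((cochainsIso₁ A).inv.hom x) ((cochainsIso₁ B).inv.hom y) =
      (cochainsIso₂ E).inv.hom (cup₁₁ φ x y) := by
  funext g
  rw [cup_apply]
  show φ (x _) (B.ρ (tprod _) (y _)) = φ (x _) (B.ρ _ (y _))
  rw [Cup.tprod_one]
  rfl

/-- The `(1,1)` cup product on representatives. -/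
theorem levelCupH_levelH1π_levelH1π (x : levelCocycles₁ 𝒰 A) (y : levelCocycles₁ 𝒰 B)
    (hz : cup₁₁ φ x.1 y.1 ∈ levelCocycles₂ 𝒰 E) :
    levelCupH 𝒰 φ hφ 1 1 (levelH1π 𝒰 A x) (levelH1π 𝒰 B y) =
      levelH2π 𝒰 E ⟨cup₁₁ φ x.1 y.1, hz⟩ := by
  show levelCupH 𝒰 φ hφ 1 1
      ((levelπ 𝒰 _ 1).hom (levelCocycles₁ToLevelCocycles 𝒰 _ x))
      ((levelπ 𝒰 _ 1).hom (levelCocycles₁ToLevelCocycles 𝒰 _ y)) =
    (levelπ 𝒰 _ 2).hom (levelCocycles₂ToLevelCocycles 𝒰 _ ⟨cup₁₁ φ x.1 y.1, _⟩)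
  rw [levelπ_eq_cls _ 𝒰 1 _ (mem_Z_levelComplex _ 𝒰 1 _),
    levelπ_eq_cls _ 𝒰 1 _ (mem_Z_levelComplex _ 𝒰 1 _),
    levelπ_eq_cls _ 𝒰 2 _ (mem_Z_levelComplex _ 𝒰 2 _), levelCupH_cls]
  congr 1
  apply Subtype.ext
  apply Subtype.ext
  exact cup_cochainsIso₁_inv_general φ x.1 y.1

theorem cup_cochainsIso₂_inv_cochainsIso₀_inv (w : G × G → A) (a : B)
    (ha : ∀ g, B.ρ g a = a) :
    cup φ ((cochainsIso₂ A).inv.hom w) ((cochainsIso₀ B).inv.hom a) =
      (cochainsIso₂ E).inv.hom (fun gh => φ (w gh) a) := by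
  funext g
  rw [cup_apply]
  show φ (w _) (B.ρ (tprod _) a) = φ (w _) a
  rw [ha]
  rfl

theorem cup_cochainsIso₀_inv_cochainsIso₂_inv (a : A) (y : G × G → B) :
    cup φ ((cochainsIso₀ A).inv.hom a) ((cochainsIso₂ B).inv.hom y) =
      (cochainsIso₂ E).inv.hom (fun gh => φ a (y gh)) := by
  funext g
  rw [cup_apply]
  show φ a (B.ρ (tprod _) (y _)) = φ a (y _)
  rw [Cup.tprod_zero, map_one]
  rfl

/-- The `(2,0)` cup product on representatives. -/
theorem levelCupH_levelH2π_levelH0π (w : levelCocycles₂ 𝒰 A) (a : B.ρ.invariants)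
    (hz : (fun gh => φ (w.1 gh) a.1) ∈ levelCocycles₂ 𝒰 E) :
    levelCupH 𝒰 φ hφ 2 0 (levelH2π 𝒰 A w) (levelH0π 𝒰 B a) =
      levelH2π 𝒰 E ⟨fun gh => φ (w.1 gh) a.1, hz⟩ := by
  show levelCupH 𝒰 φ hφ 2 0
      ((levelπ 𝒰 _ 2).hom (levelCocycles₂ToLevelCocycles 𝒰 _ w))
      ((levelπ 𝒰 _ 0).hom (invariantsToLevelCocycles 𝒰 _ a)) =
    (levelπ 𝒰 _ 2).hom (levelCocycles₂ToLevelCocycles 𝒰 _ ⟨_, hz⟩)
  rw [levelπ_eq_cls _ 𝒰 2 _ (mem_Z_levelComplex _ 𝒰 2 _),
    levelπ_eq_cls _ 𝒰 0 _ (mem_Z_levelComplex _ 𝒰 0 _),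
    levelπ_eq_cls _ 𝒰 2 _ (mem_Z_levelComplex _ 𝒰 2 _), levelCupH_cls]
  congr 1
  apply Subtype.ext
  apply Subtype.ext
  exact cup_cochainsIso₂_inv_cochainsIso₀_inv φ w.1 a.1 a.2

/-- The `(0,2)` cup product on representatives. -/
theorem levelCupH_levelH0π_levelH2π (a : A.ρ.invariants) (y : levelCocycles₂ 𝒰 B)
    (hz : (fun gh => φ a.1 (y.1 gh)) ∈ levelCocycles₂ 𝒰 E) :
    levelCupH 𝒰 φ hφ 0 2 (levelH0π 𝒰 A a) (levelH2π 𝒰 B y) =
      levelH2π 𝒰 E ⟨fun gh => φ a.1 (y.1 gh), hz⟩ := by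
  show levelCupH 𝒰 φ hφ 0 2
      ((levelπ 𝒰 _ 0).hom (invariantsToLevelCocycles 𝒰 _ a))
      ((levelπ 𝒰 _ 2).hom (levelCocycles₂ToLevelCocycles 𝒰 _ y)) =
    (levelπ 𝒰 _ 2).hom (levelCocycles₂ToLevelCocycles 𝒰 _ ⟨_, hz⟩)
  rw [levelπ_eq_cls _ 𝒰 0 _ (mem_Z_levelComplex _ 𝒰 0 _),
    levelπ_eq_cls _ 𝒰 2 _ (mem_Z_levelComplex _ 𝒰 2 _),
    levelπ_eq_cls _ 𝒰 2 _ (mem_Z_levelComplex _ 𝒰 2 _), levelCupH_cls]
  congr 1
  apply Subtype.ext
  apply Subtype.ext
  exact cup_cochainsIso₀_inv_cochainsIso₂_inv φ a.1 y.1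

end CupLow

section TrivialAction

variable {k G : Type} [CommRing k] [Group G] (M : Rep k G)

/-- The differential `C¹ → C²` for a trivial action. -/
def dTriv {M : Type*} [AddCommGroup M] (f : G → M) : G × G → M :=
  fun gh => f gh.2 - f (gh.1 * gh.2) + f gh.1

variable {M} (hM : ∀ g (m : M), M.ρ g m = m)

include hM

theorem mem_cocycles₁_iff_of_trivial (f : G → M) :
    f ∈ cocycles₁ M ↔ ∀ g h, f (g * h) = f g + f h := by
  rw [mem_cocycles₁_iff]
  constructor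
  · intro h g j
    rw [h g j, hM, add_comm]
  · intro h g j
    rw [h g j, hM, add_comm]

theorem d₁₂_of_trivial (f : G → M) : (d₁₂ M).hom f = dTriv f := by
  funext ⟨g, h⟩
  rw [d₁₂_hom_apply, hM]
  rfl

theorem mem_cocycles₂_iff_of_trivial (f : G × G → M) :
    f ∈ cocycles₂ M ↔ ∀ g h j, f (g * h, j) + f (g, h) = f (h, j) + f (g, h * j) := by
  rw [mem_cocycles₂_iff]
  constructor
  · intro h g i j
    rw [h g i j, hM]
  · intro h g i j
    rw [h g i j, hM]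

theorem mem_invariants_of_trivial (m : M) : m ∈ M.ρ.invariants := fun g => hM g m

end TrivialAction

theorem isLevel₁_sub {G : Type} [Group G] {𝒰 : LevelStructure G} {M : Type*} [AddCommGroup M]
    {f f' : G → M} (hf : IsLevel₁ 𝒰 f) (hf' : IsLevel₁ 𝒰 f') :
    IsLevel₁ 𝒰 (fun h => f h - f' h) := by
  obtain ⟨U, hU, h⟩ := hf
  obtain ⟨V, hV, h'⟩ := hf'
  obtain ⟨W, hW, hWUV⟩ := 𝒰.directed U hU V hV
  refine ⟨W, hW, fun g s hs => ?_⟩
  change f (g * s) - f' (g * s) = f g - f' g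
  rw [h g s ((hWUV.trans inf_le_left) hs), h' g s ((hWUV.trans inf_le_right) hs)]

theorem dTriv_eq_dZ {G : Type} [Group G] {p : ℕ} [Fact p.Prime] (f : G → ZMod p) : dTriv f = dZ f := rfl

theorem comp_dTriv {G : Type} [Group G] {k M N : Type*} [CommRing k] [AddCommGroup M] [Module k M]
    [AddCommGroup N] [Module k N] (l : M →ₗ[k] N) (f : G → M) :
    (fun gh => l (dTriv f gh)) = dTriv (fun g => l (f g)) := by
  funext gh
  simp only [dTriv, map_add, map_sub]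

section PsiOneOne

open Fermat.Agent.S55.LevelDuality Fermat.Agent.S55.DualTwist

variable {S : Type} [Group S] (𝒱 : LevelStructure S) {p : ℕ} [Fact p.Prime]
  (χ : S →* (ZMod p)ˣ) (X : Rep.{0} (ZMod p) S)

variable {χ X} (hX : ∀ s (x : X), X.ρ s x = x) (hχ : ∀ s, χ s = 1)

include hχ in
theorem ofChar_ρ_of_trivial (s : S) (x : ofChar χ) : (ofChar χ).ρ s x = x := by
  rw [ofChar_ρ_apply, hχ, Units.val_one, one_mul]

include hX hχ in
theorem dualTwist_ρ_of_trivial (s : S) (f : X.dualTwist χ) : (X.dualTwist χ).ρ s f = f := by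
  refine LinearMap.ext (f := ((X.dualTwist χ).ρ s f : Module.Dual (ZMod p) X)) (g := f) fun a => ?_
  rw [dualTwist_ρ_apply_apply, hχ, Units.val_one, one_mul, hX]

variable (C : Rep ℤ S) [IsDiscrete 𝒱 C] [IsDiscrete 𝒱 (ofChar χ)] [IsDiscrete 𝒱 X]
  [IsDiscrete 𝒱 (X.dualTwist χ)] (t : levelCohomology 𝒱 (ofChar χ) 2 →ₗ[ZMod p] ZMod p)

variable {𝒱 C} (D : KummerData 𝒱 C p) (hNI : NormIndex 𝒱 C p)

include hX hχ in
/-- The cup product of `κ • λ` and `y` is `κ ∪ (λ ∘ y)`. -/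
theorem cup₁₁_evalPairing_smul (κ : S → ZMod p) (l : Module.Dual (ZMod p) X) (y : S → X) :
    cup₁₁ (evalPairing χ X) (fun g => (κ g • l : Module.Dual (ZMod p) X)) y =
      cupZ κ (fun h => l (y h)) := by
  funext ⟨g, h⟩
  show ((κ g • l : Module.Dual (ZMod p) X)) (X.ρ g (y h)) = κ g * l (y h)
  rw [hX, LinearMap.smul_apply, smul_eq_mul]

include hX hχ D hNI in
/-- **`Ψ¹` is injective** for a trivial action: the right kernel of the local pairing
`H¹(X') × H¹(X) → H²(k(χ)) → k` is trivial. -/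
theorem Ψ_one_one_injective (ht : Function.Injective t) :
    Function.Injective (Ψ 𝒱 χ t X 1 1 rfl) := by
  rw [injective_iff_map_eq_zero]
  intro y hy
  obtain ⟨y, rfl⟩ := levelH1π_surjective 𝒱 _ y
  have hy1 := (Level.mem_levelCocycles₁_iff 𝒱 _ _).1 y.2
  have hyadd := (mem_cocycles₁_iff_of_trivial hX _).1 hy1.1
  by_contra hne
  have hy0 : ∃ h₀, y.1 h₀ ≠ 0 := by
    by_contra hcon
    simp only [not_exists, not_not] at hcon
    apply hne
    have : y = 0 := Subtype.ext (funext hcon)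
    rw [this, map_zero]
  obtain ⟨h₀, hh₀⟩ := hy0
  obtain ⟨l, hl⟩ : ∃ l : Module.Dual (ZMod p) X, l (y.1 h₀) ≠ 0 := by
    by_contra hcon
    simp only [not_exists, not_not] at hcon
    exact hh₀ ((Module.forall_dual_apply_eq_zero_iff (ZMod p) _).1 hcon)
  obtain ⟨κ, hκ, hκl, hκn⟩ := exists_cupZ_ne_dZ_of_ne_zero D hNI (fun h => l (y.1 h))
    (fun g h => by rw [hyadd, map_add]) (hy1.2.comp l)
    (fun h0 => hl (congrFun h0 h₀))
  apply hκn
  -- the class `w = κ • l`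
  have hw : (fun g => (κ g • l : Module.Dual (ZMod p) X)) ∈ levelCocycles₁ 𝒱 (X.dualTwist χ) := by
    rw [Level.mem_levelCocycles₁_iff, mem_cocycles₁_iff_of_trivial (dualTwist_ρ_of_trivial hX hχ)]
    exact ⟨fun g h => by rw [hκ, add_smul], hκl.comp fun n : ZMod p => n • l⟩
  have h1 := LinearMap.congr_fun hy (levelH1π 𝒱 _ ⟨_, hw⟩)
  rw [Ψ_apply] at h1
  have hz : cup₁₁ (evalPairing χ X) (fun g => (κ g • l : Module.Dual (ZMod p) X)) y.1 ∈
      levelCocycles₂ 𝒱 (ofChar χ) := by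
    rw [cup₁₁_evalPairing_smul hX hχ, Level.mem_levelCocycles₂_iff,
      mem_cocycles₂_iff_of_trivial (ofChar_ρ_of_trivial hχ)]
    refine ⟨fun g h j => ?_, isLevel₂_cupZ hκl (hy1.2.comp l)⟩
    show κ (g * h) * l (y.1 j) + κ g * l (y.1 h) = κ h * l (y.1 j) + κ g * l (y.1 (h * j))
    rw [hκ, hyadd, map_add]
    ring
  have h2 : (evPairing 𝒱 χ X).pairH 1 1 2 rfl (levelH1π 𝒱 _ ⟨_, hw⟩) (levelH1π 𝒱 X y) =
      levelH2π 𝒱 (ofChar χ) ⟨_, hz⟩ :=
    (levelCupPairing_pairH 𝒱 (evalPairing χ X) (evalPairing_equivariant χ X) 1 1 _ _).trans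
      (levelCupH_levelH1π_levelH1π 𝒱 (evalPairing χ X) (evalPairing_equivariant χ X) ⟨_, hw⟩ y hz)
  rw [h2] at h1
  have h3 : levelH2π 𝒱 (ofChar χ) ⟨_, hz⟩ = 0 := ht (h1.trans (map_zero t).symm)
  rw [levelH2π_eq_zero_iff, Level.mem_levelCoboundaries₂_iff] at h3
  obtain ⟨f, hf, hfe⟩ := h3
  rw [d₁₂_of_trivial (ofChar_ρ_of_trivial hχ)] at hfe
  refine ⟨f, hf, ?_⟩
  rw [← cup₁₁_evalPairing_smul hX hχ κ l y.1]
  exact hfe.symm

include hX hχ in
/-- The cup product of `w` and `κ • a` is `(w · a) ∪ κ`. -/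
theorem cup₁₁_evalPairing_smul_right (w : S → Module.Dual (ZMod p) X) (κ : S → ZMod p) (a : X) :
    cup₁₁ (evalPairing χ X) (fun g => (w g : X.dualTwist χ)) (fun h => κ h • a) =
      cupZ (fun g => w g a) κ := by
  funext ⟨g, h⟩
  show (w g) (X.ρ g (κ h • a)) = w g a * κ h
  rw [hX, map_smul, smul_eq_mul, mul_comm]

include hX hχ D hNI in
/-- **The left kernel** of the local pairing `H¹(X') × H¹(X) → H²(k(χ)) → k` is trivial. -/
theorem eq_zero_of_Ψ_one_one_eq_zero (ht : Function.Injective t)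
    (w : levelCohomology 𝒱 (X.dualTwist χ) 1) (h : ∀ y, Ψ 𝒱 χ t X 1 1 rfl y w = 0) : w = 0 := by
  obtain ⟨w, rfl⟩ := levelH1π_surjective 𝒱 _ w
  have hw1 := (Level.mem_levelCocycles₁_iff 𝒱 _ _).1 w.2
  have hwadd := (mem_cocycles₁_iff_of_trivial (dualTwist_ρ_of_trivial hX hχ) _).1 hw1.1
  by_contra hne
  have hw0 : ∃ h₀, w.1 h₀ ≠ 0 := by
    by_contra hcon
    simp only [not_exists, not_not] at hcon
    apply hne
    have : w = 0 := Subtype.ext (funext hcon)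
    rw [this, map_zero]
  obtain ⟨h₀, hh₀⟩ := hw0
  obtain ⟨a, ha⟩ : ∃ a : X, (w.1 h₀ : Module.Dual (ZMod p) X) a ≠ 0 := by
    by_contra hcon
    simp only [not_exists, not_not] at hcon
    exact hh₀ (LinearMap.ext (f := (w.1 h₀ : Module.Dual (ZMod p) X)) (g := 0) hcon)
  have hxadd : ∀ g h, (w.1 (g * h) : Module.Dual (ZMod p) X) a =
      (w.1 g : Module.Dual (ZMod p) X) a + (w.1 h : Module.Dual (ZMod p) X) a := fun g h => by
    rw [hwadd]; rfl
  have hxl : IsLevel₁ 𝒱 (fun g => (w.1 g : Module.Dual (ZMod p) X) a) :=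
    hw1.2.comp fun f : X.dualTwist χ => (f : Module.Dual (ZMod p) X) a
  obtain ⟨κ, hκ, hκl, hκn⟩ := exists_cupZ_ne_dZ_of_ne_zero D hNI
    (fun g => (w.1 g : Module.Dual (ZMod p) X) a) hxadd hxl (fun h0 => ha (congrFun h0 h₀))
  apply hκn
  have hy : (fun h => κ h • a) ∈ levelCocycles₁ 𝒱 X := by
    rw [Level.mem_levelCocycles₁_iff, mem_cocycles₁_iff_of_trivial hX]
    exact ⟨fun g h => by rw [hκ, add_smul], hκl.comp fun n : ZMod p => n • a⟩
  have h1 := h (levelH1π 𝒱 _ ⟨_, hy⟩)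
  rw [Ψ_apply] at h1
  have hz : cup₁₁ (evalPairing χ X) w.1 (fun h => κ h • a) ∈ levelCocycles₂ 𝒱 (ofChar χ) := by
    rw [cup₁₁_evalPairing_smul_right hX hχ, Level.mem_levelCocycles₂_iff,
      mem_cocycles₂_iff_of_trivial (ofChar_ρ_of_trivial hχ)]
    refine ⟨fun g h j => ?_, isLevel₂_cupZ hxl hκl⟩
    show (w.1 (g * h) : Module.Dual (ZMod p) X) a * κ j + (w.1 g : Module.Dual (ZMod p) X) a * κ h =
      (w.1 h : Module.Dual (ZMod p) X) a * κ j + (w.1 g : Module.Dual (ZMod p) X) a * κ (h * j)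
    rw [hκ, hxadd]
    ring
  have h2 : (evPairing 𝒱 χ X).pairH 1 1 2 rfl (levelH1π 𝒱 _ w) (levelH1π 𝒱 X ⟨_, hy⟩) =
      levelH2π 𝒱 (ofChar χ) ⟨_, hz⟩ :=
    (levelCupPairing_pairH 𝒱 (evalPairing χ X) (evalPairing_equivariant χ X) 1 1 _ _).trans
      (levelCupH_levelH1π_levelH1π 𝒱 (evalPairing χ X) (evalPairing_equivariant χ X) w ⟨_, hy⟩ hz)
  rw [h2] at h1
  have h3 : levelH2π 𝒱 (ofChar χ) ⟨_, hz⟩ = 0 := ht (h1.trans (map_zero t).symm)
  rw [levelH2π_eq_zero_iff, Level.mem_levelCoboundaries₂_iff] at h3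
  obtain ⟨f, hf, hfe⟩ := h3
  rw [d₁₂_of_trivial (ofChar_ρ_of_trivial hχ)] at hfe
  have hfe' : cupZ (fun g => (w.1 g : Module.Dual (ZMod p) X) a) κ = dZ f :=
    (cup₁₁_evalPairing_smul_right hX hχ w.1 κ a).symm.trans hfe.symm
  -- anti-commutativity
  have hswap := cupZ_add_cupZ_swap (x := κ)
    (y := fun g => (w.1 g : Module.Dual (ZMod p) X) a) hκ hxadd
  refine ⟨fun h => -(κ h * (w.1 h : Module.Dual (ZMod p) X) a) - f h,
    isLevel₁_sub (IsLevel₁.neg_mul hκl hxl) hf, ?_⟩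
  rw [hfe'] at hswap
  rw [eq_sub_of_add_eq hswap]
  funext ⟨g, h⟩
  simp only [dZ, Pi.sub_apply]
  ring

omit [Fact p.Prime] in
/-- Finiteness of the set of finite-level homomorphisms into a finite module with trivial action,
from the case of `ZMod p`. -/
theorem finite_levelCocycles₁_of_trivial [Fact p.Prime] (M : Rep.{0} (ZMod p) S)
    (hM : ∀ s (m : M), M.ρ s m = m) [FiniteDimensional (ZMod p) M]
    (hfinK : {κ : S → ZMod p | (∀ g h, κ (g * h) = κ g + κ h) ∧ IsLevel₁ 𝒱 κ}.Finite) :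
    Finite (levelCocycles₁ 𝒱 M) := by
  have : Finite {κ : S → ZMod p | (∀ g h, κ (g * h) = κ g + κ h) ∧ IsLevel₁ 𝒱 κ} :=
    hfinK.to_subtype
  have : Finite (Module.Dual (ZMod p) M) := Module.finite_of_finite (ZMod p)
  let Φ : levelCocycles₁ 𝒱 M → (Module.Dual (ZMod p) M →
      {κ : S → ZMod p | (∀ g h, κ (g * h) = κ g + κ h) ∧ IsLevel₁ 𝒱 κ}) := fun y l =>
    ⟨fun g => l (y.1 g), by
      have hy1 := (Level.mem_levelCocycles₁_iff 𝒱 _ _).1 y.2
      have hyadd := (mem_cocycles₁_iff_of_trivial hM _).1 hy1.1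
      exact ⟨fun g h => by show l (y.1 (g * h)) = l (y.1 g) + l (y.1 h); rw [hyadd, map_add],
        hy1.2.comp l⟩⟩
  refine Finite.of_injective Φ fun y y' h => ?_
  apply Subtype.ext
  funext g
  rw [← sub_eq_zero, ← Module.forall_dual_apply_eq_zero_iff (ZMod p)]
  intro l
  have h1 := congrArg Subtype.val (congrFun h l)
  have h2 : l (y.1 g) = l (y'.1 g) := congrFun h1 g
  rw [map_sub, h2, sub_self]

include hX hχ D hNI in
/-- **The local pairing `H¹(X') × H¹(X) → H²(k(χ)) → k` is perfect** for a finite dimensional `X`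
with trivial action (`χ` trivial), `t` injective, if there are only finitely many finite-level
homomorphisms `S → ZMod p`. -/
theorem Ψ_one_one_bijective (ht : Function.Injective t) [FiniteDimensional (ZMod p) X]
    (hfinK : {κ : S → ZMod p | (∀ g h, κ (g * h) = κ g + κ h) ∧ IsLevel₁ 𝒱 κ}.Finite) :
    Function.Bijective (Ψ 𝒱 χ t X 1 1 rfl) := by
  have hinj := Ψ_one_one_injective hX hχ t D hNI ht
  have : Finite (levelCocycles₁ 𝒱 X) := finite_levelCocycles₁_of_trivial X hX hfinK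
  have : Finite (levelCocycles₁ 𝒱 (X.dualTwist χ)) :=
    finite_levelCocycles₁_of_trivial (X.dualTwist χ) (dualTwist_ρ_of_trivial hX hχ) hfinK
  have : Finite (levelCohomology 𝒱 X 1) := Finite.of_surjective _ (levelH1π_surjective 𝒱 X)
  have : Finite (levelCohomology 𝒱 (X.dualTwist χ) 1) :=
    Finite.of_surjective _ (levelH1π_surjective 𝒱 (X.dualTwist χ))
  have : Module.Finite (ZMod p) (levelCohomology 𝒱 X 1) := Module.Finite.of_finite
  have : Module.Finite (ZMod p) (levelCohomology 𝒱 (X.dualTwist χ) 1) := Module.Finite.of_finite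
  have hflip : Function.Injective (Ψ 𝒱 χ t X 1 1 rfl).flip := by
    rw [injective_iff_map_eq_zero]
    intro w hw
    exact eq_zero_of_Ψ_one_one_eq_zero hX hχ t D hNI ht w fun y => LinearMap.congr_fun hw y
  have h1 := LinearMap.finrank_le_finrank_of_injective hinj
  have h2 := LinearMap.finrank_le_finrank_of_injective hflip
  rw [Subspace.dual_finrank_eq] at h1 h2
  have h3 : Module.finrank (ZMod p) (levelCohomology 𝒱 X 1) =
      Module.finrank (ZMod p) (Module.Dual (ZMod p) (levelCohomology 𝒱 (X.dualTwist χ) 1)) := by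
    rw [Subspace.dual_finrank_eq]
    exact le_antisymm h1 h2
  exact ⟨hinj, (LinearMap.injective_iff_surjective_of_finrank_eq_finrank h3).1 hinj⟩

end PsiOneOne

section PsiTriv

open Fermat.Agent.S55.LevelDuality Fermat.Agent.S55.DualTwist

variable {S : Type} [Group S] (𝒱 : LevelStructure S) {p : ℕ} [Fact p.Prime]
  {χ : S →* (ZMod p)ˣ} (hχ : ∀ s, χ s = 1) [IsDiscrete 𝒱 (ofChar χ)]
  [IsDiscrete 𝒱 (trivRep S p)] [IsDiscrete 𝒱 ((trivRep S p).dualTwist χ)]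
  (t : levelCohomology 𝒱 (ofChar χ) 2 →ₗ[ZMod p] ZMod p)

/-- The identity of `ZMod p` as an element of the twisted dual of the trivial representation. -/
noncomputable def idDual (χ : S →* (ZMod p)ˣ) : (trivRep S p).dualTwist χ :=
  (LinearMap.id : ZMod p →ₗ[ZMod p] ZMod p)

theorem dual_eq_smul_id (f : Module.Dual (ZMod p) (ZMod p)) :
    f = f 1 • (LinearMap.id : ZMod p →ₗ[ZMod p] ZMod p) := by
  refine LinearMap.ext fun a => ?_
  rw [LinearMap.smul_apply, LinearMap.id_apply, smul_eq_mul, mul_comm, ← smul_eq_mul, ← map_smul,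
    smul_eq_mul, mul_one]

include hχ in
/-- **`Ψ` in degrees `(0, 2)` is injective** for the trivial representation, `t` injective. -/
theorem Ψ_zero_two_injective (ht : Function.Injective t) :
    Function.Injective (Ψ 𝒱 χ t (trivRep S p) 0 2 rfl) := by
  have hT : ∀ s (x : trivRep S p), (trivRep S p).ρ s x = x := fun _ _ => rfl
  rw [injective_iff_map_eq_zero]
  intro y hy
  obtain ⟨y, rfl⟩ := levelH2π_surjective 𝒱 _ y
  have hy1 := (Level.mem_levelCocycles₂_iff 𝒱 _ _).1 y.2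
  have hinv : (LinearMap.id : ZMod p →ₗ[ZMod p] ZMod p) ∈
      ((trivRep S p).dualTwist χ).ρ.invariants :=
    mem_invariants_of_trivial (M := (trivRep S p).dualTwist χ)
      (dualTwist_ρ_of_trivial hT hχ) (LinearMap.id : ZMod p →ₗ[ZMod p] ZMod p)
  have h1 := LinearMap.congr_fun hy (levelH0π 𝒱 _ ⟨_, hinv⟩)
  rw [Ψ_apply] at h1
  have hz : (fun gh => evalPairing χ (trivRep S p)
      (LinearMap.id : ZMod p →ₗ[ZMod p] ZMod p) (y.1 gh)) ∈ levelCocycles₂ 𝒱 (ofChar χ) := by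
    rw [Level.mem_levelCocycles₂_iff, mem_cocycles₂_iff_of_trivial (ofChar_ρ_of_trivial hχ)]
    exact ⟨(mem_cocycles₂_iff_of_trivial hT _).1 hy1.1, hy1.2⟩
  have h2 : (evPairing 𝒱 χ (trivRep S p)).pairH 0 2 2 rfl (levelH0π 𝒱 _ ⟨_, hinv⟩)
      (levelH2π 𝒱 _ y) = levelH2π 𝒱 (ofChar χ) ⟨_, hz⟩ :=
    (levelCupPairing_pairH 𝒱 (evalPairing χ (trivRep S p))
      (evalPairing_equivariant χ (trivRep S p)) 0 2 _ _).trans
      (levelCupH_levelH0π_levelH2π 𝒱 (evalPairing χ (trivRep S p))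
        (evalPairing_equivariant χ (trivRep S p)) ⟨_, hinv⟩ y hz)
  rw [h2] at h1
  have h3 : levelH2π 𝒱 (ofChar χ) ⟨_, hz⟩ = 0 := ht (h1.trans (map_zero t).symm)
  rw [levelH2π_eq_zero_iff, Level.mem_levelCoboundaries₂_iff] at h3 ⊢
  obtain ⟨f, hf, hfe⟩ := h3
  refine ⟨f, hf, ?_⟩
  rw [d₁₂_of_trivial (ofChar_ρ_of_trivial hχ)] at hfe
  rw [d₁₂_of_trivial hT]
  exact hfe

include hχ in
/-- **`Ψ` in degrees `(2, 0)` is injective** for the trivial representation, `t` surjective. -/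
theorem Ψ_two_zero_injective (ht : Function.Surjective t) :
    Function.Injective (Ψ 𝒱 χ t (trivRep S p) 2 0 rfl) := by
  have hT : ∀ s (x : trivRep S p), (trivRep S p).ρ s x = x := fun _ _ => rfl
  rw [injective_iff_map_eq_zero]
  intro y hy
  obtain ⟨a, rfl⟩ := levelH0π_surjective 𝒱 _ y
  by_contra hne
  have ha : a.1 ≠ 0 := by
    intro h0
    apply hne
    have : a = 0 := Subtype.ext h0
    rw [this, map_zero]
  obtain ⟨c, hc⟩ := ht 1
  obtain ⟨c, rfl⟩ := levelH2π_surjective 𝒱 _ c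
  have hc1 := (Level.mem_levelCocycles₂_iff 𝒱 _ _).1 c.2
  have hcc := (mem_cocycles₂_iff_of_trivial (ofChar_ρ_of_trivial hχ) _).1 hc1.1
  -- the class `w = (c * a⁻¹) • id`
  have hw : (fun gh => ((c.1 gh * (a.1 : ZMod p)⁻¹) •
      (LinearMap.id : ZMod p →ₗ[ZMod p] ZMod p) : Module.Dual (ZMod p) (ZMod p))) ∈
      levelCocycles₂ 𝒱 ((trivRep S p).dualTwist χ) := by
    rw [Level.mem_levelCocycles₂_iff, mem_cocycles₂_iff_of_trivial (dualTwist_ρ_of_trivial hT hχ)]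
    refine ⟨fun g h j => ?_, hc1.2.comp fun n : ZMod p => ((n * (a.1 : ZMod p)⁻¹) •
      (LinearMap.id : ZMod p →ₗ[ZMod p] ZMod p) : Module.Dual (ZMod p) (ZMod p))⟩
    show (c.1 (g * h, j) * (a.1 : ZMod p)⁻¹) • (LinearMap.id : ZMod p →ₗ[ZMod p] ZMod p) +
        (c.1 (g, h) * (a.1 : ZMod p)⁻¹) • (LinearMap.id : ZMod p →ₗ[ZMod p] ZMod p) =
      (c.1 (h, j) * (a.1 : ZMod p)⁻¹) • (LinearMap.id : ZMod p →ₗ[ZMod p] ZMod p) +
        (c.1 (g, h * j) * (a.1 : ZMod p)⁻¹) • (LinearMap.id : ZMod p →ₗ[ZMod p] ZMod p)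
    rw [← add_smul, ← add_smul, ← add_mul, ← add_mul]
    congr 2
    exact hcc g h j
  have h1 := LinearMap.congr_fun hy (levelH2π 𝒱 _ ⟨_, hw⟩)
  rw [Ψ_apply] at h1
  have hfun : (fun gh : S × S => evalPairing χ (trivRep S p)
      (((c.1 gh * (a.1 : ZMod p)⁻¹) • (LinearMap.id : ZMod p →ₗ[ZMod p] ZMod p) :
        Module.Dual (ZMod p) (ZMod p)) : (trivRep S p).dualTwist χ) a.1) = c.1 := by
    funext gh
    show ((c.1 gh * (a.1 : ZMod p)⁻¹) • (LinearMap.id : ZMod p →ₗ[ZMod p] ZMod p)) a.1 = c.1 gh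
    rw [LinearMap.smul_apply, LinearMap.id_apply, smul_eq_mul, mul_assoc, inv_mul_cancel₀ ha,
      mul_one]
  have hz : (fun gh : S × S => evalPairing χ (trivRep S p)
      (((c.1 gh * (a.1 : ZMod p)⁻¹) • (LinearMap.id : ZMod p →ₗ[ZMod p] ZMod p) :
        Module.Dual (ZMod p) (ZMod p)) : (trivRep S p).dualTwist χ) a.1) ∈
      levelCocycles₂ 𝒱 (ofChar χ) := by
    rw [hfun]; exact c.2
  have h2 : (evPairing 𝒱 χ (trivRep S p)).pairH 2 0 2 rfl (levelH2π 𝒱 _ ⟨_, hw⟩)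
      (levelH0π 𝒱 _ a) = levelH2π 𝒱 (ofChar χ) ⟨_, hz⟩ :=
    (levelCupPairing_pairH 𝒱 (evalPairing χ (trivRep S p))
      (evalPairing_equivariant χ (trivRep S p)) 2 0 _ _).trans
      (levelCupH_levelH2π_levelH0π 𝒱 (evalPairing χ (trivRep S p))
        (evalPairing_equivariant χ (trivRep S p)) ⟨_, hw⟩ a hz)
  rw [h2] at h1
  have h3 : levelH2π 𝒱 (ofChar χ) ⟨_, hz⟩ = levelH2π 𝒱 (ofChar χ) c := by
    congr 1
    exact Subtype.ext hfun
  rw [h3, hc] at h1
  exact one_ne_zero h1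

include hχ in
/-- The left kernel of the pairing `H²(T') × H⁰(T) → H²(k(χ)) → k` is trivial, `t` injective. -/
theorem eq_zero_of_Ψ_two_zero_eq_zero (ht : Function.Injective t)
    (w : levelCohomology 𝒱 ((trivRep S p).dualTwist χ) 2)
    (h : ∀ y, Ψ 𝒱 χ t (trivRep S p) 2 0 rfl y w = 0) : w = 0 := by
  have hT : ∀ s (x : trivRep S p), (trivRep S p).ρ s x = x := fun _ _ => rfl
  obtain ⟨w, rfl⟩ := levelH2π_surjective 𝒱 _ w
  have hw1 := (Level.mem_levelCocycles₂_iff 𝒱 _ _).1 w.2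
  have hwc := (mem_cocycles₂_iff_of_trivial (dualTwist_ρ_of_trivial hT hχ) _).1 hw1.1
  have hinv : (1 : ZMod p) ∈ (trivRep S p).ρ.invariants :=
    mem_invariants_of_trivial (M := trivRep S p) hT 1
  have h1 := h (levelH0π 𝒱 _ ⟨_, hinv⟩)
  rw [Ψ_apply] at h1
  have hz : (fun gh : S × S => evalPairing χ (trivRep S p) (w.1 gh) (1 : ZMod p)) ∈
      levelCocycles₂ 𝒱 (ofChar χ) := by
    rw [Level.mem_levelCocycles₂_iff, mem_cocycles₂_iff_of_trivial (ofChar_ρ_of_trivial hχ)]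
    refine ⟨fun g h j => ?_, hw1.2.comp fun f : (trivRep S p).dualTwist χ =>
      (f : Module.Dual (ZMod p) (ZMod p)) 1⟩
    have := congrArg (fun f : (trivRep S p).dualTwist χ =>
      (f : Module.Dual (ZMod p) (ZMod p)) 1) (hwc g h j)
    exact this
  have h2 : (evPairing 𝒱 χ (trivRep S p)).pairH 2 0 2 rfl (levelH2π 𝒱 _ w)
      (levelH0π 𝒱 _ ⟨_, hinv⟩) = levelH2π 𝒱 (ofChar χ) ⟨_, hz⟩ :=
    (levelCupPairing_pairH 𝒱 (evalPairing χ (trivRep S p))
      (evalPairing_equivariant χ (trivRep S p)) 2 0 _ _).trans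
      (levelCupH_levelH2π_levelH0π 𝒱 (evalPairing χ (trivRep S p))
        (evalPairing_equivariant χ (trivRep S p)) w ⟨_, hinv⟩ hz)
  rw [h2] at h1
  have h3 : levelH2π 𝒱 (ofChar χ) ⟨_, hz⟩ = 0 := ht (h1.trans (map_zero t).symm)
  rw [levelH2π_eq_zero_iff, Level.mem_levelCoboundaries₂_iff] at h3 ⊢
  obtain ⟨f, hf, hfe⟩ := h3
  rw [d₁₂_of_trivial (ofChar_ρ_of_trivial hχ)] at hfe
  refine ⟨fun g => ((f g • (LinearMap.id : ZMod p →ₗ[ZMod p] ZMod p) :
    Module.Dual (ZMod p) (ZMod p)) : (trivRep S p).dualTwist χ),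
    hf.comp fun n : ZMod p => ((n • (LinearMap.id : ZMod p →ₗ[ZMod p] ZMod p) :
      Module.Dual (ZMod p) (ZMod p)) : (trivRep S p).dualTwist χ), ?_⟩
  rw [d₁₂_of_trivial (dualTwist_ρ_of_trivial hT hχ)]
  funext gh
  have h4 : (w.1 gh : Module.Dual (ZMod p) (ZMod p)) =
      (w.1 gh : Module.Dual (ZMod p) (ZMod p)) 1 • LinearMap.id := dual_eq_smul_id _
  have h5 : (w.1 gh : Module.Dual (ZMod p) (ZMod p)) 1 = dTriv f gh := (congrFun hfe gh).symm
  refine Eq.trans ?_ h4.symm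
  rw [h5]
  show f gh.2 • (LinearMap.id : ZMod p →ₗ[ZMod p] ZMod p) -
      f (gh.1 * gh.2) • (LinearMap.id : ZMod p →ₗ[ZMod p] ZMod p) +
      f gh.1 • (LinearMap.id : ZMod p →ₗ[ZMod p] ZMod p) =
    (f gh.2 - f (gh.1 * gh.2) + f gh.1) • (LinearMap.id : ZMod p →ₗ[ZMod p] ZMod p)
  rw [add_smul, sub_smul]

include hχ in
/-- **`Ψ` in degrees `(2, 0)` is bijective** for the trivial representation, `t` bijective. -/
theorem Ψ_two_zero_bijective (ht : Function.Bijective t) :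
    Function.Bijective (Ψ 𝒱 χ t (trivRep S p) 2 0 rfl) := by
  have hinj := Ψ_two_zero_injective 𝒱 hχ t ht.2
  have hflip : Function.Injective (Ψ 𝒱 χ t (trivRep S p) 2 0 rfl).flip := by
    rw [injective_iff_map_eq_zero]
    intro w hw
    exact eq_zero_of_Ψ_two_zero_eq_zero 𝒱 hχ t ht.1 w fun y => LinearMap.congr_fun hw y
  have : Finite (trivRep S p).ρ.invariants := inferInstance
  have : Finite (levelCohomology 𝒱 (trivRep S p) 0) :=
    Finite.of_surjective _ (levelH0π_surjective 𝒱 (trivRep S p))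
  have : Module.Finite (ZMod p) (levelCohomology 𝒱 (trivRep S p) 0) := Module.Finite.of_finite
  have : Module.Finite (ZMod p) (levelCohomology 𝒱 ((trivRep S p).dualTwist χ) 2) :=
    Module.Finite.of_injective _ hflip
  have h1 := LinearMap.finrank_le_finrank_of_injective hinj
  have h2 := LinearMap.finrank_le_finrank_of_injective hflip
  rw [Subspace.dual_finrank_eq] at h1 h2
  have h3 : Module.finrank (ZMod p) (levelCohomology 𝒱 (trivRep S p) 0) =
      Module.finrank (ZMod p)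
        (Module.Dual (ZMod p) (levelCohomology 𝒱 ((trivRep S p).dualTwist χ) 2)) := by
    rw [Subspace.dual_finrank_eq]
    exact le_antisymm h1 h2
  exact ⟨hinj, (LinearMap.injective_iff_surjective_of_finrank_eq_finrank h3).1 hinj⟩

variable {𝒱} {C : Rep ℤ S} [IsDiscrete 𝒱 C] (D : KummerData 𝒱 C p) (hNI : NormIndex 𝒱 C p)

include hχ D hNI in
/-- **LOC7, final form** (the three statements consumed by `LevelDuality.LocalBaseHyp₁`): for a
group `S` with level structure `𝒱`, Kummer data `D`, the norm index hypothesis, finitely many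
finite-level homomorphisms `S → ZMod p`, `χ` trivial and a BIJECTIVE functional `t` on
`H²(S, k(χ))`: the duality maps of the trivial representation `k = ZMod p` are bijective in
degrees `(2, 0)`, `(1, 1)` and injective in degrees `(0, 2)`. -/
theorem localBase_trivRep (ht : Function.Bijective t)
    (hfinK : {κ : S → ZMod p | (∀ g h, κ (g * h) = κ g + κ h) ∧ IsLevel₁ 𝒱 κ}.Finite) :
    Function.Bijective (Ψ 𝒱 χ t (trivRep S p) 2 0 rfl) ∧
      Function.Bijective (Ψ 𝒱 χ t (trivRep S p) 1 1 rfl) ∧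
      Function.Injective (Ψ 𝒱 χ t (trivRep S p) 0 2 rfl) :=
  ⟨Ψ_two_zero_bijective 𝒱 hχ t ht,
    Ψ_one_one_bijective (X := trivRep S p) (fun _ _ => rfl) hχ t D hNI ht.1 hfinK,
    Ψ_zero_two_injective 𝒱 hχ t ht.1⟩

include hχ D hNI in
/-- `localBase_trivRep` with the finiteness hypothesis in the form "`C^S / p` is finite". -/
theorem localBase_trivRep' (ht : Function.Bijective t)
    (hfin : ∃ s : Set C, s.Finite ∧ ∀ a : C, (∀ g, C.ρ g a = a) →
      ∃ b ∈ s, ∃ c : C, (∀ g, C.ρ g c = c) ∧ a = b + p • c) :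
    Function.Bijective (Ψ 𝒱 χ t (trivRep S p) 2 0 rfl) ∧
      Function.Bijective (Ψ 𝒱 χ t (trivRep S p) 1 1 rfl) ∧
      Function.Injective (Ψ 𝒱 χ t (trivRep S p) 0 2 rfl) :=
  localBase_trivRep hχ t D hNI ht (finite_levelHoms D hfin)

end PsiTriv

end Fermat.Agent.S55.Local.Hilbert
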