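/-
S55 / LOC8 (helper22): the per-place package `LevelDuality.LocalBaseHyp₁` for the local data of S55.

* `section Transport`: `Ψ_res` — the duality maps `Ψ` are compatible with a change of group
  `f : S' →* S` along which the level structures are compatible, provided the linear forms on
  `H²(k(χ))` correspond.
* `section Equiv`: `bijective_levelCohomologyMap_of_equiv`, `Ψ_transport` — injectivity and
  surjectivity of `Ψ` transport along a group isomorphism with mutually refining level structures.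
* `TraceHyp 𝒰 χ t`: the `τ`-part of `LocalBaseHyp₁` (a bijective linear form `τ_U = t ∘ cor` on
  `H²(U, k(χ))` for every member `U` of the level structure on which `χ` is trivial).
* `localBaseHyp₁_krull`: `LocalBaseHyp₁` for `(Gal(Ω/K), krullLevel K Ω)` from `TraceHyp` and the
  inputs of the Hilbert symbol computation (`Local.Hilbert.localBase_trivRep'`) over the finite
  Galois subextensions `E/K` containing `μ_p`; the open subgroup `U = Gal(Ω/E)` with its induced
  level structure is compared with `(Gal(Ω/E), krullLevel E Ω)` through `GaloisLevel.openEquiv`.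
* `fieldHyp_padic`: these inputs for `K = ℚ_q`, `Ω = PadicAlgCl q` (helper24 `KummerCount`,
  helper6 `HilbertInst`).
* `localBaseHyp₁_prime`, `localBaseHyp₁_localData`: the package in the frozen types of
  `Assembly.localData`, for ANY linear form `inv` on `H²(ℚ_q, μ_p)` satisfying `TraceHyp`.
-/
import Mathlib
import Fermat.Agent.S55.LevelDualityShapiro
import Fermat.Agent.S55.LevelTransport
import Fermat.Agent.S55.GaloisLevelBC
import Fermat.Agent.S55.Local.HilbertPsi
import Fermat.Agent.S55.Local.HilbertInst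
import Fermat.Agent.S55.Local.KummerCount
import Fermat.Agent.S55.Local.KrullLocal
import Fermat.Agent.S55.Local.LocalInv
import Fermat.Agent.S55.Assembly
import Fermat.Agent.S55.LevelDualityCone

set_option autoImplicit false
set_option linter.unusedSectionVars false

namespace Fermat.Agent.S55.Local.BasePackage

open CategoryTheory groupCohomology Rep Fermat.Agent.S55.Level Fermat.Agent.S55.Cup
  Fermat.Agent.S55.DualTwist Fermat.Agent.S55.LevelDuality Fermat.Agent.S55.LevelTransport
  Fermat.Agent.S55.GC.Cores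

universe u

section Transport

variable {k S S' : Type u} [Field k] [Group S] [Group S'] (𝒱 : LevelStructure S)
  (𝒱' : LevelStructure S') (f : S' →* S) (hf : 𝒱'.Refines 𝒱 f) (χ : S →* kˣ)
  [IsDiscrete 𝒱 (ofChar χ)] [IsDiscrete 𝒱' (ofChar (χ.comp f))]
  (t : levelCohomology 𝒱 (ofChar χ) 2 →ₗ[k] k)
  (t' : levelCohomology 𝒱' (ofChar (χ.comp f)) 2 →ₗ[k] k)
  (X : Rep.{u} k S) [IsDiscrete 𝒱 X] [IsDiscrete 𝒱 (X.dualTwist χ)]
  [IsDiscrete 𝒱' (Rep.res f X)] [IsDiscrete 𝒱' ((Rep.res f X).dualTwist (χ.comp f))]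

/-- The change of group map on the cohomology of `k(χ)`. -/
noncomputable def resChar (n : ℕ) :
    levelCohomology 𝒱 (ofChar χ) n →ₗ[k] levelCohomology 𝒱' (ofChar (χ.comp f)) n :=
  (levelCohomologyMap f hf (A := ofChar χ) (B := ofChar (χ.comp f))
    (𝟙 (ofChar (χ.comp f))) n).hom

/-- The change of group map on the cohomology of `X`. -/
noncomputable def resX (n : ℕ) :
    levelCohomology 𝒱 X n →ₗ[k] levelCohomology 𝒱' (Rep.res f X) n :=
  (levelCohomologyMap f hf (𝟙 (Rep.res f X)) n).hom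

/-- The change of group map on the cohomology of the twisted dual of `X`. -/
noncomputable def resX' (n : ℕ) :
    levelCohomology 𝒱 (X.dualTwist χ) n →ₗ[k]
      levelCohomology 𝒱' ((Rep.res f X).dualTwist (χ.comp f)) n :=
  (levelCohomologyMap f hf (resDualTwistIso χ X f).hom n).hom

/-- **Transport of the duality maps along a change of group.** -/
theorem Ψ_res (ht : ∀ z, t' (resChar 𝒱 𝒱' f hf χ 2 z) = t z) (m n : ℕ) (h : m + n = 2)
    (y : levelCohomology 𝒱 X n) (w : levelCohomology 𝒱 (X.dualTwist χ) m) :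
    Ψ 𝒱' (χ.comp f) t' (Rep.res f X) m n h (resX 𝒱 𝒱' f hf X n y) (resX' 𝒱 𝒱' f hf χ X m w) =
      Ψ 𝒱 χ t X m n h y w := by
  rw [Ψ_apply, Ψ_apply]
  refine Eq.trans (congrArg t' ?_) (ht _)
  have hγ : ∀ (a : X.dualTwist χ) (b : X),
      (𝟙 (ofChar (χ.comp f)) : Rep.res f (ofChar χ) ⟶ ofChar (χ.comp f)).hom
        (evalPairing χ X a b) =
      evalPairing (χ.comp f) (Rep.res f X) ((resDualTwistIso χ X f).hom.hom a)
        ((𝟙 (Rep.res f X) : Rep.res f X ⟶ Rep.res f X).hom b) := fun _ _ => rfl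
  have key := levelCupPairing_natural f (resDualTwistIso χ X f).hom (𝟙 (Rep.res f X))
    (𝟙 (ofChar (χ.comp f)) : Rep.res f (ofChar χ) ⟶ ofChar (χ.comp f))
    (evalPairing χ X) (evalPairing (χ.comp f) (Rep.res f X))
    (evalPairing_equivariant χ X) (evalPairing_equivariant (χ.comp f) (Rep.res f X))
    hγ hf h w y
  exact key.symm

end Transport

section Equiv

variable {k S S' : Type u} [Field k] [Group S] [Group S'] (𝒱 : LevelStructure S)
  (𝒱' : LevelStructure S') (e : S' ≃* S) (hf : 𝒱'.Refines 𝒱 e.toMonoidHom)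
  (hf' : 𝒱.Refines 𝒱' e.symm.toMonoidHom)

include hf' in
/-- The change of group map along a group isomorphism with mutually refining level structures and a
bijective map of coefficients is bijective. -/
theorem bijective_levelCohomologyMap_of_equiv {A : Rep.{u} k S} {B : Rep.{u} k S'}
    [IsDiscrete 𝒱 A] [IsDiscrete 𝒱' B] (ε : Rep.res e.toMonoidHom A ⟶ B)
    (hε : Function.Bijective ε.hom) (n : ℕ) :
    Function.Bijective (levelCohomologyMap e.toMonoidHom hf ε n).hom := by
  let E : A.V ≃ₗ[k] B.V := LinearEquiv.ofBijective ε.hom.toLinearMap hε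
  have hE : ∀ a, E a = ε.hom a := fun _ => rfl
  have hcomm : ∀ (s' : S') (a : A.V), ε.hom (A.ρ (e s') a) = B.ρ s' (ε.hom a) := fun s' a =>
    (Rep.hom_comm_apply ε s' a)
  let ε' : Rep.res e.symm.toMonoidHom B ⟶ A := Rep.ofHom ⟨E.symm.toLinearMap, fun s => by
    ext b
    apply E.injective
    show E (E.symm (B.ρ (e.symm s) b)) = E (A.ρ s (E.symm b))
    rw [E.apply_symm_apply, hE]
    have h1 := hcomm (e.symm s) (E.symm b)
    rw [MulEquiv.apply_symm_apply] at h1
    rw [h1, ← hE, E.apply_symm_apply]⟩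
  have h1 : ∀ a : A.V, ε'.hom (ε.hom a) = a := fun a => E.symm_apply_apply a
  have h2 : ∀ b : B.V, ε.hom (ε'.hom b) = b := fun b => E.apply_symm_apply b
  exact (ConcreteCategory.bijective_of_isIso
    (levelCohomologyIsoOfEquiv e hf hf' ε ε' h1 h2 n).hom)

include hf hf' in
/-- **Transport of local duality along a group isomorphism** `e : S' ≃* S` with mutually refining
level structures: for a linear form `t'` on `H²(S', k(χ'))` there is a linear form `t` on
`H²(S, k(χ))`, bijective if `t'` is, such that injectivity and surjectivity of the duality maps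
`Ψ` pass from `(S, t, X)` to `(S', t', X')`.  The character `χ'` and the coefficients `X'` are only
required to be EQUAL to the restrictions of `χ` and `X` along `e`. -/
theorem Ψ_transport (χ : S →* kˣ) [IsDiscrete 𝒱 (ofChar χ)] (X : Rep.{u} k S) [IsDiscrete 𝒱 X]
    [IsDiscrete 𝒱 (X.dualTwist χ)] (χ' : S' →* kˣ) (hχ : χ.comp e.toMonoidHom = χ')
    (X' : Rep.{u} k S') (hX : Rep.res e.toMonoidHom X = X')
    [IsDiscrete 𝒱' (ofChar χ')] [IsDiscrete 𝒱' X'] [IsDiscrete 𝒱' (X'.dualTwist χ')]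
    (t' : levelCohomology 𝒱' (ofChar χ') 2 →ₗ[k] k) :
    ∃ t : levelCohomology 𝒱 (ofChar χ) 2 →ₗ[k] k,
      (Function.Bijective t' → Function.Bijective t) ∧
      ∀ (m n : ℕ) (h : m + n = 2),
        (Function.Injective (Ψ 𝒱 χ t X m n h) → Function.Injective (Ψ 𝒱' χ' t' X' m n h)) ∧
        (Function.Surjective (Ψ 𝒱 χ t X m n h) → Function.Surjective (Ψ 𝒱' χ' t' X' m n h)) := by
  subst hχ hX
  have hbC : Function.Bijective (resChar 𝒱 𝒱' e.toMonoidHom hf χ 2) :=
    bijective_levelCohomologyMap_of_equiv 𝒱 𝒱' e hf hf' (A := ofChar χ)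
      (B := ofChar (χ.comp e.toMonoidHom)) (𝟙 (ofChar (χ.comp e.toMonoidHom)))
      Function.bijective_id 2
  have hbX : ∀ n, Function.Bijective (resX 𝒱 𝒱' e.toMonoidHom hf X n) := fun n =>
    bijective_levelCohomologyMap_of_equiv 𝒱 𝒱' e hf hf' (𝟙 (Rep.res e.toMonoidHom X))
      Function.bijective_id n
  have hbX' : ∀ n, Function.Bijective (resX' 𝒱 𝒱' e.toMonoidHom hf χ X n) := fun n =>
    bijective_levelCohomologyMap_of_equiv 𝒱 𝒱' e hf hf' (resDualTwistIso χ X e.toMonoidHom).hom
      Function.bijective_id n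
  refine ⟨t'.comp (resChar 𝒱 𝒱' e.toMonoidHom hf χ 2), fun ht' => ht'.comp hbC,
    fun m n h => ⟨fun hI => ?_, fun hS => ?_⟩⟩
  · rw [injective_iff_map_eq_zero]
    intro y' hy'
    obtain ⟨y, rfl⟩ := (hbX n).2 y'
    have hy : Ψ 𝒱 χ (t'.comp (resChar 𝒱 𝒱' e.toMonoidHom hf χ 2)) X m n h y = 0 := by
      ext w
      rw [← Ψ_res 𝒱 𝒱' e.toMonoidHom hf χ (t'.comp (resChar 𝒱 𝒱' e.toMonoidHom hf χ 2)) t' X
        (fun _ => rfl) m n h y w, hy']
      rfl
    rw [(injective_iff_map_eq_zero _).1 hI y hy, map_zero]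
  · intro l'
    obtain ⟨y, hy⟩ := hS (l'.comp (resX' 𝒱 𝒱' e.toMonoidHom hf χ X m))
    refine ⟨resX 𝒱 𝒱' e.toMonoidHom hf X n y, ?_⟩
    ext w'
    obtain ⟨w, rfl⟩ := (hbX' m).2 w'
    rw [Ψ_res 𝒱 𝒱' e.toMonoidHom hf χ (t'.comp (resChar 𝒱 𝒱' e.toMonoidHom hf χ 2)) t' X
        (fun _ => rfl) m n h y w, hy]
    rfl

end Equiv

/-! ### The `τ`-part of `LocalBaseHyp₁` -/

section TraceHyp

variable {k G : Type u} [Field k] [Group G] (𝒰 : LevelStructure G) (χ : G →* kˣ)
  [IsDiscrete 𝒰 (ofChar χ)] (t : levelCohomology 𝒰 (ofChar χ) 2 →ₗ[k] k)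

/-- **The `τ`-part of `LocalBaseHyp₁`** (for the restricted level structures): over every member `U`
of the level structure on which `χ` is trivial there is a BIJECTIVE linear form `τ` on
`H²(U, k(χ))` with `τ ∘ sh = t ∘ tr` (i.e. `τ = t ∘ cor`). -/
def TraceHyp : Prop :=
  ∀ (U : Subgroup G) (_ : U ∈ 𝒰.sets) [U.FiniteIndex]
    [IsDiscrete (𝒰.restrict U) (ofChar (χ.comp U.subtype))]
    [IsDiscrete 𝒰 (coind.{u, u, u, u} U.subtype (res U.subtype (ofChar χ)))],
    (∀ u ∈ U, χ u = 1) →
    ∃ τ : levelCohomology (𝒰.restrict U) (ofChar (χ.comp U.subtype)) 2 →ₗ[k] k,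
      (∀ z, τ (lshChar 𝒰 χ U (𝒰.restrict U) (𝒰.restrict_refines U) 2 z) =
        t (lmap 𝒰 (coindTrace U (ofChar χ)) 2 z)) ∧ Function.Bijective τ

end TraceHyp

/-! ### Galois groups with their Krull level structure -/

section Krull

open Fermat.Agent.S55.GaloisLevel Fermat.Agent.S55.Local.Hilbert IntermediateField

variable {K Ω : Type} [Field K] [Field Ω] [Algebra K Ω] [IsGalois K Ω] {p : ℕ} [Fact p.Prime]

/-- **`LocalBaseHyp₁` for a Galois group with its Krull level structure**, from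
* `hτ`: the `τ`-part (local class field theory: `inv_K ∘ cor = inv_E`, bijective), and
* `hField`: over every finite Galois subextension `E/K` on whose Galois group `χ` is trivial
  (`μ_p ⊂ E`), the Kummer data, the norm index hypothesis and the finiteness of `Eˣ/p` for
  `(Gal(Ω/E), krullLevel E Ω, Ωˣ)` — the inputs of the Hilbert symbol computation
  `Local.Hilbert.localBase_trivRep'`.
The level structure is a variable `𝒰` EQUAL to `krullLevel K Ω` so that the statement applies
verbatim to `localLevel (primeLocalToGlobal q)`. -/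
theorem localBaseHyp₁_krull (𝒰 : LevelStructure Gal(Ω/K)) (h𝒰 : 𝒰 = krullLevel K Ω)
    (χ : Gal(Ω/K) →* (ZMod p)ˣ) [IsDiscrete 𝒰 (ofChar χ)]
    (t : levelCohomology 𝒰 (ofChar χ) 2 →ₗ[ZMod p] ZMod p) (hτ : TraceHyp 𝒰 χ t)
    (hField : ∀ (E : IntermediateField K Ω) [FiniteDimensional K E] [IsGalois K E],
      (∀ u ∈ E.fixingSubgroup, χ u = 1) →
      Nonempty (KummerData (krullLevel E Ω) (unitsRep E Ω) p) ∧
      NormIndex (krullLevel E Ω) (unitsRep E Ω) p ∧
      ∃ s : Set (unitsRep E Ω), s.Finite ∧ ∀ a : unitsRep E Ω,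
        (∀ g, (unitsRep E Ω).ρ g a = a) →
        ∃ b ∈ s, ∃ c : unitsRep E Ω, (∀ g, (unitsRep E Ω).ρ g c = c) ∧ a = b + p • c) :
    LocalBaseHyp₁ 𝒰 χ t (restrictFamily 𝒰) (restrictFamily_refines 𝒰) := by
  subst h𝒰
  intro U hU _ _ _ _ _ hχU
  obtain ⟨τ, hτc, hτb⟩ := hτ U hU hχU
  refine ⟨τ, hτc, ?_⟩
  have hopen : IsKrullOpen K Ω U := hU.2
  have hn : U.Normal := hU.1
  have hHE : U = (fixedField U).fixingSubgroup := hopen.fixingSubgroup_fixedField.symm
  have hfd : FiniteDimensional K (fixedField U) := hopen.finiteDimensional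
  have hgal : IsGalois K (fixedField U) := hopen.isGalois
  have hd1 : IsDiscrete (krullLevel (fixedField U) Ω)
      (ofChar (χ.comp (AlgEquiv.restrictScalarsHom K : Gal(Ω/(fixedField U)) →* Gal(Ω/K)))) :=
    isDiscrete_res_restrictScalarsHom (ofChar χ) (fixedField U)
  have hd2 : IsDiscrete (krullLevel (fixedField U) Ω)
      ((trivRep Gal(Ω/(fixedField U)) p).dualTwist
        (χ.comp (AlgEquiv.restrictScalarsHom K : Gal(Ω/(fixedField U)) →* Gal(Ω/K)))) :=
    isDiscrete_dualTwist _ _ _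
  obtain ⟨tE, htE, htr⟩ := Ψ_transport (krullLevel (fixedField U) Ω) ((krullLevel K Ω).restrict U)
    (openEquiv hHE) (refines_openEquiv hHE) (refines_openEquiv_symm hHE)
    (χ.comp (AlgEquiv.restrictScalarsHom K : Gal(Ω/(fixedField U)) →* Gal(Ω/K)))
    (trivRep Gal(Ω/(fixedField U)) p) (χ.comp U.subtype) rfl
    (Rep.trivial (ZMod p) U (ZMod p)) rfl τ
  have hχE : ∀ s : Gal(Ω/(fixedField U)),
      (χ.comp (AlgEquiv.restrictScalarsHom K : Gal(Ω/(fixedField U)) →* Gal(Ω/K))) s = 1 :=
    fun s => hχU _ ((openEquiv hHE).symm s).2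
  obtain ⟨⟨D⟩, hNI, hfin⟩ := hField (fixedField U) (fun u hu => hχU u (hHE ▸ hu))
  obtain ⟨d0, d1, d2⟩ := localBase_trivRep' (𝒱 := krullLevel (fixedField U) Ω) hχE tE D hNI
    (htE hτb) hfin
  exact ⟨⟨(htr 2 0 rfl).1 d0.1, (htr 2 0 rfl).2 d0.2⟩,
    ⟨(htr 1 1 rfl).1 d1.1, (htr 1 1 rfl).2 d1.2⟩, (htr 0 2 rfl).1 d2⟩

end Krull

/-! ### The local Galois groups `Gal(ℚ̄_q/ℚ_q)` -/

section Padic

open Fermat.Agent.S55.GaloisLevel Fermat.Agent.S55.Local.Hilbert
  Fermat.Agent.S55.Local.KummerCount Fermat.Agent.S55.Local.LocalInv IntermediateField ExtCitation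

variable {p : ℕ} [Fact p.Prime] (q : ℕ) [Fact q.Prime]

local notation "Qbar" => AlgebraicClosure ℚ

/-- If the cyclotomic character is trivial on `Gal(ℚ̄_q/E)` then `E` contains a primitive `p`-th
root of unity. -/
theorem exists_isPrimitiveRoot_of_cycloChar_eq_one
    (E : IntermediateField ℚ_[q] (PadicAlgCl q))
    (hχ : ∀ u ∈ E.fixingSubgroup, ((cycloChar p).comp (localGaloisToGlobal q)) u = 1) :
    ∃ ζ : E, IsPrimitiveRoot ζ p := by
  obtain ⟨ζ, hζ⟩ := exists_primitiveRoot p
  have hprim : IsPrimitiveRoot (padicEmbedding q ζ) p :=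
    hζ.map_of_injective (padicEmbedding q).toRingHom.injective
  have hx : padicEmbedding q ζ ∈ E := by
    rw [← InfiniteGalois.fixedField_fixingSubgroup E, IntermediateField.mem_fixedField_iff]
    intro g hg
    have h1 := congrArg (fun u : (PadicAlgCl q)ˣ => (u : PadicAlgCl q)) (smul_zetaUnit q hζ g)
    have h2 : cycloChar p (localGaloisToGlobal q g) = 1 := hχ g hg
    simp only [h2, Units.val_one, ZMod.val_one, pow_one] at h1
    exact h1
  refine ⟨⟨padicEmbedding q ζ, hx⟩, ?_⟩
  exact IsPrimitiveRoot.of_map_of_injective (f := algebraMap E (PadicAlgCl q)) hprim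
    (algebraMap E (PadicAlgCl q)).injective

/-- **The field side of `localBaseHyp₁_krull` over `ℚ_q`**: Kummer data (helper24), norm index
hypothesis (helper6 / helper8 / helper16) and finiteness of `Eˣ/p` (helper24) for the finite
extensions `E` of `ℚ_q` containing `μ_p`. -/
theorem fieldHyp_padic (E : IntermediateField ℚ_[q] (PadicAlgCl q)) [FiniteDimensional ℚ_[q] E]
    (hχ : ∀ u ∈ E.fixingSubgroup, ((cycloChar p).comp (localGaloisToGlobal q)) u = 1) :
    Nonempty (KummerData (krullLevel E (PadicAlgCl q)) (unitsRep E (PadicAlgCl q)) p) ∧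
      NormIndex (krullLevel E (PadicAlgCl q)) (unitsRep E (PadicAlgCl q)) p ∧
      ∃ s : Set (unitsRep E (PadicAlgCl q)), s.Finite ∧ ∀ a : unitsRep E (PadicAlgCl q),
        (∀ g, (unitsRep E (PadicAlgCl q)).ρ g a = a) →
        ∃ b ∈ s, ∃ c : unitsRep E (PadicAlgCl q),
          (∀ g, (unitsRep E (PadicAlgCl q)).ρ g c = c) ∧ a = b + p • c := by
  obtain ⟨ζ, hζ⟩ := exists_isPrimitiveRoot_of_cycloChar_eq_one q E hχ
  exact ⟨⟨kummerData E (PadicAlgCl q) hζ
      (hroots_of_isAlgClosed (PadicAlgCl q) p (Fact.out : p.Prime).pos)⟩,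
    normIndex_of_finite_padic q E (PadicAlgCl q) p, hfin_local E (PadicAlgCl q) q hζ⟩

end Padic

/-! ### The frozen types of `Assembly.localData` -/

section Primes

open Fermat.Agent.S55.GaloisLevel Fermat.Agent.S55.Local.KrullLocal ExtCitation
  Fermat.Agent.S55.Assembly Fermat.Agent.S55.Cone

variable {p : ℕ} [Fact p.Prime] (q : Nat.Primes)

local instance factPrime_BP : Fact (q : ℕ).Prime := ⟨q.2⟩

/-- **The per-place package at a prime `q`, frozen types**: `LocalBaseHyp₁` for
`(Gal(ℚ̄_q/ℚ_q), localLevel, χ_cyc ∘ r_q)` and ANY linear form `inv` on `H²(ℚ_q, μ_p)` for which the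
`τ`-part holds (`inv ∘ cor` bijective on `H²(E, μ_p)` for the finite Galois `E/ℚ_q` containing
`μ_p`). -/
theorem localBaseHyp₁_prime
    [hd : IsDiscrete (localLevel (primeLocalToGlobal q))
      (ofChar ((cycloChar p).comp (primeLocalToGlobal q)))]
    (inv : levelCohomology (localLevel (primeLocalToGlobal q))
      (ofChar ((cycloChar p).comp (primeLocalToGlobal q))) 2 →ₗ[ZMod p] ZMod p)
    (hτ : TraceHyp (localLevel (primeLocalToGlobal q))
      ((cycloChar p).comp (primeLocalToGlobal q)) inv) :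
    LocalBaseHyp₁ (localLevel (primeLocalToGlobal q))
      ((cycloChar p).comp (primeLocalToGlobal q)) inv
      (restrictFamily (localLevel (primeLocalToGlobal q)))
      (restrictFamily_refines (localLevel (primeLocalToGlobal q))) :=
  @localBaseHyp₁_krull ℚ_[(q : ℕ)] (PadicAlgCl (q : ℕ)) _ _ _ _ p _
    (localLevel (primeLocalToGlobal q)) (localLevel_primeLocalToGlobal_eq q)
    ((cycloChar p).comp (primeLocalToGlobal q)) hd inv hτ
    (fun E _ _ hχ => fieldHyp_padic (q : ℕ) E hχ)

variable (S : Finset Nat.Primes) [IsDiscrete (globalLevel S) (ofChar (cycloChar p))]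

/-- **The per-place package for the local data of S55**, in the shape of the hypothesis `hloc` of
`TraceGlue.result_of_inv` / `Local.Duality.locDual_surjective`. -/
theorem localBaseHyp₁_localData (v : (localData S).ι)
    (inv : levelCohomology ((localData S).𝒱 v)
      (Rep.res ((localData S).r v) (ofChar (cycloChar p))) 2 →ₗ[ZMod p] ZMod p)
    (hτ : TraceHyp ((localData S).𝒱 v) ((cycloChar p).comp ((localData S).r v)) inv) :
    LocalBaseHyp₁ ((localData S).𝒱 v) ((cycloChar p).comp ((localData S).r v)) inv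
      (restrictFamily ((localData S).𝒱 v)) (restrictFamily_refines ((localData S).𝒱 v)) :=
  localBaseHyp₁_prime (hd := isDiscrete_ofChar_comp (localData S) (cycloChar p) v) v.1 inv hτ

end Primes

end Fermat.Agent.S55.Local.BasePackage
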