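/-
S55 / LOC5 (helper26): `inv ∘ cores = inv` for the local invariant, in level form.

`Ω/F` Galois, `E/F` a finite subextension, `H = Gal(Ω/E) ≤ Gal(Ω/F)`.  Given class formations
`FG` over `F` and `FH` over `E` with `inv_E ∘ res = d • inv_F`, `d = [E:F]` (see `InvariantBC`):
* `isOpenSub_of_eq_fixingSubgroup`: `H` is an open subgroup for the Krull level structure;
* `inv_lcor`: `inv_F (lcor y) = inv_E (y)` (helper22's `LevelCores.lcor`) for `y ∈ H²(H, Ωˣ)`
  (level cohomology of the subgroup, identified with that of `Gal(Ω/E)` by helper27's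
  `restrictUnitsIso`);
* `inv_Hmap_coindTrace`: `inv_F (H²(trace) z) = inv_E (sh z)` for `z ∈ H²(G, Coind_H^G Ωˣ)` — the
  form consumed by `LevelDuality.LocalBaseHyp₁` (condition `τ ∘ lsh = t ∘ H²(coindTrace)`).
-/
import Fermat.Agent.S55.LevelCores
import Fermat.Agent.S55.CFAbs
import Fermat.Agent.S55.GaloisLevelBC

set_option autoImplicit false
set_option linter.unusedSectionVars false
set_option linter.style.haveILetI false

open CategoryTheory Rep IntermediateField

namespace Fermat.Agent.S55.Local.InvariantCor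

open Fermat.Agent.S55.Level Fermat.Agent.S55.LevelTransport Fermat.Agent.S55.GC.Shapiro
  Fermat.Agent.S55.GC.Cores Fermat.Agent.S55.CF Fermat.Agent.S55.CFAbs
  Fermat.Agent.S55.GaloisLevel Fermat.Agent.S55.LevelCores

variable {F Ω : Type} [Field F] [Field Ω] [Algebra F Ω] [IsGalois F Ω]
  {H : Subgroup Gal(Ω/F)} {E : IntermediateField F Ω} (hHE : H = E.fixingSubgroup)

include hHE in
/-- The subgroup `Gal(Ω/E)`, `E/F` finite, is open for the Krull level structure. -/
theorem isOpenSub_of_eq_fixingSubgroup [FiniteDimensional F E] :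
    IsOpenSub (krullLevel F Ω) H := by
  obtain ⟨N, hN, hNg, hNE⟩ := exists_fixingSubgroup_le (K := F) (Ω := Ω)
    (U := E.fixingSubgroup) ⟨E, inferInstance, le_rfl⟩
  exact ⟨⟨N.fixingSubgroup, fixingSubgroup_mem_krullLevel N, hHE ▸ hNE⟩⟩

include hHE in
/-- The index of `Gal(Ω/E)` is the degree `[E:F]`. -/
theorem index_eq_finrank : H.index = Module.finrank F E := by
  rw [hHE, ← IntermediateField.finrank_eq_fixingSubgroup_index]

variable [FiniteDimensional F E] [IsOpenSub (krullLevel F Ω) H]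
  (FG : Formation (krullLevel F Ω) (unitsRep F Ω)) (FH : Formation (krullLevel E Ω) (unitsRep E Ω))

/-- Restriction to the subgroup `H`, then `restrictUnitsIso`, is `bcMap` (elementwise). -/
theorem restrictUnitsIso_lres_apply (n : ℕ)
    (x : levelCohomology (krullLevel F Ω) (unitsRep F Ω) n) :
    (restrictUnitsIso hHE n).hom.hom
        ((lres (krullLevel F Ω) H (unitsRep F Ω) n).hom x) = (bcMap F E Ω n).hom x :=
  congrArg (fun ψ => ψ.hom x) (res_comp_restrictUnitsIso_hom hHE n)

/-- **`inv_F ∘ cores = inv_E`** on `H²(H, Ωˣ)`. -/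
theorem inv_lcor
    (hinv : ∀ x : levelCohomology (krullLevel F Ω) (unitsRep F Ω) 2,
      FH.inv ((bcMap F E Ω 2).hom x) = H.index • FG.inv x)
    (y : levelCohomology ((krullLevel F Ω).restrict H) (Rep.res H.subtype (unitsRep F Ω)) 2) :
    FG.inv ((lcor (krullLevel F Ω) H (unitsRep F Ω) 2).hom y) =
      FH.inv ((restrictUnitsIso hHE 2).hom.hom y) := by
  have hfi : H.FiniteIndex := IsOpenSub.finiteIndex (𝒰 := krullLevel F Ω)
  have hd : H.index ≠ 0 := Subgroup.FiniteIndex.index_ne_zero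
  let c : levelCohomology (krullLevel E Ω) (unitsRep E Ω) 2 →+
      levelCohomology (krullLevel F Ω) (unitsRep F Ω) 2 :=
    ((lcor (krullLevel F Ω) H (unitsRep F Ω) 2).hom.toAddMonoidHom).comp
      ((restrictUnitsIso hHE 2).inv.hom.toAddMonoidHom)
  have hinv_hom : ∀ w, (restrictUnitsIso hHE 2).inv.hom ((restrictUnitsIso hHE 2).hom.hom w) = w :=
    fun w => congrArg (fun ψ => ψ.hom w) (restrictUnitsIso hHE 2).hom_inv_id
  have hc : ∀ x : levelCohomology (krullLevel F Ω) (unitsRep F Ω) 2,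
      c ((levelCohomologyMap (AlgEquiv.restrictScalarsHom F) (refines_restrictScalarsHom F E Ω)
        (unitsRes F E Ω) 2).hom x) = H.index • x := by
    intro x
    have h1 := restrictUnitsIso_lres_apply hHE 2 x
    show (lcor (krullLevel F Ω) H (unitsRep F Ω) 2).hom
      ((restrictUnitsIso hHE 2).inv.hom ((bcMap F E Ω 2).hom x)) = _
    rw [← h1, hinv_hom, lcor_lres_apply]
  have key := inv_cores FG FH (AlgEquiv.restrictScalarsHom F) (refines_restrictScalarsHom F E Ω)
    (unitsRes F E Ω) H.index hd hinv c hc ((restrictUnitsIso hHE 2).hom.hom y)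
  rw [← key]
  show _ = FG.inv ((lcor (krullLevel F Ω) H (unitsRep F Ω) 2).hom
    ((restrictUnitsIso hHE 2).inv.hom ((restrictUnitsIso hHE 2).hom.hom y)))
  rw [hinv_hom]

/-- **`inv_F ∘ H²(trace) = inv_E ∘ Shapiro`** on `H²(G, Coind_H^G Ωˣ)`. -/
theorem inv_Hmap_coindTrace
    (hinv : ∀ x : levelCohomology (krullLevel F Ω) (unitsRep F Ω) 2,
      FH.inv ((bcMap F E Ω 2).hom x) = H.index • FG.inv x)
    (z : levelCohomology (krullLevel F Ω)
      (coind.{0, 0, 0, 0} H.subtype (res H.subtype (unitsRep F Ω))) 2) :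
    haveI : H.FiniteIndex := IsOpenSub.finiteIndex (𝒰 := krullLevel F Ω)
    FG.inv ((Hmap (krullLevel F Ω) (coindTrace H (unitsRep F Ω)) 2).hom z) =
      FH.inv ((restrictUnitsIso hHE 2).hom.hom
        ((levelSh (krullLevel F Ω) H (res H.subtype (unitsRep F Ω)) 2).hom z)) := by
  rw [← inv_lcor hHE FG FH hinv]
  exact congrArg FG.inv
    (lcor_levelSh_apply (krullLevel F Ω) H (unitsRep F Ω) 2 z).symm

end Fermat.Agent.S55.Local.InvariantCor
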