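/-
S55 / local glue (G4): the local invariant and corestriction — the `τ`-ingredient of
`LevelDuality.LocalBaseHyp₁`.

(A) `lcor` (helper22, `LevelCores`) commutes with a coefficient map `toIntRep A ⟶ N` across the
    change of scalars `k → ℤ`.
(B) Abstract lemma: if `inv_G ∘ cor = inv_U` on `H²(·, N)`, with Kummer sequences and Hilbert 90
    on both sides, then `cor : H²(U, A) → H²(G, A)` is bijective (`A = μ_p`), hence so is
    `τ := t ∘ cor` for every bijective `t`.
(C) Instantiation for `Gal(Ω/K)`, `krullLevel K Ω`, `N = Ωˣ`: from class formations over `K` and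
    over the fixed field `E` of `U` with `inv_E ∘ res = [E:K] • inv_K`, corestriction is bijective
    on `H²(μ_p)`; the `τ`-statement of `LocalBaseHyp₁` (`exists_tau_krull`, `exists_tau_prime`).
(helper27)
-/
import Fermat.Agent.S55.LevelCores
import Fermat.Agent.S55.LevelScalars
import Fermat.Agent.S55.CF.Kummer
import Fermat.Agent.S55.LevelDualityShapiro
import Fermat.Agent.S55.Local.InvariantCor
import Fermat.Agent.S55.Local.LocalInv

set_option autoImplicit false
set_option linter.unusedSectionVars false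

open CategoryTheory

namespace Fermat.Agent.S55.Local.LocalInvCores

open Fermat.Agent.S55.Level Fermat.Agent.S55.LevelCores Fermat.Agent.S55.LevelScalars
  Fermat.Agent.S55.LevelTransport Fermat.Agent.S55.CF Fermat.Agent.S55.GC.Cores
  Fermat.Agent.S55.GC.Shapiro Rep

/-! ### (A) Corestriction, coefficient maps and change of scalars -/

section Scalars

variable {k G : Type} [CommRing k] [Group G] (𝒰 : LevelStructure G) (U : Subgroup G)
  [IsOpenSub 𝒰 U]
  (A : Rep.{0} k G) [IsDiscrete 𝒰 A] {X : Type} [AddCommGroup X] (ρN : Representation ℤ G X)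
  [IsDiscrete 𝒰 (Rep.of ρN)] (ι : toIntRep A ⟶ Rep.of ρN)

local notation "N" => Rep.of ρN

/-- The additive map `f ↦ ι ∘ f`. -/
noncomputable def coindIotaAdd :
    (coind.{0, 0, 0, 0} U.subtype (res U.subtype A)).V →+
      (coind.{0, 0, 0, 0} U.subtype (res U.subtype N)).V where
  toFun f := ⟨fun g => ι.hom (f.1 g), fun u g => by
    have h1 : f.1 ((u : G) * g) = A.ρ u (f.1 g) := f.2 u g
    show ι.hom (f.1 ((u : G) * g)) = ρN u (ι.hom (f.1 g))
    rw [h1]
    exact Rep.hom_comm_apply ι (u : G) (f.1 g)⟩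
  map_zero' := Subtype.ext (funext fun g => map_zero ι.hom)
  map_add' f f' := Subtype.ext (funext fun g => map_add ι.hom (f.1 g) (f'.1 g))

/-- The map `Coind Res A → Coind Res N`, `f ↦ ι ∘ f`, of `ℤ[G]`-modules. -/
noncomputable def coindIota :
    toIntRep (coind.{0, 0, 0, 0} U.subtype (res U.subtype A)) ⟶
      coind.{0, 0, 0, 0} U.subtype (res U.subtype N) :=
  Rep.ofHom ⟨(coindIotaAdd U A ρN ι).toIntLinearMap, fun g => by
    refine LinearMap.ext fun f => Subtype.ext (funext fun x => ?_)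
    rfl⟩

lemma coindIota_apply (f : (coind.{0, 0, 0, 0} U.subtype (res U.subtype A)).V) (g : G) :
    ((coindIota U A ρN ι).hom f).1 g = ι.hom (f.1 g) := rfl

/-- The restriction of `ι` to `U`. -/
noncomputable def iotaRes : toIntRep (res U.subtype A) ⟶ res U.subtype N :=
  Rep.ofHom ⟨ι.hom.toLinearMap, fun u => by
    refine LinearMap.ext fun a => ?_
    exact Rep.hom_comm_apply ι (u : G) a⟩

lemma iotaRes_apply (a : A) : (iotaRes U A ρN ι).hom a = ι.hom a := rfl

instance : IsDiscrete (𝒰.restrict U) (res U.subtype N) := isDiscrete_res_restrict 𝒰 U N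

instance : IsDiscrete 𝒰 (coind.{0, 0, 0, 0} U.subtype (res U.subtype N)) :=
  isDiscrete_coind_res_restrict 𝒰 U N

attribute [local instance] Subgroup.fintypeQuotientOfFiniteIndex in
/-- The trace commutes with `ι`. -/
lemma toIntRepMap_coindTrace_comp [U.FiniteIndex] :
    toIntRepMap (coindTrace U A) ≫ ι = coindIota U A ρN ι ≫ coindTrace U N := by
  classical
  refine Rep.hom_ext (Representation.IntertwiningMap.ext (LinearMap.ext
    fun (f : (coind.{0, 0, 0, 0} U.subtype (res U.subtype A)).V) => ?_))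
  change ι.hom ((coindTrace U A).hom f) = (coindTrace U N).hom ((coindIota U A ρN ι).hom f)
  rw [coindTrace_apply, coindTrace_apply]
  refine (map_sum ι.hom.toLinearMap (fun q => traceTerm U A q f) Finset.univ).trans ?_
  refine Finset.sum_congr rfl fun q _ => ?_
  induction q using QuotientGroup.induction_on with
  | H g =>
    rw [traceTerm_mk, traceTerm_mk, traceAux_apply, traceAux_apply]
    exact Rep.hom_comm_apply ι g _

/-- **Corestriction commutes with coefficient maps across the change of scalars.** -/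
theorem Hmap_lcor_int (n : ℕ)
    (x : levelCohomology (𝒰.restrict U) (res U.subtype A) n) :
    (Hmap 𝒰 ι n).hom ((levelCohomologyIntEquiv A 𝒰 n).symm ((lcor 𝒰 U A n).hom x)) =
      (lcor 𝒰 U N n).hom ((Hmap (𝒰.restrict U) (iotaRes U A ρN ι) n).hom
        ((levelCohomologyIntEquiv (res U.subtype A) (𝒰.restrict U) n).symm x)) := by
  have hfi : U.FiniteIndex := IsOpenSub.finiteIndex (𝒰 := 𝒰)
  obtain ⟨z, rfl⟩ := (levelSh_bijective 𝒰 U n (res U.subtype A)).2 x
  set C := coind.{0, 0, 0, 0} U.subtype (res U.subtype A) with hC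
  set z' := (levelCohomologyIntEquiv C 𝒰 n).symm z with hz'
  have hz : levelCohomologyIntEquiv C 𝒰 n z' = z := AddEquiv.apply_symm_apply _ z
  -- left hand side
  have hL1 : (levelCohomologyIntEquiv A 𝒰 n).symm ((lcor 𝒰 U A n).hom
      ((levelSh 𝒰 U (res U.subtype A) n).hom z)) =
      (Hmap 𝒰 (toIntRepMap (coindTrace U A)) n).hom z' := by
    rw [lcor_levelSh_apply, AddEquiv.symm_apply_eq]
    have := levelCohomologyIntEquiv_map (𝒰 := 𝒰) (𝒱 := 𝒰) (MonoidHom.id G) 𝒰.refines_id
      (coindTrace U A) n z'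
    rw [hz] at this
    exact this.symm
  -- right hand side
  have hR1 : (levelCohomologyIntEquiv (res U.subtype A) (𝒰.restrict U) n).symm
      ((levelSh 𝒰 U (res U.subtype A) n).hom z) =
      (levelCohomologyMap U.subtype (𝒰.restrict_refines U)
        (toIntRepResMap U.subtype (coindEval U (res U.subtype A))) n).hom z' := by
    rw [AddEquiv.symm_apply_eq]
    have := levelCohomologyIntEquiv_map (𝒰 := 𝒰) (𝒱 := 𝒰.restrict U) U.subtype
      (𝒰.restrict_refines U) (coindEval U (res U.subtype A)) n z'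
    rw [hz] at this
    exact this.symm
  have hR2 := levelCohomologyMap_naturality (𝒰 := 𝒰) (𝒱 := 𝒰.restrict U) U.subtype
    (𝒰.restrict_refines U) (coindIota U A ρN ι) (iotaRes U A ρN ι)
    (toIntRepResMap U.subtype (coindEval U (res U.subtype A)))
    (coindEval U (res U.subtype N)) (fun _ => rfl) n
  have hR3 : (Hmap (𝒰.restrict U) (iotaRes U A ρN ι) n).hom
      ((levelCohomologyMap U.subtype (𝒰.restrict_refines U)
        (toIntRepResMap U.subtype (coindEval U (res U.subtype A))) n).hom z') =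
      (levelSh 𝒰 U (res U.subtype N) n).hom ((Hmap 𝒰 (coindIota U A ρN ι) n).hom z') :=
    (congrArg (fun φ => φ.hom z') hR2).symm
  rw [hL1, hR1, hR3, lcor_levelSh_apply, ← Hmap_comp_apply, ← Hmap_comp_apply,
    toIntRepMap_coindTrace_comp]

end Scalars

/-! ### (B) Bijectivity of corestriction on `H²(μ_p)` -/

section Abstract

variable {G : Type} [Group G] (𝒰 : LevelStructure G) (U : Subgroup G) [IsOpenSub 𝒰 U]
  {p : ℕ} (A : Rep.{0} (ZMod p) G) [IsDiscrete 𝒰 A]
  {X : Type} [AddCommGroup X] (ρN : Representation ℤ G X) [IsDiscrete 𝒰 (Rep.of ρN)]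
  (ι : toIntRep A ⟶ Rep.of ρN)

local notation "N" => Rep.of ρN

/-- Generic Hilbert 90 consequence: for a Kummer sequence `0 → μ → E → E → 0` with `H¹(E) = 0`,
`H²(μ) → H²(E)` is injective. -/
theorem Hmap_two_injective_of_subsingleton {k H : Type} [CommRing k] [Group H]
    (𝒱 : LevelStructure H) {E μ : Rep.{0} k H} [IsDiscrete 𝒱 E] [IsDiscrete 𝒱 μ] {j : μ ⟶ E}
    {m : ℕ} {w : j ≫ (m • 𝟙 E) = 0} (hK : (ShortComplex.mk j (m • 𝟙 E) w).ShortExact)
    (h1 : Subsingleton (levelCohomology 𝒱 E 1)) :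
    Function.Injective (Hmap 𝒱 j 2).hom := by
  rw [injective_iff_map_eq_zero]
  intro z hz
  obtain ⟨x, rfl⟩ := (Hmap_ι_eq_zero_iff 𝒱 hK 1 z).1 hz
  rw [h1.elim x 0, map_zero]

variable {w : ι ≫ (p • 𝟙 (Rep.of ρN)) = 0}
  (hK : (ShortComplex.mk ι (p • 𝟙 (Rep.of ρN)) w).ShortExact)

include hK in
/-- The Kummer sequence restricted to `U`. -/
theorem exists_kummer_res :
    ∃ w' : iotaRes U A ρN ι ≫ (p • 𝟙 (res U.subtype N)) = 0,
      (ShortComplex.mk (iotaRes U A ρN ι) (p • 𝟙 (res U.subtype N)) w').ShortExact := by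
  have hinj : Function.Injective ι.hom := (Rep.mono_iff_injective ι).1 hK.mono_f
  have hsurj : Function.Surjective (p • 𝟙 N : N ⟶ N).hom :=
    (Rep.epi_iff_surjective _).1 hK.epi_g
  have hex := (rep_exact_iff (ShortComplex.mk ι (p • 𝟙 N) w)).1 hK.exact
  have hw' : iotaRes U A ρN ι ≫ (p • 𝟙 (res U.subtype N)) = 0 :=
    kummer_zero_of (iotaRes U A ρN ι) p fun z => nsmul_eq_zero_of_kummer hK z
  refine ⟨hw', kummer_shortExact_of (iotaRes U A ρN ι) p hinj (fun e he => ?_) (fun e => ?_) hw'⟩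
  · obtain ⟨y, hy⟩ := hex e (by
      show (p • 𝟙 N : N ⟶ N).hom e = 0
      rw [nsmul_id_hom_apply]; exact he)
    exact ⟨y, hy⟩
  · obtain ⟨e', he'⟩ := hsurj e
    refine ⟨e', ?_⟩
    rw [← he']
    exact (nsmul_id_hom_apply p e').symm

variable (invG : levelCohomology 𝒰 (Rep.of ρN) 2 →+ UnitAddCircle)
  (invU : levelCohomology (𝒰.restrict U) (res U.subtype (Rep.of ρN)) 2 →+ UnitAddCircle)

include hK in
/-- **Corestriction is bijective on `H²(μ_p)`** as soon as `inv_G ∘ cor = inv_U` on `H²(N)` with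
`inv_G`, `inv_U` injective, `inv_U` onto the `p`-torsion, and Hilbert 90 holds on both sides. -/
theorem lcor_two_bijective
    (h1G : Subsingleton (levelCohomology 𝒰 (Rep.of ρN) 1))
    (h1U : Subsingleton (levelCohomology (𝒰.restrict U) (res U.subtype (Rep.of ρN)) 1))
    (hinvG : Function.Injective invG) (hinvU : Function.Injective invU)
    (hsurjU : ∀ t : UnitAddCircle, p • t = 0 → ∃ y, invU y = t)
    (hcor : ∀ y, invG ((lcor 𝒰 U (Rep.of ρN) 2).hom y) = invU y) :
    Function.Bijective (lcor 𝒰 U A 2).hom := by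
  obtain ⟨w', hKU⟩ := exists_kummer_res U A ρN ι hK
  have hκG := Hmap_two_injective_of_subsingleton 𝒰 hK h1G
  have hκU := Hmap_two_injective_of_subsingleton (𝒰.restrict U) hKU h1U
  constructor
  · rw [injective_iff_map_eq_zero]
    intro y hy
    have h := Hmap_lcor_int 𝒰 U A ρN ι 2 y
    rw [hy, map_zero, map_zero] at h
    have h2 : invU ((Hmap (𝒰.restrict U) (iotaRes U A ρN ι) 2).hom
        ((levelCohomologyIntEquiv (res U.subtype A) (𝒰.restrict U) 2).symm y)) = 0 := by
      rw [← hcor, ← h, map_zero]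
    have h3 := hκU (hinvU (h2.trans (map_zero invU).symm) |>.trans (map_zero _).symm)
    exact (AddEquiv.map_eq_zero_iff _).1 h3
  · intro y'
    set y := (levelCohomologyIntEquiv A 𝒰 2).symm y' with hy
    have hpy : p • y = 0 := nsmul_levelCohomology_eq_zero 𝒰 hK 2 y
    have hps : p • invG ((Hmap 𝒰 ι 2).hom y) = 0 := by
      rw [← map_nsmul, ← map_nsmul, hpy, map_zero, map_zero]
    obtain ⟨v, hv⟩ := hsurjU _ hps
    have hpv : p • v = 0 := hinvU (by rw [map_nsmul, hv, hps, map_zero])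
    obtain ⟨x, hx⟩ := (kummer_nsmul_eq_zero_iff (𝒰.restrict U) hKU 2 v).1 hpv
    refine ⟨levelCohomologyIntEquiv (res U.subtype A) (𝒰.restrict U) 2 x, ?_⟩
    have h := Hmap_lcor_int 𝒰 U A ρN ι 2
      (levelCohomologyIntEquiv (res U.subtype A) (𝒰.restrict U) 2 x)
    rw [AddEquiv.symm_apply_apply, hx] at h
    have h2 : (levelCohomologyIntEquiv A 𝒰 2).symm ((lcor 𝒰 U A 2).hom
        (levelCohomologyIntEquiv (res U.subtype A) (𝒰.restrict U) 2 x)) = y := by
      apply hκG
      apply hinvG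
      rw [h, hcor, hv]
    rw [hy, AddEquiv.symm_apply_eq, AddEquiv.apply_symm_apply] at h2
    exact h2

end Abstract


/-! ### (C) The Krull level structure of a Galois extension -/

section Krull

open Fermat.Agent.S55.GaloisLevel Fermat.Agent.S55.CFAbs Fermat.Agent.S55.Local.InvariantCor
  Fermat.Agent.S55.LevelDuality Fermat.Agent.S55.DualTwist IntermediateField

variable {K Ω : Type} [Field K] [Field Ω] [Algebra K Ω] [IsGalois K Ω] {p : ℕ} [NeZero p]
  (A : Rep.{0} (ZMod p) Gal(Ω/K)) [IsDiscrete (krullLevel K Ω) A]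
  (ι : toIntRep A ⟶ unitsRep K Ω) {w : ι ≫ (p • 𝟙 (unitsRep K Ω)) = 0}
  (hK : (ShortComplex.mk ι (p • 𝟙 (unitsRep K Ω)) w).ShortExact)
  (FG : Formation (krullLevel K Ω) (unitsRep K Ω))
  {U : Subgroup Gal(Ω/K)} {E : IntermediateField K Ω} (hUE : U = E.fixingSubgroup)
  [FiniteDimensional K E] [IsOpenSub (krullLevel K Ω) U]
  (FE : Formation (krullLevel E Ω) (unitsRep E Ω))

include hK hUE in
/-- **Corestriction `H²(Gal(Ω/E), μ_p) → H²(Gal(Ω/K), μ_p)` is bijective**, given the local class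
formations over `K` and `E` and the base change formula for the invariant. -/
theorem lcor_two_bijective_krull
    (hinv : ∀ x : levelCohomology (krullLevel K Ω) (unitsRep K Ω) 2,
      FE.inv ((bcMap K E Ω 2).hom x) = U.index • FG.inv x) :
    Function.Bijective (lcor (krullLevel K Ω) U A 2).hom := by
  have hdN : IsDiscrete (krullLevel K Ω)
      (Rep.of (Representation.ofMulDistribMulAction Gal(Ω/K) Ωˣ)) :=
    isDiscrete_unitsRep (K := K) (Ω := Ω)
  have hp : p ≠ 0 := NeZero.ne p
  have hiso_inj : Function.Injective (restrictUnitsIso hUE 2).hom.hom :=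
    (ModuleCat.mono_iff_injective _).1 inferInstance
  have hiso_surj : Function.Surjective (restrictUnitsIso hUE 2).hom.hom :=
    (ModuleCat.epi_iff_surjective _).1 inferInstance
  refine lcor_two_bijective (krullLevel K Ω) U A
    (Representation.ofMulDistribMulAction Gal(Ω/K) Ωˣ) ι hK FG.inv
    (FE.inv.comp (restrictUnitsIso hUE 2).hom.hom.toAddMonoidHom) ?_ ?_ FG.inv_injective ?_ ?_ ?_
  · exact ModuleCat.subsingleton_of_isZero isZero_levelCohomology_unitsRep_one
  · exact ModuleCat.subsingleton_of_isZero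
      ((isZero_levelCohomology_unitsRep_one (K := E) (Ω := Ω)).of_iso (restrictUnitsIso hUE 1))
  · exact FE.inv_injective.comp hiso_inj
  · intro t ht
    obtain ⟨y, hy⟩ := FE.exists_inv_eq hp t ht
    obtain ⟨y', hy'⟩ := hiso_surj ((LevelLayer.levelInf (krullLevel E Ω) (unitsRep E Ω)
      (FE.W_mem p hp) 2).hom y)
    exact ⟨y', by
      show FE.inv ((restrictUnitsIso hUE 2).hom.hom y') = t
      rw [hy', hy]⟩
  · intro y
    exact inv_lcor hUE FG FE hinv y

end Krull

/-! ### The `τ`-statement of `LocalBaseHyp₁` -/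

section Tau

open Fermat.Agent.S55.GaloisLevel Fermat.Agent.S55.CFAbs Fermat.Agent.S55.Local.InvariantCor
  Fermat.Agent.S55.LevelDuality Fermat.Agent.S55.DualTwist IntermediateField groupCohomology

variable {K Ω : Type} [Field K] [Field Ω] [Algebra K Ω] [IsGalois K Ω] {p : ℕ} [Fact p.Prime]

local instance neZero_LIC : NeZero p := ⟨(Fact.out : p.Prime).ne_zero⟩

/-- **The `τ`-part of `LocalBaseHyp₁`** over `Gal(Ω/K)`: for a member `U` of the level structure
(`= krullLevel K Ω`), with fixed field `E`, class formations over `K` and `E` with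
`inv_E ∘ res = [E:K] • inv_K`, a Kummer sequence `0 → 𝔽_p(χ) → Ωˣ → Ωˣ → 0` and ANY bijective
linear form `t` on `H²(Gal(Ω/K), 𝔽_p(χ))`, the form `τ := t ∘ cor` on `H²(U, 𝔽_p(χ))` is bijective
and satisfies `τ ∘ sh = t ∘ H²(trace)`. -/
theorem exists_tau_krull
    (𝒰 : LevelStructure Gal(Ω/K)) (h𝒰 : 𝒰 = krullLevel K Ω)
    (χ : Gal(Ω/K) →* (ZMod p)ˣ) [IsDiscrete 𝒰 (ofChar χ)]
    (ι : toIntRep (ofChar χ) ⟶ unitsRep K Ω) {w : ι ≫ (p • 𝟙 (unitsRep K Ω)) = 0}
    (hK : (ShortComplex.mk ι (p • 𝟙 (unitsRep K Ω)) w).ShortExact)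
    (FG : Formation (krullLevel K Ω) (unitsRep K Ω))
    (t : levelCohomology 𝒰 (ofChar χ) 2 →ₗ[ZMod p] ZMod p) (ht : Function.Bijective t)
    (U : Subgroup Gal(Ω/K)) (hU : U ∈ 𝒰.sets) [U.FiniteIndex]
    [IsDiscrete (𝒰.restrict U) (ofChar (χ.comp U.subtype))]
    [IsDiscrete 𝒰 (coind.{0, 0, 0, 0} U.subtype (res U.subtype (ofChar χ)))]
    (FE : Formation (krullLevel (fixedField U) Ω) (unitsRep (fixedField U) Ω))
    (hinv : ∀ x : levelCohomology (krullLevel K Ω) (unitsRep K Ω) 2,
      FE.inv ((bcMap K (fixedField U) Ω 2).hom x) = U.index • FG.inv x) :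
    ∃ τ : levelCohomology (𝒰.restrict U) (ofChar (χ.comp U.subtype)) 2 →ₗ[ZMod p] ZMod p,
      (∀ z, τ (lshChar 𝒰 χ U (𝒰.restrict U) (𝒰.restrict_refines U) 2 z) =
        t (lmap 𝒰 (coindTrace U (ofChar χ)) 2 z)) ∧ Function.Bijective τ := by
  subst h𝒰
  have hopen : IsOpenSub (krullLevel K Ω) U := isOpenSub_of_mem (krullLevel K Ω) hU
  have hfd : FiniteDimensional K (fixedField U) := hU.2.finiteDimensional
  have hUE : U = (fixedField U).fixingSubgroup := hU.2.fixingSubgroup_fixedField.symm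
  refine ⟨t ∘ₗ (lcor (krullLevel K Ω) U (ofChar χ) 2).hom, fun z => ?_, ?_⟩
  · exact congrArg t (lcor_levelSh_apply (krullLevel K Ω) U (ofChar χ) 2 z)
  · exact ht.comp (lcor_two_bijective_krull (ofChar χ) ι hK FG hUE FE hinv)

/-- **The `τ`-part of `LocalBaseHyp₁`, family form**: class formations `FE E` over all finite
Galois subextensions `E/K` of `Ω` with `inv_E ∘ res = [E:K] • inv_K` give the `τ`-statement for
every member `U` of the level structure. -/
theorem exists_tau_krull_family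
    (𝒰 : LevelStructure Gal(Ω/K)) (h𝒰 : 𝒰 = krullLevel K Ω)
    (χ : Gal(Ω/K) →* (ZMod p)ˣ) [IsDiscrete 𝒰 (ofChar χ)]
    (ι : toIntRep (ofChar χ) ⟶ unitsRep K Ω) {w : ι ≫ (p • 𝟙 (unitsRep K Ω)) = 0}
    (hK : (ShortComplex.mk ι (p • 𝟙 (unitsRep K Ω)) w).ShortExact)
    (FG : Formation (krullLevel K Ω) (unitsRep K Ω))
    (t : levelCohomology 𝒰 (ofChar χ) 2 →ₗ[ZMod p] ZMod p) (ht : Function.Bijective t)
    (FE : ∀ E : IntermediateField K Ω, FiniteDimensional K E → IsGalois K E →
      Formation (krullLevel E Ω) (unitsRep E Ω))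
    (hBC : ∀ (E : IntermediateField K Ω) (hfd : FiniteDimensional K E) (hgal : IsGalois K E)
      (x : levelCohomology (krullLevel K Ω) (unitsRep K Ω) 2),
      (FE E hfd hgal).inv ((bcMap K E Ω 2).hom x) = Module.finrank K E • FG.inv x)
    (U : Subgroup Gal(Ω/K)) (hU : U ∈ 𝒰.sets) [U.FiniteIndex]
    [IsDiscrete (𝒰.restrict U) (ofChar (χ.comp U.subtype))]
    [IsDiscrete 𝒰 (coind.{0, 0, 0, 0} U.subtype (res U.subtype (ofChar χ)))] :
    ∃ τ : levelCohomology (𝒰.restrict U) (ofChar (χ.comp U.subtype)) 2 →ₗ[ZMod p] ZMod p,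
      (∀ z, τ (lshChar 𝒰 χ U (𝒰.restrict U) (𝒰.restrict_refines U) 2 z) =
        t (lmap 𝒰 (coindTrace U (ofChar χ)) 2 z)) ∧ Function.Bijective τ := by
  have hU' : U ∈ (krullLevel K Ω).sets := h𝒰 ▸ hU
  have hn : U.Normal := hU'.1
  have hfd : FiniteDimensional K (fixedField U) := hU'.2.finiteDimensional
  have hgal : IsGalois K (fixedField U) := hU'.2.isGalois
  have hUE : U = (fixedField U).fixingSubgroup := hU'.2.fixingSubgroup_fixedField.symm
  refine exists_tau_krull 𝒰 h𝒰 χ ι hK FG t ht U hU (FE _ hfd hgal) fun x => ?_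
  rw [hBC, index_eq_finrank hUE]

end Tau

/-! ### The concrete case `ℚ_q` -/

section Concrete

open Fermat.Agent.S55.GaloisLevel Fermat.Agent.S55.CFAbs Fermat.Agent.S55.Local.InvariantCor
  Fermat.Agent.S55.LevelDuality Fermat.Agent.S55.DualTwist IntermediateField groupCohomology
  ExtCitation Fermat.Agent.S55.Local.LocalInv Fermat.Agent.S55.Local.KrullLocal

local notation "Qbar" => AlgebraicClosure ℚ

variable {p : ℕ} [Fact p.Prime]

/-- **The `τ`-part of `LocalBaseHyp₁` at a prime `q`**, over `localLevel (localGaloisToGlobal q)`,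
for the character `χ_cyc ∘ r_q` and ANY bijective linear form `t` (e.g. `LocalInv.invQ`), from local
class formations over the finite Galois extensions of `ℚ_q` with the base change formula. -/
theorem exists_tau_padic (q : ℕ) [Fact q.Prime]
    [IsDiscrete (localLevel (localGaloisToGlobal q))
      (ofChar (k := ZMod p) ((cycloChar p).comp (localGaloisToGlobal q)))]
    (FG : Formation (krullLevel ℚ_[q] (PadicAlgCl q)) (unitsRep ℚ_[q] (PadicAlgCl q)))
    (t : levelCohomology (localLevel (localGaloisToGlobal q))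
      (ofChar (k := ZMod p) ((cycloChar p).comp (localGaloisToGlobal q))) 2 →ₗ[ZMod p] ZMod p)
    (ht : Function.Bijective t)
    (FE : ∀ E : IntermediateField ℚ_[q] (PadicAlgCl q), FiniteDimensional ℚ_[q] E →
      IsGalois ℚ_[q] E → Formation (krullLevel E (PadicAlgCl q)) (unitsRep E (PadicAlgCl q)))
    (hBC : ∀ (E : IntermediateField ℚ_[q] (PadicAlgCl q)) (hfd : FiniteDimensional ℚ_[q] E)
      (hgal : IsGalois ℚ_[q] E)
      (x : levelCohomology (krullLevel ℚ_[q] (PadicAlgCl q)) (unitsRep ℚ_[q] (PadicAlgCl q)) 2),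
      (FE E hfd hgal).inv ((bcMap ℚ_[q] E (PadicAlgCl q) 2).hom x) =
        Module.finrank ℚ_[q] E • FG.inv x)
    (U : Subgroup Gal(PadicAlgCl q/ℚ_[q])) (hU : U ∈ (localLevel (localGaloisToGlobal q)).sets)
    [U.FiniteIndex]
    [IsDiscrete ((localLevel (localGaloisToGlobal q)).restrict U)
      (ofChar (k := ZMod p) (((cycloChar p).comp (localGaloisToGlobal q)).comp U.subtype))]
    [IsDiscrete (localLevel (localGaloisToGlobal q)) (coind.{0, 0, 0, 0} U.subtype
      (res U.subtype (ofChar (k := ZMod p) ((cycloChar p).comp (localGaloisToGlobal q)))))] :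
    ∃ τ : levelCohomology ((localLevel (localGaloisToGlobal q)).restrict U)
        (ofChar (k := ZMod p) (((cycloChar p).comp (localGaloisToGlobal q)).comp U.subtype)) 2
          →ₗ[ZMod p] ZMod p,
      (∀ z, τ (lshChar (localLevel (localGaloisToGlobal q))
          ((cycloChar p).comp (localGaloisToGlobal q)) U
          ((localLevel (localGaloisToGlobal q)).restrict U)
          ((localLevel (localGaloisToGlobal q)).restrict_refines U) 2 z) =
        t (lmap (localLevel (localGaloisToGlobal q))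
          (coindTrace U (ofChar (k := ZMod p) ((cycloChar p).comp (localGaloisToGlobal q)))) 2 z)) ∧
      Function.Bijective τ := by
  obtain ⟨ζ, hζ⟩ := exists_primitiveRoot p
  exact exists_tau_krull_family (localLevel (localGaloisToGlobal q)) (localLevel_eq_krullLevel q)
    ((cycloChar p).comp (localGaloisToGlobal q)) (zetaMap q hζ) (zeta_shortExact q hζ) FG t ht
    FE hBC U hU

end Concrete

section Primes

open Fermat.Agent.S55.GaloisLevel Fermat.Agent.S55.CFAbs Fermat.Agent.S55.Local.InvariantCor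
  Fermat.Agent.S55.LevelDuality Fermat.Agent.S55.DualTwist IntermediateField groupCohomology
  ExtCitation Fermat.Agent.S55.Local.LocalInv Fermat.Agent.S55.Local.KrullLocal

variable {p : ℕ} [Fact p.Prime] (q : Nat.Primes)

local instance factPrime_LIC : Fact (q : ℕ).Prime := ⟨q.2⟩

/-- **The `τ`-part of `LocalBaseHyp₁` at a prime `q`, frozen types of `Assembly.localData`.** -/
theorem exists_tau_prime
    [hd : IsDiscrete (localLevel (primeLocalToGlobal q))
      (ofChar (k := ZMod p) ((cycloChar p).comp (primeLocalToGlobal q)))]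
    (FG : Formation (krullLevel ℚ_[(q : ℕ)] (PadicAlgCl (q : ℕ)))
      (unitsRep ℚ_[(q : ℕ)] (PadicAlgCl (q : ℕ))))
    (t : levelCohomology (localLevel (primeLocalToGlobal q))
      (ofChar (k := ZMod p) ((cycloChar p).comp (primeLocalToGlobal q))) 2 →ₗ[ZMod p] ZMod p)
    (ht : Function.Bijective t)
    (FE : ∀ E : IntermediateField ℚ_[(q : ℕ)] (PadicAlgCl (q : ℕ)),
      FiniteDimensional ℚ_[(q : ℕ)] E → IsGalois ℚ_[(q : ℕ)] E →
      Formation (krullLevel E (PadicAlgCl (q : ℕ))) (unitsRep E (PadicAlgCl (q : ℕ))))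
    (hBC : ∀ (E : IntermediateField ℚ_[(q : ℕ)] (PadicAlgCl (q : ℕ)))
      (hfd : FiniteDimensional ℚ_[(q : ℕ)] E) (hgal : IsGalois ℚ_[(q : ℕ)] E)
      (x : levelCohomology (krullLevel ℚ_[(q : ℕ)] (PadicAlgCl (q : ℕ)))
        (unitsRep ℚ_[(q : ℕ)] (PadicAlgCl (q : ℕ))) 2),
      (FE E hfd hgal).inv ((bcMap ℚ_[(q : ℕ)] E (PadicAlgCl (q : ℕ)) 2).hom x) =
        Module.finrank ℚ_[(q : ℕ)] E • FG.inv x)
    (U : Subgroup (primeLocalGaloisGroup q)) (hU : U ∈ (localLevel (primeLocalToGlobal q)).sets)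
    [hfi : U.FiniteIndex]
    [hd1 : IsDiscrete ((localLevel (primeLocalToGlobal q)).restrict U)
      (ofChar (k := ZMod p) (((cycloChar p).comp (primeLocalToGlobal q)).comp U.subtype))]
    [hd2 : IsDiscrete (localLevel (primeLocalToGlobal q)) (coind.{0, 0, 0, 0} U.subtype
      (res U.subtype (ofChar (k := ZMod p) ((cycloChar p).comp (primeLocalToGlobal q)))))] :
    ∃ τ : levelCohomology ((localLevel (primeLocalToGlobal q)).restrict U)
        (ofChar (k := ZMod p) (((cycloChar p).comp (primeLocalToGlobal q)).comp U.subtype)) 2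
          →ₗ[ZMod p] ZMod p,
      (∀ z, τ (lshChar (localLevel (primeLocalToGlobal q))
          ((cycloChar p).comp (primeLocalToGlobal q)) U
          ((localLevel (primeLocalToGlobal q)).restrict U)
          ((localLevel (primeLocalToGlobal q)).restrict_refines U) 2 z) =
        t (lmap (localLevel (primeLocalToGlobal q))
          (coindTrace U (ofChar (k := ZMod p) ((cycloChar p).comp (primeLocalToGlobal q)))) 2 z)) ∧
      Function.Bijective τ :=
  @exists_tau_padic p _ (q : ℕ) _ hd FG t ht FE hBC U hU hfi hd1 hd2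

/-- The `τ`-statement for the local invariant `LocalInv.invPrime q hζ FG` itself. -/
theorem exists_tau_invPrime {ζ : AlgebraicClosure ℚ} (hζ : IsPrimitiveRoot ζ p)
    [hd : IsDiscrete (localLevel (primeLocalToGlobal q))
      (ofChar (k := ZMod p) ((cycloChar p).comp (primeLocalToGlobal q)))]
    (FG : Formation (krullLevel ℚ_[(q : ℕ)] (PadicAlgCl (q : ℕ)))
      (unitsRep ℚ_[(q : ℕ)] (PadicAlgCl (q : ℕ))))
    (FE : ∀ E : IntermediateField ℚ_[(q : ℕ)] (PadicAlgCl (q : ℕ)),
      FiniteDimensional ℚ_[(q : ℕ)] E → IsGalois ℚ_[(q : ℕ)] E →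
      Formation (krullLevel E (PadicAlgCl (q : ℕ))) (unitsRep E (PadicAlgCl (q : ℕ))))
    (hBC : ∀ (E : IntermediateField ℚ_[(q : ℕ)] (PadicAlgCl (q : ℕ)))
      (hfd : FiniteDimensional ℚ_[(q : ℕ)] E) (hgal : IsGalois ℚ_[(q : ℕ)] E)
      (x : levelCohomology (krullLevel ℚ_[(q : ℕ)] (PadicAlgCl (q : ℕ)))
        (unitsRep ℚ_[(q : ℕ)] (PadicAlgCl (q : ℕ))) 2),
      (FE E hfd hgal).inv ((bcMap ℚ_[(q : ℕ)] E (PadicAlgCl (q : ℕ)) 2).hom x) =
        Module.finrank ℚ_[(q : ℕ)] E • FG.inv x)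
    (U : Subgroup (primeLocalGaloisGroup q)) (hU : U ∈ (localLevel (primeLocalToGlobal q)).sets)
    [hfi : U.FiniteIndex]
    [hd1 : IsDiscrete ((localLevel (primeLocalToGlobal q)).restrict U)
      (ofChar (k := ZMod p) (((cycloChar p).comp (primeLocalToGlobal q)).comp U.subtype))]
    [hd2 : IsDiscrete (localLevel (primeLocalToGlobal q)) (coind.{0, 0, 0, 0} U.subtype
      (res U.subtype (ofChar (k := ZMod p) ((cycloChar p).comp (primeLocalToGlobal q)))))] :
    ∃ τ : levelCohomology ((localLevel (primeLocalToGlobal q)).restrict U)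
        (ofChar (k := ZMod p) (((cycloChar p).comp (primeLocalToGlobal q)).comp U.subtype)) 2
          →ₗ[ZMod p] ZMod p,
      (∀ z, τ (lshChar (localLevel (primeLocalToGlobal q))
          ((cycloChar p).comp (primeLocalToGlobal q)) U
          ((localLevel (primeLocalToGlobal q)).restrict U)
          ((localLevel (primeLocalToGlobal q)).restrict_refines U) 2 z) =
        invPrime (hd := hd) q hζ FG (lmap (localLevel (primeLocalToGlobal q))
          (coindTrace U (ofChar (k := ZMod p) ((cycloChar p).comp (primeLocalToGlobal q)))) 2 z)) ∧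
      Function.Bijective τ :=
  exists_tau_prime q FG (invPrime (hd := hd) q hζ FG) (invPrime_bijective (hd := hd) q hζ FG)
    FE hBC U hU

end Primes


end Fermat.Agent.S55.Local.LocalInvCores
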