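/-
S55 / LOC8 (helper22), final form: the two local hypotheses `hι0`, `hι1` of
`Assembly.result_of_cone` for the local data `(Gal(ℚ̄_q/ℚ_q) → Gal(ℚ̄/ℚ))_{q ∈ S}` of S55.

Inputs (per prime `q ∈ S`, for the local invariant `invAt (localData S) tr q` attached to the
global linear form `tr` on `Hc³(μ_p)`):

* `hloc q` : local duality for the coefficients `𝔽_p` over the level subgroups `U` of
  `Gal(ℚ̄_q/ℚ_q)` on which the cyclotomic character is trivial (`LocalBaseHyp₁`: a linear form `τ`
  on `H²(U, μ_p)` with `τ ∘ sh = inv_q ∘ tr`, i.e. `τ = inv_q ∘ cor`, for which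
  `H⁰(U, 𝔽_p) ≅ H²(U, μ_p)^*`, `H¹(U, 𝔽_p) ≅ H¹(U, μ_p)^*`, `H²(U, 𝔽_p) ↪ H⁰(U, μ_p)^*`) — LOC5 + LOC7;
* `hchars q` : arbitrarily small level subgroups of `Gal(ℚ̄_q/ℚ_q)` have finitely many
  `ℤ/p`-valued level characters (local Kummer theory / finiteness of `F^×/p`).
-/
import Mathlib
import Fermat.Agent.S55.LevelDualityCone
import Fermat.Agent.S55.AssemblyCone
import Fermat.Agent.S55.LevelFinite
import Fermat.Agent.S55.MainDefs

set_option autoImplicit false
set_option linter.unusedSectionVars false

open CategoryTheory Module groupCohomology ExtCitation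

namespace Fermat.Agent.S55.Local.Duality

open Fermat.Agent.S55.Level Fermat.Agent.S55.Cone Fermat.Agent.S55.DualTwist
  Fermat.Agent.S55.Assembly Fermat.Agent.S55.LevelDuality Fermat.Agent.S55.Main

local notation "Qbar" => AlgebraicClosure ℚ
local notation "Γ" => (AlgebraicClosure ℚ ≃ₐ[ℚ] AlgebraicClosure ℚ)

variable {p : ℕ} [Fact p.Prime] (S : Finset Nat.Primes) [DecidableEq (localData S).ι]
  (M : Rep (ZMod p) Γ) [FiniteDimensional (ZMod p) M]
  [IsDiscrete (globalLevel S) M] [IsDiscrete (globalLevel S) (M.dualTwist (cycloChar p))]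
  [IsDiscrete (globalLevel S) (ofChar (cycloChar p))]
  (tr : Hc (localData S) (ofChar (cycloChar p)) 3 →ₗ[ZMod p] ZMod p)

/-- **The local hypotheses `hι0`, `hι1` of `Assembly.result_of_cone`** from local duality for the
coefficients `𝔽_p` over the level subgroups of the local Galois groups and the finiteness of their
`ℤ/p`-valued level characters. -/
theorem locDual_surjective
    (hloc : ∀ q : (localData S).ι,
      LocalBaseHyp₁ ((localData S).𝒱 q) ((cycloChar p).comp ((localData S).r q))
        (invAt (localData S) tr q) (restrictFamily ((localData S).𝒱 q))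
        (restrictFamily_refines ((localData S).𝒱 q)))
    (hchars : ∀ q : (localData S).ι, ∀ U₀ ∈ ((localData S).𝒱 q).sets,
      ∃ U ∈ ((localData S).𝒱 q).sets, U ≤ U₀ ∧
        (levelChars ((localData S).𝒱 q) U (ZMod p)).Finite) :
    Function.Surjective (locDual (localData S) (evalPairing (cycloChar p) M)
        (evalPairing_equivariant (cycloChar p) M) 0 2 2 rfl tr) ∧
      Function.Surjective (locDual (localData S) (evalPairing' (cycloChar p) M)
        (evalPairing'_equivariant (cycloChar p) M) 1 1 2 rfl tr) := by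
  have : Finite (localData S).ι := inferInstanceAs (Finite ↥S)
  refine locDual_surjective_of_localBase (localData S) (cycloChar p) tr M hloc (fun q => ?_)
  have hfdM' : FiniteDimensional (ZMod p) (M.dualTwist (cycloChar p)) :=
    inferInstanceAs (FiniteDimensional (ZMod p) (Module.Dual (ZMod p) M))
  have hfin : Finite (M.dualTwist (cycloChar p)) := Module.finite_of_finite (ZMod p)
  have hfin' : Finite (Rep.res ((localData S).r q) (M.dualTwist (cycloChar p))) := hfin
  exact finiteDimensional_levelCohomology_one_of_zmod ((localData S).𝒱 q)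
    (Rep.res ((localData S).r q) (M.dualTwist (cycloChar p))) (hchars q)

/-- **Integration check**: the frozen S55 from (i) a linear form `tr` on `Hc³(μ_p)` for which the
global dévissage conclusion `Main.MainConclusion` holds and local duality for the coefficients
`𝔽_p` holds at every `q ∈ S` with respect to the local invariants of `tr`, (ii) finiteness of the
`ℤ/p`-valued level characters of small level subgroups of the local Galois groups, and (iii)
finiteness of the global Kummer groups. -/
theorem result_of_main_of_local (hp2 : p ≠ 2) (hpS : pPrime p ∈ S) (M : Rep (ZMod p) Γ)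
    [FiniteDimensional (ZMod p) M]
    (hsm : ∀ m : M, ∃ F : IntermediateField ℚ Qbar, FiniteDimensional ℚ F ∧
      ∀ s ∈ F.fixingSubgroup, M.ρ s m = m)
    (hMur : ∀ q : Nat.Primes, q ∉ S → ∀ A : ValuationSubring Qbar,
      A.LiesOverPrime (q : ℕ) → ∀ g ∈ A.inertiaSubgroupIn ℚ, M.ρ g = 1)
    (hcone : ∀ [IsDiscrete (globalLevel S) (ofChar (cycloChar p))],
      ∃ tr : Hc (localData S) (ofChar (cycloChar p)) 3 →ₗ[ZMod p] ZMod p,
        MainConclusion (localData S) (cycloChar p) tr ∧
        (∀ q : (localData S).ι,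
          LocalBaseHyp₁ ((localData S).𝒱 q) ((cycloChar p).comp ((localData S).r q))
            (invAt (localData S) tr q) (restrictFamily ((localData S).𝒱 q))
            (restrictFamily_refines ((localData S).𝒱 q))))
    (hchars : ∀ q : (localData S).ι, ∀ U₀ ∈ ((localData S).𝒱 q).sets,
      ∃ U ∈ ((localData S).𝒱 q).sets, U ≤ U₀ ∧
        (levelChars ((localData S).𝒱 q) U (ZMod p)).Finite)
    (hkummer : ∀ L : IntermediateField ℚ Qbar, L.IsUnramifiedOutside S → Normal ℚ L →
      (∀ ω : Qbar, ω ^ p = 1 → ω ∈ L) →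
      Finite ↥(GL.Kummer.levelChars L S (rootsOfUnity p Qbar))) :
    ∃ B : sha₁ S (M.dualTwist (cycloChar p)) →ₗ[ZMod p] sha₂ S M →ₗ[ZMod p] ZMod p,
      (∀ y, (∀ x, B y x = 0) → y = 0) ∧ (∀ x, (∀ y, B y x = 0) → x = 0) := by
  refine result_of_cone S hp2 hpS M hsm hMur ?_ hkummer
  intro hM hM' hμ
  obtain ⟨tr, hmain, hloc⟩ := @hcone hμ
  obtain ⟨h1, h2⟩ := injective_Phi_of_main (localData S) (cycloChar p) tr hmain M
  obtain ⟨h3, h4⟩ := locDual_surjective S M tr hloc hchars
  exact ⟨tr, h1, h2, h3, h4⟩

end Fermat.Agent.S55.Local.Duality
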