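/-
S55 / GLO11–GLO12c ([UNR], local part): a class of `H²` of an unramified layer which is represented
by a UNIT-VALUED cocycle vanishes.

* abstract (`UnramClass.IsUnramLayer`): `H2π_eq_zero_of_forall_vZ_eq_zero`;
* field level (setting of `Local/Invariant.lean`): `H2π_eq_zero_of_unit_valued`;
* layer form over `(Gal(Ω/K), krullLevel K Ω, unitsRep K Ω)`: `layer_H2π_eq_zero_of_unit_valued`,
  `levelInf_H2π_eq_zero_of_unit_valued`.
(helper5)
-/
import Mathlib
import Fermat.Agent.S55.Local.Invariant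
import Fermat.Agent.S55.GaloisLevel

set_option autoImplicit false
set_option linter.unusedSectionVars false
set_option linter.style.haveILetI false

open CategoryTheory groupCohomology Rep IntermediateField IsLocalRing

namespace Fermat.Agent.S55.Local.UnitCocycle

open Fermat.Agent.S55.Local Fermat.Agent.S55.Local.Unram Fermat.Agent.S55.Local.UnramClass
  Fermat.Agent.S55.Local.Invariant Fermat.Agent.S55.GC.CyclicH2 Fermat.Agent.S55.Level
  Fermat.Agent.S55.GaloisLevel

/-! ### Abstract unramified layers -/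

section Abstract

variable {G : Type} [Group G] {M : Type} [CommGroup M] [MulDistribMulAction G M]
  {φ : G} {n : ℕ} {v : M →* Multiplicative ℤ}

/-- A class of an unramified layer represented by a cocycle all of whose values have valuation
`0` is trivial. -/
theorem H2π_eq_zero_of_forall_vZ_eq_zero [NeZero n] (h : IsUnramLayer φ n v)
    (c : cocycles₂ (AM G M))
    (hc : ∀ g g' : G, vZ G v ((c : G × G → AM G M) (g, g')) = 0) :
    H2π (AM G M) c = 0 := by
  apply invUnr_injective h
  rw [map_zero, invUnr_H2π]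
  have hmem : ev φ n (c : G × G → AM G M) ∈ (vZ G v).ker :=
    ev_mem_of_forall_mem (vZ G v).ker _ fun g g' => (AddMonoidHom.mem_ker).2 (hc g g')
  rw [(AddMonoidHom.mem_ker).1 hmem, Int.cast_zero]

end Abstract

/-! ### Unramified subextensions of `Ω/K` -/

section Field

variable {O : Type} [CommRing O] [IsDomain O] [IsDiscreteValuationRing O]
  [IsAdicComplete (maximalIdeal O) O] [Finite (ResidueField O)]
  {K : Type} [Field K] [Algebra O K] [IsFractionRing O K] [PerfectField K]
  {Ω : Type} [Field Ω] [Algebra K Ω] [Algebra O Ω] [IsScalarTower O K Ω]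

/-- An element of `E` which is integral together with its inverse has `ord = 0`. -/
theorem ordE_eq_one_of_isIntegral {E : IntermediateField K Ω} (h : IsUnramifiedIn O E) (u : Eˣ)
    (hu : IsIntegral O (u : E)) (hu' : IsIntegral O ((u⁻¹ : Eˣ) : E)) : ordE h u = 1 := by
  haveI := h.1
  haveI := isDiscreteValuationRing_integralClosure O E
  unfold ordE
  rw [ordZ_eq_one_iff, valZ_eq_one_iff]
  refine ⟨⟨⟨(u : E), hu⟩, ⟨((u⁻¹ : Eˣ) : E), hu'⟩, ?_, ?_⟩, ?_⟩
  · apply Subtype.ext
    show (u : E) * ((u⁻¹ : Eˣ) : E) = 1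
    rw [← Units.val_mul, mul_inv_cancel, Units.val_one]
  · apply Subtype.ext
    show ((u⁻¹ : Eˣ) : E) * (u : E) = 1
    rw [← Units.val_mul, inv_mul_cancel, Units.val_one]
  · apply Units.ext
    rfl

/-- The element of `Eˣ` underlying an element of the module `Eˣ`. -/
def unitOf {E : IntermediateField K Ω} (x : (Rep.ofAlgebraAutOnUnits K E).V) : Eˣ :=
  Additive.toMul (show Additive Eˣ from x)

/-- **Unit-valued cocycles of an unramified extension are coboundaries.** -/
theorem H2π_eq_zero_of_unit_valued {E : IntermediateField K Ω} (h : IsUnramifiedIn O E)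
    (c : cocycles₂ (Rep.ofAlgebraAutOnUnits K E))
    (hc : ∀ g g' : E ≃ₐ[K] E,
      IsIntegral O ((unitOf ((c : (E ≃ₐ[K] E) × (E ≃ₐ[K] E) → _) (g, g')) : Eˣ) : E) ∧
      IsIntegral O (((unitOf ((c : (E ≃ₐ[K] E) × (E ≃ₐ[K] E) → _) (g, g')))⁻¹ : Eˣ) : E)) :
    H2π (Rep.ofAlgebraAutOnUnits K E) c = 0 := by
  haveI := h.1
  have hn : Module.finrank K E ≠ 0 := Module.finrank_pos.ne'
  haveI : NeZero (Module.finrank K E) := ⟨hn⟩
  refine H2π_eq_zero_of_forall_vZ_eq_zero (isUnramLayer_of_finrank h rfl) c fun g g' => ?_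
  rw [vZ_apply]
  obtain ⟨h1, h2⟩ := hc g g'
  have h3 := ordE_eq_one_of_isIntegral h _ h1 h2
  have h4 : ordE h (toM (E ≃ₐ[K] E) ((c : (E ≃ₐ[K] E) × (E ≃ₐ[K] E) → _) (g, g'))) = 1 := h3
  exact congrArg Multiplicative.toAdd h4

end Field

/-! ### The layer form over `(Gal(Ω/K), krullLevel K Ω, unitsRep K Ω)` -/

section Layer

variable {O : Type} [CommRing O] [IsDomain O] [IsDiscreteValuationRing O]
  [IsAdicComplete (maximalIdeal O) O] [Finite (ResidueField O)]
  {K : Type} [Field K] [Algebra O K] [IsFractionRing O K] [PerfectField K]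
  {Ω : Type} [Field Ω] [Algebra K Ω] [Algebra O Ω] [IsScalarTower O K Ω] [IsGalois K Ω]

/-- The element of `Ω` underlying an element of the module `Ωˣ`. -/
def valOf (K : Type) {Ω : Type} [Field K] [Field Ω] [Algebra K Ω] (a : (unitsRep K Ω).V) : Ω :=
  ((Additive.toMul (show Additive Ωˣ from a) : Ωˣ) : Ω)

omit [IsGalois K Ω] in
lemma valOf_layerUnitsIncl (V : Subgroup Gal(Ω/K))
    (x : (Rep.ofAlgebraAutOnUnits K (IntermediateField.fixedField V)).V) :
    valOf K (layerUnitsIncl V x : (unitsRep K Ω).V) =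
      (((unitOf x : (IntermediateField.fixedField V)ˣ) : IntermediateField.fixedField V) : Ω) :=
  rfl

variable {V : Subgroup Gal(Ω/K)} [hn : V.Normal] (hV : IsKrullOpen K Ω V)

include hV in
/-- **Unit-valued cocycles of an unramified layer of `Gal(Ω/K)` are coboundaries.** -/
theorem layer_H2π_eq_zero_of_unit_valued
    (hE : IsUnramifiedIn O (IntermediateField.fixedField V))
    (c : cocycles₂ ((unitsRep K Ω).quotientToInvariants V))
    (hc : ∀ g g' : Gal(Ω/K) ⧸ V,
      IsIntegral O (valOf K ((c : (Gal(Ω/K) ⧸ V) × (Gal(Ω/K) ⧸ V) → _) (g, g')).1) ∧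
      IsIntegral O (valOf K ((c : (Gal(Ω/K) ⧸ V) × (Gal(Ω/K) ⧸ V) → _) (g, g')).1)⁻¹) :
    H2π ((unitsRep K Ω).quotientToInvariants V) c = 0 := by
  haveI := hV.normal_fixedField
  have hinj : Function.Injective (layerIso hV 2).hom.hom :=
    (layerIso hV 2).toLinearEquiv.injective
  apply hinj
  rw [map_zero]
  -- the image class is represented by the transported cocycle
  obtain ⟨ψ, hψ1, hψ2⟩ : ∃ ψ : Rep.res
      ((layerGroupEquiv hV).symm : Gal(IntermediateField.fixedField V/K) →* Gal(Ω/K) ⧸ V)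
      ((unitsRep K Ω).quotientToInvariants V) ⟶
        Rep.ofAlgebraAutOnUnits K (IntermediateField.fixedField V),
      (layerIso hV 2).hom = groupCohomology.map
        ((layerGroupEquiv hV).symm : Gal(IntermediateField.fixedField V/K) →* Gal(Ω/K) ⧸ V) ψ 2 ∧
      ∀ x, ψ.hom x = (layerUnitsEquiv V).symm x := ⟨_, rfl, fun _ => rfl⟩
  rw [hψ1]
  have h1 := congrArg (fun F => F.hom c)
    (H2π_comp_map (A := (unitsRep K Ω).quotientToInvariants V)
      (B := Rep.ofAlgebraAutOnUnits K (IntermediateField.fixedField V))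
      ((layerGroupEquiv hV).symm : Gal(IntermediateField.fixedField V/K) →* Gal(Ω/K) ⧸ V) ψ)
  refine h1.trans ?_
  show H2π (Rep.ofAlgebraAutOnUnits K (IntermediateField.fixedField V))
    (mapCocycles₂ ((layerGroupEquiv hV).symm :
      Gal(IntermediateField.fixedField V/K) →* Gal(Ω/K) ⧸ V) ψ c) = 0
  refine H2π_eq_zero_of_unit_valued hE _ fun g g' => ?_
  have hval : ((mapCocycles₂ ((layerGroupEquiv hV).symm :
      Gal(IntermediateField.fixedField V/K) →* Gal(Ω/K) ⧸ V) ψ c :
        cocycles₂ (Rep.ofAlgebraAutOnUnits K (IntermediateField.fixedField V))) :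
          Gal(IntermediateField.fixedField V/K) × Gal(IntermediateField.fixedField V/K) → _)
        (g, g') =
      (layerUnitsEquiv V).symm ((c : (Gal(Ω/K) ⧸ V) × (Gal(Ω/K) ⧸ V) → _)
        ((layerGroupEquiv hV).symm g, (layerGroupEquiv hV).symm g')) := by
    rw [coe_mapCocycles₂]
    exact hψ2 _
  rw [hval]
  set b := (c : (Gal(Ω/K) ⧸ V) × (Gal(Ω/K) ⧸ V) → _)
    ((layerGroupEquiv hV).symm g, (layerGroupEquiv hV).symm g') with hb
  obtain ⟨hb1, hb2⟩ := hc ((layerGroupEquiv hV).symm g) ((layerGroupEquiv hV).symm g')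
  rw [← hb] at hb1 hb2
  have hcoe : valOf K (b : (unitsRep K Ω).V) =
      (((unitOf ((layerUnitsEquiv V).symm b) : (IntermediateField.fixedField V)ˣ) :
        IntermediateField.fixedField V) : Ω) := by
    rw [← valOf_layerUnitsIncl, ← layerUnitsEquiv_apply_coe, LinearEquiv.apply_symm_apply]
  have hinjΩ : Function.Injective (algebraMap (IntermediateField.fixedField V) Ω) :=
    (algebraMap (IntermediateField.fixedField V) Ω).injective
  constructor
  · rw [← isIntegral_algebraMap_iff hinjΩ]
    rw [hcoe] at hb1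
    exact hb1
  · rw [← isIntegral_algebraMap_iff hinjΩ]
    rw [hcoe] at hb2
    rw [Units.val_inv_eq_inv_val, map_inv₀]
    exact hb2

omit hn in
/-- If `V` contains the fixing subgroup of an unramified extension, its fixed field is
unramified. -/
theorem isUnramifiedIn_fixedField_of_le {E : IntermediateField K Ω} (hE : IsUnramifiedIn O E)
    (hEV : E.fixingSubgroup ≤ V) : IsUnramifiedIn O (IntermediateField.fixedField V) := by
  refine hE.of_le fun x hx => ?_
  rw [← InfiniteGalois.fixedField_fixingSubgroup E, IntermediateField.mem_fixedField_iff]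
  intro g hg
  exact (IntermediateField.mem_fixedField_iff V x).1 hx g (hEV hg)

include hV in
/-- The same, with the unramified extension as a parameter. -/
theorem layer_H2π_eq_zero_of_unit_valued' {E : IntermediateField K Ω} (hE : IsUnramifiedIn O E)
    (hEV : E.fixingSubgroup ≤ V)
    (c : cocycles₂ ((unitsRep K Ω).quotientToInvariants V))
    (hc : ∀ g g' : Gal(Ω/K) ⧸ V,
      IsIntegral O (valOf K ((c : (Gal(Ω/K) ⧸ V) × (Gal(Ω/K) ⧸ V) → _) (g, g')).1) ∧
      IsIntegral O (valOf K ((c : (Gal(Ω/K) ⧸ V) × (Gal(Ω/K) ⧸ V) → _) (g, g')).1)⁻¹) :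
    H2π ((unitsRep K Ω).quotientToInvariants V) c = 0 :=
  layer_H2π_eq_zero_of_unit_valued hV (isUnramifiedIn_fixedField_of_le hE hEV) c hc

end Layer

end Fermat.Agent.S55.Local.UnitCocycle
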