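/-
S55 / LOC5 — UNCONDITIONAL local class field theory over `ℚ_q` in level form.

* `baseChangeStatement O` : helper16's `InvariantInst.BaseChangeStatement` from helper1's `UnramBC`
  (for every complete DVR `O` with finite residue field and perfect fraction field);
* `padicInput q : PadicFormation.PadicInput q`;
* `cftQ q`, `cftAt E`, `cftFamily q`, `cftPlace L v` : the local class formations of `ℚ_q`, of a
  finite extension `E` of `ℚ_q` inside `PadicAlgCl q`, the family indexed by the finite Galois
  extensions (`FE` of `TraceGlueLocal.result_of_formations`), and the formation at a finite place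
  of a number field (`F v` of `BrauerInst.BrauerInput`); base change `inv_bcMap_cftAt`,
  `inv_bcMap_cftAt_rel`, `cftFamily_bc`, `cftPlace_bot_inv` (= `hF` of `RecipQS.hrec_invLoc`).
(helper26)
-/
import Fermat.Agent.S55.Local.PadicFormation
import Fermat.Agent.S55.Local.UnramBC
import Fermat.Agent.S55.GL.BrauerInst

set_option autoImplicit false
set_option linter.unusedSectionVars false
set_option linter.style.haveILetI false
set_option linter.overlappingInstances false

open CategoryTheory groupCohomology Rep IntermediateField IsLocalRing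

namespace Fermat.Agent.S55.Local.PadicCFT

open Fermat.Agent.S55.Local.Unram Fermat.Agent.S55.Local.InvariantInst
  Fermat.Agent.S55.Local.PadicFormation Fermat.Agent.S55.Level Fermat.Agent.S55.CFAbs
  Fermat.Agent.S55.GaloisLevel Fermat.Agent.S55.LocalDict Fermat.Agent.S55.GL.Places
  Fermat.Agent.S55.GL.BrauerLocal Fermat.Agent.S55.GL.BrauerInst

local notation "Qbar" => AlgebraicClosure ℚ
local notation "Γ" => (AlgebraicClosure ℚ ≃ₐ[ℚ] AlgebraicClosure ℚ)

section Generic

variable (O : Type) [CommRing O] [IsDomain O] [IsDiscreteValuationRing O]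
  [IsAdicComplete (maximalIdeal O) O] [Finite (ResidueField O)]
  {K : Type} [Field K] [Algebra O K] [IsFractionRing O K] [PerfectField K]
  {Ω : Type} [Field Ω] [Algebra K Ω] [Algebra O Ω] [IsScalarTower O K Ω]

/-- **Base change of unramified extensions** (helper1's `UnramBC`), in the form consumed by
`InvariantInst`. -/
theorem baseChangeStatement : BaseChangeStatement O (K := K) (Ω := Ω) := by
  intro E₀ _ L h
  refine ⟨h.extendScalars_sup, fun M' h' hLM' x => ?_⟩
  exact h.frob_baseChange h' hLM' (fDeg O E₀) (card_residueField_int O E₀) x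

end Generic

section Padic

variable (q : ℕ) [Fact q.Prime]

/-- **The field-level inputs of local class field theory over `ℚ_q` hold.** -/
theorem padicInput : PadicInput q :=
  padicInput_of_baseChange q (baseChangeStatement ℤ_[q])
    (fun E _ => baseChangeStatement (integralClosure ℤ_[q] E))

/-- **The local class formation of `ℚ_q`.** -/
noncomputable def cftQ :
    Formation (krullLevel ℚ_[q] (PadicAlgCl q)) (unitsRep ℚ_[q] (PadicAlgCl q)) :=
  formationQ (padicInput q)

variable {q}

/-- **The local class formation of a finite extension `E` of `ℚ_q`** inside `PadicAlgCl q`. -/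
noncomputable def cftAt (E : IntermediateField ℚ_[q] (PadicAlgCl q)) [FiniteDimensional ℚ_[q] E] :
    Formation (krullLevel E (PadicAlgCl q)) (unitsRep E (PadicAlgCl q)) :=
  formationAt (padicInput q) E

/-- **Base change** `inv_E ∘ res = [E:ℚ_q] • inv_{ℚ_q}`. -/
theorem inv_bcMap_cftAt (E : IntermediateField ℚ_[q] (PadicAlgCl q)) [FiniteDimensional ℚ_[q] E]
    (x : levelCohomology (krullLevel ℚ_[q] (PadicAlgCl q)) (unitsRep ℚ_[q] (PadicAlgCl q)) 2) :
    (cftAt E).inv ((bcMap ℚ_[q] E (PadicAlgCl q) 2).hom x) =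
      Module.finrank ℚ_[q] E • (cftQ q).inv x :=
  inv_bcMap_formationAt (padicInput q) E x

/-- Base change in degree one. -/
theorem inv_bcMap_cftAt_of_finrank_eq_one (E : IntermediateField ℚ_[q] (PadicAlgCl q))
    [FiniteDimensional ℚ_[q] E] (hE : Module.finrank ℚ_[q] E = 1)
    (x : levelCohomology (krullLevel ℚ_[q] (PadicAlgCl q)) (unitsRep ℚ_[q] (PadicAlgCl q)) 2) :
    (cftAt E).inv ((bcMap ℚ_[q] E (PadicAlgCl q) 2).hom x) = (cftQ q).inv x := by
  rw [inv_bcMap_cftAt, hE, one_nsmul]

/-- **Relative base change** `inv_{E₂} ∘ res = [E₂:E₁] • inv_{E₁}`. -/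
theorem inv_bcMap_cftAt_rel (E₁ E₂ : IntermediateField ℚ_[q] (PadicAlgCl q))
    [FiniteDimensional ℚ_[q] E₁] [FiniteDimensional ℚ_[q] E₂] [Algebra E₁ E₂]
    [IsScalarTower E₁ E₂ (PadicAlgCl q)]
    (y : levelCohomology (krullLevel E₁ (PadicAlgCl q)) (unitsRep E₁ (PadicAlgCl q)) 2) :
    (cftAt E₂).inv ((bcMap E₁ E₂ (PadicAlgCl q) 2).hom y) =
      Module.finrank E₁ E₂ • (cftAt E₁).inv y :=
  inv_bcMap_formationAt_rel (padicInput q) E₁ E₂ y

variable (q)

/-- The family `FE` of `TraceGlueLocal.result_of_formations`. -/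
noncomputable def cftFamily (E : IntermediateField ℚ_[q] (PadicAlgCl q))
    (hfd : FiniteDimensional ℚ_[q] E) (hgal : IsGalois ℚ_[q] E) :
    Formation (krullLevel E (PadicAlgCl q)) (unitsRep E (PadicAlgCl q)) :=
  formationFamily (padicInput q) E hfd hgal

/-- The hypothesis `hBC` of `TraceGlueLocal.result_of_formations`. -/
theorem cftFamily_bc (E : IntermediateField ℚ_[q] (PadicAlgCl q))
    (hfd : FiniteDimensional ℚ_[q] E) (hgal : IsGalois ℚ_[q] E)
    (x : levelCohomology (krullLevel ℚ_[q] (PadicAlgCl q)) (unitsRep ℚ_[q] (PadicAlgCl q)) 2) :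
    (cftFamily q E hfd hgal).inv ((bcMap ℚ_[q] E (PadicAlgCl q) 2).hom x) =
      Module.finrank ℚ_[q] E • (cftQ q).inv x :=
  formationFamily_bc (padicInput q) E hfd hgal x

/-- The completion of `ℚ` at `q` is `ℚ_q`. -/
theorem localFieldAt_bot (σ : Γ) : localFieldAt q (⊥ : IntermediateField ℚ Qbar) σ = ⊥ := by
  rw [eq_bot_iff, localFieldAt, IntermediateField.map_bot, localField,
    IntermediateField.adjoin_le_iff]
  rintro _ ⟨x, hx, rfl⟩
  obtain ⟨r, rfl⟩ := IntermediateField.mem_bot.1 hx
  rw [AlgHom.commutes]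
  exact IntermediateField.mem_bot.2 ⟨(r : ℚ_[q]), by
    rw [IsScalarTower.algebraMap_apply ℚ ℚ_[q] (PadicAlgCl q)]
    rfl⟩

theorem finrank_localFieldAt_bot (σ : Γ) :
    Module.finrank ℚ_[q] (localFieldAt q (⊥ : IntermediateField ℚ Qbar) σ) = 1 := by
  rw [localFieldAt_bot]
  exact IntermediateField.finrank_bot

end Padic

section Places

local instance factPrime_PCFT (q : Nat.Primes) : Fact (q : ℕ).Prime := ⟨q.2⟩

/-- **The local class formation at a finite place of a number field** (helper14's typing). -/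
noncomputable def cftPlace (L : IntermediateField ℚ Qbar) [FiniteDimensional ℚ L]
    (v : FinPlace L) :
    Formation (levelv L v) (unitsRep (Kv L v) (PadicAlgCl (v.prime : ℕ))) :=
  cftAt (Kv L v)

/-- The hypothesis `hF` of `RecipQS.hrec_invLoc` / `TopFinal.result_of_formations_brauer_blocks`:
at the places of `ℚ` the formation is that of `ℚ_q`. -/
theorem cftPlace_bot_inv (v : FinPlace (⊥ : IntermediateField ℚ Qbar))
    (x : levelCohomology (krullLevel ℚ_[(v.prime : ℕ)] (PadicAlgCl (v.prime : ℕ)))
      (unitsRep ℚ_[(v.prime : ℕ)] (PadicAlgCl (v.prime : ℕ))) 2) :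
    (cftPlace ⊥ v).inv ((bcMap ℚ_[(v.prime : ℕ)] (Kv ⊥ v) (PadicAlgCl (v.prime : ℕ)) 2).hom x) =
      (cftQ (v.prime : ℕ)).inv x :=
  inv_bcMap_cftAt_of_finrank_eq_one (Kv ⊥ v) (finrank_localFieldAt_bot _ _) x

end Places

end Fermat.Agent.S55.Local.PadicCFT
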