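/-
S55 / LOC5 (5-C), FINAL: the local class formation of a local field, unconditionally.

`O` a complete DVR with finite residue field, `K = Frac O` perfect, `Ω/K` Galois and
algebraically closed.
* `baseChangeStatement O` (helper1's `UnramBC`), hence
* `localCFInput O : LocalCFInput K Ω` (field-level input), `localFormation O`
  (`CFAbs.Formation (krullLevel K Ω) (unitsRep K Ω)`), with `inv : H²(Gal(Ω/K), Ωˣ) → ℝ/ℤ`;
* `localBCInput O E₀ : LocalBCInput E₀ (localCFInput O) (localCFInput (integralClosure O E₀)) [E₀:K]`
  and `inv_bcMap_localFormation` : `inv_{E₀} (res x) = [E₀ : K] • inv_K x`.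
(helper16)
-/
import Fermat.Agent.S55.Local.InvariantInst
import Fermat.Agent.S55.Local.UnramBC

set_option autoImplicit false
set_option linter.unusedSectionVars false
set_option linter.style.haveILetI false
set_option linter.overlappingInstances false

open CategoryTheory groupCohomology Rep IntermediateField IsLocalRing

namespace Fermat.Agent.S55.Local.LocalFormation

open Fermat.Agent.S55.Local Fermat.Agent.S55.Local.Unram Fermat.Agent.S55.Local.UnramClass
  Fermat.Agent.S55.Local.InvariantLevel Fermat.Agent.S55.Local.Invariant
  Fermat.Agent.S55.Local.InvariantInst Fermat.Agent.S55.Local.InvariantBC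
  Fermat.Agent.S55.GaloisLevel Fermat.Agent.S55.CFAbs Fermat.Agent.S55.Level

variable (O : Type) [CommRing O] [IsDomain O] [IsDiscreteValuationRing O]
  [IsAdicComplete (maximalIdeal O) O] [Finite (ResidueField O)]
  {K : Type} [Field K] [Algebra O K] [IsFractionRing O K] [PerfectField K]
  {Ω : Type} [Field Ω] [Algebra K Ω] [Algebra O Ω] [IsScalarTower O K Ω]

/-- **Base change of unramified extensions** (helper1's `UnramBC`), in the form consumed by
`InvariantInst`. -/
theorem baseChangeStatement : BaseChangeStatement O (K := K) (Ω := Ω) := by
  intro E₀ _ L h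
  refine ⟨h.extendScalars_sup, fun M' h' hLM' x => ?_⟩
  exact h.frob_baseChange h' hLM' (fDeg O E₀) (card_residueField_int O E₀) x

variable [IsGalois K Ω] [IsAlgClosed Ω]

/-- **The field-level input of the local class formation of a local field.** -/
noncomputable def localCFInput : LocalCFInput K Ω :=
  localCFInputOfBaseChange O (baseChangeStatement O)

theorem localCFInput_Fn (n : ℕ) :
    (localCFInput O (K := K) (Ω := Ω)).Fn n = unramExt O Ω n := rfl

theorem localCFInput_invF (n : ℕ) [NeZero n] :
    (localCFInput O (K := K) (Ω := Ω)).invF n = invF O n := rfl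

/-- **The local class formation of a local field**: `(Gal(Ω/K), Ωˣ)` with the Krull level
structure. -/
noncomputable def localFormation : Formation (krullLevel K Ω) (unitsRep K Ω) :=
  formation (localCFInput O)

section BaseChange

variable (E₀ : IntermediateField K Ω) [FiniteDimensional K E₀]

/-- **Base change input**: the local class formations of `K` and of a finite subextension `E₀`
are related by `inv_{E₀} ∘ res = [E₀ : K] • inv_K` (field-level form). -/
theorem localBCInput :
    LocalBCInput E₀ (localCFInput O) (localCFInput (integralClosure O E₀))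
      (Module.finrank K E₀) :=
  localBCInputOfBaseChange O (baseChangeStatement O) E₀ (baseChangeStatement (integralClosure O E₀))

/-- **`inv_{E₀} (res x) = [E₀ : K] • inv_K x`** on `H²(Gal(Ω/K), Ωˣ)` (level cohomology). -/
theorem inv_bcMap_localFormation
    (x : levelCohomology (krullLevel K Ω) (unitsRep K Ω) 2) :
    (localFormation (integralClosure O E₀)).inv ((bcMap K E₀ Ω 2).hom x) =
      Module.finrank K E₀ • (localFormation O).inv x :=
  inv_bcMap (localBCInput O E₀) x

include O in
/-- Restriction `Br(K) → Br(E₀)` is surjective. -/
theorem bcMap_surjective (z : levelCohomology (krullLevel E₀ Ω) (unitsRep E₀ Ω) 2) :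
    ∃ x : levelCohomology (krullLevel K Ω) (unitsRep K Ω) 2, (bcMap K E₀ Ω 2).hom x = z :=
  res_surjective (localBCInput O E₀) Module.finrank_pos.ne' z

end BaseChange

end Fermat.Agent.S55.Local.LocalFormation
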