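/-
S55 / LOC5, closing line: the input `PadicInput q` of helper26's `Local/PadicFormation.lean`
(killing hypotheses over `ℚ_q` and its finite extensions + base change), UNCONDITIONALLY, from
`LocalFormation.baseChangeStatement` (helper1's `UnramBC`).  Hence the local class formations
`formationQ (padicInput q)`, `formationAt (padicInput q) E` and their base change formula hold
without hypotheses.
(helper16)
-/
import Fermat.Agent.S55.Local.PadicFormation
import Fermat.Agent.S55.Local.LocalFormation

set_option autoImplicit false

namespace Fermat.Agent.S55.Local.PadicInputInst

open Fermat.Agent.S55.Local.PadicFormation Fermat.Agent.S55.Local.LocalFormation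

/-- **LOC5 for `ℚ_q`, unconditionally.** -/
theorem padicInput (q : ℕ) [Fact q.Prime] : PadicInput q :=
  padicInput_of_baseChange q (baseChangeStatement ℤ_[q])
    (fun E _ => baseChangeStatement (integralClosure ℤ_[q] E))

/-- The family version, indexed by `Nat.Primes` (the form consumed by the top assembly). -/
theorem padicInputPrimes (q : Nat.Primes) :
    haveI : Fact (q : ℕ).Prime := ⟨q.2⟩
    PadicInput (q : ℕ) :=
  haveI : Fact (q : ℕ).Prime := ⟨q.2⟩
  padicInput (q : ℕ)

end Fermat.Agent.S55.Local.PadicInputInst
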