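/-
S55 / LOC7 (d): instantiation of the norm index hypothesis `NormIndex` of `Local/Hilbert.lean` for
helper27's model `(Gal(Ω/K), krullLevel K Ω, unitsRep K Ω)` of Galois cohomology.

* `normIndex_krull`: `NormIndex (krullLevel K Ω) (unitsRep K Ω) p` from: for every cyclic
  subextension `E/K` of degree `p` inside `Ω`, the norm `Eˣ → Kˣ` is not surjective.
  (`E` = fixed field of `ker χ`; `IsNormFrom χ σ a` means `a ∈ N(Eˣ)` because
  `N_{E/K} = ∏_{i<p} σ^i`.)
* `normIndex_of_isLocalField`: the hypothesis holds for a local field `K` (helper8's LO3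
  `exists_not_mem_range_norm`, in helper16's `IsLocalField` typing);
  `normIndex_of_finite_padic`: for finite extensions of `ℚ_[q]`.
-/
import Mathlib
import Fermat.Agent.S55.Local.Hilbert
import Fermat.Agent.S55.GaloisLevel
import Fermat.Agent.S55.Local.NormUnram
import Fermat.Agent.S55.Local.LocalField

set_option autoImplicit false
set_option linter.unusedSectionVars false

namespace Fermat.Agent.S55.Local.Hilbert

open groupCohomology Fermat.Agent.S55.Level Fermat.Agent.S55.GaloisLevel IntermediateField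

section Generic

variable (K Ω : Type) [Field K] [Field Ω] [Algebra K Ω] [IsGalois K Ω] (p : ℕ) [Fact p.Prime]

variable {K Ω p}

/-- The underlying element of `Ω` of a vector of `unitsRep K Ω`. -/
def uval (a : unitsRep K Ω) : Ω := ((Additive.toMul (a : Additive Ωˣ) : Ωˣ) : Ω)

theorem uval_ρ (g : Gal(Ω/K)) (a : unitsRep K Ω) : uval ((unitsRep K Ω).ρ g a) = g (uval a) := rfl

theorem uval_add (a b : unitsRep K Ω) : uval (a + b) = uval a * uval b := by
  cases a; cases b; rfl

theorem uval_zero : uval (0 : unitsRep K Ω) = 1 := rfl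

theorem uval_injective : Function.Injective (uval : unitsRep K Ω → Ω) := fun _ _ h =>
  Units.ext h

theorem uval_sum_ρ_pow (σ : Gal(Ω/K)) (b : unitsRep K Ω) (n : ℕ) :
    uval (∑ i ∈ Finset.range n, (unitsRep K Ω).ρ (σ ^ i) b) =
      ∏ i ∈ Finset.range n, (σ ^ i) (uval b) := by
  induction n with
  | zero => simp [uval_zero]
  | succ n ih =>
    rw [Finset.sum_range_succ, Finset.prod_range_succ, uval_add, ih, uval_ρ]

/-- **The norm index hypothesis for `Gal(Ω/K)` acting on `Ωˣ`**, from the non-surjectivity of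
the norm for the cyclic subextensions of degree `p`. -/
theorem normIndex_krull
    (hcyc : ∀ (E : IntermediateField K Ω) [FiniteDimensional K E] [IsGalois K E]
      [IsCyclic (E ≃ₐ[K] E)], Module.finrank K E = p →
      ∃ x : Kˣ, x ∉ (Units.map (Algebra.norm K : E →* K)).range) :
    NormIndex (krullLevel K Ω) (unitsRep K Ω) p := by
  intro χ σ hχ hσ
  have hp : p.Prime := Fact.out
  have : NeZero p := ⟨hp.ne_zero⟩
  have hNn : χ.ker.Normal := MonoidHom.normal_ker χ
  have hNo : IsKrullOpen K Ω χ.ker := by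
    obtain ⟨U, hU, hUN⟩ := hχ
    obtain ⟨E₀, hE₀, hE₀U⟩ := hU.2
    exact ⟨E₀, hE₀, hE₀U.trans hUN⟩
  have hEfd : FiniteDimensional K (fixedField χ.ker) := hNo.finiteDimensional
  have hEgal : IsGalois K (fixedField χ.ker) := hNo.isGalois
  have hEfix : (fixedField χ.ker).fixingSubgroup = χ.ker := hNo.fixingSubgroup_fixedField
  have hker : ∀ g : Gal(Ω/K), AlgEquiv.restrictNormalHom (fixedField χ.ker) g = 1 ↔ χ g = 1 := by
    intro g
    rw [← MonoidHom.mem_ker, IntermediateField.restrictNormalHom_ker, hEfix, MonoidHom.mem_ker]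
  have hχpow : ∀ i : ℕ, χ (σ ^ i) = Multiplicative.ofAdd (i : ZMod p) := by
    intro i
    rw [map_pow, hσ, ← ofAdd_nsmul, nsmul_eq_mul, mul_one]
  -- `τ := σ|_E` has order `p` and generates `Gal(E/K)`
  have hτp : (AlgEquiv.restrictNormalHom (fixedField χ.ker) σ) ^ p = 1 := by
    rw [← map_pow, hker, hχpow, ZMod.natCast_self]; rfl
  have hτ1 : AlgEquiv.restrictNormalHom (fixedField χ.ker) σ ≠ 1 := by
    rw [Ne, hker, hσ]
    intro h
    have h2 : (1 : ZMod p) = 0 := Multiplicative.ofAdd.injective h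
    have : Fact (1 < p) := ⟨hp.one_lt⟩
    exact one_ne_zero h2
  have hord : orderOf (AlgEquiv.restrictNormalHom (fixedField χ.ker) σ) = p :=
    orderOf_eq_prime hτp hτ1
  have hgen : ∀ τ' : (fixedField χ.ker) ≃ₐ[K] (fixedField χ.ker),
      ∃ i < p, (AlgEquiv.restrictNormalHom (fixedField χ.ker) σ) ^ i = τ' := by
    intro τ'
    obtain ⟨g, rfl⟩ := AlgEquiv.restrictNormalHom_surjective Ω τ'
    refine ⟨((χ g).toAdd : ZMod p).val, ZMod.val_lt _, ?_⟩
    have h1 : AlgEquiv.restrictNormalHom (fixedField χ.ker)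
        ((σ ^ ((χ g).toAdd : ZMod p).val)⁻¹ * g) = 1 := by
      rw [hker, map_mul, map_inv, hχpow, ZMod.natCast_zmod_val, ofAdd_toAdd, inv_mul_cancel]
    rw [map_mul, map_inv, map_pow, inv_mul_eq_one] at h1
    exact h1
  have hcycE : IsCyclic ((fixedField χ.ker) ≃ₐ[K] (fixedField χ.ker)) :=
    ⟨⟨AlgEquiv.restrictNormalHom (fixedField χ.ker) σ, fun τ' => by
      obtain ⟨i, -, rfl⟩ := hgen τ'
      exact ⟨i, by simp⟩⟩⟩
  have hcard : Module.finrank K (fixedField χ.ker) = p := by
    refine (IsGalois.card_aut_eq_finrank K (fixedField χ.ker)).symm.trans (Eq.trans ?_ hord)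
    exact (orderOf_eq_card_of_forall_mem_zpowers fun τ' => by
      obtain ⟨i, -, rfl⟩ := hgen τ'
      exact ⟨i, by simp⟩).symm
  obtain ⟨x, hx⟩ := hcyc (fixedField χ.ker) hcard
  refine ⟨Additive.ofMul (Units.map (algebraMap K Ω : K →* Ω) x), fun g => ?_, ?_⟩
  · apply uval_injective
    exact g.commutes x
  · rintro ⟨b, hbfix, hbsum⟩
    apply hx
    -- `b ∈ E`
    have hbE : uval b ∈ fixedField χ.ker := by
      rw [IntermediateField.mem_fixedField_iff]
      intro g hg
      have := congrArg uval (hbfix g hg)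
      rwa [uval_ρ] at this
    have hb0 : (⟨uval b, hbE⟩ : fixedField χ.ker) ≠ 0 := by
      intro h0
      have h1 : uval b = 0 := congrArg Subtype.val h0
      exact (Additive.toMul (b : Additive Ωˣ)).ne_zero h1
    refine ⟨Units.mk0 ⟨uval b, hbE⟩ hb0, Units.ext ?_⟩
    show Algebra.norm K (⟨uval b, hbE⟩ : fixedField χ.ker) = (x : K)
    apply FaithfulSMul.algebraMap_injective K Ω
    have h1 : algebraMap K Ω (Algebra.norm K (⟨uval b, hbE⟩ : fixedField χ.ker)) =
        algebraMap (fixedField χ.ker) Ω (algebraMap K (fixedField χ.ker)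
          (Algebra.norm K (⟨uval b, hbE⟩ : fixedField χ.ker))) := rfl
    rw [h1, Algebra.norm_eq_prod_automorphisms, map_prod]
    have h2 : ∏ i ∈ Finset.range p, (σ ^ i) (uval b) =
        ∏ τ' : (fixedField χ.ker) ≃ₐ[K] (fixedField χ.ker),
          algebraMap (fixedField χ.ker) Ω (τ' ⟨uval b, hbE⟩) := by
      refine Finset.prod_nbij (fun i => (AlgEquiv.restrictNormalHom (fixedField χ.ker) σ) ^ i)
        (fun _ _ => Finset.mem_univ _) ?_ ?_ ?_
      · intro i hi j hj hij
        have hi' : i < orderOf (AlgEquiv.restrictNormalHom (fixedField χ.ker) σ) := by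
          rw [hord]; exact Finset.mem_range.1 hi
        have hj' : j < orderOf (AlgEquiv.restrictNormalHom (fixedField χ.ker) σ) := by
          rw [hord]; exact Finset.mem_range.1 hj
        exact pow_injOn_Iio_orderOf hi' hj' hij
      · intro τ' _
        obtain ⟨i, hi, rfl⟩ := hgen τ'
        exact ⟨i, Finset.mem_coe.2 (Finset.mem_range.2 hi), rfl⟩
      · intro i _
        rw [← map_pow]
        exact (AlgEquiv.restrictNormalHom_apply (fixedField χ.ker) (σ ^ i)
          ⟨uval b, hbE⟩).symm
    rw [← h2, ← uval_sum_ρ_pow, hbsum]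
    rfl

end Generic

section LocalField

open Fermat.Agent.S55.Local.LocalField IsLocalRing

/-- **The norm index hypothesis (NI) for a local field** `K` and any Galois extension `Ω/K`
(helper8's LO3: the norm of a cyclic extension of degree `p` is not surjective). -/
theorem normIndex_of_isLocalField (K Ω : Type) [Field K] [Field Ω] [Algebra K Ω] [IsGalois K Ω]
    (hK : IsLocalField K) (p : ℕ) [Fact p.Prime] :
    NormIndex (krullLevel K Ω) (unitsRep K Ω) p := by
  apply normIndex_krull
  intro E _ _ _ hE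
  obtain ⟨O, _, _, _, _, hfr, hcomp, hfin⟩ := hK
  let _ : Algebra O E := ((algebraMap K E).comp (algebraMap O K)).toAlgebra
  have : IsScalarTower O K E := IsScalarTower.of_algebraMap_eq (fun x => rfl)
  exact Fermat.Agent.S55.Local.exists_not_mem_range_norm O K E (integralClosure O E)
    (by rw [hE]; exact (Fact.out : p.Prime).one_lt)

/-- `ℚ_[q]` is a local field. -/
theorem isLocalField_padic (q : ℕ) [Fact q.Prime] : IsLocalField ℚ_[q] := by
  have : Finite (ResidueField ℤ_[q]) :=
    Finite.of_equiv (ZMod q) (PadicInt.residueField (p := q)).symm.toEquiv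
  exact isLocalField_of_dvr ℤ_[q] ℚ_[q]

/-- A finite extension of `ℚ_[q]` is a local field. -/
theorem isLocalField_of_finite_padic (q : ℕ) [Fact q.Prime] (F : Type) [Field F] [Algebra ℚ_[q] F]
    [FiniteDimensional ℚ_[q] F] : IsLocalField F :=
  (isLocalField_padic q).of_finite

/-- (NI) for a finite extension `F` of `ℚ_[q]` and any Galois extension `Ω/F`. -/
theorem normIndex_of_finite_padic (q : ℕ) [Fact q.Prime] (F Ω : Type) [Field F] [Field Ω]
    [Algebra ℚ_[q] F] [FiniteDimensional ℚ_[q] F] [Algebra F Ω] [IsGalois F Ω] (p : ℕ)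
    [Fact p.Prime] : NormIndex (krullLevel F Ω) (unitsRep F Ω) p :=
  normIndex_of_isLocalField F Ω (isLocalField_of_finite_padic q F) p

end LocalField
end Fermat.Agent.S55.Local.Hilbert
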