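/-
S55 / LOC5: base change for the local invariant, `inv_E ∘ res = [E:F] • inv_F`, in level form,
from field-level input.
-/
import Fermat.Agent.S55.Local.InvariantLevel
import Fermat.Agent.S55.GaloisLayerBC
import Fermat.Agent.S55.GaloisLevelBC

set_option autoImplicit false
set_option linter.unusedSectionVars false
set_option linter.style.haveILetI false

open CategoryTheory groupCohomology Rep IntermediateField

namespace Fermat.Agent.S55.Local.InvariantBC

open Fermat.Agent.S55.Level Fermat.Agent.S55.LevelLayer Fermat.Agent.S55.GC.InfRes2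
  Fermat.Agent.S55.CFAbs Fermat.Agent.S55.GaloisLevel Fermat.Agent.S55.GC.GaloisLayerInf
  Fermat.Agent.S55.GaloisLayerBC Fermat.Agent.S55.Local.InvariantLevel

variable {F Ω : Type} [Field F] [Field Ω] [Algebra F Ω] [IsGalois F Ω]

/-- The invariant of the distinguished layers of the local formation, in field terms. -/
theorem formation_invD_apply (I : LocalCFInput F Ω) (n : ℕ) [NeZero n]
    (y : groupCohomology ((unitsRep F Ω).quotientToInvariants (W I n)) 2) :
    (formation I).invD n y =
      ZMod.toAddCircle (I.invF n ((unitsLayerIsoF F Ω (I.Fn n) 2).hom.hom y)) := by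
  unfold formation
  rw [Formation.ofZMod_invD_apply]
  rfl

variable (E : IntermediateField F Ω) (IF : LocalCFInput F Ω) (IE : LocalCFInput E Ω) (d : ℕ)

/-- **Field-level input for base change**: every distinguished extension `Fn n` of `F` lies in a
distinguished extension `Fn m` of `E`, and the invariants are multiplied by `d` (`= [E:F]`). -/
structure LocalBCInput : Prop where
  bc : ∀ (n : ℕ) [NeZero n], ∃ (m : ℕ) (_ : NeZero m)
    (h : ∀ x : Ω, x ∈ IF.Fn n → x ∈ IE.Fn m),
    ∀ z : groupCohomology (Rep.ofAlgebraAutOnUnits F (IF.Fn n)) 2,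
      ZMod.toAddCircle (IE.invF m ((groupCohomology.map (galBC h) (unitsInclBC h) 2).hom z)) =
        d • ZMod.toAddCircle (IF.invF n z)

variable {E IF IE d}

/-- **`inv_E (res x) = [E:F] • inv_F x`** on `H²(Gal(Ω/F), Ωˣ)` (level cohomology). -/
theorem inv_res [FiniteDimensional F E] (B : LocalBCInput E IF IE d)
    (x : levelCohomology (krullLevel F Ω) (unitsRep F Ω) 2) :
    (formation IE).inv ((levelCohomologyMap (resScal F Ω E) (refines_resScal F Ω E)
        (unitsBC F Ω E) 2).hom x) = d • (formation IF).inv x := by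
  refine inv_levelCohomologyMap (formation IF) (formation IE) (resScal F Ω E)
    (refines_resScal F Ω E) (unitsBC F Ω E) d ?_ x
  intro n hn
  haveI : NeZero n := ⟨hn⟩
  obtain ⟨m, hm, h, hz⟩ := B.bc n
  refine ⟨m, NeZero.ne m, fixingSubgroup_le_comap h, fun y => ?_⟩
  have h1 := layerBC_unitsLayerIsoF h 2
  have h1' : (unitsLayerIsoF E Ω (IE.Fn m) 2).hom.hom
      ((layerBC (resScal F Ω E) (unitsBC F Ω E) (fixingSubgroup_le_comap h) 2).hom y) =
      (groupCohomology.map (galBC h) (unitsInclBC h) 2).hom
        ((unitsLayerIsoF F Ω (IF.Fn n) 2).hom.hom y) :=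
    congrArg (fun ψ => ψ.hom y) h1
  have h2 := formation_invD_apply IE m
    ((layerBC (resScal F Ω E) (unitsBC F Ω E) (fixingSubgroup_le_comap h) 2).hom y)
  have h3 := formation_invD_apply IF n y
  refine h2.trans ?_
  rw [h1', hz, ← h3]

/-- Restriction `H²(Gal(Ω/F), Ωˣ) → H²(Gal(Ω/E), Ωˣ)` is surjective. -/
theorem res_surjective [FiniteDimensional F E] (B : LocalBCInput E IF IE d) (hd : d ≠ 0)
    (z : levelCohomology (krullLevel E Ω) (unitsRep E Ω) 2) :
    ∃ x : levelCohomology (krullLevel F Ω) (unitsRep F Ω) 2,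
      (levelCohomologyMap (resScal F Ω E) (refines_resScal F Ω E) (unitsBC F Ω E) 2).hom x = z :=
  levelCohomologyMap_surjective (formation IF) (formation IE) (resScal F Ω E)
    (refines_resScal F Ω E) (unitsBC F Ω E) d hd (inv_res B) z

/-- `inv_res` for helper27's `bcMap`. -/
theorem inv_bcMap [FiniteDimensional F E] (B : LocalBCInput E IF IE d)
    (x : levelCohomology (krullLevel F Ω) (unitsRep F Ω) 2) :
    (formation IE).inv ((bcMap F E Ω 2).hom x) = d • (formation IF).inv x :=
  inv_res B x

end Fermat.Agent.S55.Local.InvariantBC
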