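/-
S55 / LOC5: the field-level base change input `LocalBCInput` for a finite subextension `E₀/K` of a
local field, from the base change properties of unramified extensions.

* `exists_Fn_bc` (abstract two-base setting `(O, K)`, `(O', K')` inside `Ω`, on helper16's
  `InvariantBase.invUnr_bc`): the unramified extension of degree `n` of `K` lies in the unramified
  extension of degree `m` of `K'` and the invariants are multiplied by `e * r`.
* `localBCInputOfKill_of`: `LocalBCInput E₀ (localCFInputOfKill O _) (localCFInputOfKill O_{E₀} _)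
  [E₀:K]` from (BC-a) "unramified extensions stay unramified after base change" and (BC-b)
  "Frobenius restricts to the `r`-th power of Frobenius", `e * r = [E₀:K]`.
(helper26)
-/
import Fermat.Agent.S55.Local.InvariantBase
import Fermat.Agent.S55.Local.InvariantBC

set_option autoImplicit false
set_option linter.unusedSectionVars false
set_option linter.style.haveILetI false
set_option linter.overlappingInstances false

open CategoryTheory groupCohomology Rep IntermediateField IsLocalRing

namespace Fermat.Agent.S55.Local.InvariantBCInst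

open Fermat.Agent.S55.Local Fermat.Agent.S55.Local.Unram Fermat.Agent.S55.Local.UnramClass
  Fermat.Agent.S55.Local.Invariant Fermat.Agent.S55.Local.InvariantBase

section Abstract

variable {O : Type} [CommRing O] [IsDomain O] [IsDiscreteValuationRing O]
  [IsAdicComplete (maximalIdeal O) O] [Finite (ResidueField O)]
  {K : Type} [Field K] [Algebra O K] [IsFractionRing O K] [PerfectField K]
  {Ω : Type} [Field Ω] [Algebra K Ω] [Algebra O Ω] [IsScalarTower O K Ω]
  {O' : Type} [CommRing O'] [IsDomain O'] [IsDiscreteValuationRing O']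
  [IsAdicComplete (maximalIdeal O') O'] [Finite (ResidueField O')]
  {K' : Type} [Field K'] [Algebra O' K'] [IsFractionRing O' K'] [PerfectField K']
  [Algebra K' Ω] [Algebra O' Ω] [IsScalarTower O' K' Ω]
  [Algebra K K'] [IsScalarTower K K' Ω] [IsAlgClosed Ω]

/-- **Base change of the distinguished (unramified) layers**, abstract two-base form: the
unramified extension of degree `n` of `K` lies in the unramified extension of degree `m` of `K'`
(`m` the degree of the compositum), and the invariants are multiplied by `e * r`. -/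
theorem exists_Fn_bc (e r : ℕ)
    (he : ∀ z : Kˣ, valZ O' K' (Units.map (algebraMap K K' : K →* K') z) = valZ O K z ^ e)
    (hint : ∀ c : Ω, IsIntegral O c → IsIntegral O' c)
    (hbc : ∀ L : IntermediateField K Ω, IsUnramifiedIn O L →
      ∃ M' : IntermediateField K' Ω, IsUnramifiedIn O' M' ∧ ∀ x : Ω, x ∈ L → x ∈ M')
    (hfrob : ∀ (L : IntermediateField K Ω) (h : IsUnramifiedIn O L)
      (M' : IntermediateField K' Ω) (h' : IsUnramifiedIn O' M')
      (hLM' : ∀ x : Ω, x ∈ L → x ∈ M') (x : L),
      ((h'.frob ⟨(x : Ω), hLM' _ x.2⟩ : M') : Ω) = (((h.frob ^ r) x : L) : Ω))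
    (n : ℕ) [NeZero n] :
    ∃ (m : ℕ) (_ : NeZero m)
      (hLM' : ∀ x : Ω, x ∈ (Fn O n : IntermediateField K Ω) →
        x ∈ (Fn O' m : IntermediateField K' Ω)),
      ∀ (f : ((Fn O' m : IntermediateField K' Ω) ≃ₐ[K'] (Fn O' m : IntermediateField K' Ω)) →*
          ((Fn O n : IntermediateField K Ω) ≃ₐ[K] (Fn O n : IntermediateField K Ω)))
        (_ : ∀ (τ : (Fn O' m : IntermediateField K' Ω) ≃ₐ[K'] (Fn O' m : IntermediateField K' Ω))
          (y : (Fn O n : IntermediateField K Ω)),
          ((f τ y : (Fn O n : IntermediateField K Ω)) : Ω) =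
            ((τ ⟨(y : Ω), hLM' _ y.2⟩ : (Fn O' m : IntermediateField K' Ω)) : Ω))
        (ι : Rep.res f (Rep.ofAlgebraAutOnUnits K (Fn O n : IntermediateField K Ω)) ⟶
          Rep.ofAlgebraAutOnUnits K' (Fn O' m : IntermediateField K' Ω))
        (_ : ∀ x : (Rep.ofAlgebraAutOnUnits K (Fn O n : IntermediateField K Ω)).V,
          (((Additive.toMul (ι.hom x : Additive (Fn O' m : IntermediateField K' Ω)ˣ) :
            (Fn O' m : IntermediateField K' Ω)ˣ) : (Fn O' m : IntermediateField K' Ω)) : Ω) =
          (((Additive.toMul (x : Additive (Fn O n : IntermediateField K Ω)ˣ) :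
            (Fn O n : IntermediateField K Ω)ˣ) : (Fn O n : IntermediateField K Ω)) : Ω))
        (z : groupCohomology (Rep.ofAlgebraAutOnUnits K (Fn O n : IntermediateField K Ω)) 2),
        ZMod.toAddCircle (invF O' m ((groupCohomology.map f ι 2).hom z)) =
          (e * r) • ZMod.toAddCircle (invF O n z) := by
  have hn : n ≠ 0 := NeZero.ne n
  have hL := isUnramifiedIn_Fn O (K := K) (Ω := Ω) hn
  obtain ⟨M₀, hM, hLM₀⟩ := hbc _ hL
  haveI := hM.1
  set m := Module.finrank K' M₀ with hm
  have hm0 : m ≠ 0 := Module.finrank_pos.ne'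
  haveI : NeZero m := ⟨hm0⟩
  have heq : M₀ = Fn O' m := hM.eq_unramExt O' Ω
  have hLM' : ∀ x : Ω, x ∈ (Fn O n : IntermediateField K Ω) →
      x ∈ (Fn O' m : IntermediateField K' Ω) := by
    intro x hx
    rw [← heq]
    exact hLM₀ x hx
  refine ⟨m, ⟨hm0⟩, hLM', fun f hf ι hι z => ?_⟩
  exact invUnr_bc hL (isUnramifiedIn_Fn O' hm0) hLM' (finrank_Fn O hn) (finrank_Fn O' hm0) f hf ι hι
    e r he hint (hfrob _ hL _ (isUnramifiedIn_Fn O' hm0) hLM') z

end Abstract

end Fermat.Agent.S55.Local.InvariantBCInst

namespace Fermat.Agent.S55.Local.InvariantBCInst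

open Fermat.Agent.S55.Local Fermat.Agent.S55.Local.Unram Fermat.Agent.S55.Local.UnramClass
  Fermat.Agent.S55.Local.Invariant Fermat.Agent.S55.Local.InvariantBase
  Fermat.Agent.S55.Local.InvariantBC Fermat.Agent.S55.Local.InvariantLevel
  Fermat.Agent.S55.GaloisLayerBC

section Inst

variable (O : Type) [CommRing O] [IsDomain O] [IsDiscreteValuationRing O]
  [IsAdicComplete (maximalIdeal O) O] [Finite (ResidueField O)]
  {K : Type} [Field K] [Algebra O K] [IsFractionRing O K] [PerfectField K]
  {Ω : Type} [Field Ω] [Algebra K Ω] [Algebra O Ω] [IsScalarTower O K Ω] [IsAlgClosed Ω]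
  [IsGalois K Ω]
  (E₀ : IntermediateField K Ω) [FiniteDimensional K E₀]
  [IsDiscreteValuationRing (integralClosure O E₀)]
  [IsAdicComplete (maximalIdeal (integralClosure O E₀)) (integralClosure O E₀)]
  [Finite (ResidueField (integralClosure O E₀))] [PerfectField E₀]

/-- `LocalBCInput` for `E₀/K` from the base-change properties of unramified extensions. -/
theorem localBCInputOfKill_of (hkill : KillStatement O (K := K) (Ω := Ω))
    (hkill' : KillStatement (integralClosure O E₀) (K := E₀) (Ω := Ω)) (e r : ℕ)
    (he : ∀ z : Kˣ, valZ (integralClosure O E₀) E₀ (Units.map (algebraMap K E₀ : K →* E₀) z) =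
      valZ O K z ^ e)
    (hbc : ∀ L : IntermediateField K Ω, IsUnramifiedIn O L →
      ∃ M' : IntermediateField E₀ Ω, IsUnramifiedIn (integralClosure O E₀) M' ∧
        ∀ x : Ω, x ∈ L → x ∈ M')
    (hfrob : ∀ (L : IntermediateField K Ω) (h : IsUnramifiedIn O L)
      (M' : IntermediateField E₀ Ω) (h' : IsUnramifiedIn (integralClosure O E₀) M')
      (hLM' : ∀ x : Ω, x ∈ L → x ∈ M') (x : L),
      ((h'.frob ⟨(x : Ω), hLM' _ x.2⟩ : M') : Ω) = (((h.frob ^ r) x : L) : Ω))
    (her : e * r = Module.finrank K E₀) :
    LocalBCInput E₀ (localCFInputOfKill O hkill)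
      (localCFInputOfKill (integralClosure O E₀) hkill') (Module.finrank K E₀) where
  bc n _ := by
    obtain ⟨m, hm, hLM', H⟩ := exists_Fn_bc (O := O) (K := K) (Ω := Ω)
      (O' := integralClosure O E₀) (K' := E₀) e r he
      (fun c hc => hc.tower_top) hbc hfrob n
    refine ⟨m, hm, hLM', fun z => ?_⟩
    rw [← her]
    exact H (galBC hLM') (coe_galBC hLM') (unitsInclBC hLM') (unitsInclBC_coe hLM') z

end Inst

end Fermat.Agent.S55.Local.InvariantBCInst
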