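/-
S55 / local glue (G5): the per-place package `LocalBaseHyp₁` for the local invariant
`LocalInv.invPrime`, from the output of local class field theory (LOC5) alone.

Combines helper22's `Local.BasePackage.localBaseHyp₁_prime / _localData` (which take the `τ`-part
`TraceHyp` as a hypothesis) with `LocalInvCores.exists_tau_prime` (which proves it from class
formations over the finite Galois extensions of `ℚ_q` and the base change formula).
(helper27)
-/
import Fermat.Agent.S55.Local.LocalBasePackage
import Fermat.Agent.S55.Local.LocalInvCores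

set_option autoImplicit false
set_option linter.unusedSectionVars false

open CategoryTheory

namespace Fermat.Agent.S55.Local.LocalTraceHyp

open Fermat.Agent.S55.Level Fermat.Agent.S55.GaloisLevel Fermat.Agent.S55.CFAbs
  Fermat.Agent.S55.LevelDuality Fermat.Agent.S55.DualTwist IntermediateField groupCohomology
  ExtCitation Fermat.Agent.S55.Local.LocalInv Fermat.Agent.S55.Local.LocalInvCores
  Fermat.Agent.S55.Local.BasePackage Fermat.Agent.S55.Assembly Fermat.Agent.S55.Cone

/-- **The output of local class field theory over `ℚ_q` consumed by the local duality package**: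
class formations over `ℚ_q` and over all its finite Galois extensions inside `PadicAlgCl q`, with
the base change formula `inv_E ∘ res = [E:ℚ_q] • inv_{ℚ_q}`. -/
structure LocalCFT (q : ℕ) [Fact q.Prime] where
  /-- the class formation of `ℚ_q` -/
  FG : Formation (krullLevel ℚ_[q] (PadicAlgCl q)) (unitsRep ℚ_[q] (PadicAlgCl q))
  /-- the class formations of the finite Galois extensions of `ℚ_q` -/
  FE : ∀ E : IntermediateField ℚ_[q] (PadicAlgCl q), FiniteDimensional ℚ_[q] E →
    IsGalois ℚ_[q] E → Formation (krullLevel E (PadicAlgCl q)) (unitsRep E (PadicAlgCl q))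
  /-- base change of the invariant -/
  hBC : ∀ (E : IntermediateField ℚ_[q] (PadicAlgCl q)) (hfd : FiniteDimensional ℚ_[q] E)
    (hgal : IsGalois ℚ_[q] E)
    (x : levelCohomology (krullLevel ℚ_[q] (PadicAlgCl q)) (unitsRep ℚ_[q] (PadicAlgCl q)) 2),
    (FE E hfd hgal).inv ((bcMap ℚ_[q] E (PadicAlgCl q) 2).hom x) =
      Module.finrank ℚ_[q] E • FG.inv x

section Primes

variable {p : ℕ} [Fact p.Prime] (q : Nat.Primes)

local instance factPrime_LTH : Fact (q : ℕ).Prime := ⟨q.2⟩

/-- The `τ`-part of `LocalBaseHyp₁` at `q` for ANY bijective linear form on `H²(ℚ_q, μ_p)`. -/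
theorem traceHyp_prime (C : LocalCFT (q : ℕ))
    [hd : IsDiscrete (localLevel (primeLocalToGlobal q))
      (ofChar (k := ZMod p) ((cycloChar p).comp (primeLocalToGlobal q)))]
    (t : levelCohomology (localLevel (primeLocalToGlobal q))
      (ofChar (k := ZMod p) ((cycloChar p).comp (primeLocalToGlobal q))) 2 →ₗ[ZMod p] ZMod p)
    (ht : Function.Bijective t) :
    TraceHyp (localLevel (primeLocalToGlobal q)) ((cycloChar p).comp (primeLocalToGlobal q)) t :=
  fun U hU _ _ _ _ => exists_tau_prime q C.FG t ht C.FE C.hBC U hU

/-- **`LocalBaseHyp₁` at `q`** for ANY bijective linear form on `H²(ℚ_q, μ_p)`, from LOC5. -/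
theorem localBaseHyp₁_of_localCFT (C : LocalCFT (q : ℕ))
    [hd : IsDiscrete (localLevel (primeLocalToGlobal q))
      (ofChar (k := ZMod p) ((cycloChar p).comp (primeLocalToGlobal q)))]
    (t : levelCohomology (localLevel (primeLocalToGlobal q))
      (ofChar (k := ZMod p) ((cycloChar p).comp (primeLocalToGlobal q))) 2 →ₗ[ZMod p] ZMod p)
    (ht : Function.Bijective t) :
    LocalBaseHyp₁ (localLevel (primeLocalToGlobal q))
      ((cycloChar p).comp (primeLocalToGlobal q)) t
      (restrictFamily (localLevel (primeLocalToGlobal q)))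
      (restrictFamily_refines (localLevel (primeLocalToGlobal q))) :=
  localBaseHyp₁_prime (hd := hd) q t (traceHyp_prime q C t ht)

variable (S : Finset Nat.Primes) [IsDiscrete (globalLevel S) (ofChar (k := ZMod p) (cycloChar p))]
  {ζ : AlgebraicClosure ℚ} (hζ : IsPrimitiveRoot ζ p)

/-- **The per-place package of S55 for the local invariants** `inv_q := invPrime q hζ (C q).FG`, in
the shape of the hypothesis `hloc` of `TraceGlue.result_of_inv`. -/
theorem localBaseHyp₁_invPrime (C : ∀ q : Nat.Primes, LocalCFT (q : ℕ)) (v : (localData S).ι) :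
    LocalBaseHyp₁ ((localData S).𝒱 v) ((cycloChar p).comp ((localData S).r v))
      (invPrime (hd := isDiscrete_ofChar_comp (localData S) (cycloChar p) v) v.1 hζ (C v.1).FG)
      (restrictFamily ((localData S).𝒱 v)) (restrictFamily_refines ((localData S).𝒱 v)) :=
  localBaseHyp₁_of_localCFT (hd := isDiscrete_ofChar_comp (localData S) (cycloChar p) v) v.1
    (C v.1) _ (invPrime_bijective (hd := isDiscrete_ofChar_comp (localData S) (cycloChar p) v)
      v.1 hζ (C v.1).FG)

end Primes

end Fermat.Agent.S55.Local.LocalTraceHyp
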